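import Mathlib

set_option autoImplicit false

open scoped MatrixGroups
open Matrix

namespace Fermat.Agent.S20.H78

section General

variable (R : Type*) [CommRing R]

/-- Unimodular column vectors of length two over `R`. -/
def Unimod : Type _ := {v : Fin 2 → R // IsCoprime (v 0) (v 1)}

variable {R}

namespace Unimod

theorem ext' {v w : Unimod R} (h0 : v.1 0 = w.1 0) (h1 : v.1 1 = w.1 1) : v = w := by
  apply Subtype.ext
  funext i
  fin_cases i
  · exact h0
  · exact h1

/-- Build a unimodular vector from two coprime entries. -/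
def mk' (a c : R) (h : IsCoprime a c) : Unimod R := ⟨![a, c], by simpa using h⟩

@[simp] theorem mk'_zero (a c : R) (h : IsCoprime a c) : (mk' a c h).1 0 = a := rfl
@[simp] theorem mk'_one (a c : R) (h : IsCoprime a c) : (mk' a c h).1 1 = c := rfl

instance : SMul Rˣ (Unimod R) where
  smul u v := ⟨fun i => (u : R) * v.1 i, by
    have h := v.2
    rw [isCoprime_mul_unit_left_left u.isUnit, isCoprime_mul_unit_left_right u.isUnit]
    exact h⟩

@[simp] theorem units_smul_apply (u : Rˣ) (v : Unimod R) (i : Fin 2) :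
    (u • v).1 i = (u : R) * v.1 i := rfl

instance : MulAction Rˣ (Unimod R) where
  one_smul v := by apply ext' <;> simp
  mul_smul u u' v := by apply ext' <;> simp [mul_assoc]

theorem sl_coprime (γ : SL(2, R)) (v : Unimod R) :
    IsCoprime ((γ.1.mulVec v.1) 0) ((γ.1.mulVec v.1) 1) := by
  obtain ⟨x, y, hxy⟩ := v.2
  have hdet : γ.1 0 0 * γ.1 1 1 - γ.1 0 1 * γ.1 1 0 = 1 := by
    have := γ.2
    rw [Matrix.det_fin_two] at this
    exact this
  refine ⟨x * γ.1 1 1 - y * γ.1 1 0, -x * γ.1 0 1 + y * γ.1 0 0, ?_⟩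
  simp only [Matrix.mulVec, dotProduct, Fin.sum_univ_two]
  linear_combination (x * v.1 0 + y * v.1 1) * hdet + hxy

instance : SMul (SL(2, R)) (Unimod R) where
  smul γ v := ⟨γ.1.mulVec v.1, sl_coprime γ v⟩

theorem sl_smul_val (γ : SL(2, R)) (v : Unimod R) : (γ • v).1 = γ.1.mulVec v.1 := rfl

@[simp] theorem sl_smul_zero (γ : SL(2, R)) (v : Unimod R) :
    (γ • v).1 0 = γ.1 0 0 * v.1 0 + γ.1 0 1 * v.1 1 := by
  simp [sl_smul_val, Matrix.mulVec, dotProduct, Fin.sum_univ_two]

@[simp] theorem sl_smul_one (γ : SL(2, R)) (v : Unimod R) :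
    (γ • v).1 1 = γ.1 1 0 * v.1 0 + γ.1 1 1 * v.1 1 := by
  simp [sl_smul_val, Matrix.mulVec, dotProduct, Fin.sum_univ_two]

instance : MulAction (SL(2, R)) (Unimod R) where
  one_smul v := by
    apply Subtype.ext
    simp [sl_smul_val]
  mul_smul γ γ' v := by
    apply ext'
    · simp only [sl_smul_zero, sl_smul_one, Matrix.SpecialLinearGroup.coe_mul, Matrix.mul_apply,
        Fin.sum_univ_two]
      ring
    · simp only [sl_smul_zero, sl_smul_one, Matrix.SpecialLinearGroup.coe_mul, Matrix.mul_apply,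
        Fin.sum_univ_two]
      ring

instance : SMulCommClass (SL(2, R)) Rˣ (Unimod R) where
  smul_comm γ u v := by
    apply ext' <;> simp <;> ring

end Unimod

variable (R)

/-- The equivalence relation "differ by a unit". -/
def unimodSetoid : Setoid (Unimod R) := MulAction.orbitRel Rˣ (Unimod R)

/-- The projective line over the commutative ring `R`. -/
def P1 : Type _ := Quotient (unimodSetoid R)

variable {R}

namespace P1

/-- The class of a unimodular vector. -/
def mk (v : Unimod R) : P1 R := Quotient.mk (unimodSetoid R) v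

theorem mk_surjective : Function.Surjective (mk : Unimod R → P1 R) := Quotient.mk_surjective

theorem mk_eq_mk {v w : Unimod R} : mk v = mk w ↔ ∃ u : Rˣ, u • w = v :=
  (Quotient.eq (r := unimodSetoid R) (x := v) (y := w)).trans Iff.rfl

theorem mk_units_smul (u : Rˣ) (v : Unimod R) : mk (u • v) = mk v :=
  mk_eq_mk.mpr ⟨u, rfl⟩

instance : SMul (SL(2, R)) (P1 R) where
  smul γ := Quotient.map' (fun v => γ • v) (by
    rintro v w ⟨u, rfl⟩
    exact ⟨u, (smul_comm γ u w).symm⟩)

@[simp] theorem smul_mk (γ : SL(2, R)) (v : Unimod R) : γ • mk v = mk (γ • v) := rfl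

instance : MulAction (SL(2, R)) (P1 R) where
  one_smul x := by
    obtain ⟨v, rfl⟩ := mk_surjective x
    simp
  mul_smul γ γ' x := by
    obtain ⟨v, rfl⟩ := mk_surjective x
    simp [mul_smul]

/-- The affine chart `x ↦ (x : 1)`. -/
def affine (x : R) : P1 R := mk (Unimod.mk' x 1 isCoprime_one_right)

theorem affine_injective : Function.Injective (affine : R → P1 R) := by
  intro x y h
  obtain ⟨u, hu⟩ := mk_eq_mk.mp h
  have h1 := congrArg (fun v : Unimod R => v.1 1) hu
  have h0 := congrArg (fun v : Unimod R => v.1 0) hu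
  simp only [Unimod.units_smul_apply, Unimod.mk'_one, Unimod.mk'_zero, mul_one] at h1 h0
  rw [h1, one_mul] at h0
  exact h0.symm

theorem mk_eq_affine_of_isUnit (v : Unimod R) (w : R) (hw : v.1 1 * w = 1) :
    mk v = affine (v.1 0 * w) := by
  have hu : IsUnit (v.1 1) := IsUnit.of_mul_eq_one _ hw
  refine mk_eq_mk.mpr ⟨hu.unit, ?_⟩
  apply Unimod.ext'
  · simp only [Unimod.units_smul_apply, Unimod.mk'_zero, IsUnit.unit_spec]
    calc v.1 1 * (v.1 0 * w) = v.1 0 * (v.1 1 * w) := by ring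
      _ = v.1 0 := by rw [hw, mul_one]
  · simp

/-- Fixed points of an element of `SL(2, R)` shaped like `S = !![0, -1; 1, 0]`. -/
theorem fixedBy_S_iff (γ : SL(2, R)) (h00 : γ.1 0 0 = 0) (h01 : γ.1 0 1 = -1)
    (h10 : γ.1 1 0 = 1) (h11 : γ.1 1 1 = 0) (p : P1 R) :
    γ • p = p ↔ ∃ x : R, x ^ 2 + 1 = 0 ∧ p = affine x := by
  constructor
  · intro hp
    obtain ⟨v, rfl⟩ := mk_surjective p
    rw [smul_mk] at hp
    obtain ⟨u, hu⟩ := mk_eq_mk.mp hp
    have h0 := congrArg (fun v : Unimod R => v.1 0) hu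
    have h1 := congrArg (fun v : Unimod R => v.1 1) hu
    simp only [Unimod.units_smul_apply, Unimod.sl_smul_zero, Unimod.sl_smul_one, h00, h01, h10,
      h11] at h0 h1
    -- h0 : u * a = -c ; h1 : u * c = a
    have ha : v.1 0 = (u : R) * v.1 1 := by rw [h1]; ring
    obtain ⟨x, y, hxy⟩ := v.2
    have hc : v.1 1 * (x * u + y) = 1 := by
      rw [ha] at hxy
      linear_combination hxy
    have hu2 : (u : R) ^ 2 + 1 = 0 := by
      have : ((u : R) ^ 2 + 1) * (v.1 1 * (x * u + y)) = 0 := by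
        rw [ha] at h0
        linear_combination (x * u + y) * h0
      rwa [hc, mul_one] at this
    refine ⟨u, hu2, ?_⟩
    rw [mk_eq_affine_of_isUnit v _ hc]
    congr 1
    rw [ha]
    calc (u : R) * v.1 1 * (x * u + y) = u * (v.1 1 * (x * u + y)) := by ring
      _ = u := by rw [hc, mul_one]
  · rintro ⟨x, hx, rfl⟩
    unfold affine
    rw [smul_mk]
    have hxu : x * (-x) = 1 := by linear_combination -hx
    refine mk_eq_mk.mpr ⟨Units.mkOfMulEqOne x (-x) hxu, ?_⟩
    apply Unimod.ext'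
    · simp only [Unimod.units_smul_apply, Unimod.sl_smul_zero, Unimod.mk'_zero, Unimod.mk'_one,
        h00, h01, Units.val_mkOfMulEqOne]
      linear_combination hx
    · simp only [Unimod.units_smul_apply, Unimod.sl_smul_one, Unimod.mk'_zero, Unimod.mk'_one,
        h10, h11, Units.val_mkOfMulEqOne]
      ring

/-- Fixed points of an element of `SL(2, R)` shaped like `S * T = !![0, -1; 1, 1]`. -/
theorem fixedBy_ST_iff (γ : SL(2, R)) (h00 : γ.1 0 0 = 0) (h01 : γ.1 0 1 = -1)
    (h10 : γ.1 1 0 = 1) (h11 : γ.1 1 1 = 1) (p : P1 R) :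
    γ • p = p ↔ ∃ x : R, x ^ 2 + x + 1 = 0 ∧ p = affine x := by
  constructor
  · intro hp
    obtain ⟨v, rfl⟩ := mk_surjective p
    rw [smul_mk] at hp
    obtain ⟨u, hu⟩ := mk_eq_mk.mp hp
    have h0 := congrArg (fun v : Unimod R => v.1 0) hu
    have h1 := congrArg (fun v : Unimod R => v.1 1) hu
    simp only [Unimod.units_smul_apply, Unimod.sl_smul_zero, Unimod.sl_smul_one, h00, h01, h10,
      h11] at h0 h1
    -- h0 : u * a = -c ; h1 : u * c = a + c
    have ha : v.1 0 = ((u : R) - 1) * v.1 1 := by linear_combination -h1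
    obtain ⟨x, y, hxy⟩ := v.2
    have hc : v.1 1 * (x * (u - 1) + y) = 1 := by
      rw [ha] at hxy
      linear_combination hxy
    have hu2 : ((u : R) - 1) ^ 2 + ((u : R) - 1) + 1 = 0 := by
      have : (((u : R) - 1) ^ 2 + ((u : R) - 1) + 1) * (v.1 1 * (x * (u - 1) + y)) = 0 := by
        rw [ha] at h0
        linear_combination (x * (u - 1) + y) * h0
      rwa [hc, mul_one] at this
    refine ⟨(u : R) - 1, hu2, ?_⟩
    rw [mk_eq_affine_of_isUnit v _ hc]
    congr 1
    rw [ha]
    calc ((u : R) - 1) * v.1 1 * (x * (u - 1) + y)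
        = ((u : R) - 1) * (v.1 1 * (x * (u - 1) + y)) := by ring
      _ = (u : R) - 1 := by rw [hc, mul_one]
  · rintro ⟨x, hx, rfl⟩
    unfold affine
    rw [smul_mk]
    have hxu : (x + 1) * (-x) = 1 := by linear_combination -hx
    refine mk_eq_mk.mpr ⟨Units.mkOfMulEqOne (x + 1) (-x) hxu, ?_⟩
    apply Unimod.ext'
    · simp only [Unimod.units_smul_apply, Unimod.sl_smul_zero, Unimod.mk'_zero, Unimod.mk'_one,
        h00, h01, Units.val_mkOfMulEqOne]
      linear_combination hx
    · simp only [Unimod.units_smul_apply, Unimod.sl_smul_one, Unimod.mk'_zero, Unimod.mk'_one,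
        h10, h11, Units.val_mkOfMulEqOne]
      ring

/-- The fixed points of an `S`-shaped element are in bijection with the roots of `x^2 + 1`. -/
noncomputable def fixedByEquivS (γ : SL(2, R)) (h00 : γ.1 0 0 = 0) (h01 : γ.1 0 1 = -1)
    (h10 : γ.1 1 0 = 1) (h11 : γ.1 1 1 = 0) :
    {x : R // x ^ 2 + 1 = 0} ≃ MulAction.fixedBy (P1 R) γ :=
  Equiv.ofBijective
    (fun x => ⟨affine x.1, (fixedBy_S_iff γ h00 h01 h10 h11 _).mpr ⟨x.1, x.2, rfl⟩⟩)
    ⟨fun x y h => Subtype.ext (affine_injective (congrArg Subtype.val h)),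
     fun p => by
      obtain ⟨x, hx, hp⟩ := (fixedBy_S_iff γ h00 h01 h10 h11 p.1).mp p.2
      exact ⟨⟨x, hx⟩, Subtype.ext hp.symm⟩⟩

/-- The fixed points of an `ST`-shaped element are in bijection with the roots of
`x^2 + x + 1`. -/
noncomputable def fixedByEquivST (γ : SL(2, R)) (h00 : γ.1 0 0 = 0) (h01 : γ.1 0 1 = -1)
    (h10 : γ.1 1 0 = 1) (h11 : γ.1 1 1 = 1) :
    {x : R // x ^ 2 + x + 1 = 0} ≃ MulAction.fixedBy (P1 R) γ :=
  Equiv.ofBijective
    (fun x => ⟨affine x.1, (fixedBy_ST_iff γ h00 h01 h10 h11 _).mpr ⟨x.1, x.2, rfl⟩⟩)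
    ⟨fun x y h => Subtype.ext (affine_injective (congrArg Subtype.val h)),
     fun p => by
      obtain ⟨x, hx, hp⟩ := (fixedBy_ST_iff γ h00 h01 h10 h11 p.1).mp p.2
      exact ⟨⟨x, hx⟩, Subtype.ext hp.symm⟩⟩

end P1

end General

end Fermat.Agent.S20.H78
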