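import Mathlib
import Fermat.Agent.S20.H78_P1

set_option autoImplicit false

open scoped MatrixGroups
open Matrix CongruenceSubgroup

namespace Fermat.Agent.S20.H78

/-- Reduction mod `N` on `SL(2, ℤ)`. -/
noncomputable def red (N : ℕ) : SL(2, ℤ) →* SL(2, ZMod N) :=
  Matrix.SpecialLinearGroup.map (Int.castRingHom (ZMod N))

@[simp] theorem red_apply (N : ℕ) (g : SL(2, ℤ)) (i j : Fin 2) :
    (red N g).1 i j = ((g.1 i j : ℤ) : ZMod N) := rfl

/-- `SL(2, ℤ)` acts on unimodular vectors mod `N` through reduction mod `N`. -/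
noncomputable instance unimodAction (N : ℕ) : MulAction SL(2, ℤ) (Unimod (ZMod N)) :=
  MulAction.compHom _ (red N)

/-- `SL(2, ℤ)` acts on `P1 (ZMod N)` through reduction mod `N`. -/
noncomputable instance p1Action (N : ℕ) : MulAction SL(2, ℤ) (P1 (ZMod N)) :=
  MulAction.compHom _ (red N)

theorem smul_def_unimod (N : ℕ) (g : SL(2, ℤ)) (v : Unimod (ZMod N)) : g • v = red N g • v := rfl

theorem smul_def_p1 (N : ℕ) (g : SL(2, ℤ)) (p : P1 (ZMod N)) : g • p = red N g • p := rfl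

@[simp] theorem int_smul_mk (N : ℕ) (g : SL(2, ℤ)) (v : Unimod (ZMod N)) :
    g • P1.mk v = P1.mk (g • v) := rfl

@[simp] theorem int_smul_zero (N : ℕ) (g : SL(2, ℤ)) (v : Unimod (ZMod N)) :
    (g • v).1 0 = (g.1 0 0 : ZMod N) * v.1 0 + (g.1 0 1 : ZMod N) * v.1 1 := by
  rw [smul_def_unimod, Unimod.sl_smul_zero]; rfl

@[simp] theorem int_smul_one (N : ℕ) (g : SL(2, ℤ)) (v : Unimod (ZMod N)) :
    (g • v).1 1 = (g.1 1 0 : ZMod N) * v.1 0 + (g.1 1 1 : ZMod N) * v.1 1 := by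
  rw [smul_def_unimod, Unimod.sl_smul_one]; rfl

/-- The base point `(1 : 0)`. -/
def baseVec (N : ℕ) : Unimod (ZMod N) := Unimod.mk' 1 0 isCoprime_one_left

/-- The base point `(1 : 0)` of `P1 (ZMod N)`. -/
def base (N : ℕ) : P1 (ZMod N) := P1.mk (baseVec N)

theorem smul_base_eq_base_iff (N : ℕ) (g : SL(2, ℤ)) : g • base N = base N ↔ g ∈ Gamma0 N := by
  rw [Gamma0_mem]
  unfold base
  rw [int_smul_mk, P1.mk_eq_mk]
  constructor
  · rintro ⟨u, hu⟩
    have h1 := congrArg (fun v : Unimod (ZMod N) => v.1 1) hu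
    simp only [Unimod.units_smul_apply, int_smul_one, baseVec, Unimod.mk'_zero, Unimod.mk'_one,
      mul_one, mul_zero, add_zero] at h1
    exact h1.symm
  · intro h
    have hdet : ((g.1 0 0 : ℤ) : ZMod N) * ((g.1 1 1 : ℤ) : ZMod N) = 1 := by
      have h1 : g.1 0 0 * g.1 1 1 - g.1 0 1 * g.1 1 0 = 1 := by
        have := g.2
        rwa [Matrix.det_fin_two] at this
      have h2 := congrArg (fun z : ℤ => (z : ZMod N)) h1
      simp only [Int.cast_sub, Int.cast_mul, Int.cast_one, h, mul_zero, sub_zero] at h2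
      exact h2
    refine ⟨Units.mkOfMulEqOne _ _ hdet, ?_⟩
    apply Unimod.ext'
    · simp [baseVec]
    · simp [baseVec, h]

theorem smul_base_eq_smul_base_iff (N : ℕ) (g h : SL(2, ℤ)) :
    g • base N = h • base N ↔ g⁻¹ * h ∈ Gamma0 N := by
  rw [← smul_base_eq_base_iff, mul_smul, inv_smul_eq_iff, eq_comm]

theorem exists_add_mul_coprime (a c N : ℕ) (hc : c ≠ 0) (h : Nat.gcd a (Nat.gcd c N) = 1) :
    ∃ t : ℕ, Nat.Coprime (a + t * N) c := by
  classical
  let S : Finset ℕ := c.primeFactors.filter (fun p => ¬ p ∣ a)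
  refine ⟨∏ p ∈ S, p, ?_⟩
  by_contra hcop
  obtain ⟨q, hq, hq1, hq2⟩ := Nat.Prime.not_coprime_iff_dvd.mp hcop
  by_cases hqa : q ∣ a
  · have hq3 : q ∣ (∏ p ∈ S, p) * N := (Nat.dvd_add_right hqa).mp hq1
    rcases (Nat.Prime.dvd_mul hq).mp hq3 with hqt | hqN
    · obtain ⟨p, hpS, hqp⟩ := (Prime.dvd_finsetProd_iff hq.prime _).mp hqt
      have hp : p.Prime := Nat.prime_of_mem_primeFactors (Finset.mem_filter.mp hpS).1
      have : q = p := (Nat.prime_dvd_prime_iff_eq hq hp).mp hqp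
      subst this
      exact (Finset.mem_filter.mp hpS).2 hqa
    · have : q ∣ Nat.gcd a (Nat.gcd c N) := Nat.dvd_gcd hqa (Nat.dvd_gcd hq2 hqN)
      rw [h] at this
      exact hq.one_lt.ne' (Nat.dvd_one.mp this)
  · have hqS : q ∈ S := Finset.mem_filter.mpr ⟨Nat.mem_primeFactors.mpr ⟨hq, hq2, hc⟩, hqa⟩
    have hqt : q ∣ ∏ p ∈ S, p := Finset.dvd_prod_of_mem _ hqS
    have : q ∣ a := (Nat.dvd_add_left (Dvd.dvd.mul_right hqt N)).mp hq1
    exact hqa this

theorem exists_int_lift (N : ℕ) [NeZero N] (a c : ZMod N) (h : IsCoprime a c) :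
    ∃ a' c' : ℤ, IsCoprime a' c' ∧ ((a' : ℤ) : ZMod N) = a ∧ ((c' : ℤ) : ZMod N) = c := by
  obtain ⟨x, y, hxy⟩ := h
  set a0 : ℕ := a.val with ha0
  set c0 : ℕ := if c.val = 0 then N else c.val with hc0
  have hc0ne : c0 ≠ 0 := by
    rw [hc0]; split_ifs with h0
    · exact NeZero.ne N
    · exact h0
  have ha0cast : ((a0 : ℕ) : ZMod N) = a := by rw [ha0]; exact ZMod.natCast_zmod_val a
  have hc0cast : ((c0 : ℕ) : ZMod N) = c := by
    rw [hc0]; split_ifs with h0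
    · rw [ZMod.natCast_self]; exact ((ZMod.val_eq_zero c).mp h0).symm
    · exact ZMod.natCast_zmod_val c
  have hg : Nat.gcd a0 (Nat.gcd c0 N) = 1 := by
    set g := Nat.gcd a0 (Nat.gcd c0 N) with hgdef
    have hga : (g : ℤ) ∣ a0 := Int.natCast_dvd_natCast.mpr (Nat.gcd_dvd_left _ _)
    have hgc : (g : ℤ) ∣ c0 :=
      Int.natCast_dvd_natCast.mpr ((Nat.gcd_dvd_right _ _).trans (Nat.gcd_dvd_left _ _))
    have hgN : (g : ℤ) ∣ N :=
      Int.natCast_dvd_natCast.mpr ((Nat.gcd_dvd_right _ _).trans (Nat.gcd_dvd_right _ _))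
    have hz : (((x.val : ℤ) * a0 + (y.val : ℤ) * c0 - 1 : ℤ) : ZMod N) = 0 := by
      push_cast
      rw [ha0cast, hc0cast, ZMod.natCast_zmod_val, ZMod.natCast_zmod_val, hxy, sub_self]
    have hN : (N : ℤ) ∣ (x.val : ℤ) * a0 + (y.val : ℤ) * c0 - 1 :=
      (ZMod.intCast_zmod_eq_zero_iff_dvd _ N).mp hz
    have h1 : (g : ℤ) ∣ 1 := by
      have h2 : (g : ℤ) ∣ (x.val : ℤ) * a0 + (y.val : ℤ) * c0 - 1 := hgN.trans hN
      have h3 : (g : ℤ) ∣ (x.val : ℤ) * a0 + (y.val : ℤ) * c0 :=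
        Dvd.dvd.add (Dvd.dvd.mul_left hga _) (Dvd.dvd.mul_left hgc _)
      have := Dvd.dvd.sub h3 h2
      simpa using this
    have : g ∣ 1 := Int.natCast_dvd_natCast.mp (by simpa using h1)
    exact Nat.dvd_one.mp this
  obtain ⟨t, ht⟩ := exists_add_mul_coprime a0 c0 N hc0ne hg
  refine ⟨((a0 + t * N : ℕ) : ℤ), (c0 : ℤ), Nat.isCoprime_iff_coprime.mpr ht, ?_, ?_⟩
  · push_cast
    rw [ha0cast, ZMod.natCast_self, mul_zero, add_zero]
  · push_cast
    exact hc0cast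

theorem exists_smul_base_eq (N : ℕ) [NeZero N] (p : P1 (ZMod N)) :
    ∃ g : SL(2, ℤ), g • base N = p := by
  obtain ⟨v, rfl⟩ := P1.mk_surjective p
  obtain ⟨a', c', hcop, ha, hc⟩ := exists_int_lift N (v.1 0) (v.1 1) v.2
  obtain ⟨g, hg0, hg1⟩ := hcop.exists_SL2_col 0
  refine ⟨g, ?_⟩
  unfold base
  rw [int_smul_mk]
  congr 1
  apply Unimod.ext'
  · simp [baseVec, hg0, ha]
  · simp [baseVec, hg1, hc]

/-- The map `g Γ₀(N) ↦ g • (1 : 0)`. -/
noncomputable def cosetMap (N : ℕ) : SL(2, ℤ) ⧸ Gamma0 N → P1 (ZMod N) :=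
  Quotient.lift (fun g : SL(2, ℤ) => g • base N) (by
    intro g h hgh
    have : g⁻¹ * h ∈ Gamma0 N := QuotientGroup.leftRel_apply.mp hgh
    exact (smul_base_eq_smul_base_iff N g h).mpr this)

@[simp] theorem cosetMap_mk (N : ℕ) (g : SL(2, ℤ)) :
    cosetMap N (QuotientGroup.mk g) = g • base N := rfl

theorem cosetMap_smul (N : ℕ) (g : SL(2, ℤ)) (q : SL(2, ℤ) ⧸ Gamma0 N) :
    cosetMap N (g • q) = g • cosetMap N q := by
  induction q using QuotientGroup.induction_on with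
  | H h =>
    rw [MulAction.Quotient.smul_mk, cosetMap_mk, cosetMap_mk, smul_eq_mul, mul_smul]

theorem cosetMap_injective (N : ℕ) : Function.Injective (cosetMap N) := by
  intro q q' h
  induction q using QuotientGroup.induction_on with
  | H g =>
    induction q' using QuotientGroup.induction_on with
    | H g' =>
      rw [cosetMap_mk, cosetMap_mk, smul_base_eq_smul_base_iff] at h
      exact QuotientGroup.eq.mpr h

theorem cosetMap_surjective (N : ℕ) [NeZero N] : Function.Surjective (cosetMap N) := by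
  intro p
  obtain ⟨g, hg⟩ := exists_smul_base_eq N p
  exact ⟨QuotientGroup.mk g, hg⟩

/-- `SL(2, ℤ) ⧸ Γ₀(N) ≃ P¹(ℤ/N)`, equivariantly (`cosetMap_smul`). -/
noncomputable def cosetEquiv (N : ℕ) [NeZero N] : SL(2, ℤ) ⧸ Gamma0 N ≃ P1 (ZMod N) :=
  Equiv.ofBijective (cosetMap N) ⟨cosetMap_injective N, cosetMap_surjective N⟩

@[simp] theorem cosetEquiv_apply (N : ℕ) [NeZero N] (q : SL(2, ℤ) ⧸ Gamma0 N) :
    cosetEquiv N q = cosetMap N q := rfl

end Fermat.Agent.S20.H78
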