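import Mathlib
import Fermat.Prelude.Def_ModularCurve_GenusNumerics
import Fermat.Agent.S20.H78_Coset

set_option autoImplicit false

open scoped MatrixGroups
open Matrix CongruenceSubgroup

namespace Fermat.Agent.S20.H78

section Transfer

variable {G X Y : Type*} [Group G] [MulAction G X] [MulAction G Y]

/-- An equivariant bijection identifies fixed-point sets. -/
def fixedByEquivOfEquivariant (φ : X ≃ Y) (hφ : ∀ (g : G) (x : X), φ (g • x) = g • φ x) (g : G) :
    MulAction.fixedBy X g ≃ MulAction.fixedBy Y g where
  toFun x := ⟨φ x.1, by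
    have := x.2
    rw [MulAction.mem_fixedBy] at this ⊢
    rw [← hφ, this]⟩
  invFun y := ⟨φ.symm y.1, by
    have := y.2
    rw [MulAction.mem_fixedBy] at this ⊢
    apply φ.injective
    rw [hφ, φ.apply_symm_apply, this]⟩
  left_inv x := Subtype.ext (φ.symm_apply_apply _)
  right_inv y := Subtype.ext (φ.apply_symm_apply _)

/-- An equivariant bijection identifies orbit spaces of any subgroup. -/
def orbitQuotEquivOfEquivariant (φ : X ≃ Y) (hφ : ∀ (g : G) (x : X), φ (g • x) = g • φ x)
    (H : Subgroup G) :
    MulAction.orbitRel.Quotient H X ≃ MulAction.orbitRel.Quotient H Y where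
  toFun := Quotient.map' φ (by
    rintro x x' ⟨h, rfl⟩
    exact ⟨h, (hφ h x').symm⟩)
  invFun := Quotient.map' φ.symm (by
    rintro y y' ⟨h, rfl⟩
    refine ⟨h, ?_⟩
    apply φ.injective
    show φ ((h : G) • φ.symm y') = φ (φ.symm ((h : G) • y'))
    rw [hφ, φ.apply_symm_apply, φ.apply_symm_apply])
  left_inv q := by
    induction q using Quotient.inductionOn' with
    | h x => simp [Quotient.map'_mk'']
  right_inv q := by
    induction q using Quotient.inductionOn' with
    | h y => simp [Quotient.map'_mk'']

end Transfer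

open ModularGroup in
theorem card_fixedBy_S (N : ℕ) [NeZero N] :
    Nat.card (MulAction.fixedBy (SL(2, ℤ) ⧸ Gamma0 N) S) = ModularCurve.nuTwo N := by
  rw [Nat.card_congr (fixedByEquivOfEquivariant (cosetEquiv N) (cosetMap_smul N) S)]
  unfold ModularCurve.nuTwo
  refine (Nat.card_congr ?_).symm
  exact P1.fixedByEquivS (red N S)
    (by rw [red_apply, ModularGroup.coe_S]; simp)
    (by rw [red_apply, ModularGroup.coe_S]; simp)
    (by rw [red_apply, ModularGroup.coe_S]; simp)
    (by rw [red_apply, ModularGroup.coe_S]; simp)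

open ModularGroup in
theorem card_fixedBy_ST (N : ℕ) [NeZero N] :
    Nat.card (MulAction.fixedBy (SL(2, ℤ) ⧸ Gamma0 N) (S * T)) = ModularCurve.nuThree N := by
  rw [Nat.card_congr (fixedByEquivOfEquivariant (cosetEquiv N) (cosetMap_smul N) (S * T))]
  unfold ModularCurve.nuThree
  refine (Nat.card_congr ?_).symm
  exact P1.fixedByEquivST (red N (S * T))
    (by
      rw [red_apply, Matrix.SpecialLinearGroup.coe_mul, ModularGroup.coe_S, ModularGroup.coe_T]
      simp [Matrix.mul_apply, Fin.sum_univ_two])
    (by
      rw [red_apply, Matrix.SpecialLinearGroup.coe_mul, ModularGroup.coe_S, ModularGroup.coe_T]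
      simp [Matrix.mul_apply, Fin.sum_univ_two])
    (by
      rw [red_apply, Matrix.SpecialLinearGroup.coe_mul, ModularGroup.coe_S, ModularGroup.coe_T]
      simp [Matrix.mul_apply, Fin.sum_univ_two])
    (by
      rw [red_apply, Matrix.SpecialLinearGroup.coe_mul, ModularGroup.coe_S, ModularGroup.coe_T]
      simp [Matrix.mul_apply, Fin.sum_univ_two])

end Fermat.Agent.S20.H78
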