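import Mathlib
import Fermat.Prelude.Def_ModularCurve_GenusNumerics
import Fermat.Agent.S20.H78_Coset
import Fermat.Agent.S20.H78_Fixed

set_option autoImplicit false

open scoped MatrixGroups
open Matrix CongruenceSubgroup

namespace Fermat.Agent.S20.H78


section ZModLemmas

variable {N : ℕ} [NeZero N]

/-- `castHom` to a divisor modulus, evaluated via `val`. -/
theorem castHom_eq_natCast_val {d : ℕ} (hd : d ∣ N) (x : ZMod N) :
    ZMod.castHom hd (ZMod d) x = ((x.val : ℕ) : ZMod d) := by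
  rw [ZMod.castHom_apply, ZMod.natCast_val]

theorem castHom_eq_zero_iff {d : ℕ} (hd : d ∣ N) (x : ZMod N) :
    ZMod.castHom hd (ZMod d) x = 0 ↔ d ∣ x.val := by
  rw [castHom_eq_natCast_val, ZMod.natCast_eq_zero_iff]

/-- `x * d = 0` in `ℤ/N` iff `x ≡ 0 mod N/d`. -/
theorem mul_natCast_eq_zero_iff {d : ℕ} (hd : d ∣ N) (x : ZMod N) :
    x * (d : ZMod N) = 0 ↔ ZMod.castHom (Nat.div_dvd_of_dvd hd) (ZMod (N / d)) x = 0 := by
  have hdpos : 0 < d := Nat.pos_of_dvd_of_pos hd (Nat.pos_of_ne_zero (NeZero.ne N))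
  rw [castHom_eq_zero_iff]
  have hx : x * (d : ZMod N) = ((x.val * d : ℕ) : ZMod N) := by
    push_cast
    rw [ZMod.natCast_zmod_val]
  rw [hx, ZMod.natCast_eq_zero_iff]
  have hN : N / d * d = N := Nat.div_mul_cancel hd
  constructor
  · intro h
    have h' : N / d * d ∣ x.val * d := by rw [hN]; exact h
    exact (Nat.mul_dvd_mul_iff_right hdpos).mp h'
  · intro h
    have h' : N / d * d ∣ x.val * d := (Nat.mul_dvd_mul_iff_right hdpos).mpr h
    rw [hN] at h'
    exact h'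

/-- If `x ≡ 0 mod d` then `x` is a natural multiple of `d`. -/
theorem exists_eq_natCast_mul_of_castHom_eq_zero {d : ℕ} (hd : d ∣ N) (x : ZMod N)
    (hx : ZMod.castHom hd (ZMod d) x = 0) : ∃ k : ℕ, x = (k : ZMod N) * (d : ZMod N) := by
  rw [castHom_eq_zero_iff] at hx
  obtain ⟨k, hk⟩ := hx
  refine ⟨k, ?_⟩
  rw [← ZMod.natCast_zmod_val x, hk]
  push_cast
  ring

omit [NeZero N] in
theorem castHom_natCast_self {d : ℕ} (hd : d ∣ N) :
    ZMod.castHom hd (ZMod d) ((d : ℕ) : ZMod N) = 0 := by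
  rw [map_natCast, ZMod.natCast_self]

omit [NeZero N] in
/-- If `a` is coprime to `d` in `ℤ/N`, then `a` is a unit mod `d`. -/
theorem isUnit_castHom_of_isCoprime {d : ℕ} (hd : d ∣ N) (a : ZMod N)
    (h : IsCoprime a ((d : ℕ) : ZMod N)) : IsUnit (ZMod.castHom hd (ZMod d) a) := by
  have := h.map (ZMod.castHom hd (ZMod d))
  rw [castHom_natCast_self, isCoprime_zero_right] at this
  exact this

/-- Conversely a unit mod `d` is coprime to `d` in `ℤ/N`. -/
theorem isCoprime_of_isUnit_castHom {d : ℕ} (hd : d ∣ N) (a : ZMod N)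
    (h : IsUnit (ZMod.castHom hd (ZMod d) a)) : IsCoprime a ((d : ℕ) : ZMod N) := by
  obtain ⟨u, hu⟩ := h
  have hdne : NeZero d := ⟨(Nat.pos_of_dvd_of_pos hd (Nat.pos_of_ne_zero (NeZero.ne N))).ne'⟩
  let x : ZMod N := (((u⁻¹ : (ZMod d)ˣ) : ZMod d).val : ZMod N)
  have hx : ZMod.castHom hd (ZMod d) x = ((u⁻¹ : (ZMod d)ˣ) : ZMod d) := by
    simp only [x, map_natCast, ZMod.natCast_zmod_val]
  have h0 : ZMod.castHom hd (ZMod d) (x * a - 1) = 0 := by
    rw [map_sub, map_mul, hx, ← hu, map_one, Units.inv_mul, sub_self]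
  obtain ⟨k, hk⟩ := exists_eq_natCast_mul_of_castHom_eq_zero hd _ h0
  exact ⟨x, -(k : ZMod N), by linear_combination hk⟩

end ZModLemmas


section ZModLemmas2

variable {N : ℕ} [NeZero N]

/-- Every element of `ℤ/N` is a unit times a divisor of `N`. -/
theorem exists_unit_mul_divisor (c : ZMod N) :
    ∃ d : ℕ, d ∣ N ∧ ∃ u : (ZMod N)ˣ, c = u * (d : ZMod N) := by
  have hNpos : 0 < N := Nat.pos_of_ne_zero (NeZero.ne N)
  set d := Nat.gcd c.val N with hd_def
  have hd : d ∣ N := Nat.gcd_dvd_right _ _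
  have hdpos : 0 < d := Nat.gcd_pos_of_pos_right _ hNpos
  have hw : Nat.Coprime (c.val / d) (N / d) := Nat.coprime_div_gcd_div_gcd hdpos
  have hdvd : N / d ∣ N := Nat.div_dvd_of_dvd hd
  obtain ⟨u, hu⟩ := ZMod.unitsMap_surjective hdvd (ZMod.unitOfCoprime (c.val / d) hw)
  have hu' : ZMod.castHom hdvd (ZMod (N / d)) (u : ZMod N) = ((c.val / d : ℕ) : ZMod (N / d)) := by
    have := congrArg Units.val hu
    rw [ZMod.coe_unitOfCoprime] at this
    rw [← this]
    rfl
  refine ⟨d, hd, u, ?_⟩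
  have hx : ((u : ZMod N) - ((c.val / d : ℕ) : ZMod N)) * (d : ZMod N) = 0 := by
    rw [mul_natCast_eq_zero_iff hd, map_sub, hu', map_natCast, sub_self]
  have hc : c = ((c.val / d : ℕ) : ZMod N) * (d : ZMod N) := by
    conv_lhs => rw [← ZMod.natCast_zmod_val c, ← Nat.div_mul_cancel (Nat.gcd_dvd_left c.val N)]
    push_cast
    rfl
  rw [hc]
  linear_combination -hx

end ZModLemmas2


section ZModLemmas3

variable {N : ℕ} [NeZero N]

/-- The key adjustment lemma: two vectors `(a, d)`, `(a', d)` with `a ≡ a' mod gcd(d, N/d)`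
differ by a unit fixing `d` and a translation by a multiple of `d`. -/
theorem exists_unit_adjust {d : ℕ} (hd : d ∣ N) (a a' : ZMod N)
    (ha : IsCoprime a ((d : ℕ) : ZMod N)) (ha' : IsCoprime a' ((d : ℕ) : ZMod N))
    (hgN : Nat.gcd d (N / d) ∣ N)
    (hg : ZMod.castHom hgN (ZMod (Nat.gcd d (N / d))) a
      = ZMod.castHom hgN (ZMod (Nat.gcd d (N / d))) a') :
    ∃ t : (ZMod N)ˣ, ∃ k : ℕ, (t : ZMod N) * (d : ZMod N) = (d : ZMod N) ∧
      (t : ZMod N) * a + (k : ZMod N) * (d : ZMod N) = a' := by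
  have hNpos : 0 < N := Nat.pos_of_ne_zero (NeZero.ne N)
  have hdpos : 0 < d := Nat.pos_of_dvd_of_pos hd hNpos
  have hdne : NeZero d := ⟨hdpos.ne'⟩
  have hgd : Nat.gcd d (N / d) ∣ d := Nat.gcd_dvd_left _ _
  set g := Nat.gcd d (N / d) with hg_def
  obtain ⟨ua, hua⟩ := isUnit_castHom_of_isCoprime hd a ha
  obtain ⟨ua', hua'⟩ := isUnit_castHom_of_isCoprime hd a' ha'
  set s : (ZMod d)ˣ := ua' * ua⁻¹ with hs_def
  have hsua : (s : ZMod d) * ua = ua' := by
    rw [hs_def]; simp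
  -- compatibility of the reductions
  have hcomp : ∀ x : ZMod N, ZMod.castHom hgd (ZMod g) (ZMod.castHom hd (ZMod d) x)
      = ZMod.castHom hgN (ZMod g) x := by
    intro x
    have := ZMod.castHom_comp hgd hd
    exact RingHom.congr_fun this x
  have hs1 : ZMod.castHom hgd (ZMod g) (s : ZMod d) = 1 := by
    have h1 := congrArg (ZMod.castHom hgd (ZMod g)) hsua
    rw [map_mul, hua, hua', hcomp, hcomp, ← hg] at h1
    have hunit : IsUnit (ZMod.castHom hgN (ZMod g) a) := by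
      rw [← hcomp, ← hua]
      exact (ua.isUnit).map _
    exact (IsUnit.mul_eq_right hunit).mp h1
  have hs0 : (s : ZMod d).val ≡ 1 [MOD g] := by
    apply (ZMod.natCast_eq_natCast_iff _ _ _).mp
    rw [Nat.cast_one, ← hs1, castHom_eq_natCast_val hgd]
  obtain ⟨t0, ht1, ht2⟩ := Nat.chineseRemainder' hs0
  have hcop1 : Nat.Coprime t0 d := by
    have h1 : Nat.Coprime (s : ZMod d).val d := ZMod.val_coe_unit_coprime s
    unfold Nat.Coprime at h1 ⊢
    rw [ht1.gcd_eq, h1]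
  have hcop2 : Nat.Coprime t0 (N / d) := by
    unfold Nat.Coprime
    rw [ht2.gcd_eq]
    exact Nat.gcd_one_left _
  have hcop : Nat.Coprime t0 N := by
    have := Nat.Coprime.mul_right hcop1 hcop2
    rwa [Nat.mul_div_cancel' hd] at this
  refine ⟨ZMod.unitOfCoprime t0 hcop, ?_⟩
  rw [ZMod.coe_unitOfCoprime]
  have htd : (t0 : ZMod N) * (d : ZMod N) = (d : ZMod N) := by
    have h0 : ((t0 : ZMod N) - 1) * (d : ZMod N) = 0 := by
      rw [mul_natCast_eq_zero_iff hd, map_sub, map_natCast, map_one, sub_eq_zero]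
      have := (ZMod.natCast_eq_natCast_iff t0 1 (N / d)).mpr ht2
      simpa using this
    linear_combination h0
  have hmod : ZMod.castHom hd (ZMod d) (a' - (t0 : ZMod N) * a) = 0 := by
    rw [map_sub, map_mul, map_natCast, ← hua, ← hua', ← hsua]
    have : ((t0 : ℕ) : ZMod d) = (s : ZMod d) := by
      rw [← ZMod.natCast_zmod_val (s : ZMod d)]
      exact (ZMod.natCast_eq_natCast_iff _ _ _).mpr ht1
    rw [this, sub_self]
  obtain ⟨k, hk⟩ := exists_eq_natCast_mul_of_castHom_eq_zero hd _ hmod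
  exact ⟨k, htd, by linear_combination -hk⟩

end ZModLemmas3


section ZModLemmas4

variable {N : ℕ} [NeZero N]


omit [NeZero N] in
/-- The divisor in `exists_unit_mul_divisor` is unique. -/
theorem divisor_unique {d d' : ℕ} (hd : d ∣ N) (hd' : d' ∣ N) (t : (ZMod N)ˣ)
    (h : (t : ZMod N) * (d : ZMod N) = (d' : ZMod N)) : d = d' := by
  apply Nat.dvd_antisymm
  · have h1 := congrArg (ZMod.castHom hd (ZMod d)) h
    rw [map_mul, castHom_natCast_self hd, mul_zero, map_natCast] at h1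
    exact (ZMod.natCast_eq_zero_iff _ _).mp h1.symm
  · have h' : (d : ZMod N) = ((t⁻¹ : (ZMod N)ˣ) : ZMod N) * (d' : ZMod N) := by
      rw [← h, ← mul_assoc, Units.inv_mul, one_mul]
    have h1 := congrArg (ZMod.castHom hd' (ZMod d')) h'
    rw [map_mul, castHom_natCast_self hd', mul_zero, map_natCast] at h1
    exact (ZMod.natCast_eq_zero_iff _ _).mp h1

/-- Existence of a representative with prescribed residue mod `gcd(d, N/d)`. -/
theorem exists_rep {d : ℕ} (hd : d ∣ N) (hgN : Nat.gcd d (N / d) ∣ N)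
    (r : (ZMod (Nat.gcd d (N / d)))ˣ) :
    ∃ a : ZMod N, IsCoprime a ((d : ℕ) : ZMod N) ∧
      ZMod.castHom hgN (ZMod (Nat.gcd d (N / d))) a = r := by
  have hNpos : 0 < N := Nat.pos_of_ne_zero (NeZero.ne N)
  have hdpos : 0 < d := Nat.pos_of_dvd_of_pos hd hNpos
  have hdne : NeZero d := ⟨hdpos.ne'⟩
  have hgd : Nat.gcd d (N / d) ∣ d := Nat.gcd_dvd_left _ _
  obtain ⟨r1, hr1⟩ := ZMod.unitsMap_surjective hgd r
  refine ⟨(((r1 : ZMod d).val : ℕ) : ZMod N), ?_, ?_⟩
  · apply isCoprime_of_isUnit_castHom hd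
    rw [map_natCast, ZMod.natCast_zmod_val]
    exact r1.isUnit
  · rw [map_natCast]
    have := congrArg Units.val hr1
    rw [← this]
    show _ = ZMod.castHom hgd _ (r1 : ZMod d)
    rw [ZMod.castHom_apply, ZMod.natCast_val]

end ZModLemmas4


section Orbits

open ModularGroup

variable (N : ℕ)

theorem T_zpow_smul_zero (k : ℤ) (v : Unimod (ZMod N)) :
    ((T ^ k) • v).1 0 = v.1 0 + (k : ZMod N) * v.1 1 := by
  rw [int_smul_zero, ModularGroup.coe_T_zpow]
  simp

theorem T_zpow_smul_one (k : ℤ) (v : Unimod (ZMod N)) :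
    ((T ^ k) • v).1 1 = v.1 1 := by
  rw [int_smul_one, ModularGroup.coe_T_zpow]
  simp

/-- The relation on unimodular vectors corresponding to "same `T`-orbit in `P¹`". -/
def CuspRel (v v' : Unimod (ZMod N)) : Prop :=
  ∃ (k : ℤ) (u : (ZMod N)ˣ), u • v = (T ^ k) • v'

theorem cuspRel_iff (v v' : Unimod (ZMod N)) :
    CuspRel N v v' ↔ ∃ (k : ℤ) (u : (ZMod N)ˣ),
      (u : ZMod N) * v.1 0 = v'.1 0 + (k : ZMod N) * v'.1 1 ∧ (u : ZMod N) * v.1 1 = v'.1 1 := by
  unfold CuspRel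
  refine exists_congr fun k => exists_congr fun u => ?_
  constructor
  · intro h
    have h0 := congrArg (fun w : Unimod (ZMod N) => w.1 0) h
    have h1 := congrArg (fun w : Unimod (ZMod N) => w.1 1) h
    simp only [Unimod.units_smul_apply, T_zpow_smul_zero, T_zpow_smul_one] at h0 h1
    exact ⟨h0, h1⟩
  · rintro ⟨h0, h1⟩
    apply Unimod.ext'
    · rw [Unimod.units_smul_apply, T_zpow_smul_zero]; exact h0
    · rw [Unimod.units_smul_apply, T_zpow_smul_one]; exact h1

/-- The orbit space of `⟨T⟩` on `P¹(ℤ/N)`. -/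
abbrev CuspOrbits : Type := MulAction.orbitRel.Quotient (Subgroup.zpowers T) (P1 (ZMod N))

/-- The orbit of the class of a unimodular vector. -/
noncomputable def cuspClass (v : Unimod (ZMod N)) : CuspOrbits N := Quotient.mk'' (P1.mk v)

theorem cuspClass_surjective : Function.Surjective (cuspClass N) := by
  intro q
  induction q using Quotient.inductionOn' with
  | h p =>
    obtain ⟨v, rfl⟩ := P1.mk_surjective p
    exact ⟨v, rfl⟩

theorem cuspClass_eq_iff (v v' : Unimod (ZMod N)) :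
    cuspClass N v = cuspClass N v' ↔ CuspRel N v v' := by
  unfold cuspClass
  rw [Quotient.eq'']
  show MulAction.orbitRel _ _ _ _ ↔ _
  rw [MulAction.orbitRel_apply, MulAction.mem_orbit_iff]
  constructor
  · rintro ⟨⟨h, hh⟩, hv⟩
    obtain ⟨k, rfl⟩ := Subgroup.mem_zpowers_iff.mp hh
    have hv' : P1.mk ((T ^ k) • v') = P1.mk v := hv
    obtain ⟨u, hu⟩ := P1.mk_eq_mk.mp hv'
    exact ⟨k, u, hu⟩
  · rintro ⟨k, u, hu⟩
    refine ⟨⟨T ^ k, Subgroup.zpow_mem_zpowers T k⟩, ?_⟩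
    show P1.mk ((T ^ k) • v') = P1.mk v
    exact P1.mk_eq_mk.mpr ⟨u, hu⟩

end Orbits

section Classification

open ModularGroup

variable {N : ℕ} [NeZero N]

/-- The normalised vector `(a, d)`. -/
def vec (d : ℕ) (a : ZMod N) (h : IsCoprime a ((d : ℕ) : ZMod N)) : Unimod (ZMod N) :=
  Unimod.mk' a ((d : ℕ) : ZMod N) h

omit [NeZero N] in
@[simp] theorem vec_zero (d : ℕ) (a : ZMod N) (h : IsCoprime a ((d : ℕ) : ZMod N)) :
    (vec d a h).1 0 = a := rfl

omit [NeZero N] in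
@[simp] theorem vec_one (d : ℕ) (a : ZMod N) (h : IsCoprime a ((d : ℕ) : ZMod N)) :
    (vec d a h).1 1 = ((d : ℕ) : ZMod N) := rfl

/-- (M1) every vector is related to a normalised one. -/
theorem exists_cuspRel_vec (v : Unimod (ZMod N)) :
    ∃ d : ℕ, d ∣ N ∧ ∃ (a : ZMod N) (h : IsCoprime a ((d : ℕ) : ZMod N)),
      CuspRel N v (vec d a h) := by
  obtain ⟨d, hd, u0, hu0⟩ := exists_unit_mul_divisor (v.1 1)
  have hcop : IsCoprime (((u0⁻¹ : (ZMod N)ˣ) : ZMod N) * v.1 0) ((d : ℕ) : ZMod N) := by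
    have h1 := v.2
    rw [hu0, isCoprime_mul_unit_left_right u0.isUnit] at h1
    rwa [isCoprime_mul_unit_left_left (u0⁻¹).isUnit]
  refine ⟨d, hd, _, hcop, ?_⟩
  rw [cuspRel_iff]
  refine ⟨0, u0⁻¹, ?_, ?_⟩
  · simp
  · rw [vec_one, hu0, ← mul_assoc, Units.inv_mul, one_mul]

omit [NeZero N] in
/-- (M2a) related normalised vectors have the same divisor. -/
theorem divisor_eq_of_cuspRel {d d' : ℕ} (hd : d ∣ N) (hd' : d' ∣ N) (a a' : ZMod N)
    (h : IsCoprime a ((d : ℕ) : ZMod N)) (h' : IsCoprime a' ((d' : ℕ) : ZMod N))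
    (hrel : CuspRel N (vec d a h) (vec d' a' h')) : d = d' := by
  rw [cuspRel_iff] at hrel
  obtain ⟨k, u, _, h1⟩ := hrel
  exact divisor_unique hd hd' u h1

theorem castHom_gcd_unit_eq_one {d : ℕ} (hd : d ∣ N) (hgN : Nat.gcd d (N / d) ∣ N)
    (u : (ZMod N)ˣ) (hu : (u : ZMod N) * ((d : ℕ) : ZMod N) = ((d : ℕ) : ZMod N)) :
    ZMod.castHom hgN (ZMod (Nat.gcd d (N / d))) (u : ZMod N) = 1 := by
  have h0 : ((u : ZMod N) - 1) * ((d : ℕ) : ZMod N) = 0 := by linear_combination hu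
  rw [mul_natCast_eq_zero_iff hd] at h0
  have hgq : Nat.gcd d (N / d) ∣ N / d := Nat.gcd_dvd_right _ _
  have hcomp := ZMod.castHom_comp hgq (Nat.div_dvd_of_dvd hd)
  have h1 := congrArg (ZMod.castHom hgq (ZMod (Nat.gcd d (N / d)))) h0
  rw [map_zero] at h1
  have h2 : ZMod.castHom hgN (ZMod (Nat.gcd d (N / d))) ((u : ZMod N) - 1) = 0 := by
    rw [← h1]
    exact (RingHom.congr_fun hcomp _).symm
  rw [map_sub, map_one, sub_eq_zero] at h2
  exact h2

/-- (M2b) normalised vectors with the same divisor are related iff they agree mod `gcd(d, N/d)`. -/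
theorem cuspRel_vec_iff {d : ℕ} (hd : d ∣ N) (hgN : Nat.gcd d (N / d) ∣ N) (a a' : ZMod N)
    (h : IsCoprime a ((d : ℕ) : ZMod N)) (h' : IsCoprime a' ((d : ℕ) : ZMod N)) :
    CuspRel N (vec d a h) (vec d a' h') ↔
      ZMod.castHom hgN (ZMod (Nat.gcd d (N / d))) a
        = ZMod.castHom hgN (ZMod (Nat.gcd d (N / d))) a' := by
  have hgd : Nat.gcd d (N / d) ∣ d := Nat.gcd_dvd_left _ _
  have hdg : ZMod.castHom hgN (ZMod (Nat.gcd d (N / d))) ((d : ℕ) : ZMod N) = 0 := by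
    rw [map_natCast]
    exact (ZMod.natCast_eq_zero_iff _ _).mpr hgd
  rw [cuspRel_iff]
  constructor
  · rintro ⟨k, u, h0, h1⟩
    simp only [vec_zero, vec_one] at h0 h1
    have hu1 := castHom_gcd_unit_eq_one hd hgN u h1
    have := congrArg (ZMod.castHom hgN (ZMod (Nat.gcd d (N / d)))) h0
    rw [map_mul, hu1, one_mul, map_add, map_mul, hdg, mul_zero, add_zero] at this
    exact this
  · intro hg
    obtain ⟨t, k, htd, hta⟩ := exists_unit_adjust hd a a' h h' hgN hg
    refine ⟨-(k : ℤ), t, ?_, ?_⟩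
    · simp only [vec_zero, vec_one]
      push_cast
      linear_combination hta
    · simp only [vec_one]
      exact htd

end Classification

section Count

open ModularGroup

variable (N : ℕ) [NeZero N]

/-- The index type for cusps: a divisor `d` of `N` and a unit mod `gcd(d, N/d)`. -/
abbrev CuspIndex : Type := Σ d : {d : ℕ // d ∈ N.divisors}, (ZMod (Nat.gcd d.1 (N / d.1)))ˣ

omit [NeZero N] in
theorem dvd_of_mem_divisors' {d : ℕ} (hd : d ∈ N.divisors) : d ∣ N := Nat.dvd_of_mem_divisors hd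

omit [NeZero N] in
theorem gcd_dvd_N {d : ℕ} (hd : d ∣ N) : Nat.gcd d (N / d) ∣ N :=
  (Nat.gcd_dvd_left _ _).trans hd

/-- A chosen representative `a` for the index `(d, r)`. -/
noncomputable def repr (i : CuspIndex N) : ZMod N :=
  (exists_rep (dvd_of_mem_divisors' N i.1.2) (gcd_dvd_N N (dvd_of_mem_divisors' N i.1.2)) i.2).choose

theorem repr_isCoprime (i : CuspIndex N) : IsCoprime (repr N i) ((i.1.1 : ℕ) : ZMod N) :=
  (exists_rep (dvd_of_mem_divisors' N i.1.2) (gcd_dvd_N N (dvd_of_mem_divisors' N i.1.2))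
    i.2).choose_spec.1

theorem repr_castHom (i : CuspIndex N) :
    ZMod.castHom (gcd_dvd_N N (dvd_of_mem_divisors' N i.1.2)) (ZMod (Nat.gcd i.1.1 (N / i.1.1)))
      (repr N i) = i.2 :=
  (exists_rep (dvd_of_mem_divisors' N i.1.2) (gcd_dvd_N N (dvd_of_mem_divisors' N i.1.2))
    i.2).choose_spec.2

/-- The map from cusp indices to `T`-orbits. -/
noncomputable def cuspMap (i : CuspIndex N) : CuspOrbits N :=
  cuspClass N (vec i.1.1 (repr N i) (repr_isCoprime N i))

theorem cuspMap_injective : Function.Injective (cuspMap N) := by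
  rintro ⟨⟨d, hd⟩, r⟩ ⟨⟨d', hd'⟩, r'⟩ h
  unfold cuspMap at h
  rw [cuspClass_eq_iff] at h
  have hdd : d = d' := divisor_eq_of_cuspRel (dvd_of_mem_divisors' N hd)
    (dvd_of_mem_divisors' N hd') _ _ _ _ h
  subst hdd
  have h2 := (cuspRel_vec_iff (dvd_of_mem_divisors' N hd)
    (gcd_dvd_N N (dvd_of_mem_divisors' N hd)) _ _ _ _).mp h
  have e1 := repr_castHom N ⟨⟨d, hd⟩, r⟩
  have e2 := repr_castHom N ⟨⟨d, hd'⟩, r'⟩
  simp only at e1 e2
  have : r = r' := by
    apply Units.ext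
    rw [← e1, ← e2]
    exact h2
  subst this
  rfl

theorem cuspMap_surjective : Function.Surjective (cuspMap N) := by
  intro q
  obtain ⟨v, rfl⟩ := cuspClass_surjective N q
  obtain ⟨d, hd, a, ha, hrel⟩ := exists_cuspRel_vec v
  have hdmem : d ∈ N.divisors := Nat.mem_divisors.mpr ⟨hd, NeZero.ne N⟩
  have hgN := gcd_dvd_N N hd
  have hgd : Nat.gcd d (N / d) ∣ d := Nat.gcd_dvd_left _ _
  have hunit : IsUnit (ZMod.castHom hgN (ZMod (Nat.gcd d (N / d))) a) := by
    have h1 := isUnit_castHom_of_isCoprime hd a ha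
    have h2 := h1.map (ZMod.castHom hgd (ZMod (Nat.gcd d (N / d))))
    have hcomp := ZMod.castHom_comp hgd hd
    rw [← hcomp]
    exact h2
  refine ⟨⟨⟨d, hdmem⟩, hunit.unit⟩, ?_⟩
  unfold cuspMap
  rw [(cuspClass_eq_iff N v _).mpr hrel, cuspClass_eq_iff]
  rw [cuspRel_vec_iff hd hgN]
  have e1 := repr_castHom N ⟨⟨d, hdmem⟩, hunit.unit⟩
  simp only at e1
  rw [e1]
  rfl

/-- `T`-orbits on `P¹(ℤ/N)` are classified by `CuspIndex N`. -/
noncomputable def cuspEquiv : CuspIndex N ≃ CuspOrbits N :=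
  Equiv.ofBijective (cuspMap N) ⟨cuspMap_injective N, cuspMap_surjective N⟩

open ModularCurve in
theorem card_cuspOrbits : Nat.card (CuspOrbits N) = cuspCount N := by
  rw [← Nat.card_congr (cuspEquiv N)]
  unfold cuspCount
  have hfin : ∀ d : {d : ℕ // d ∈ N.divisors}, NeZero (Nat.gcd d.1 (N / d.1)) := by
    intro d
    exact ⟨(Nat.gcd_pos_of_pos_left _ (Nat.pos_of_mem_divisors d.2)).ne'⟩
  rw [Nat.card_sigma]
  rw [← Finset.sum_coe_sort N.divisors (fun d => Nat.totient (Nat.gcd d (N / d)))]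
  refine Finset.sum_congr rfl fun d _ => ?_
  rw [Nat.card_eq_fintype_card, ZMod.card_units_eq_totient]

open ModularCurve in
/-- The number of `T`-orbits on `SL(2, ℤ) ⧸ Γ₀(N)` is `cuspCount N`. -/
theorem card_orbits_T :
    Nat.card (MulAction.orbitRel.Quotient (Subgroup.zpowers T) (SL(2, ℤ) ⧸ Gamma0 N))
      = cuspCount N := by
  refine (Nat.card_congr ?_).trans (card_cuspOrbits N)
  exact orbitQuotEquivOfEquivariant (cosetEquiv N) (cosetMap_smul N) (Subgroup.zpowers T)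

end Count

end Fermat.Agent.S20.H78
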