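import Mathlib
import Fermat.Prelude.Def_ModularCurve_GenusNumerics
import Fermat.Agent.S20.H78_Coset

set_option autoImplicit false

open scoped MatrixGroups
open Matrix CongruenceSubgroup

namespace Fermat.Agent.S20.H78

section Pairs

/-- Unimodular pairs (same as `Unimod`, but as a subtype of `R × R`). -/
def UnimodPair (R : Type*) [CommRing R] : Type _ := {p : R × R // IsCoprime p.1 p.2}

variable {R R' A B : Type*} [CommRing R] [CommRing R'] [CommRing A] [CommRing B]

/-- Vectors versus pairs. -/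
def unimodEquivPair : Unimod R ≃ UnimodPair R where
  toFun v := ⟨(v.1 0, v.1 1), v.2⟩
  invFun p := Unimod.mk' p.1.1 p.1.2 p.2
  left_inv v := by apply Unimod.ext' <;> rfl
  right_inv p := rfl

theorem isCoprime_ringEquiv_iff (e : R ≃+* R') (a c : R) :
    IsCoprime (e a) (e c) ↔ IsCoprime a c := by
  constructor
  · intro h
    have := h.map e.symm.toRingHom
    simpa using this
  · intro h
    exact h.map e.toRingHom

/-- Transport along a ring isomorphism. -/
def UnimodPair.congr (e : R ≃+* R') : UnimodPair R ≃ UnimodPair R' where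
  toFun p := ⟨(e p.1.1, e p.1.2), (isCoprime_ringEquiv_iff e _ _).mpr p.2⟩
  invFun p := ⟨(e.symm p.1.1, e.symm p.1.2), (isCoprime_ringEquiv_iff e.symm _ _).mpr p.2⟩
  left_inv p := by apply Subtype.ext; simp
  right_inv p := by apply Subtype.ext; simp

theorem isCoprime_prod_iff (a c : A × B) :
    IsCoprime a c ↔ IsCoprime a.1 c.1 ∧ IsCoprime a.2 c.2 := by
  constructor
  · rintro ⟨x, y, h⟩
    exact ⟨⟨x.1, y.1, congrArg Prod.fst h⟩, ⟨x.2, y.2, congrArg Prod.snd h⟩⟩
  · rintro ⟨⟨x1, y1, h1⟩, ⟨x2, y2, h2⟩⟩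
    exact ⟨(x1, x2), (y1, y2), Prod.ext h1 h2⟩

/-- Unimodular pairs over a product ring. -/
def UnimodPair.prodEquiv : UnimodPair (A × B) ≃ UnimodPair A × UnimodPair B where
  toFun p := (⟨(p.1.1.1, p.1.2.1), ((isCoprime_prod_iff _ _).mp p.2).1⟩,
    ⟨(p.1.1.2, p.1.2.2), ((isCoprime_prod_iff _ _).mp p.2).2⟩)
  invFun q := ⟨((q.1.1.1, q.2.1.1), (q.1.1.2, q.2.1.2)),
    (isCoprime_prod_iff _ _).mpr ⟨q.1.2, q.2.2⟩⟩
  left_inv p := rfl
  right_inv q := rfl

end Pairs

theorem card_unimod_mul (m n : ℕ) (h : Nat.Coprime m n) :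
    Nat.card (Unimod (ZMod (m * n))) = Nat.card (Unimod (ZMod m)) * Nat.card (Unimod (ZMod n)) := by
  rw [Nat.card_congr unimodEquivPair, Nat.card_congr unimodEquivPair,
    Nat.card_congr unimodEquivPair, ← Nat.card_prod]
  exact Nat.card_congr ((UnimodPair.congr (ZMod.chineseRemainder h)).trans UnimodPair.prodEquiv)


section PsiFacts

open ModularCurve ArithmeticFunction



/-- Squarefree indicator as an arithmetic function. -/
noncomputable def sqfreeInd : ArithmeticFunction ℕ :=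
  ⟨fun n => if Squarefree n then 1 else 0, by simp⟩

theorem sqfreeInd_apply (n : ℕ) : sqfreeInd n = if Squarefree n then 1 else 0 := rfl

theorem sqfreeInd_isMultiplicative : sqfreeInd.IsMultiplicative := by
  refine ⟨by simp [sqfreeInd_apply], ?_⟩
  intro m n h
  have hc : m.gcd n = 1 := h
  simp only [sqfreeInd_apply, Nat.squarefree_mul_iff]
  by_cases hm : Squarefree m <;> by_cases hn : Squarefree n <;> simp [hm, hn, hc]

theorem dedekindPsi_eq (N : ℕ) : dedekindPsi N = (sqfreeInd * ArithmeticFunction.id) N := by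
  rw [ArithmeticFunction.mul_apply, Nat.sum_divisorsAntidiagonal (fun a b => sqfreeInd a * ArithmeticFunction.id b)]
  unfold dedekindPsi
  rw [Finset.sum_filter]
  refine Finset.sum_congr rfl fun d _ => ?_
  simp only [sqfreeInd_apply, ArithmeticFunction.id_apply]
  split_ifs <;> simp

theorem dedekindPsi_mul {m n : ℕ} (h : Nat.Coprime m n) :
    dedekindPsi (m * n) = dedekindPsi m * dedekindPsi n := by
  rw [dedekindPsi_eq, dedekindPsi_eq, dedekindPsi_eq]
  exact (sqfreeInd_isMultiplicative.mul isMultiplicative_id).map_mul_of_coprime h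

theorem dedekindPsi_prime_pow {p k : ℕ} (hp : p.Prime) (hk : 0 < k) :
    dedekindPsi (p ^ k) = p ^ k + p ^ (k - 1) := by
  unfold dedekindPsi
  rw [Finset.sum_filter, Nat.sum_divisors_prime_pow hp]
  obtain ⟨j, rfl⟩ : ∃ j, k = j + 1 := ⟨k - 1, by omega⟩
  rw [Finset.sum_range_succ', Finset.sum_range_succ']
  have h0 : Squarefree (p ^ 0) := by simp
  have h1 : Squarefree (p ^ (0 + 1)) := by simpa using hp.squarefree
  rw [if_pos h0, if_pos h1]
  have hrest : ∑ i ∈ Finset.range j, (if Squarefree (p ^ (i + 1 + 1)) then p ^ (j + 1) / p ^ (i + 1 + 1) else 0) = 0 := by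
    refine Finset.sum_eq_zero fun i _ => ?_
    rw [if_neg]
    intro hsq
    have := (Nat.squarefree_pow_iff (n := p) (k := i + 1 + 1) hp.ne_one (by omega)).mp hsq
    omega
  rw [hrest, zero_add]
  simp only [pow_zero, Nat.div_one, zero_add, pow_one, Nat.add_sub_cancel]
  rw [pow_succ, Nat.mul_div_cancel _ hp.pos]
  ring


end PsiFacts


theorem not_isUnit_zmod_prime_pow {p k : ℕ} (hp : p.Prime) (x : ZMod (p ^ k))
    (hx : ¬ IsUnit x) : ((p : ℕ) : ZMod (p ^ k)) ∣ x := by
  have : NeZero (p ^ k) := ⟨pow_ne_zero _ hp.ne_zero⟩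
  have hx' : ¬ IsUnit ((x.val : ℕ) : ZMod (p ^ k)) := by rwa [ZMod.natCast_zmod_val]
  rw [ZMod.isUnit_iff_coprime] at hx'
  have hdvd : p ∣ x.val := by
    by_contra hnd
    exact hx' (Nat.Coprime.pow_right _ ((Nat.Prime.coprime_iff_not_dvd hp).mpr hnd).symm)
  obtain ⟨m, hm⟩ := hdvd
  refine ⟨(m : ZMod (p ^ k)), ?_⟩
  rw [← ZMod.natCast_zmod_val x, hm]
  push_cast
  rfl

theorem isCoprime_zmod_prime_pow_iff {p k : ℕ} (hp : p.Prime) (hk : 0 < k)
    (a c : ZMod (p ^ k)) : IsCoprime a c ↔ IsUnit a ∨ IsUnit c := by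
  constructor
  · intro h
    by_contra hcon
    rw [not_or] at hcon
    obtain ⟨x, y, hxy⟩ := h
    have h1 := not_isUnit_zmod_prime_pow hp a hcon.1
    have h2 := not_isUnit_zmod_prime_pow hp c hcon.2
    have h3 : ((p : ℕ) : ZMod (p ^ k)) ∣ 1 := by
      rw [← hxy]
      exact Dvd.dvd.add (Dvd.dvd.mul_left h1 _) (Dvd.dvd.mul_left h2 _)
    have h4 : IsUnit ((p : ℕ) : ZMod (p ^ k)) := isUnit_of_dvd_one h3
    rw [ZMod.isUnit_iff_coprime] at h4
    have : p ∣ Nat.gcd p (p ^ k) := Nat.dvd_gcd dvd_rfl (dvd_pow_self p hk.ne')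
    rw [h4] at this
    exact hp.one_lt.ne' (Nat.dvd_one.mp this)
  · rintro (h | h)
    · obtain ⟨u, rfl⟩ := h
      exact ⟨(u⁻¹ : (ZMod (p ^ k))ˣ), 0, by simp⟩
    · obtain ⟨u, rfl⟩ := h
      exact ⟨0, (u⁻¹ : (ZMod (p ^ k))ˣ), by simp⟩


theorem card_isUnit_subtype (R : Type*) [Monoid R] :
    Nat.card {x : R // IsUnit x} = Nat.card Rˣ := by
  refine (Nat.card_congr (Equiv.ofBijective (fun u : Rˣ => (⟨u, u.isUnit⟩ : {x : R // IsUnit x}))
    ⟨?_, ?_⟩)).symm
  · intro u v h
    exact Units.ext (congrArg Subtype.val h)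
  · rintro ⟨x, u, rfl⟩
    exact ⟨u, rfl⟩

theorem card_not_isUnit_subtype (R : Type*) [Monoid R] [Finite R] :
    Nat.card {x : R // ¬ IsUnit x} + Nat.card Rˣ = Nat.card R := by
  classical
  rw [← card_isUnit_subtype, add_comm, ← Nat.card_sum]
  exact Nat.card_congr (Equiv.sumCompl _)

theorem card_pairs_isUnit_or (R : Type*) [Monoid R] [Finite R] :
    Nat.card {q : R × R // IsUnit q.1 ∨ IsUnit q.2} + Nat.card {x : R // ¬ IsUnit x} ^ 2
      = Nat.card R ^ 2 := by
  classical
  have h1 : Nat.card {q : R × R // ¬ (IsUnit q.1 ∨ IsUnit q.2)}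
      = Nat.card {x : R // ¬ IsUnit x} ^ 2 := by
    rw [sq, ← Nat.card_prod]
    refine Nat.card_congr ?_
    refine (Equiv.subtypeEquivRight ?_).trans
      (Equiv.subtypeProdEquivProd (p := fun x : R => ¬ IsUnit x) (q := fun x : R => ¬ IsUnit x))
    intro q
    exact not_or
  rw [← h1, ← Nat.card_sum, sq, ← Nat.card_prod]
  exact Nat.card_congr (Equiv.sumCompl _)


section Free

variable {R : Type*} [CommRing R]

theorem Unimod.units_smul_injective (v : Unimod R) :
    Function.Injective (fun u : Rˣ => u • v) := by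
  intro u u' h
  have h0 := congrArg (fun w : Unimod R => w.1 0) h
  have h1 := congrArg (fun w : Unimod R => w.1 1) h
  simp only [Unimod.units_smul_apply] at h0 h1
  obtain ⟨x, y, hxy⟩ := v.2
  apply Units.ext
  have : (u : R) - u' = 0 := by
    calc (u : R) - u' = ((u : R) - u') * (x * v.1 0 + y * v.1 1) := by rw [hxy, mul_one]
      _ = x * (u * v.1 0 - u' * v.1 0) + y * (u * v.1 1 - u' * v.1 1) := by ring
      _ = 0 := by rw [h0, h1]; ring
  exact sub_eq_zero.mp this

theorem P1.exists_units_smul_out (v : Unimod R) :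
    ∃ u : Rˣ, u • (Quotient.out (P1.mk v) : Unimod R) = v := by
  have h : P1.mk v = P1.mk (Quotient.out (P1.mk v)) := (Quotient.out_eq (P1.mk v)).symm
  exact P1.mk_eq_mk.mp h

/-- Unimodular vectors are a trivial `Rˣ`-torsor over `P1 R`. -/
noncomputable def unimodEquivP1ProdUnits : Unimod R ≃ P1 R × Rˣ where
  toFun v := (P1.mk v, Classical.choose (P1.exists_units_smul_out v))
  invFun q := q.2 • (Quotient.out q.1 : Unimod R)
  left_inv v := Classical.choose_spec (P1.exists_units_smul_out v)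
  right_inv q := by
    obtain ⟨p, u⟩ := q
    have hp : P1.mk (u • (Quotient.out p : Unimod R)) = p := by
      rw [P1.mk_units_smul]
      exact Quotient.out_eq p
    refine Prod.ext hp ?_
    simp only
    have hspec := Classical.choose_spec (P1.exists_units_smul_out (u • (Quotient.out p : Unimod R)))
    generalize Classical.choose (P1.exists_units_smul_out (u • (Quotient.out p : Unimod R))) = u'
      at hspec ⊢
    rw [hp] at hspec
    exact Unimod.units_smul_injective _ hspec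

theorem card_unimod_eq_card_P1_mul [Finite R] :
    Nat.card (Unimod R) = Nat.card (P1 R) * Nat.card Rˣ := by
  rw [← Nat.card_prod]
  exact Nat.card_congr unimodEquivP1ProdUnits


end Free

open ModularCurve in
theorem card_unimod_prime_pow {p k : ℕ} (hp : p.Prime) (hk : 0 < k) :
    Nat.card (Unimod (ZMod (p ^ k))) = dedekindPsi (p ^ k) * Nat.totient (p ^ k) := by
  have hne : NeZero (p ^ k) := ⟨pow_ne_zero _ hp.ne_zero⟩
  rw [Nat.card_congr unimodEquivPair]
  have h1 : Nat.card (UnimodPair (ZMod (p ^ k)))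
      = Nat.card {q : ZMod (p ^ k) × ZMod (p ^ k) // IsUnit q.1 ∨ IsUnit q.2} :=
    Nat.card_congr (Equiv.subtypeEquivRight fun q => isCoprime_zmod_prime_pow_iff hp hk q.1 q.2)
  rw [h1]
  have h2 := card_pairs_isUnit_or (ZMod (p ^ k))
  have h3 := card_not_isUnit_subtype (ZMod (p ^ k))
  have hu : Nat.card (ZMod (p ^ k))ˣ = Nat.totient (p ^ k) := by
    rw [Nat.card_eq_fintype_card, ZMod.card_units_eq_totient]
  rw [Nat.card_zmod, hu] at h3
  rw [Nat.card_zmod] at h2
  rw [dedekindPsi_prime_pow hp hk, Nat.totient_prime_pow hp hk]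
  rw [Nat.totient_prime_pow hp hk] at h3
  obtain ⟨j, rfl⟩ : ∃ j, k = j + 1 := ⟨k - 1, by omega⟩
  obtain ⟨r, rfl⟩ : ∃ r, p = r + 1 := ⟨p - 1, by have := hp.pos; omega⟩
  simp only [Nat.add_sub_cancel] at h2 h3 ⊢
  have h4 : Nat.card {x : ZMod ((r + 1) ^ (j + 1)) // ¬ IsUnit x} = (r + 1) ^ j := by
    have : (r + 1) ^ (j + 1) = (r + 1) ^ j + (r + 1) ^ j * r := by ring
    omega
  rw [h4] at h2
  have h5 : ((r + 1) ^ (j + 1) + (r + 1) ^ j) * ((r + 1) ^ j * r) + ((r + 1) ^ j) ^ 2
      = ((r + 1) ^ (j + 1)) ^ 2 := by ring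
  omega

open ModularCurve in
theorem card_unimod_zmod (N : ℕ) (hN : N ≠ 0) :
    Nat.card (Unimod (ZMod N)) = dedekindPsi N * Nat.totient N := by
  induction N using Nat.recOnPrimeCoprime with
  | zero => exact absurd rfl hN
  | prime_pow p k hp =>
    rcases Nat.eq_zero_or_pos k with rfl | hk
    · rw [pow_zero]
      have : Subsingleton (Unimod (ZMod 1)) := by
        refine ⟨fun v w => ?_⟩
        apply Unimod.ext' <;> exact Subsingleton.elim _ _
      have hne : Nonempty (Unimod (ZMod 1)) := ⟨baseVec 1⟩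
      rw [Nat.card_unique, dedekindPsi_one, Nat.totient_one]
    · exact card_unimod_prime_pow hp hk
  | coprime a b ha hb hab iha ihb =>
    rw [card_unimod_mul a b hab, iha (by omega), ihb (by omega), dedekindPsi_mul hab,
      Nat.totient_mul hab]
    ring

open ModularCurve in
/-- `#P¹(ℤ/N) = ψ(N)`. -/
theorem card_P1_zmod (N : ℕ) [NeZero N] : Nat.card (P1 (ZMod N)) = dedekindPsi N := by
  have h1 := card_unimod_zmod N (NeZero.ne N)
  rw [card_unimod_eq_card_P1_mul, Nat.card_eq_fintype_card (α := (ZMod N)ˣ),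
    ZMod.card_units_eq_totient] at h1
  exact Nat.eq_of_mul_eq_mul_right (Nat.totient_pos.mpr (Nat.pos_of_ne_zero (NeZero.ne N))) h1

open ModularCurve in
/-- The index of `Γ₀(N)` in `SL(2, ℤ)` is `ψ(N)`. -/
theorem card_quotient_Gamma0 (N : ℕ) [NeZero N] :
    Nat.card (SL(2, ℤ) ⧸ Gamma0 N) = dedekindPsi N := by
  rw [Nat.card_congr (cosetEquiv N), card_P1_zmod]

open ModularCurve in
theorem index_Gamma0 (N : ℕ) [NeZero N] : (Gamma0 N).index = dedekindPsi N :=
  card_quotient_Gamma0 N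

end Fermat.Agent.S20.H78
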