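import Mathlib
import Fermat.Prelude.Def_ModularCurve_GenusNumerics
import Fermat.Agent.S20.H78_Index
import Fermat.Agent.S20.H78_Fixed
import Fermat.Agent.S20.H78_Cusps

set_option autoImplicit false

open scoped MatrixGroups
open Matrix CongruenceSubgroup

namespace Fermat.Agent.S20.H78

open ModularCurve

/-- Subtype form of `card_fixedBy_S`. -/
theorem card_subtype_fixed_S (N : ℕ) [NeZero N] :
    Nat.card {x : SL(2, ℤ) ⧸ Gamma0 N // ModularGroup.S • x = x} = nuTwo N :=
  card_fixedBy_S N

/-- Subtype form of `card_fixedBy_ST`. -/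
theorem card_subtype_fixed_ST (N : ℕ) [NeZero N] :
    Nat.card {x : SL(2, ℤ) ⧸ Gamma0 N // (ModularGroup.S * ModularGroup.T) • x = x}
      = nuThree N :=
  card_fixedBy_ST N

/-- `Fintype.card` form of the index (for any `Fintype` instance). -/
theorem fintype_card_quotient_Gamma0 (N : ℕ) [NeZero N] [Fintype (SL(2, ℤ) ⧸ Gamma0 N)] :
    Fintype.card (SL(2, ℤ) ⧸ Gamma0 N) = dedekindPsi N := by
  rw [← Nat.card_eq_fintype_card, card_quotient_Gamma0]

/-- `T`-orbit count with the `Subgroup.instMulAction` instance spelled out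
(the form obtained by specialising an abstract `SL(2, ℤ)`-set to the coset space). -/
theorem card_orbits_T_inst (N : ℕ) [NeZero N] :
    Nat.card (@MulAction.orbitRel.Quotient (Subgroup.zpowers ModularGroup.T)
      (SL(2, ℤ) ⧸ Gamma0 N) _ Subgroup.instMulAction) = cuspCount N :=
  card_orbits_T N

/-- The last arithmetic step: the integer identity delivered by the abstract dimension count
is the rational genus formula. -/
theorem eq_genusFormula_of_twelve_mul (N : ℕ) (r : ℕ)
    (h : 12 * (r : ℤ) = 12 + (dedekindPsi N : ℤ) - 3 * (nuTwo N : ℤ) - 4 * (nuThree N : ℤ)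
      - 6 * (cuspCount N : ℤ)) : (r : ℚ) = genusFormula N := by
  unfold genusFormula
  have h' : (12 : ℚ) * r = 12 + (dedekindPsi N : ℚ) - 3 * (nuTwo N : ℚ) - 4 * (nuThree N : ℚ)
      - 6 * (cuspCount N : ℚ) := by exact_mod_cast h
  linarith

end Fermat.Agent.S20.H78
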