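import Mathlib
import Fermat.Prelude.Def_ModularCurve_GenusNumerics

set_option autoImplicit false

namespace Fermat.Agent.S20.H86

open ModularCurve

section Basic

variable {N : ℕ} [NeZero N]

/-- An element of `ZMod N` killed by reduction mod `m ∣ N` is a multiple of `m`. -/
lemma exists_eq_natCast_mul_of_castHom_eq_zero {m : ℕ} (hm : m ∣ N) (z : ZMod N)
    (h : ZMod.castHom hm (ZMod m) z = 0) : ∃ t : ZMod N, z = (m : ZMod N) * t := by
  rw [ZMod.castHom_apply, ZMod.cast_eq_val, ZMod.natCast_eq_zero_iff] at h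
  obtain ⟨t, ht⟩ := h
  refine ⟨(t : ZMod N), ?_⟩
  rw [← Nat.cast_mul, ← ht, ZMod.natCast_zmod_val]

omit [NeZero N] in
lemma castHom_natCast_mul_eq_zero {m : ℕ} (hm : m ∣ N) (t : ZMod N) :
    ZMod.castHom hm (ZMod m) ((m : ZMod N) * t) = 0 := by
  rw [map_mul, map_natCast, ZMod.natCast_self, zero_mul]

/-- If `a ≡ b` mod `e` and `d * e = N` then `a * d = b * d` in `ZMod N`. -/
lemma mul_natCast_eq_of_castHom_eq {d e : ℕ} (hde : d * e = N) (a b : ZMod N)
    (h : ZMod.castHom (Dvd.intro_left d hde) (ZMod e) a =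
      ZMod.castHom (Dvd.intro_left d hde) (ZMod e) b) :
    a * (d : ZMod N) = b * (d : ZMod N) := by
  have h0 : ZMod.castHom (Dvd.intro_left d hde) (ZMod e) (a - b) = 0 := by
    rw [map_sub, h, sub_self]
  obtain ⟨t, ht⟩ := exists_eq_natCast_mul_of_castHom_eq_zero _ _ h0
  have h1 : (a - b) * (d : ZMod N) = 0 := by
    rw [ht, mul_comm, ← mul_assoc, ← Nat.cast_mul, hde, ZMod.natCast_self, zero_mul]
  rw [sub_mul] at h1
  exact sub_eq_zero.mp h1

/-- Converse: if `a * d = b * d` in `ZMod N` and `d * e = N` then `a ≡ b` mod `e`. -/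
lemma castHom_eq_of_mul_natCast_eq {d e : ℕ} (hde : d * e = N) (a b : ZMod N)
    (h : a * (d : ZMod N) = b * (d : ZMod N)) :
    ZMod.castHom (Dvd.intro_left d hde) (ZMod e) a =
      ZMod.castHom (Dvd.intro_left d hde) (ZMod e) b := by
  have hd0 : d ≠ 0 := by
    rintro rfl
    rw [zero_mul] at hde
    exact NeZero.ne N hde.symm
  have h1 : (a - b) * (d : ZMod N) = 0 := by rw [sub_mul, h, sub_self]
  have h2 : (((a - b).val * d : ℕ) : ZMod N) = 0 := by
    rw [Nat.cast_mul, ZMod.natCast_zmod_val, h1]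
  rw [ZMod.natCast_eq_zero_iff] at h2
  have h3 : e ∣ (a - b).val := by
    have h2' : e * d ∣ (a - b).val * d := by
      rw [mul_comm e d, hde]
      exact h2
    exact Nat.dvd_of_mul_dvd_mul_right (Nat.pos_of_ne_zero hd0) h2'
  have h4 : ZMod.castHom (Dvd.intro_left d hde) (ZMod e) (a - b) = 0 := by
    rw [ZMod.castHom_apply, ZMod.cast_eq_val, ZMod.natCast_eq_zero_iff]
    exact h3
  rw [map_sub] at h4
  exact sub_eq_zero.mp h4

/-- Every `y : ZMod N` is a unit multiple of `gcd y.val N`. -/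
lemma exists_unit_mul_gcd (y : ZMod N) :
    ∃ v : (ZMod N)ˣ, y = (v : ZMod N) * ((Nat.gcd y.val N : ℕ) : ZMod N) := by
  set d := Nat.gcd y.val N with hd
  have hNpos : 0 < N := Nat.pos_of_ne_zero (NeZero.ne N)
  have hdpos : 0 < d := Nat.gcd_pos_of_pos_right _ hNpos
  have hdN : d ∣ N := Nat.gcd_dvd_right _ _
  have hde : d * (N / d) = N := Nat.mul_div_cancel' hdN
  have hcop : (y.val / d).Coprime (N / d) := Nat.coprime_div_gcd_div_gcd hdpos
  have heN : N / d ∣ N := Dvd.intro_left d hde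
  have : NeZero (N / d) := ⟨by
    intro h0
    rw [h0, mul_zero] at hde
    exact (NeZero.ne N) hde.symm⟩
  obtain ⟨v, hv⟩ := ZMod.unitsMap_surjective heN (ZMod.unitOfCoprime (y.val / d) hcop)
  refine ⟨v, ?_⟩
  have hv' : ZMod.castHom heN (ZMod (N / d)) (v : ZMod N) =
      ZMod.castHom heN (ZMod (N / d)) ((y.val / d : ℕ) : ZMod N) := by
    have := congrArg (fun u : (ZMod (N / d))ˣ => (u : ZMod (N / d))) hv
    simp only [ZMod.unitsMap_def, Units.coe_map, MonoidHom.coe_coe,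
      ZMod.coe_unitOfCoprime] at this
    rw [this, map_natCast]
  have h1 := mul_natCast_eq_of_castHom_eq hde _ _ hv'
  rw [h1, ← Nat.cast_mul, Nat.div_mul_cancel (Nat.gcd_dvd_left _ _), ZMod.natCast_zmod_val]

/-- CRT for units: a unit mod `d` and a unit mod `e` agreeing mod `gcd d e` come from a unit
mod `d * e = N`. -/
lemma exists_unit_castHom_eq {d e : ℕ} (hde : d * e = N)
    (α : (ZMod d)ˣ) (β : (ZMod e)ˣ)
    (h : ZMod.castHom (Nat.gcd_dvd_left d e) (ZMod (Nat.gcd d e)) (α : ZMod d) =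
      ZMod.castHom (Nat.gcd_dvd_right d e) (ZMod (Nat.gcd d e)) (β : ZMod e)) :
    ∃ u : (ZMod N)ˣ, ZMod.castHom (Dvd.intro e hde) (ZMod d) (u : ZMod N) = α ∧
      ZMod.castHom (Dvd.intro_left d hde) (ZMod e) (u : ZMod N) = β := by
  have hd0 : d ≠ 0 := by
    rintro rfl
    rw [zero_mul] at hde
    exact NeZero.ne N hde.symm
  have he0 : e ≠ 0 := by
    rintro rfl
    rw [mul_zero] at hde
    exact NeZero.ne N hde.symm
  have : NeZero d := ⟨hd0⟩
  have : NeZero e := ⟨he0⟩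
  rw [ZMod.castHom_apply, ZMod.castHom_apply, ZMod.cast_eq_val, ZMod.cast_eq_val,
    ZMod.natCast_eq_natCast_iff] at h
  obtain ⟨k, hk1, hk2⟩ := Nat.chineseRemainder' h
  have hkd : k.Coprime d := by
    have := hk1.gcd_eq
    rw [Nat.Coprime, this]
    exact ZMod.val_coe_unit_coprime α
  have hke : k.Coprime e := by
    have := hk2.gcd_eq
    rw [Nat.Coprime, this]
    exact ZMod.val_coe_unit_coprime β
  have hkN : k.Coprime N := by
    rw [← hde]
    exact Nat.Coprime.mul_right hkd hke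
  refine ⟨ZMod.unitOfCoprime k hkN, ?_, ?_⟩
  · rw [ZMod.coe_unitOfCoprime, map_natCast, (ZMod.natCast_eq_natCast_iff _ _ _).mpr hk1,
      ZMod.natCast_zmod_val]
  · rw [ZMod.coe_unitOfCoprime, map_natCast, (ZMod.natCast_eq_natCast_iff _ _ _).mpr hk2,
      ZMod.natCast_zmod_val]

omit [NeZero N] in
/-- `gcd y.val N` is invariant under multiplication by a unit. -/
lemma gcd_val_unit_mul (u : (ZMod N)ˣ) (y : ZMod N) :
    Nat.gcd ((u : ZMod N) * y).val N = Nat.gcd y.val N := by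
  have h1 : ((u : ZMod N) * y).val ≡ (u : ZMod N).val * y.val [MOD N] := by
    rw [ZMod.val_mul]
    exact Nat.mod_modEq _ _
  rw [h1.gcd_eq]
  exact Nat.Coprime.gcd_mul_left_cancel _ (ZMod.val_coe_unit_coprime u)

end Basic

section Model

variable (N : ℕ)

/-- Primitive pairs in `(ZMod N)²` (columns of elements of `SL(2, ℤ)` reduced mod `N`). -/
def Prim : Type := {p : ZMod N × ZMod N // ∃ a b : ZMod N, a * p.1 + b * p.2 = 1}

/-- Two primitive pairs define the same cusp of `Γ₀(N)`: they differ by a unit scalar and a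
power of `T = [1, 1; 0, 1]`. -/
def cuspRel (p q : Prim N) : Prop :=
  ∃ (u : (ZMod N)ˣ) (n : ZMod N),
    q.1.1 = (u : ZMod N) * (p.1.1 + n * p.1.2) ∧ q.1.2 = (u : ZMod N) * p.1.2

lemma cuspRel_refl (p : Prim N) : cuspRel N p p :=
  ⟨1, 0, by simp, by simp⟩

lemma cuspRel_symm {p q : Prim N} (h : cuspRel N p q) : cuspRel N q p := by
  obtain ⟨u, n, h1, h2⟩ := h
  refine ⟨u⁻¹, -n, ?_, ?_⟩
  · rw [h1, h2]
    have : ((u⁻¹ : (ZMod N)ˣ) : ZMod N) * (u : ZMod N) = 1 := by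
      rw [← Units.val_mul, inv_mul_cancel, Units.val_one]
    linear_combination (-(p.1.1)) * this
  · rw [h2, ← mul_assoc, ← Units.val_mul, inv_mul_cancel, Units.val_one, one_mul]

lemma cuspRel_trans {p q r : Prim N} (h : cuspRel N p q) (h' : cuspRel N q r) :
    cuspRel N p r := by
  obtain ⟨u, n, h1, h2⟩ := h
  obtain ⟨u', n', h1', h2'⟩ := h'
  refine ⟨u' * u, n + n', ?_, ?_⟩
  · rw [h1', h1, h2, Units.val_mul]
    ring
  · rw [h2', h2, Units.val_mul]
    ring

/-- The setoid on primitive pairs whose classes are the cusps of `Γ₀(N)`. -/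
def cuspSetoid : Setoid (Prim N) :=
  ⟨cuspRel N, cuspRel_refl N, cuspRel_symm N, cuspRel_trans N⟩

variable [NeZero N]

/-- First invariant of a cusp: `gcd(y, N)`. -/
def dd (p : Prim N) : ℕ := Nat.gcd p.1.2.val N

/-- `gcd(d, N / d)`. -/
def gg (d : ℕ) : ℕ := Nat.gcd d (N / d)

omit [NeZero N] in
lemma dd_dvd (p : Prim N) : dd N p ∣ N := Nat.gcd_dvd_right _ _

lemma dd_pos (p : Prim N) : 0 < dd N p :=
  Nat.gcd_pos_of_pos_right _ (Nat.pos_of_ne_zero (NeZero.ne N))

omit [NeZero N] in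
lemma gg_dvd_left (d : ℕ) : gg N d ∣ d := Nat.gcd_dvd_left _ _

omit [NeZero N] in
lemma gg_dvd_right (d : ℕ) : gg N d ∣ N / d := Nat.gcd_dvd_right _ _

omit [NeZero N] in
lemma gg_dvd {d : ℕ} (hd : d ∣ N) : gg N d ∣ N := (gg_dvd_left N d).trans hd

lemma gg_pos {d : ℕ} (hd : d ∣ N) : 0 < gg N d :=
  Nat.gcd_pos_of_pos_left _ (Nat.pos_of_dvd_of_pos hd (Nat.pos_of_ne_zero (NeZero.ne N)))

/-- A chosen unit `v` with `y = v * gcd(y, N)`. -/
noncomputable def vv (p : Prim N) : (ZMod N)ˣ := (exists_unit_mul_gcd p.1.2).choose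

lemma vv_spec (p : Prim N) : p.1.2 = (vv N p : ZMod N) * ((dd N p : ℕ) : ZMod N) :=
  (exists_unit_mul_gcd p.1.2).choose_spec

/-- Second invariant of a cusp: the residue of `v⁻¹ x` modulo `gcd(d, N / d)`. -/
noncomputable def rr (p : Prim N) : ℕ :=
  ((((vv N p)⁻¹ : (ZMod N)ˣ) : ZMod N) * p.1.1).val % gg N (dd N p)

omit [NeZero N] in
lemma val_mod_eq_iff {m : ℕ} (hm : m ∣ N) (z z' : ZMod N) [NeZero N] :
    z.val % m = z'.val % m ↔
      ZMod.castHom hm (ZMod m) z = ZMod.castHom hm (ZMod m) z' := by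
  rw [ZMod.castHom_apply, ZMod.castHom_apply, ZMod.cast_eq_val, ZMod.cast_eq_val,
    ZMod.natCast_eq_natCast_iff]
  rfl

omit [NeZero N] in
lemma castHom_eq_of_dvd {m m' : ℕ} (hm : m ∣ m') (hm' : m' ∣ N) (z z' : ZMod N)
    (h : ZMod.castHom hm' (ZMod m') z = ZMod.castHom hm' (ZMod m') z') :
    ZMod.castHom (hm.trans hm') (ZMod m) z = ZMod.castHom (hm.trans hm') (ZMod m) z' := by
  rw [← ZMod.castHom_comp hm hm', RingHom.comp_apply, RingHom.comp_apply, h]

/-- `rr` can be computed with any unit `v` such that `y = v * d`. -/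
lemma rr_eq (p : Prim N) (v : (ZMod N)ˣ)
    (hv : p.1.2 = (v : ZMod N) * ((dd N p : ℕ) : ZMod N)) :
    (((v⁻¹ : (ZMod N)ˣ) : ZMod N) * p.1.1).val % gg N (dd N p) = rr N p := by
  have hdN := dd_dvd N p
  have hde : dd N p * (N / dd N p) = N := Nat.mul_div_cancel' hdN
  have h1 : (v : ZMod N) * ((dd N p : ℕ) : ZMod N) =
      (vv N p : ZMod N) * ((dd N p : ℕ) : ZMod N) := by rw [← hv, ← vv_spec]
  have h2 := castHom_eq_of_mul_natCast_eq hde _ _ h1
  have h3 := castHom_eq_of_dvd N (gg_dvd_right N (dd N p)) (Dvd.intro_left _ hde) _ _ h2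
  rw [rr, val_mod_eq_iff N ((gg_dvd_right N (dd N p)).trans (Dvd.intro_left _ hde))]
  rw [map_mul, map_mul]
  congr 1
  -- images of inverse units agree
  have h4 : ∀ w : (ZMod N)ˣ, ZMod.castHom ((gg_dvd_right N (dd N p)).trans (Dvd.intro_left _ hde))
      (ZMod (gg N (dd N p))) ((w⁻¹ : (ZMod N)ˣ) : ZMod N) =
      ((Units.map (ZMod.castHom ((gg_dvd_right N (dd N p)).trans (Dvd.intro_left _ hde))
      (ZMod (gg N (dd N p))) : ZMod N →* ZMod (gg N (dd N p))) w)⁻¹ : (ZMod (gg N (dd N p)))ˣ) := by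
    intro w
    rw [← map_inv]
    rfl
  rw [h4, h4]
  congr 2
  ext
  exact h3

/-- The second coordinate reduces to `0` modulo `d = gcd(y, N)`. -/
lemma castHom_dd_snd (p : Prim N) :
    ZMod.castHom (dd_dvd N p) (ZMod (dd N p)) p.1.2 = 0 := by
  rw [vv_spec N p, map_mul, map_natCast, ZMod.natCast_self, mul_zero]

/-- The first coordinate of a primitive pair is a unit modulo `d = gcd(y, N)`. -/
lemma isUnit_castHom_dd_fst (p : Prim N) :
    IsUnit (ZMod.castHom (dd_dvd N p) (ZMod (dd N p)) p.1.1) := by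
  obtain ⟨a, b, hab⟩ := p.2
  have h := congrArg (ZMod.castHom (dd_dvd N p) (ZMod (dd N p))) hab
  rw [map_add, map_mul, map_mul, castHom_dd_snd, mul_zero, add_zero, map_one] at h
  exact IsUnit.of_mul_eq_one _ (by rw [mul_comm]; exact h)

omit [NeZero N] in
/-- Invariance of `dd` along `cuspRel`. -/
lemma dd_eq_of_cuspRel {p q : Prim N} (h : cuspRel N p q) : dd N q = dd N p := by
  obtain ⟨u, n, -, h2⟩ := h
  rw [dd, dd, h2, gcd_val_unit_mul]

/-- Invariance of `rr` along `cuspRel`. -/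
lemma rr_eq_of_cuspRel {p q : Prim N} (h : cuspRel N p q) : rr N q = rr N p := by
  have hd := dd_eq_of_cuspRel N h
  obtain ⟨u, n, h1, h2⟩ := h
  have hv : q.1.2 = ((u * vv N p : (ZMod N)ˣ) : ZMod N) * ((dd N q : ℕ) : ZMod N) := by
    rw [h2, hd, Units.val_mul, mul_assoc, ← vv_spec]
  rw [← rr_eq N q _ hv, hd, rr]
  have hgN : gg N (dd N p) ∣ N := gg_dvd N (dd_dvd N p)
  rw [val_mod_eq_iff N hgN]
  have hinv : (((u * vv N p)⁻¹ : (ZMod N)ˣ) : ZMod N) * q.1.1 =
      (((vv N p)⁻¹ : (ZMod N)ˣ) : ZMod N) * p.1.1 + n * ((dd N p : ℕ) : ZMod N) := by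
    rw [h1, mul_inv_rev, Units.val_mul]
    have hu : ((u⁻¹ : (ZMod N)ˣ) : ZMod N) * (u : ZMod N) = 1 := by
      rw [← Units.val_mul, inv_mul_cancel, Units.val_one]
    have hvv : (((vv N p)⁻¹ : (ZMod N)ˣ) : ZMod N) * (vv N p : ZMod N) = 1 := by
      rw [← Units.val_mul, inv_mul_cancel, Units.val_one]
    have hy := vv_spec N p
    rw [hy]
    linear_combination ((((vv N p)⁻¹ : (ZMod N)ˣ) : ZMod N) * p.1.1 +
      n * ((dd N p : ℕ) : ZMod N)) * hu +
      (n * ((dd N p : ℕ) : ZMod N) * ((u⁻¹ : (ZMod N)ˣ) : ZMod N) * (u : ZMod N)) * hvv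
  have hz : ZMod.castHom hgN (ZMod (gg N (dd N p))) (n * ((dd N p : ℕ) : ZMod N)) = 0 := by
    rw [map_mul, map_natCast, (ZMod.natCast_eq_zero_iff _ _).mpr (gg_dvd_left N _), mul_zero]
  rw [hinv, map_add, hz, add_zero]

lemma isUnit_castHom_fst (p : Prim N) {d : ℕ} (hd : dd N p = d) (hdN : d ∣ N) :
    IsUnit (ZMod.castHom hdN (ZMod d) p.1.1) := by
  subst hd
  exact isUnit_castHom_dd_fst N p

/-- Completeness of the invariants `(dd, rr)`. -/
lemma cuspRel_of_inv {p q : Prim N} (hd : dd N q = dd N p) (hr : rr N q = rr N p) :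
    cuspRel N p q := by
  have hdN : dd N p ∣ N := dd_dvd N p
  have hde : dd N p * (N / dd N p) = N := Nat.mul_div_cancel' hdN
  have heN : N / dd N p ∣ N := Dvd.intro_left _ hde
  have hgd : gg N (dd N p) ∣ dd N p := gg_dvd_left N _
  have hge : gg N (dd N p) ∣ N / dd N p := gg_dvd_right N _
  have hgN : gg N (dd N p) ∣ N := hgd.trans hdN
  have hxp : IsUnit (ZMod.castHom hdN (ZMod (dd N p)) p.1.1) := isUnit_castHom_fst N p rfl hdN
  have hxq : IsUnit (ZMod.castHom hdN (ZMod (dd N p)) q.1.1) := isUnit_castHom_fst N q hd hdN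
  have hyq : q.1.2 = (vv N q : ZMod N) * ((dd N p : ℕ) : ZMod N) := by
    have := vv_spec N q
    rw [hd] at this
    exact this
  have hrq : rr N q = ((((vv N q)⁻¹ : (ZMod N)ˣ) : ZMod N) * q.1.1).val % gg N (dd N p) := by
    rw [rr, hd]
  have hG : ZMod.castHom hgN (ZMod (gg N (dd N p))) ((((vv N q)⁻¹ : (ZMod N)ˣ) : ZMod N) * q.1.1) =
      ZMod.castHom hgN (ZMod (gg N (dd N p))) ((((vv N p)⁻¹ : (ZMod N)ˣ) : ZMod N) * p.1.1) := by
    rw [← val_mod_eq_iff N hgN, ← hrq, hr]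
    rfl
  -- the two units to be glued
  set α : (ZMod (dd N p))ˣ := hxq.unit * hxp.unit⁻¹ with hα
  set β : (ZMod (N / dd N p))ˣ :=
    Units.map (ZMod.castHom heN (ZMod (N / dd N p)) : ZMod N →* ZMod (N / dd N p))
      (vv N q * (vv N p)⁻¹) with hβ
  have hα1 : (α : ZMod (dd N p)) * ZMod.castHom hdN (ZMod (dd N p)) p.1.1 =
      ZMod.castHom hdN (ZMod (dd N p)) q.1.1 := by
    have h1 : (α * hxp.unit : (ZMod (dd N p))ˣ) = hxq.unit := by
      rw [hα, inv_mul_cancel_right]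
    have h2 := congrArg (fun w : (ZMod (dd N p))ˣ => (w : ZMod (dd N p))) h1
    simpa using h2
  have hβ1 : (β : ZMod (N / dd N p)) * ZMod.castHom heN (ZMod (N / dd N p)) (vv N p : ZMod N) =
      ZMod.castHom heN (ZMod (N / dd N p)) (vv N q : ZMod N) := by
    have h1 : β * Units.map (ZMod.castHom heN (ZMod (N / dd N p)) : ZMod N →* ZMod (N / dd N p))
        (vv N p) = Units.map (ZMod.castHom heN (ZMod (N / dd N p)) : ZMod N →* ZMod (N / dd N p))
        (vv N q) := by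
      rw [hβ, ← map_mul, inv_mul_cancel_right]
    have h2 := congrArg (fun w : (ZMod (N / dd N p))ˣ => (w : ZMod (N / dd N p))) h1
    simpa using h2
  -- compatibility modulo g
  have hcompat : ZMod.castHom (Nat.gcd_dvd_left (dd N p) (N / dd N p))
      (ZMod (Nat.gcd (dd N p) (N / dd N p))) (α : ZMod (dd N p)) =
      ZMod.castHom (Nat.gcd_dvd_right (dd N p) (N / dd N p))
      (ZMod (Nat.gcd (dd N p) (N / dd N p))) (β : ZMod (N / dd N p)) := by
    have hA := congrArg (ZMod.castHom hgd (ZMod (gg N (dd N p)))) hα1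
    have hB := congrArg (ZMod.castHom hge (ZMod (gg N (dd N p)))) hβ1
    rw [map_mul, ← RingHom.comp_apply, ← RingHom.comp_apply, ZMod.castHom_comp] at hA hB
    have hG' := hG
    rw [map_mul, map_mul] at hG'
    -- units
    have huq : ZMod.castHom hgN (ZMod (gg N (dd N p))) (((vv N q)⁻¹ : (ZMod N)ˣ) : ZMod N) *
        ZMod.castHom hgN (ZMod (gg N (dd N p))) (vv N q : ZMod N) = 1 := by
      rw [← map_mul, ← Units.val_mul, inv_mul_cancel, Units.val_one, map_one]
    have hup : ZMod.castHom hgN (ZMod (gg N (dd N p))) (((vv N p)⁻¹ : (ZMod N)ˣ) : ZMod N) *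
        ZMod.castHom hgN (ZMod (gg N (dd N p))) (vv N p : ZMod N) = 1 := by
      rw [← map_mul, ← Units.val_mul, inv_mul_cancel, Units.val_one, map_one]
    have hxpu : IsUnit (ZMod.castHom hgN (ZMod (gg N (dd N p))) p.1.1) := by
      have := hxp.map (ZMod.castHom hgd (ZMod (gg N (dd N p))))
      rwa [← RingHom.comp_apply, ZMod.castHom_comp] at this
    have hvqu : IsUnit (ZMod.castHom hgN (ZMod (gg N (dd N p))) (((vv N q)⁻¹ : (ZMod N)ˣ) : ZMod N)) :=
      IsUnit.of_mul_eq_one _ huq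
    apply hxpu.mul_left_injective
    apply hvqu.mul_right_injective
    show _ * (_ * _) = _ * (_ * _)
    have e1 : ZMod.castHom hgN (ZMod (gg N (dd N p))) (((vv N q)⁻¹ : (ZMod N)ˣ) : ZMod N) *
        (ZMod.castHom hgd (ZMod (gg N (dd N p))) (α : ZMod (dd N p)) *
          ZMod.castHom hgN (ZMod (gg N (dd N p))) p.1.1) =
        ZMod.castHom hgN (ZMod (gg N (dd N p))) (((vv N p)⁻¹ : (ZMod N)ˣ) : ZMod N) *
          ZMod.castHom hgN (ZMod (gg N (dd N p))) p.1.1 := by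
      rw [hA, hG']
    have e2 : ZMod.castHom hgN (ZMod (gg N (dd N p))) (((vv N q)⁻¹ : (ZMod N)ˣ) : ZMod N) *
        (ZMod.castHom hge (ZMod (gg N (dd N p))) (β : ZMod (N / dd N p)) *
          ZMod.castHom hgN (ZMod (gg N (dd N p))) p.1.1) =
        ZMod.castHom hgN (ZMod (gg N (dd N p))) (((vv N p)⁻¹ : (ZMod N)ˣ) : ZMod N) *
          ZMod.castHom hgN (ZMod (gg N (dd N p))) p.1.1 := by
      linear_combination
        (ZMod.castHom hgN (ZMod (gg N (dd N p))) (((vv N q)⁻¹ : (ZMod N)ˣ) : ZMod N) *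
          ZMod.castHom hgN (ZMod (gg N (dd N p))) (((vv N p)⁻¹ : (ZMod N)ˣ) : ZMod N) *
          ZMod.castHom hgN (ZMod (gg N (dd N p))) p.1.1) * hB +
        (ZMod.castHom hgN (ZMod (gg N (dd N p))) (((vv N p)⁻¹ : (ZMod N)ˣ) : ZMod N) *
          ZMod.castHom hgN (ZMod (gg N (dd N p))) p.1.1) * huq -
        (ZMod.castHom hgN (ZMod (gg N (dd N p))) (((vv N q)⁻¹ : (ZMod N)ˣ) : ZMod N) *
          ZMod.castHom hge (ZMod (gg N (dd N p))) (β : ZMod (N / dd N p)) *
          ZMod.castHom hgN (ZMod (gg N (dd N p))) p.1.1) * hup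
    exact e1.trans e2.symm
  obtain ⟨u, hu1, hu2⟩ := exists_unit_castHom_eq hde α β hcompat
  -- second coordinate
  have hy : q.1.2 = (u : ZMod N) * p.1.2 := by
    rw [hyq, vv_spec N p, ← mul_assoc]
    refine (mul_natCast_eq_of_castHom_eq hde _ _ ?_).symm
    rw [map_mul, hu2, hβ1]
  -- first coordinate
  have hz : ZMod.castHom hdN (ZMod (dd N p)) (q.1.1 - (u : ZMod N) * p.1.1) = 0 := by
    rw [map_sub, map_mul, hu1, hα1, sub_self]
  obtain ⟨t, ht⟩ := exists_eq_natCast_mul_of_castHom_eq_zero hdN _ hz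
  refine ⟨u, ((u⁻¹ : (ZMod N)ˣ) : ZMod N) * (((vv N p)⁻¹ : (ZMod N)ˣ) : ZMod N) * t, ?_, hy⟩
  have hu : (u : ZMod N) * ((u⁻¹ : (ZMod N)ˣ) : ZMod N) = 1 := by
    rw [← Units.val_mul, mul_inv_cancel, Units.val_one]
  have hvv : (((vv N p)⁻¹ : (ZMod N)ˣ) : ZMod N) * (vv N p : ZMod N) = 1 := by
    rw [← Units.val_mul, inv_mul_cancel, Units.val_one]
  rw [vv_spec N p]
  linear_combination ht - (((dd N p : ℕ) : ZMod N) * t * ((vv N p)⁻¹ : (ZMod N)ˣ) * (vv N p : ZMod N)) * hu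
    - (((dd N p : ℕ) : ZMod N) * t) * hvv

lemma rr_lt (p : Prim N) : rr N p < gg N (dd N p) :=
  Nat.mod_lt _ (gg_pos N (dd_dvd N p))

lemma coprime_rr (p : Prim N) : (gg N (dd N p)).Coprime (rr N p) := by
  have hdN : dd N p ∣ N := dd_dvd N p
  have hgd : gg N (dd N p) ∣ dd N p := gg_dvd_left N _
  have hgN : gg N (dd N p) ∣ N := hgd.trans hdN
  have hxp : IsUnit (ZMod.castHom hdN (ZMod (dd N p)) p.1.1) := isUnit_castHom_dd_fst N p
  have hxpu : IsUnit (ZMod.castHom hgN (ZMod (gg N (dd N p))) p.1.1) := by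
    have := hxp.map (ZMod.castHom hgd (ZMod (gg N (dd N p))))
    rwa [← RingHom.comp_apply, ZMod.castHom_comp] at this
  have hv : IsUnit (ZMod.castHom hgN (ZMod (gg N (dd N p)))
      (((vv N p)⁻¹ : (ZMod N)ˣ) : ZMod N)) := ((vv N p)⁻¹).isUnit.map _
  have hz : IsUnit (ZMod.castHom hgN (ZMod (gg N (dd N p)))
      ((((vv N p)⁻¹ : (ZMod N)ˣ) : ZMod N) * p.1.1)) := by
    rw [map_mul]
    exact hv.mul hxpu
  have hval : (ZMod.castHom hgN (ZMod (gg N (dd N p)))
      ((((vv N p)⁻¹ : (ZMod N)ˣ) : ZMod N) * p.1.1)).val = rr N p := by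
    rw [ZMod.castHom_apply, ZMod.cast_eq_val, ZMod.val_natCast]
    rfl
  rw [← hval, Nat.coprime_comm]
  exact ZMod.val_coe_unit_coprime hz.unit

/-- Every admissible pair of invariants is attained. -/
lemma exists_prim_of_inv {d r : ℕ} (hdN : d ∣ N) (hr : r < gg N d) (hcop : (gg N d).Coprime r) :
    ∃ p : Prim N, dd N p = d ∧ rr N p = r := by
  have hNpos : 0 < N := Nat.pos_of_ne_zero (NeZero.ne N)
  have hdpos : 0 < d := Nat.pos_of_dvd_of_pos hdN hNpos
  have : NeZero d := ⟨hdpos.ne'⟩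
  have hgd : gg N d ∣ d := gg_dvd_left N d
  have hgN : gg N d ∣ N := hgd.trans hdN
  obtain ⟨α, hα⟩ := ZMod.unitsMap_surjective hgd (ZMod.unitOfCoprime r hcop.symm)
  have hα' : ZMod.castHom hgd (ZMod (gg N d)) (α : ZMod d) = (r : ZMod (gg N d)) := by
    have := congrArg (fun u : (ZMod (gg N d))ˣ => (u : ZMod (gg N d))) hα
    simpa [ZMod.unitsMap_def] using this
  -- the point
  set x : ZMod N := ((α : ZMod d).val : ZMod N) with hx
  set a : ZMod N := (((α⁻¹ : (ZMod d)ˣ) : ZMod d).val : ZMod N) with ha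
  have hxd : ZMod.castHom hdN (ZMod d) x = α := by
    rw [hx, map_natCast, ZMod.natCast_zmod_val]
  have had : ZMod.castHom hdN (ZMod d) a = ((α⁻¹ : (ZMod d)ˣ) : ZMod d) := by
    rw [ha, map_natCast, ZMod.natCast_zmod_val]
  have hz : ZMod.castHom hdN (ZMod d) (a * x - 1) = 0 := by
    rw [map_sub, map_mul, hxd, had, map_one, ← Units.val_mul, inv_mul_cancel, Units.val_one,
      sub_self]
  obtain ⟨t, ht⟩ := exists_eq_natCast_mul_of_castHom_eq_zero hdN _ hz
  have hprim : ∃ a' b' : ZMod N, a' * (x, ((d : ℕ) : ZMod N)).1 +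
      b' * (x, ((d : ℕ) : ZMod N)).2 = 1 :=
    ⟨a, -t, by
      show a * x + -t * ((d : ℕ) : ZMod N) = 1
      linear_combination ht⟩
  set p : Prim N := ⟨(x, ((d : ℕ) : ZMod N)), hprim⟩ with hp
  have hdd : dd N p = d := by
    show Nat.gcd ((d : ℕ) : ZMod N).val N = d
    rw [ZMod.val_natCast, ← Nat.gcd_rec]
    exact Nat.gcd_eq_right hdN
  refine ⟨p, hdd, ?_⟩
  have hv : p.1.2 = ((1 : (ZMod N)ˣ) : ZMod N) * ((dd N p : ℕ) : ZMod N) := by
    rw [hdd, Units.val_one, one_mul]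
  rw [← rr_eq N p 1 hv, hdd, inv_one, Units.val_one, one_mul]
  show x.val % gg N d = r
  have h1 : ZMod.castHom hgN (ZMod (gg N d)) x = (r : ZMod (gg N d)) := by
    rw [← ZMod.castHom_comp hgd hdN, RingHom.comp_apply, hxd, hα']
  rw [ZMod.castHom_apply, ZMod.cast_eq_val, ZMod.natCast_eq_natCast_iff] at h1
  rw [h1, Nat.mod_eq_of_lt hr]

/-- The complete invariant of a cusp. -/
noncomputable def cuspInv : Quotient (cuspSetoid N) → (Σ _ : ℕ, ℕ) :=
  Quotient.lift (fun p => (⟨dd N p, rr N p⟩ : Σ _ : ℕ, ℕ)) (by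
    intro p q h
    have h' : cuspRel N p q := h
    have h1 := dd_eq_of_cuspRel N h'
    have h2 := rr_eq_of_cuspRel N h'
    simp only [h1, h2])

lemma cuspInv_injective : Function.Injective (cuspInv N) := by
  intro a b
  induction a using Quotient.inductionOn with
  | h p =>
    induction b using Quotient.inductionOn with
    | h q =>
      intro h
      have h' : (⟨dd N p, rr N p⟩ : Σ _ : ℕ, ℕ) = ⟨dd N q, rr N q⟩ := h
      have h1 : dd N p = dd N q := congrArg Sigma.fst h'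
      have h2 : rr N p = rr N q := by
        have := congrArg (fun s : Σ _ : ℕ, ℕ => s.2) h'
        exact this
      exact Quotient.sound (cuspRel_of_inv N h1.symm h2.symm)

/-- The finite set of admissible invariants. -/
def cuspInvFinset : Finset (Σ _ : ℕ, ℕ) :=
  N.divisors.sigma (fun d => (Finset.range (gg N d)).filter (fun a => (gg N d).Coprime a))

lemma range_cuspInv : Set.range (cuspInv N) = (cuspInvFinset N : Set (Σ _ : ℕ, ℕ)) := by
  ext ⟨d, r⟩
  simp only [Set.mem_range, cuspInvFinset, Finset.coe_sigma, Set.mem_sigma_iff, Finset.mem_coe,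
    Nat.mem_divisors, Finset.mem_filter, Finset.mem_range]
  constructor
  · rintro ⟨a, ha⟩
    induction a using Quotient.inductionOn with
    | h p =>
      have h' : (⟨dd N p, rr N p⟩ : Σ _ : ℕ, ℕ) = ⟨d, r⟩ := ha
      have h1 : dd N p = d := congrArg Sigma.fst h'
      have h2 : rr N p = r := by
        have := congrArg (fun s : Σ _ : ℕ, ℕ => s.2) h'
        exact this
      subst h1 h2
      exact ⟨⟨dd_dvd N p, NeZero.ne N⟩, rr_lt N p, coprime_rr N p⟩
  · rintro ⟨⟨hdN, -⟩, hr, hcop⟩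
    obtain ⟨p, h1, h2⟩ := exists_prim_of_inv N hdN hr hcop
    refine ⟨Quotient.mk _ p, ?_⟩
    show (⟨dd N p, rr N p⟩ : Σ _ : ℕ, ℕ) = ⟨d, r⟩
    rw [h1, h2]

/-- **Cusp count**: the number of classes of primitive pairs in `(ZMod N)²` modulo unit scalars
and `(x, y) ↦ (x + y, y)` equals `∑ d ∣ N, φ(gcd(d, N / d))`. -/
theorem card_cusps : Nat.card (Quotient (cuspSetoid N)) = cuspCount N := by
  rw [← Nat.card_range_of_injective (cuspInv_injective N), range_cuspInv,
    Nat.card_coe_set_eq, Set.ncard_coe_finset, cuspInvFinset, Finset.card_sigma, cuspCount]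
  refine Finset.sum_congr rfl fun d _ => ?_
  rw [Nat.totient_eq_card_coprime]
  rfl

end Model

end Fermat.Agent.S20.H86
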