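import Mathlib
import Fermat.Agent.S20.H86_CuspCount

set_option autoImplicit false

namespace Fermat.Agent.S20.H86

open ModularCurve CongruenceSubgroup
open scoped MatrixGroups

section Lift

variable (N : ℕ) [NeZero N]

/-- Every primitive pair mod `N` lifts to a pair of coprime natural numbers. -/
lemma exists_coprime_lift (p : Prim N) :
    ∃ X Y : ℕ, Nat.Coprime X Y ∧ (X : ZMod N) = p.1.1 ∧ (Y : ZMod N) = p.1.2 := by
  have hNpos : 0 < N := Nat.pos_of_ne_zero (NeZero.ne N)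
  obtain ⟨Y, hYpos, hYcast, hYd⟩ : ∃ Y : ℕ, 0 < Y ∧ (Y : ZMod N) = p.1.2 ∧
      Nat.gcd N Y = dd N p := by
    by_cases h0 : p.1.2.val = 0
    · refine ⟨N, hNpos, ?_, ?_⟩
      · rw [ZMod.natCast_self, ((ZMod.val_eq_zero _).mp h0)]
      · rw [dd, h0, Nat.gcd_self, Nat.gcd_zero_left]
    · refine ⟨p.1.2.val, Nat.pos_of_ne_zero h0, ZMod.natCast_zmod_val _, ?_⟩
      rw [dd, Nat.gcd_comm]
  have : NeZero Y := ⟨hYpos.ne'⟩
  set d := Nat.gcd N Y with hd
  have hdN : d ∣ N := Nat.gcd_dvd_left _ _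
  have hdY : d ∣ Y := Nat.gcd_dvd_right _ _
  have hdpos : 0 < d := Nat.gcd_pos_of_pos_left _ hNpos
  have : NeZero d := ⟨hdpos.ne'⟩
  have hunit := isUnit_castHom_fst N p hYd.symm hdN
  obtain ⟨α, hα⟩ := hunit
  obtain ⟨w, hw⟩ := ZMod.unitsMap_surjective hdY α
  have hw' : ZMod.castHom hdY (ZMod d) (w : ZMod Y) = ZMod.castHom hdN (ZMod d) p.1.1 := by
    rw [← hα, ← hw, ZMod.unitsMap_def, Units.coe_map, MonoidHom.coe_coe]
  rw [ZMod.castHom_apply, ZMod.castHom_apply, ZMod.cast_eq_val, ZMod.cast_eq_val,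
    ZMod.natCast_eq_natCast_iff] at hw'
  obtain ⟨k, hk1, hk2⟩ := Nat.chineseRemainder' (n := N) (m := Y) hw'.symm
  refine ⟨k, Y, ?_, ?_, hYcast⟩
  · have := hk2.gcd_eq
    rw [Nat.Coprime, this]
    exact ZMod.val_coe_unit_coprime w
  · rw [(ZMod.natCast_eq_natCast_iff _ _ _).mpr hk1, ZMod.natCast_zmod_val]

end Lift

section Entries

open Matrix.SpecialLinearGroup ModularGroup

lemma T_zpow_mul_apply_zero_zero (n : ℤ) (g : SL(2, ℤ)) :
    (T ^ n * g) 0 0 = g 0 0 + n * g 1 0 := by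
  rw [Matrix.SpecialLinearGroup.coe_mul, coe_T_zpow]
  simp [Matrix.mul_apply, Fin.sum_univ_two]

lemma T_zpow_mul_apply_one_zero (n : ℤ) (g : SL(2, ℤ)) :
    (T ^ n * g) 1 0 = g 1 0 := by
  rw [Matrix.SpecialLinearGroup.coe_mul, coe_T_zpow]
  simp [Matrix.mul_apply, Fin.sum_univ_two]

lemma mul_apply_zero_zero (g γ : SL(2, ℤ)) :
    (g * γ) 0 0 = g 0 0 * γ 0 0 + g 0 1 * γ 1 0 := by
  rw [Matrix.SpecialLinearGroup.coe_mul]
  simp [Matrix.mul_apply, Fin.sum_univ_two]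

lemma mul_apply_one_zero (g γ : SL(2, ℤ)) :
    (g * γ) 1 0 = g 1 0 * γ 0 0 + g 1 1 * γ 1 0 := by
  rw [Matrix.SpecialLinearGroup.coe_mul]
  simp [Matrix.mul_apply, Fin.sum_univ_two]

lemma inv_mul_apply_one_zero (g g' : SL(2, ℤ)) :
    (g⁻¹ * g') 1 0 = -(g 1 0) * (g' 0 0) + (g 0 0) * (g' 1 0) := by
  have h := SL2_inv_expl g
  have e1 : (g⁻¹ : SL(2, ℤ)) 1 0 = -g 1 0 := by rw [h]; rfl
  have e2 : (g⁻¹ : SL(2, ℤ)) 1 1 = g 0 0 := by rw [h]; rfl
  rw [mul_apply_one_zero, e1, e2]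

lemma det_eq_one' (g : SL(2, ℤ)) : g 0 0 * g 1 1 - g 0 1 * g 1 0 = 1 := by
  have := g.det_coe
  rwa [Matrix.det_fin_two] at this

end Entries

section Bridge

variable (N : ℕ)

open ModularGroup

/-- The first column of an element of `SL(2, ℤ)`, reduced mod `N`. -/
def colMap (g : SL(2, ℤ)) : Prim N :=
  ⟨(((g 0 0 : ℤ) : ZMod N), ((g 1 0 : ℤ) : ZMod N)),
    ⟨((g 1 1 : ℤ) : ZMod N), -((g 0 1 : ℤ) : ZMod N), by
      have h2 := congrArg (Int.cast : ℤ → ZMod N) (det_eq_one' g)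
      push_cast at h2
      linear_combination h2⟩⟩

@[simp] lemma colMap_fst (g : SL(2, ℤ)) : (colMap N g).1.1 = ((g 0 0 : ℤ) : ZMod N) := rfl
@[simp] lemma colMap_snd (g : SL(2, ℤ)) : (colMap N g).1.2 = ((g 1 0 : ℤ) : ZMod N) := rfl

lemma cuspRel_colMap_of_mem {g g' : SL(2, ℤ)} {n : ℤ}
    (h : (T ^ n * g')⁻¹ * g ∈ Gamma0 N) : cuspRel N (colMap N g') (colMap N g) := by
  set γ := (T ^ n * g')⁻¹ * g with hγ
  have hg : g = (T ^ n * g') * γ := by rw [hγ, mul_inv_cancel_left]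
  rw [Gamma0_mem] at h
  have hdet := congrArg (Int.cast : ℤ → ZMod N) (det_eq_one' γ)
  push_cast at hdet
  rw [h, mul_zero, sub_zero] at hdet
  refine ⟨Units.mkOfMulEqOne _ _ hdet, (n : ZMod N), ?_, ?_⟩
  · rw [colMap_fst, colMap_fst, colMap_snd, Units.val_mkOfMulEqOne, hg, mul_apply_zero_zero,
      T_zpow_mul_apply_zero_zero]
    push_cast
    rw [h]
    ring
  · rw [colMap_snd, colMap_snd, Units.val_mkOfMulEqOne, hg, mul_apply_one_zero,
      T_zpow_mul_apply_one_zero]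
    push_cast
    rw [h]
    ring

lemma mem_of_cuspRel_colMap {g g' : SL(2, ℤ)} (h : cuspRel N (colMap N g') (colMap N g)) :
    ∃ n : ℤ, (T ^ n * g')⁻¹ * g ∈ Gamma0 N := by
  obtain ⟨u, n, h1, h2⟩ := h
  refine ⟨(n.cast : ℤ), ?_⟩
  rw [Gamma0_mem, inv_mul_apply_one_zero, T_zpow_mul_apply_zero_zero, T_zpow_mul_apply_one_zero]
  push_cast
  simp only [colMap_fst, colMap_snd] at h1 h2
  rw [h1, h2]
  ring

/-- Two surjections with the same fibres have equinumerous targets. -/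
lemma card_eq_of_surjective_of_fibres {A B C : Type*} (π : A → B) (F : A → C)
    (hπ : Function.Surjective π) (hF : Function.Surjective F)
    (h : ∀ a a', π a = π a' ↔ F a = F a') : Nat.card B = Nat.card C := by
  refine Nat.card_congr (Equiv.ofBijective (fun b => F (Function.surjInv hπ b)) ⟨?_, ?_⟩)
  · intro b b' hb
    have := (h _ _).mpr hb
    rwa [Function.surjInv_eq hπ, Function.surjInv_eq hπ] at this
  · intro c
    obtain ⟨a, rfl⟩ := hF c
    refine ⟨π a, ?_⟩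
    exact (h _ _).mp (Function.surjInv_eq hπ (π a))

/-- Orbits of the powers of `T` on an `SL(2, ℤ)`-set (for the action restricted to the subgroup
`Subgroup.zpowers T`, i.e. the instance `Subgroup.instMulAction`). -/
abbrev TOrbits (X : Type*) [MulAction SL(2, ℤ) X] : Type _ :=
  MulAction.orbitRel.Quotient (Subgroup.zpowers ModularGroup.T) X

/-- The orbit of a coset under the powers of `T`. -/
def orbMap (g : SL(2, ℤ)) : TOrbits (SL(2, ℤ) ⧸ Gamma0 N) :=
  Quotient.mk _ (g : SL(2, ℤ) ⧸ Gamma0 N)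

lemma orbMap_surjective : Function.Surjective (orbMap N) := by
  intro q
  obtain ⟨x, rfl⟩ := Quotient.mk_surjective q
  obtain ⟨g, rfl⟩ := QuotientGroup.mk_surjective x
  exact ⟨g, rfl⟩

lemma orbMap_eq_iff (g g' : SL(2, ℤ)) :
    orbMap N g = orbMap N g' ↔ ∃ n : ℤ, (T ^ n * g')⁻¹ * g ∈ Gamma0 N := by
  rw [orbMap, orbMap, Quotient.eq, MulAction.orbitRel_apply, MulAction.mem_orbit_iff]
  constructor
  · rintro ⟨⟨t, ht⟩, h⟩
    obtain ⟨n, rfl⟩ := Subgroup.mem_zpowers_iff.mp ht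
    refine ⟨n, ?_⟩
    rw [Subgroup.smul_def, MulAction.Quotient.smul_mk, smul_eq_mul] at h
    exact QuotientGroup.eq.mp h
  · rintro ⟨n, h⟩
    refine ⟨⟨T ^ n, Subgroup.zpow_mem_zpowers T n⟩, ?_⟩
    rw [Subgroup.smul_def, MulAction.Quotient.smul_mk, smul_eq_mul]
    exact QuotientGroup.eq.mpr h

/-- The cusp class of the first column mod `N`. -/
def cuspMap (g : SL(2, ℤ)) : Quotient (cuspSetoid N) :=
  Quotient.mk (cuspSetoid N) (colMap N g)

lemma cuspMap_eq_iff (g g' : SL(2, ℤ)) :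
    cuspMap N g = cuspMap N g' ↔ cuspRel N (colMap N g) (colMap N g') := by
  rw [cuspMap, cuspMap, Quotient.eq]
  rfl

lemma orbMap_eq_iff_cuspMap_eq (g g' : SL(2, ℤ)) :
    orbMap N g = orbMap N g' ↔ cuspMap N g = cuspMap N g' := by
  rw [orbMap_eq_iff, cuspMap_eq_iff]
  constructor
  · rintro ⟨n, h⟩
    exact cuspRel_symm N (cuspRel_colMap_of_mem N h)
  · intro h
    exact mem_of_cuspRel_colMap N (cuspRel_symm N h)

lemma cuspMap_surjective [NeZero N] : Function.Surjective (cuspMap N) := by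
  intro q
  obtain ⟨p, rfl⟩ := Quotient.mk_surjective q
  obtain ⟨X, Y, hXY, hX, hY⟩ := exists_coprime_lift N p
  obtain ⟨g, hg0, hg1⟩ := (Nat.isCoprime_iff_coprime.mpr hXY).exists_SL2_col 0
  refine ⟨g, ?_⟩
  rw [cuspMap]
  congr 1
  apply Subtype.ext
  apply Prod.ext
  · rw [colMap_fst, hg0, Int.cast_natCast, hX]
  · rw [colMap_snd, hg1, Int.cast_natCast, hY]

/-- **Cusp count**: the number of orbits of the powers of `T` on `SL(2, ℤ) ⧸ Γ₀(N)` is the number
of cusps `∑_{d ∣ N} φ(gcd(d, N/d))`. -/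
theorem card_TOrbits [NeZero N] :
    Nat.card (TOrbits (SL(2, ℤ) ⧸ Gamma0 N)) = ModularCurve.cuspCount N := by
  rw [← card_cusps N]
  exact card_eq_of_surjective_of_fibres (orbMap N) (cuspMap N) (orbMap_surjective N)
    (cuspMap_surjective N) (orbMap_eq_iff_cuspMap_eq N)

/-- The same statement with the instance `Subgroup.instMulAction` spelled out (this is the shape
obtained by specialising a statement about an abstract `SL(2, ℤ)`-set `X`). -/
theorem card_T_orbits [NeZero N] :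
    Nat.card (@MulAction.orbitRel.Quotient (Subgroup.zpowers ModularGroup.T)
      (SL(2, ℤ) ⧸ Gamma0 N) _ Subgroup.instMulAction) = ModularCurve.cuspCount N :=
  card_TOrbits N

/-- The same statement with the instance found by instance synthesis on the concrete type. -/
theorem card_T_orbits' [NeZero N] :
    Nat.card (MulAction.orbitRel.Quotient (Subgroup.zpowers ModularGroup.T)
      (SL(2, ℤ) ⧸ Gamma0 N)) = ModularCurve.cuspCount N :=
  card_TOrbits N

end Bridge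

end Fermat.Agent.S20.H86
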