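import Mathlib

set_option autoImplicit false

open UpperHalfPlane ModularForm
open scoped MatrixGroups ModularForm Manifold

noncomputable section

namespace Fermat.Agent.S20

/-- Level one modular forms of weight `k`, as a submodule of the space of all functions. -/
def LvlOne (k : ℤ) : Submodule ℂ (ℍ → ℂ) where
  carrier := {f | MDiff f ∧ (∀ γ : SL(2, ℤ), f ∣[k] γ = f) ∧ IsBoundedAtImInfty f}
  add_mem' := by
    rintro f g ⟨hf1, hf2, hf3⟩ ⟨hg1, hg2, hg3⟩
    refine ⟨hf1.add hg1, fun γ => ?_, hf3.add hg3⟩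
    rw [SlashAction.add_slash, hf2, hg2]
  zero_mem' := ⟨mdifferentiable_const, fun γ => SlashAction.zero_slash _ _,
    zero_form_isBoundedAtImInfty⟩
  smul_mem' := by
    rintro c f ⟨hf1, hf2, hf3⟩
    refine ⟨mdifferentiable_const.smul hf1, fun γ => ?_, ?_⟩
    · rw [SL_smul_slash, hf2]
    · exact hf3.const_smul_left c

variable (X : Type) [MulAction SL(2, ℤ) X]

/-- Vector valued modular forms of weight `k` for the permutation representation of
`SL(2, ℤ)` on functions on `X`, as a submodule of the space of all `X`-tuples of functions. -/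
def VMod (k : ℤ) : Submodule ℂ (X → ℍ → ℂ) where
  carrier := {F | (∀ x, MDiff (F x)) ∧ (∀ (γ : SL(2, ℤ)) (x : X), F x ∣[k] γ = F (γ⁻¹ • x)) ∧
    ∀ x, IsBoundedAtImInfty (F x)}
  add_mem' := by
    rintro F G ⟨hf1, hf2, hf3⟩ ⟨hg1, hg2, hg3⟩
    refine ⟨fun x => (hf1 x).add (hg1 x), fun γ x => ?_, fun x => (hf3 x).add (hg3 x)⟩
    rw [Pi.add_apply, SlashAction.add_slash, hf2, hg2, Pi.add_apply]
  zero_mem' := ⟨fun _ => mdifferentiable_const, fun γ x => SlashAction.zero_slash _ _,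
    fun _ => zero_form_isBoundedAtImInfty⟩
  smul_mem' := by
    rintro c F ⟨hf1, hf2, hf3⟩
    refine ⟨fun x => mdifferentiable_const.smul (hf1 x), fun γ x => ?_, fun x => ?_⟩
    · rw [Pi.smul_apply, SL_smul_slash, hf2, Pi.smul_apply]
    · exact (hf3 x).const_smul_left c

/-- Vector valued cusp forms. -/
def VCusp (k : ℤ) : Submodule ℂ (X → ℍ → ℂ) where
  carrier := {F | (∀ x, MDiff (F x)) ∧ (∀ (γ : SL(2, ℤ)) (x : X), F x ∣[k] γ = F (γ⁻¹ • x)) ∧
    ∀ x, IsZeroAtImInfty (F x)}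
  add_mem' := by
    rintro F G ⟨hf1, hf2, hf3⟩ ⟨hg1, hg2, hg3⟩
    refine ⟨fun x => (hf1 x).add (hg1 x), fun γ x => ?_, fun x => (hf3 x).add (hg3 x)⟩
    rw [Pi.add_apply, SlashAction.add_slash, hf2, hg2, Pi.add_apply]
  zero_mem' := ⟨fun _ => mdifferentiable_const, fun γ x => SlashAction.zero_slash _ _,
    fun _ => Filter.zero_zeroAtFilter _⟩
  smul_mem' := by
    rintro c F ⟨hf1, hf2, hf3⟩
    refine ⟨fun x => mdifferentiable_const.smul (hf1 x), fun γ x => ?_, fun x => ?_⟩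
    · rw [Pi.smul_apply, SL_smul_slash, hf2, Pi.smul_apply]
    · exact (hf3 x).smul c

end Fermat.Agent.S20
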