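import Mathlib
import Fermat.Agent.S20.Defs

set_option autoImplicit false

open UpperHalfPlane ModularForm CongruenceSubgroup Matrix.SpecialLinearGroup
open scoped MatrixGroups ModularForm Manifold

noncomputable section

namespace Fermat.Agent.S20.H34

open Fermat.Agent.S20

/-- The coset space `SL(2, ℤ) ⧸ Γ₀(N)` with its left translation action. -/
abbrev QN (N : ℕ) : Type := SL(2, ℤ) ⧸ Gamma0 N

/-- The image of `Γ₀(N)` in `GL(2, ℝ)`. -/
abbrev GN (N : ℕ) : Subgroup (GL (Fin 2) ℝ) := (Gamma0 N).map (mapGL ℝ)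

variable {N : ℕ} {k : ℤ}

/-- A function invariant under `Γ₀(N)` (as a subgroup of `SL(2, ℤ)`). -/
def InvN (N : ℕ) (k : ℤ) (f : ℍ → ℂ) : Prop := ∀ δ ∈ Gamma0 N, f ∣[k] δ = f

theorem invN_iff (f : ℍ → ℂ) : InvN N k f ↔ ∀ γ ∈ GN N, f ∣[k] γ = f := by
  constructor
  · rintro h γ ⟨δ, hδ, rfl⟩
    exact h δ hδ
  · intro h δ hδ
    exact h _ ⟨δ, hδ, rfl⟩

/-- The tuple attached to a `Γ₀(N)`-invariant function: `gΓ ↦ f ∣[k] g⁻¹`. -/
def tuple (N : ℕ) (k : ℤ) (f : ℍ → ℂ) : QN N → ℍ → ℂ :=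
  fun x => f ∣[k] (Quotient.out x)⁻¹

theorem tuple_mk {f : ℍ → ℂ} (hf : InvN N k f) (g : SL(2, ℤ)) :
    tuple N k f (QuotientGroup.mk g) = f ∣[k] g⁻¹ := by
  unfold tuple
  set g' : SL(2, ℤ) := Quotient.out (QuotientGroup.mk g : QN N) with hg'
  have h1 : (QuotientGroup.mk g' : QN N) = QuotientGroup.mk g := Quotient.out_eq _
  rw [QuotientGroup.eq] at h1
  -- g'⁻¹ * g ∈ Γ
  have h2 : g⁻¹ = (g'⁻¹ * g)⁻¹ * g'⁻¹ := by group
  rw [h2, SlashAction.slash_mul, hf _ (inv_mem h1)]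

theorem tuple_slash {f : ℍ → ℂ} (hf : InvN N k f) (γ : SL(2, ℤ)) (x : QN N) :
    tuple N k f x ∣[k] γ = tuple N k f (γ⁻¹ • x) := by
  induction x using QuotientGroup.induction_on with
  | H g =>
    have : (γ⁻¹ • (QuotientGroup.mk g : QN N)) = QuotientGroup.mk (γ⁻¹ * g) := rfl
    rw [this, tuple_mk hf, tuple_mk hf, ← SlashAction.slash_mul, mul_inv_rev, inv_inv]

theorem tuple_mdiff {f : ℍ → ℂ} (hf : MDiff f) (x : QN N) : MDiff (tuple N k f x) := by
  unfold tuple
  rw [SL_slash]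
  exact hf.slash k _

theorem tuple_add (f g : ℍ → ℂ) : tuple N k (f + g) = tuple N k f + tuple N k g := by
  funext x
  simp only [tuple, Pi.add_apply, SlashAction.add_slash]

theorem tuple_smul (c : ℂ) (f : ℍ → ℂ) : tuple N k (c • f) = c • tuple N k f := by
  funext x
  simp only [tuple, Pi.smul_apply, SL_smul_slash]

theorem tuple_one {f : ℍ → ℂ} (hf : InvN N k f) :
    tuple N k f (QuotientGroup.mk 1) = f := by
  rw [tuple_mk hf, inv_one, SlashAction.slash_one]

section cusps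

variable [NeZero N]

theorem isCusp_GN_iff (c : OnePoint ℝ) : IsCusp c (GN N) ↔ IsCusp c 𝒮ℒ :=
  Subgroup.IsArithmetic.isCusp_iff_isCusp_SL2Z (GN N)

theorem isCusp_GN_smul_infty (g : SL(2, ℤ)) : IsCusp (mapGL ℝ g • OnePoint.infty) (GN N) := by
  rw [isCusp_GN_iff]
  exact isCusp_SL2Z_iff'.mpr ⟨g, rfl⟩

theorem tuple_bounded {f : ℍ → ℂ}
    (hf : ∀ {c : OnePoint ℝ}, IsCusp c (GN N) → c.IsBoundedAt f k) (x : QN N) :
    IsBoundedAtImInfty (tuple N k f x) := by
  unfold tuple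
  rw [SL_slash]
  exact hf (isCusp_GN_smul_infty (N := N) (Quotient.out x)⁻¹) _ rfl

theorem tuple_zeroAt {f : ℍ → ℂ}
    (hf : ∀ {c : OnePoint ℝ}, IsCusp c (GN N) → c.IsZeroAt f k) (x : QN N) :
    IsZeroAtImInfty (tuple N k f x) := by
  unfold tuple
  rw [SL_slash]
  exact hf (isCusp_GN_smul_infty (N := N) (Quotient.out x)⁻¹) _ rfl

omit [NeZero N] in
/-- the component at the trivial coset of an equivariant tuple is `Γ₀(N)`-invariant -/
theorem invN_of_equivariant {F : QN N → ℍ → ℂ}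
    (hF : ∀ (γ : SL(2, ℤ)) (x : QN N), F x ∣[k] γ = F (γ⁻¹ • x)) :
    InvN N k (F (QuotientGroup.mk 1)) := by
  intro δ hδ
  rw [hF]
  congr 1
  have : (δ⁻¹ • (QuotientGroup.mk 1 : QN N)) = QuotientGroup.mk (δ⁻¹ * 1) := rfl
  rw [this, QuotientGroup.eq]
  simpa using hδ

omit [NeZero N] in
theorem tuple_of_equivariant {F : QN N → ℍ → ℂ}
    (hF : ∀ (γ : SL(2, ℤ)) (x : QN N), F x ∣[k] γ = F (γ⁻¹ • x)) :
    tuple N k (F (QuotientGroup.mk 1)) = F := by
  funext x
  induction x using QuotientGroup.induction_on with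
  | H g =>
    rw [tuple_mk (invN_of_equivariant hF), hF, inv_inv]
    congr 1
    have : (g • (QuotientGroup.mk 1 : QN N)) = QuotientGroup.mk (g * 1) := rfl
    rw [this, mul_one]

theorem bounded_of_tuple {F : QN N → ℍ → ℂ}
    (hF : ∀ (γ : SL(2, ℤ)) (x : QN N), F x ∣[k] γ = F (γ⁻¹ • x))
    (hb : ∀ x, IsBoundedAtImInfty (F x)) {c : OnePoint ℝ} (hc : IsCusp c (GN N)) :
    c.IsBoundedAt (F (QuotientGroup.mk 1)) k := by
  rw [isCusp_GN_iff] at hc
  rw [OnePoint.isBoundedAt_iff_forall_SL2Z hc]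
  intro γ _
  rw [hF]
  exact hb _

theorem zeroAt_of_tuple {F : QN N → ℍ → ℂ}
    (hF : ∀ (γ : SL(2, ℤ)) (x : QN N), F x ∣[k] γ = F (γ⁻¹ • x))
    (hb : ∀ x, IsZeroAtImInfty (F x)) {c : OnePoint ℝ} (hc : IsCusp c (GN N)) :
    c.IsZeroAt (F (QuotientGroup.mk 1)) k := by
  rw [isCusp_GN_iff] at hc
  rw [OnePoint.isZeroAt_iff_forall_SL2Z hc]
  intro γ _
  rw [hF]
  exact hb _

end cusps

section equivs

variable (N k)

theorem invN_modularForm (f : ModularForm (GN N) k) : InvN N k ⇑f :=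
  (invN_iff _).mpr fun γ hγ => SlashInvariantFormClass.slash_action_eq f γ hγ

theorem invN_cuspForm (f : CuspForm (GN N) k) : InvN N k ⇑f :=
  (invN_iff _).mpr fun γ hγ => SlashInvariantFormClass.slash_action_eq f γ hγ

variable [NeZero N]

/-- modular forms for `Γ₀(N)` are the same as vector valued modular forms on the coset space -/
def bridgeMod : ModularForm (GN N) k ≃ₗ[ℂ] VMod (QN N) k where
  toFun f := ⟨tuple N k ⇑f, fun x => tuple_mdiff f.holo' x,
    fun γ x => tuple_slash (invN_modularForm N k f) γ x,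
    fun x => tuple_bounded (fun hc => f.bdd_at_cusps' hc) x⟩
  map_add' _ _ := Subtype.ext (tuple_add _ _)
  map_smul' _ _ := Subtype.ext (tuple_smul _ _)
  invFun F :=
    { toFun := F.1 (QuotientGroup.mk 1)
      slash_action_eq' := (invN_iff _).mp (invN_of_equivariant F.2.2.1)
      holo' := F.2.1 _
      bdd_at_cusps' := fun hc => bounded_of_tuple F.2.2.1 F.2.2.2 hc }
  left_inv f := ModularForm.ext fun z => congrFun (tuple_one (invN_modularForm N k f)) z
  right_inv F := Subtype.ext (tuple_of_equivariant F.2.2.1)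

/-- cusp forms for `Γ₀(N)` are the same as vector valued cusp forms on the coset space -/
def bridge : CuspForm (GN N) k ≃ₗ[ℂ] VCusp (QN N) k where
  toFun f := ⟨tuple N k ⇑f, fun x => tuple_mdiff f.holo' x,
    fun γ x => tuple_slash (invN_cuspForm N k f) γ x,
    fun x => tuple_zeroAt (fun hc => f.zero_at_cusps' hc) x⟩
  map_add' _ _ := Subtype.ext (tuple_add _ _)
  map_smul' _ _ := Subtype.ext (tuple_smul _ _)
  invFun F :=
    { toFun := F.1 (QuotientGroup.mk 1)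
      slash_action_eq' := (invN_iff _).mp (invN_of_equivariant F.2.2.1)
      holo' := F.2.1 _
      zero_at_cusps' := fun hc => zeroAt_of_tuple F.2.2.1 F.2.2.2 hc }
  left_inv f := CuspForm.ext fun z => congrFun (tuple_one (invN_cuspForm N k f)) z
  right_inv F := Subtype.ext (tuple_of_equivariant F.2.2.1)

@[simp] theorem bridgeMod_apply (f : ModularForm (GN N) k) (x : QN N) :
    (bridgeMod N k f : QN N → ℍ → ℂ) x = ⇑f ∣[k] (Quotient.out x)⁻¹ := rfl

theorem bridgeMod_apply_mk (f : ModularForm (GN N) k) (g : SL(2, ℤ)) :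
    (bridgeMod N k f : QN N → ℍ → ℂ) (QuotientGroup.mk g) = ⇑f ∣[k] g⁻¹ :=
  tuple_mk (invN_modularForm N k f) g

theorem bridgeMod_apply_one (f : ModularForm (GN N) k) :
    (bridgeMod N k f : QN N → ℍ → ℂ) (QuotientGroup.mk 1) = ⇑f :=
  tuple_one (invN_modularForm N k f)

theorem bridgeMod_symm_apply (F : VMod (QN N) k) :
    ⇑((bridgeMod N k).symm F) = (F : QN N → ℍ → ℂ) (QuotientGroup.mk 1) := rfl

@[simp] theorem bridge_apply (f : CuspForm (GN N) k) (x : QN N) :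
    (bridge N k f : QN N → ℍ → ℂ) x = ⇑f ∣[k] (Quotient.out x)⁻¹ := rfl

theorem bridge_apply_mk (f : CuspForm (GN N) k) (g : SL(2, ℤ)) :
    (bridge N k f : QN N → ℍ → ℂ) (QuotientGroup.mk g) = ⇑f ∣[k] g⁻¹ :=
  tuple_mk (invN_cuspForm N k f) g

theorem bridge_apply_one (f : CuspForm (GN N) k) :
    (bridge N k f : QN N → ℍ → ℂ) (QuotientGroup.mk 1) = ⇑f :=
  tuple_one (invN_cuspForm N k f)

theorem bridge_symm_apply (F : VCusp (QN N) k) :
    ⇑((bridge N k).symm F) = (F : QN N → ℍ → ℂ) (QuotientGroup.mk 1) := rfl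

theorem finrank_cuspForm_eq :
    Module.finrank ℂ (CuspForm (GN N) k) = Module.finrank ℂ (VCusp (QN N) k) :=
  (bridge N k).finrank_eq

theorem finrank_modularForm_eq :
    Module.finrank ℂ (ModularForm (GN N) k) = Module.finrank ℂ (VMod (QN N) k) :=
  (bridgeMod N k).finrank_eq

end equivs

/-! ### The `SL(2, ℤ)`-set `QN N` -/

section QNfacts

variable (N)

instance instFiniteQN [NeZero N] : Finite (QN N) :=
  Subgroup.finite_quotient_of_finiteIndex

instance instFintypeQN [NeZero N] : Fintype (QN N) := Fintype.ofFinite _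

theorem isPretransitive_QN : MulAction.IsPretransitive SL(2, ℤ) (QN N) :=
  MulAction.isPretransitive_quotient _ _

theorem smul_mk_QN (γ g : SL(2, ℤ)) :
    γ • (QuotientGroup.mk g : QN N) = QuotientGroup.mk (γ * g) := rfl

theorem neg_one_mem_Gamma0 : (-1 : SL(2, ℤ)) ∈ Gamma0 N := by
  rw [Gamma0_mem]
  simp

theorem neg_one_smul_QN (x : QN N) : (-1 : SL(2, ℤ)) • x = x := by
  induction x using QuotientGroup.induction_on with
  | H g =>
    rw [smul_mk_QN, QuotientGroup.eq]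
    have : (-1 * g)⁻¹ * g = -1 := by
      rw [neg_one_mul, inv_neg, neg_mul, inv_mul_cancel]
    rw [this]
    exact neg_one_mem_Gamma0 N

theorem Gamma_le_Gamma0 : Gamma N ≤ Gamma0 N := by
  intro A hA
  rw [Gamma_mem] at hA
  rw [Gamma0_mem]
  exact hA.2.2.1

/-- `T ^ N` acts trivially on `SL(2, ℤ) ⧸ Γ₀(N)` -/
theorem T_pow_smul_QN (x : QN N) : (ModularGroup.T ^ N) • x = x := by
  induction x using QuotientGroup.induction_on with
  | H g =>
    rw [smul_mk_QN, QuotientGroup.eq]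
    apply Gamma_le_Gamma0 N
    have h1 : ModularGroup.T ^ N ∈ Gamma N := by
      have := ModularGroup_T_pow_mem_Gamma (N : ℤ) (N : ℤ) dvd_rfl
      simpa using this
    have h2 : (ModularGroup.T ^ N * g)⁻¹ * g = g⁻¹ * (ModularGroup.T ^ N)⁻¹ * g⁻¹⁻¹ := by
      group
    rw [h2]
    exact (Gamma_normal N).conj_mem _ (inv_mem h1) g⁻¹

end QNfacts

end Fermat.Agent.S20.H34
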