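import Mathlib
import Fermat.Agent.S20.Defs

set_option autoImplicit false

open UpperHalfPlane ModularForm Filter Topology
open scoped MatrixGroups ModularForm Manifold

noncomputable section

namespace Fermat.Agent.S20.H69

open Fermat.Agent.S20 CongruenceSubgroup Matrix.SpecialLinearGroup

/-- `E₄` tends to `1` at `i∞`. -/
theorem tendsto_E4 : Tendsto (⇑ModularForm.E₄ : ℍ → ℂ) atImInfty (𝓝 1) := by
  have h1 : (1 : ℝ) ∈ (𝒮ℒ).strictPeriods := by simp
  have han := ModularFormClass.analyticAt_cuspFunction_zero (f := ModularForm.E₄) one_pos h1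
  have hper := SlashInvariantFormClass.periodic_comp_ofComplex (f := ModularForm.E₄) h1
  have h0 : cuspFunction 1 ModularForm.E₄ 0 = 1 := by
    rw [cuspFunction_apply_zero one_pos han hper, ← qExpansion_coeff_zero one_pos han hper]
    exact EisensteinSeries.E_qExpansion_coeff_zero _ ⟨2, rfl⟩
  have hcomp : (cuspFunction 1 ModularForm.E₄ ∘ fun τ : ℍ ↦ Function.Periodic.qParam 1 τ : ℍ → ℂ)
      = ModularForm.E₄ := by
    funext τ
    simpa using eq_cuspFunction τ one_ne_zero hper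
  have := han.continuousAt.tendsto.comp (qParam_tendsto_atImInfty one_pos)
  rw [hcomp, h0] at this
  exact this

/-- limit at `i∞` of the slash by an upper triangular matrix of positive determinant -/
theorem tendsto_slash_upper {f : ℍ → ℂ} {v : ℂ} (hf : Tendsto f atImInfty (𝓝 v)) (k : ℤ)
    {β : GL (Fin 2) ℝ} (h10 : β 1 0 = 0) (hdet : 0 < β.det.val) :
    Tendsto (f ∣[k] β) atImInfty
      (𝓝 (v * ((β.det.val : ℝ) : ℂ) ^ (k - 1) * ((β 1 1 : ℝ) : ℂ) ^ (-k))) := by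
  have h1 : Tendsto (fun z : ℍ => f (β • z)) atImInfty (𝓝 v) :=
    hf.comp (tendsto_smul_atImInfty h10)
  have : (f ∣[k] β) =
      fun z : ℍ => f (β • z) * ((β.det.val : ℝ) : ℂ) ^ (k - 1) * ((β 1 1 : ℝ) : ℂ) ^ (-k) := by
    funext z
    have hdet' : 0 < (β : Matrix (Fin 2) (Fin 2) ℝ).det := by simpa using hdet
    rw [ModularForm.slash_apply]
    simp [σ, hdet', denom, h10, abs_of_pos hdet']
  rw [this]
  exact (h1.mul_const _).mul_const _

/-- Hermite normal form of `diag(N,1) * g`, on the level of integers. -/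
theorem exists_decomp_int (N : ℕ) [NeZero N] (a b c d : ℤ) (hdet : a * d - b * c = 1) :
    ∃ p q r s A B D : ℤ, p * s - q * r = 1 ∧ 0 < A ∧ 0 < D ∧ A * D = N ∧
      (D = 1 → (N : ℤ) ∣ c) ∧
      (N : ℤ) * a = p * A ∧ (N : ℤ) * b = p * B + q * D ∧ c = r * A ∧ d = r * B + s * D := by
  have hN : (0 : ℤ) < N := by exact_mod_cast Nat.pos_of_ne_zero (NeZero.ne N)
  set A : ℤ := (Int.gcd ((N : ℤ) * a) c : ℤ) with hA
  obtain ⟨p, hp⟩ : A ∣ (N : ℤ) * a := Int.gcd_dvd_left _ _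
  obtain ⟨r, hr⟩ : A ∣ c := Int.gcd_dvd_right _ _
  have hbez : A = (N : ℤ) * a * Int.gcdA ((N : ℤ) * a) c + c * Int.gcdB ((N : ℤ) * a) c :=
    Int.gcd_eq_gcd_ab _ _
  set u := Int.gcdA ((N : ℤ) * a) c
  set v := Int.gcdB ((N : ℤ) * a) c
  have hAD : A * (p * d - r * ((N : ℤ) * b)) = N := by
    have : A * (p * d - r * ((N : ℤ) * b)) = (A * p) * d - (A * r) * ((N : ℤ) * b) := by ring
    rw [this, ← hp, ← hr]
    linear_combination (N : ℤ) * hdet
  have hA0 : A ≠ 0 := by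
    intro h0
    rw [h0, zero_mul] at hAD
    omega
  have hApos : 0 < A := lt_of_le_of_ne (by rw [hA]; positivity) (Ne.symm hA0)
  have hDpos : 0 < p * d - r * ((N : ℤ) * b) := by
    by_contra hcon
    have : A * (p * d - r * ((N : ℤ) * b)) ≤ 0 :=
      mul_nonpos_of_nonneg_of_nonpos hApos.le (not_lt.mp hcon)
    omega
  have hone : p * u + r * v = 1 := by
    have : A * (p * u + r * v) = A * 1 := by
      rw [mul_one]
      calc A * (p * u + r * v) = (A * p) * u + (A * r) * v := by ring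
        _ = A := by rw [← hp, ← hr]; exact hbez.symm
    exact mul_left_cancel₀ hA0 this
  refine ⟨p, -v, r, u, A, u * ((N : ℤ) * b) + v * d, p * d - r * ((N : ℤ) * b), ?_, hApos, hDpos,
    hAD, ?_, ?_, ?_, ?_, ?_⟩
  · linear_combination hone
  · intro hD
    rw [hD, mul_one] at hAD
    exact ⟨r, by rw [hr, hAD]⟩
  · rw [hp]; ring
  · linear_combination (-(N : ℤ) * b) * hone
  · rw [hr]; ring
  · linear_combination (-d) * hone

/-- the matrix `diag(N, 1)` -/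
def alphaN (N : ℕ) [NeZero N] : GL (Fin 2) ℝ :=
  Matrix.GeneralLinearGroup.mkOfDetNeZero !![(N : ℝ), 0; 0, 1]
    (by simp [Matrix.det_fin_two, NeZero.ne N])

/-- the upper triangular matrix `(A B; 0 D)` -/
def upperT (A B D : ℤ) (hA : 0 < A) (hD : 0 < D) : GL (Fin 2) ℝ :=
  Matrix.GeneralLinearGroup.mkOfDetNeZero !![(A : ℝ), (B : ℝ); 0, (D : ℝ)]
    (by
      have h1 : (A : ℝ) ≠ 0 := by exact_mod_cast hA.ne'
      have h2 : (D : ℝ) ≠ 0 := by exact_mod_cast hD.ne'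
      simp [Matrix.det_fin_two, h1, h2])

theorem exists_decomp (N : ℕ) [NeZero N] (g : SL(2, ℤ)) :
    ∃ (δ : SL(2, ℤ)) (A B D : ℤ) (hA : 0 < A) (hD : 0 < D), A * D = N ∧
      (D = 1 → (N : ℤ) ∣ g 1 0) ∧
      alphaN N * mapGL ℝ g = mapGL ℝ δ * upperT A B D hA hD := by
  have hdet : g 0 0 * g 1 1 - g 0 1 * g 1 0 = 1 := by
    have := g.det_coe
    rw [Matrix.det_fin_two] at this
    exact this
  obtain ⟨p, q, r, s, A, B, D, h1, hA, hD, hAD, hdvd, e00, e01, e10, e11⟩ :=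
    exists_decomp_int N (g 0 0) (g 0 1) (g 1 0) (g 1 1) hdet
  refine ⟨⟨!![p, q; r, s], by rw [Matrix.det_fin_two_of]; exact h1⟩, A, B, D, hA, hD, hAD, hdvd, ?_⟩
  apply Matrix.GeneralLinearGroup.ext
  intro i j
  fin_cases i <;> fin_cases j
  · simp [alphaN, upperT, Matrix.mul_apply, Fin.sum_univ_two, mapGL_coe_matrix]
    exact_mod_cast e00
  · simp [alphaN, upperT, Matrix.mul_apply, Fin.sum_univ_two, mapGL_coe_matrix]
    exact_mod_cast e01
  · simp [alphaN, upperT, Matrix.mul_apply, Fin.sum_univ_two, mapGL_coe_matrix]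
    exact_mod_cast e10
  · simp [alphaN, upperT, Matrix.mul_apply, Fin.sum_univ_two, mapGL_coe_matrix]
    exact_mod_cast e11

theorem E4_slash_mapGL (δ : SL(2, ℤ)) :
    (⇑ModularForm.E₄ : ℍ → ℂ) ∣[(4 : ℤ)] (mapGL ℝ δ) = ⇑ModularForm.E₄ :=
  SlashInvariantFormClass.slash_action_eq ModularForm.E₄ _ ⟨δ, rfl⟩

theorem E4_slash_mapGL_mul (δ : SL(2, ℤ)) (G : GL (Fin 2) ℝ) :
    (⇑ModularForm.E₄ : ℍ → ℂ) ∣[(4 : ℤ)] (mapGL ℝ δ * G) = (⇑ModularForm.E₄ : ℍ → ℂ) ∣[(4 : ℤ)] G := by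
  rw [SlashAction.slash_mul, E4_slash_mapGL]

/-- conjugating an element of `Γ₀(N)` by `diag(N,1)` gives an integral matrix -/
theorem exists_conj_of_mem_Gamma0 (N : ℕ) [NeZero N] {h : SL(2, ℤ)} (hh : h ∈ Gamma0 N) :
    ∃ h' : SL(2, ℤ), alphaN N * mapGL ℝ h = mapGL ℝ h' * alphaN N := by
  rw [Gamma0_mem, ZMod.intCast_zmod_eq_zero_iff_dvd] at hh
  obtain ⟨c', hc'⟩ := hh
  have hdet : h 0 0 * h 1 1 - h 0 1 * h 1 0 = 1 := by
    have := h.det_coe
    rw [Matrix.det_fin_two] at this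
    exact this
  refine ⟨⟨!![h 0 0, (N : ℤ) * h 0 1; c', h 1 1], ?_⟩, ?_⟩
  · rw [Matrix.det_fin_two_of]
    rw [hc'] at hdet
    linear_combination hdet
  apply Matrix.GeneralLinearGroup.ext
  intro i j
  fin_cases i <;> fin_cases j
  · simp [alphaN, Matrix.mul_apply, Fin.sum_univ_two, mapGL_coe_matrix]
    ring
  · simp [alphaN, Matrix.mul_apply, Fin.sum_univ_two, mapGL_coe_matrix]
  · simp [alphaN, Matrix.mul_apply, Fin.sum_univ_two, mapGL_coe_matrix]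
    rw [hc']
    push_cast
    ring
  · simp [alphaN, Matrix.mul_apply, Fin.sum_univ_two, mapGL_coe_matrix]

/-- the translates of `E₄(N z)` (up to a constant), indexed by `SL(2, ℤ)` -/
def Psi (N : ℕ) [NeZero N] (g : SL(2, ℤ)) : ℍ → ℂ :=
  (⇑ModularForm.E₄ : ℍ → ℂ) ∣[(4 : ℤ)] (alphaN N * mapGL ℝ g⁻¹)

theorem Psi_mul_of_mem (N : ℕ) [NeZero N] (g : SL(2, ℤ)) {h : SL(2, ℤ)} (hh : h ∈ Gamma0 N) :
    Psi N (g * h) = Psi N g := by
  obtain ⟨h', hh'⟩ := exists_conj_of_mem_Gamma0 N ((Gamma0 N).inv_mem hh)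
  unfold Psi
  rw [mul_inv_rev, map_mul, ← mul_assoc, hh', mul_assoc, E4_slash_mapGL_mul]

theorem Psi_slash (N : ℕ) [NeZero N] (g γ : SL(2, ℤ)) :
    Psi N g ∣[(4 : ℤ)] γ = Psi N (γ⁻¹ * g) := by
  unfold Psi
  rw [ModularForm.SL_slash, ← SlashAction.slash_mul, mul_inv_rev, inv_inv, map_mul, mul_assoc]
  rfl

theorem Psi_mdiff (N : ℕ) [NeZero N] (g : SL(2, ℤ)) : MDiff (Psi N g) :=
  MDifferentiable.slash (ModularFormClass.holo ModularForm.E₄) _ _

theorem upperT_one_zero (A B D : ℤ) (hA : 0 < A) (hD : 0 < D) : upperT A B D hA hD 1 0 = 0 := by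
  simp [upperT]

theorem upperT_one_one (A B D : ℤ) (hA : 0 < A) (hD : 0 < D) :
    upperT A B D hA hD 1 1 = (D : ℝ) := by
  simp [upperT]

theorem upperT_det (A B D : ℤ) (hA : 0 < A) (hD : 0 < D) :
    (upperT A B D hA hD).det.val = (A : ℝ) * D := by
  simp [upperT, Matrix.det_fin_two]

theorem alphaN_one_zero (N : ℕ) [NeZero N] : alphaN N 1 0 = 0 := by
  simp [alphaN]

theorem alphaN_one_one (N : ℕ) [NeZero N] : alphaN N 1 1 = 1 := by
  simp [alphaN]

theorem alphaN_det (N : ℕ) [NeZero N] : (alphaN N).det.val = (N : ℝ) := by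
  simp [alphaN, Matrix.det_fin_two]

theorem E4_bdd : IsBoundedAtImInfty (⇑ModularForm.E₄ : ℍ → ℂ) := by
  unfold IsBoundedAtImInfty BoundedAtFilter
  have := tendsto_E4.isBigO_one ℂ
  simpa [Pi.one_def] using this

theorem Psi_bdd (N : ℕ) [NeZero N] (g : SL(2, ℤ)) : IsBoundedAtImInfty (Psi N g) := by
  obtain ⟨δ, A, B, D, hA, hD, -, -, h⟩ := exists_decomp N g⁻¹
  unfold Psi
  rw [h, E4_slash_mapGL_mul]
  exact IsBoundedAtImInfty.slash 4 (upperT_one_zero A B D hA hD) E4_bdd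

/-- the stabiliser of `E₄(N z)` in `SL(2, ℤ)` is contained in `Γ₀(N)` -/
theorem mem_Gamma0_of_slash_eq (N : ℕ) [NeZero N] (g : SL(2, ℤ))
    (h : (⇑ModularForm.E₄ : ℍ → ℂ) ∣[(4 : ℤ)] (alphaN N * mapGL ℝ g) =
      (⇑ModularForm.E₄ : ℍ → ℂ) ∣[(4 : ℤ)] (alphaN N)) : g ∈ Gamma0 N := by
  obtain ⟨δ, A, B, D, hA, hD, hAD, hdvd, hdec⟩ := exists_decomp N g
  rw [hdec, E4_slash_mapGL_mul] at h
  have hN : (0 : ℝ) < N := by exact_mod_cast Nat.pos_of_ne_zero (NeZero.ne N)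
  have hdetβ : (upperT A B D hA hD).det.val = (N : ℝ) := by
    rw [upperT_det]; exact_mod_cast hAD
  have l1 := tendsto_slash_upper tendsto_E4 4 (upperT_one_zero A B D hA hD)
    (by rw [hdetβ]; exact hN)
  have l2 := tendsto_slash_upper tendsto_E4 4 (alphaN_one_zero N) (by rw [alphaN_det]; exact hN)
  rw [h] at l1
  have e := tendsto_nhds_unique l1 l2
  rw [hdetβ, alphaN_det, upperT_one_one, alphaN_one_one] at e
  have hNc : ((N : ℝ) : ℂ) ^ ((4 : ℤ) - 1) ≠ 0 :=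
    zpow_ne_zero _ (by exact_mod_cast hN.ne')
  have e2 : (((D : ℝ) : ℂ)) ^ (-(4 : ℤ)) = 1 := by
    have := mul_left_cancel₀ (mul_ne_zero one_ne_zero hNc) e
    simpa using this
  have e3 : (D : ℂ) ^ 4 = 1 := by
    rw [Complex.ofReal_intCast, zpow_neg, inv_eq_one] at e2
    exact_mod_cast e2
  have e4 : D ^ 4 = 1 := by exact_mod_cast e3
  have e5 : D = 1 := (pow_eq_one_iff_of_nonneg hD.le (by norm_num)).mp e4
  rw [Gamma0_mem, ZMod.intCast_zmod_eq_zero_iff_dvd]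
  exact hdvd e5

/-- the separating tuple on `SL(2, ℤ) ⧸ Γ₀(N)`: `g Γ₀(N) ↦ E₄(N ·) ∣[4] g⁻¹` (up to a constant) -/
def Phi (N : ℕ) [NeZero N] (x : SL(2, ℤ) ⧸ Gamma0 N) : ℍ → ℂ :=
  Quotient.liftOn' x (Psi N) (by
    intro g₁ g₂ h
    rw [QuotientGroup.leftRel_apply] at h
    have : g₂ = g₁ * (g₁⁻¹ * g₂) := by group
    rw [this, Psi_mul_of_mem N g₁ h])

theorem Phi_mk (N : ℕ) [NeZero N] (g : SL(2, ℤ)) :
    Phi N (QuotientGroup.mk g : SL(2, ℤ) ⧸ Gamma0 N) = Psi N g := rfl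

theorem Phi_mem (N : ℕ) [NeZero N] : Phi N ∈ VMod (SL(2, ℤ) ⧸ Gamma0 N) 4 := by
  refine ⟨fun x => ?_, fun γ x => ?_, fun x => ?_⟩
  · induction x using QuotientGroup.induction_on with
    | H g => exact Psi_mdiff N g
  · induction x using QuotientGroup.induction_on with
    | H g => rw [Phi_mk, Psi_slash, MulAction.Quotient.smul_mk, Phi_mk, smul_eq_mul]
  · induction x using QuotientGroup.induction_on with
    | H g => exact Psi_bdd N g

theorem Phi_injective (N : ℕ) [NeZero N] : Function.Injective (Phi N) := by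
  intro x y hxy
  induction x using QuotientGroup.induction_on with
  | H g₁ =>
  induction y using QuotientGroup.induction_on with
  | H g₂ =>
    rw [Phi_mk, Phi_mk] at hxy
    rw [QuotientGroup.eq]
    apply mem_Gamma0_of_slash_eq
    unfold Psi at hxy
    have := congrArg (fun f : ℍ → ℂ => f ∣[(4 : ℤ)] (mapGL ℝ g₂)) hxy
    simp only [← SlashAction.slash_mul] at this
    rw [mul_assoc, mul_assoc, ← map_mul, ← map_mul, inv_mul_cancel, map_one, mul_one] at this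
    exact this

/-- **PHI**: the coset space `SL(2, ℤ) ⧸ Γ₀(N)` carries a separating vector valued modular form. -/
theorem exists_sep (N : ℕ) [NeZero N] :
    ∃ (k : ℤ) (Φ : (SL(2, ℤ) ⧸ Gamma0 N) → ℍ → ℂ),
      Φ ∈ VMod (SL(2, ℤ) ⧸ Gamma0 N) k ∧ Function.Injective Φ :=
  ⟨4, Phi N, Phi_mem N, Phi_injective N⟩

/-- bonus: `-1` acts trivially on `SL(2, ℤ) ⧸ Γ₀(N)` -/
theorem neg_one_smul_QN (N : ℕ) [NeZero N] (x : SL(2, ℤ) ⧸ Gamma0 N) :
    (-1 : SL(2, ℤ)) • x = x := by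
  induction x using QuotientGroup.induction_on with
  | H g =>
    have hmem : (-1 : SL(2, ℤ)) ∈ Gamma0 N := by
      rw [Gamma0_mem]
      simp
    rw [MulAction.Quotient.smul_mk, smul_eq_mul,
      show (-1 : SL(2, ℤ)) * g = g * (-1) by rw [neg_one_mul, mul_neg_one]]
    exact QuotientGroup.mk_mul_of_mem g hmem

/-- bonus: `SL(2, ℤ)` acts transitively on `SL(2, ℤ) ⧸ Γ₀(N)` -/
theorem isPretransitive_QN (N : ℕ) :
    MulAction.IsPretransitive SL(2, ℤ) (SL(2, ℤ) ⧸ Gamma0 N) :=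
  inferInstance

end Fermat.Agent.S20.H69
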