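import Mathlib
import Fermat.Agent.S20.Defs

set_option autoImplicit false

open UpperHalfPlane ModularForm
open scoped MatrixGroups ModularForm Manifold

noncomputable section

namespace Fermat.Agent.S20

/-- bundle an element of `LvlOne k` as a Mathlib modular form -/
def LvlOne.toMF {k : ℤ} {f : ℍ → ℂ} (hf : f ∈ LvlOne k) : ModularForm 𝒮ℒ k where
  toFun := f
  slash_action_eq' := by
    rintro _ ⟨γ, rfl⟩
    exact hf.2.1 γ
  holo' := hf.1
  bdd_at_cusps' := by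
    intro c hc
    rw [OnePoint.isBoundedAt_iff_forall_SL2Z hc]
    intro γ _
    rw [hf.2.1 γ]
    exact hf.2.2

@[simp] lemma LvlOne.coe_toMF {k : ℤ} {f : ℍ → ℂ} (hf : f ∈ LvlOne k) :
    (⇑(LvlOne.toMF hf) : ℍ → ℂ) = f := rfl

lemma LvlOne.coe_mem {k : ℤ} (f : ModularForm 𝒮ℒ k) : (⇑f : ℍ → ℂ) ∈ LvlOne k := by
  refine ⟨f.holo', fun γ => ?_, ?_⟩
  · exact f.slash_action_eq' _ ⟨γ, rfl⟩
  · have := f.bdd_at_cusps' (c := OnePoint.infty) (by
      rw [Subgroup.IsArithmetic.isCusp_iff_isCusp_SL2Z]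
      exact isCusp_SL2Z_iff'.mpr ⟨1, by simp⟩)
    exact OnePoint.isBoundedAt_infty_iff.mp this

lemma LvlOne.coe_mem_cusp {k : ℤ} (f : CuspForm 𝒮ℒ k) : (⇑f : ℍ → ℂ) ∈ LvlOne k := by
  refine ⟨f.holo', fun γ => ?_, ?_⟩
  · exact f.slash_action_eq' _ ⟨γ, rfl⟩
  · have := f.zero_at_cusps' (c := OnePoint.infty) (by
      rw [Subgroup.IsArithmetic.isCusp_iff_isCusp_SL2Z]
      exact isCusp_SL2Z_iff'.mpr ⟨1, by simp⟩)
    exact (OnePoint.isZeroAt_infty_iff.mp this).isBoundedAtImInfty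

/-- `LvlOne k` is linearly equivalent to Mathlib's space of level one forms. -/
def LvlOne.equivMF (k : ℤ) : LvlOne k ≃ₗ[ℂ] ModularForm 𝒮ℒ k where
  toFun f := LvlOne.toMF f.2
  invFun f := ⟨⇑f, LvlOne.coe_mem f⟩
  map_add' _ _ := rfl
  map_smul' _ _ := rfl
  left_inv _ := rfl
  right_inv _ := rfl

end Fermat.Agent.S20

namespace Fermat.Agent.S20

open Filter Topology

/-- value at the cusp -/
abbrev vInf (f : ℍ → ℂ) : ℂ := UpperHalfPlane.valueAtInfty f

/-- a periodic, holomorphic, bounded function on the upper half plane has a limit at `i∞` -/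
theorem tendsto_vInf_of_periodic {f : ℍ → ℂ} {h : ℝ} (hh : 0 < h)
    (hper : Function.Periodic (f ∘ ofComplex) h) (hhol : MDiff f) (hbdd : IsBoundedAtImInfty f) :
    Tendsto f atImInfty (𝓝 (vInf f)) := by
  have hanal := analyticAt_cuspFunction_zero hh hper hhol hbdd
  rw [vInf, ← cuspFunction_apply_zero hh hanal hper]
  exact (hanal.continuousAt.tendsto.comp (qParam_tendsto_atImInfty hh)).congr
    (fun τ ↦ eq_cuspFunction τ hh.ne' hper)

theorem LvlOne.periodic {k : ℤ} {f : ℍ → ℂ} (hf : f ∈ LvlOne k) :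
    Function.Periodic (f ∘ ofComplex) (1 : ℝ) := by
  have := SlashInvariantFormClass.periodic_comp_ofComplex (LvlOne.toMF hf)
    one_mem_strictPeriods_SL
  simpa using this

theorem LvlOne.tendsto_vInf {k : ℤ} {f : ℍ → ℂ} (hf : f ∈ LvlOne k) :
    Tendsto f atImInfty (𝓝 (vInf f)) :=
  tendsto_vInf_of_periodic one_pos (LvlOne.periodic hf) hf.1 hf.2.2

theorem vInf_eq_of_tendsto {f : ℍ → ℂ} {c : ℂ} (h : Tendsto f atImInfty (𝓝 c)) : vInf f = c :=
  h.limUnder_eq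

theorem LvlOne.vInf_eq_coeff_zero {k : ℤ} {f : ℍ → ℂ} (hf : f ∈ LvlOne k) :
    (qExpansion 1 f).coeff 0 = vInf f :=
  qExpansion_coeff_zero one_pos
    (analyticAt_cuspFunction_zero one_pos (LvlOne.periodic hf) hf.1 hf.2.2) (LvlOne.periodic hf)

theorem LvlOne.isZeroAtImInfty_iff {k : ℤ} {f : ℍ → ℂ} (hf : f ∈ LvlOne k) :
    IsZeroAtImInfty f ↔ vInf f = 0 := by
  constructor
  · intro h
    exact h.valueAtInfty_eq_zero
  · intro h
    have := LvlOne.tendsto_vInf hf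
    rwa [h] at this

theorem LvlOne.mul_mem {a b : ℤ} {f g : ℍ → ℂ} (hf : f ∈ LvlOne a) (hg : g ∈ LvlOne b) :
    f * g ∈ LvlOne (a + b) := by
  refine ⟨hf.1.mul hg.1, fun γ => ?_, hf.2.2.mul hg.2.2⟩
  rw [mul_slash_SL2, hf.2.1, hg.2.1]

theorem LvlOne.vInf_mul {a b : ℤ} {f g : ℍ → ℂ} (hf : f ∈ LvlOne a) (hg : g ∈ LvlOne b) :
    vInf (f * g) = vInf f * vInf g :=
  vInf_eq_of_tendsto ((LvlOne.tendsto_vInf hf).mul (LvlOne.tendsto_vInf hg))

theorem LvlOne.vInf_add {a : ℤ} {f g : ℍ → ℂ} (hf : f ∈ LvlOne a) (hg : g ∈ LvlOne a) :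
    vInf (f + g) = vInf f + vInf g :=
  vInf_eq_of_tendsto ((LvlOne.tendsto_vInf hf).add (LvlOne.tendsto_vInf hg))

theorem LvlOne.vInf_smul {a : ℤ} {f : ℍ → ℂ} (hf : f ∈ LvlOne a) (c : ℂ) :
    vInf (c • f) = c * vInf f :=
  vInf_eq_of_tendsto ((LvlOne.tendsto_vInf hf).const_smul c)

theorem LvlOne.one_mem : (1 : ℍ → ℂ) ∈ LvlOne 0 :=
  ⟨mdifferentiable_const, fun γ => is_invariant_one γ,
    Filter.const_boundedAtFilter _ (1 : ℂ)⟩

theorem LvlOne.const_mem (c : ℂ) : (fun _ => c : ℍ → ℂ) ∈ LvlOne 0 := by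
  have := (LvlOne 0).smul_mem c LvlOne.one_mem
  convert this using 1
  ext z
  simp

theorem LvlOne.pow_mem {a : ℤ} {f : ℍ → ℂ} (hf : f ∈ LvlOne a) (n : ℕ) :
    f ^ n ∈ LvlOne (n * a) := by
  induction n with
  | zero => simpa using LvlOne.one_mem
  | succ n ih =>
    rw [pow_succ]
    have := LvlOne.mul_mem ih hf
    convert this using 2
    push_cast
    ring

theorem LvlOne.eq_bot_of_neg {k : ℤ} (hk : k < 0) : LvlOne k = ⊥ := by
  rw [eq_bot_iff]
  intro f hf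
  have := ModularFormClass.levelOne_neg_weight_eq_zero hk (LvlOne.toMF hf)
  simpa using this

theorem LvlOne.zero_eq_const {f : ℍ → ℂ} (hf : f ∈ LvlOne 0) : ∃ c : ℂ, f = fun _ => c := by
  obtain ⟨c, hc⟩ := ModularFormClass.levelOne_weight_zero_const (LvlOne.toMF hf)
  refine ⟨c, ?_⟩
  have h2 : (f : ℍ → ℂ) = Function.const ℍ c := by simpa using hc
  rw [h2]
  rfl

instance LvlOne.finiteDimensional (k : ℤ) : FiniteDimensional ℂ (LvlOne k) :=
  (LvlOne.equivMF k).symm.finiteDimensional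

theorem LvlOne.finrank_eq (k : ℕ) (hk : Even k) :
    Module.finrank ℂ (LvlOne (k : ℤ)) = if k % 12 = 2 then k / 12 else k / 12 + 1 := by
  rw [(LvlOne.equivMF k).finrank_eq]
  have h := ModularForm.dimension_level_one k hk
  have h2 : (Module.finrank ℂ (ModularForm 𝒮ℒ (k : ℤ)) : Cardinal) =
      Module.rank ℂ (ModularForm 𝒮ℒ (k : ℤ)) := Module.finrank_eq_rank _ _
  rw [h] at h2
  split_ifs at h2 ⊢ with h3 h4 h4
  · exact_mod_cast h2
  · exact absurd h3 h4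
  · exact absurd h4 h3
  · exact_mod_cast h2

end Fermat.Agent.S20

namespace Fermat.Agent.S20

open Filter Topology EisensteinSeries

def E4 : ℍ → ℂ := ⇑ModularForm.E₄
def E6 : ℍ → ℂ := ⇑ModularForm.E₆
def Dl : ℍ → ℂ := ModularForm.discriminant

theorem E4_mem : E4 ∈ LvlOne 4 := LvlOne.coe_mem ModularForm.E₄
theorem E6_mem : E6 ∈ LvlOne 6 := LvlOne.coe_mem ModularForm.E₆
theorem Dl_mem : Dl ∈ LvlOne 12 := LvlOne.coe_mem_cusp CuspForm.discriminant
theorem Dl_ne_zero (z : ℍ) : Dl z ≠ 0 := ModularForm.discriminant_ne_zero z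
theorem Dl_zero_at : IsZeroAtImInfty Dl := ModularForm.discriminant_isZeroAtImInfty
theorem Dl_eq (z : ℍ) : 1728 * Dl z = E4 z ^ 3 - E6 z ^ 2 := by
  have := ModularForm.discriminant_eq_E₄_cube_sub_E₆_sq z
  simp only [Dl, E4, E6]
  rw [this]
  ring

theorem vInf_E4 : vInf E4 = 1 := by
  rw [← LvlOne.vInf_eq_coeff_zero E4_mem]
  exact E_qExpansion_coeff_zero _ ⟨2, rfl⟩

theorem vInf_E6 : vInf E6 = 1 := by
  rw [← LvlOne.vInf_eq_coeff_zero E6_mem]
  exact E_qExpansion_coeff_zero _ ⟨3, rfl⟩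

theorem vInf_Dl : vInf Dl = 0 := Dl_zero_at.valueAtInfty_eq_zero

/-- a level one form vanishing at the cusp is divisible by the discriminant -/
theorem LvlOne.div_Dl {k : ℤ} {f : ℍ → ℂ} (hf : f ∈ LvlOne k) (h0 : IsZeroAtImInfty f) :
    ∃ g ∈ LvlOne (k - 12), f = Dl * g := by
  have hcusp : ∀ {c : OnePoint ℝ}, IsCusp c 𝒮ℒ → c.IsZeroAt f k := by
    intro c hc
    rw [Subgroup.IsArithmetic.isCusp_iff_isCusp_SL2Z] at hc
    rw [OnePoint.isZeroAt_iff_forall_SL2Z hc]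
    intro γ _
    rw [hf.2.1 γ]
    exact h0
  let F : CuspForm 𝒮ℒ k :=
    { toFun := f
      slash_action_eq' := (LvlOne.toMF hf).slash_action_eq'
      holo' := hf.1
      zero_at_cusps' := hcusp }
  refine ⟨⇑(CuspForm.discriminantEquiv F), LvlOne.coe_mem _, ?_⟩
  ext z
  have := ModularForm.discriminant_mul_discriminantEquiv_apply F z
  rw [Pi.mul_apply]
  exact this.symm

end Fermat.Agent.S20

namespace Fermat.Agent.S20

open Filter Topology EisensteinSeries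

theorem LvlOne.eq_bot_of_odd {k : ℤ} (hk : Odd k) : LvlOne k = ⊥ := by
  rw [eq_bot_iff]
  intro f hf
  have := ModularForm.levelOne_odd_weight_eq_zero hk (LvlOne.toMF hf)
  have h2 : (⇑(LvlOne.toMF hf) : ℍ → ℂ) = 0 := by rw [this]; rfl
  simpa using h2

theorem LvlOne.two_eq_bot : LvlOne 2 = ⊥ := by
  rw [eq_bot_iff]
  intro f hf
  have h := ModularForm.levelOne_weight_two_rank_zero
  rw [rank_zero_iff_forall_zero] at h
  have := h (LvlOne.toMF hf)
  have h2 : (⇑(LvlOne.toMF hf) : ℍ → ℂ) = 0 := by rw [this]; rfl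
  simpa using h2

theorem LvlOne.mul_eq_zero {a b : ℤ} {f g : ℍ → ℂ} (hf : f ∈ LvlOne a) (hg : g ∈ LvlOne b)
    (h : f * g = 0) : f = 0 ∨ g = 0 := by
  by_contra hcon
  push_neg at hcon
  have hf' : LvlOne.toMF hf ≠ 0 := fun h0 => hcon.1 (by
    have h2 : (⇑(LvlOne.toMF hf) : ℍ → ℂ) = 0 := by rw [h0]; rfl
    simpa using h2)
  have hg' : LvlOne.toMF hg ≠ 0 := fun h0 => hcon.2 (by
    have h2 : (⇑(LvlOne.toMF hg) : ℍ → ℂ) = 0 := by rw [h0]; rfl
    simpa using h2)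
  have := ModularForm.mul_ne_zero ⟨1, one_mem_strictPeriods_SL, one_pos⟩ hf' hg'
  apply this
  ext z
  have := congrFun h z
  simpa using this

/-- the dimension of the space of level one forms of weight `k` -/
def dimL (k : ℤ) : ℕ :=
  if k < 0 ∨ k % 2 = 1 then 0 else if k % 12 = 2 then (k / 12).toNat else (k / 12).toNat + 1

theorem LvlOne.finrank_eq_dimL (k : ℤ) : Module.finrank ℂ (LvlOne k) = dimL k := by
  unfold dimL
  split_ifs with h1 h2
  · rcases h1 with h1 | h1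
    · rw [LvlOne.eq_bot_of_neg h1]; simp
    · rw [LvlOne.eq_bot_of_odd (Int.odd_iff.mpr h1)]; simp
  · push_neg at h1
    obtain ⟨n, rfl⟩ := Int.eq_ofNat_of_zero_le h1.1
    have hev : Even n := by
      have : (n : ℤ) % 2 = 0 := by omega
      exact Nat.even_iff.mpr (by omega)
    rw [LvlOne.finrank_eq n hev]
    have : n % 12 = 2 := by omega
    rw [if_pos this]
    omega
  · push_neg at h1
    obtain ⟨n, rfl⟩ := Int.eq_ofNat_of_zero_le h1.1
    have hev : Even n := by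
      have : (n : ℤ) % 2 = 0 := by omega
      exact Nat.even_iff.mpr (by omega)
    rw [LvlOne.finrank_eq n hev]
    have : ¬ n % 12 = 2 := by omega
    rw [if_neg this]
    omega

/-- multiplication by a level one form, as a linear map -/
def LvlOne.mulMap {w : ℤ} {p : ℍ → ℂ} (hp : p ∈ LvlOne w) (k : ℤ) :
    LvlOne (k - w) →ₗ[ℂ] LvlOne k where
  toFun g := ⟨p * g.1, by
    have := LvlOne.mul_mem hp g.2
    rwa [show w + (k - w) = k by ring] at this⟩
  map_add' g₁ g₂ := by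
    ext z
    simp [mul_add]
  map_smul' c g := by
    ext z
    simp [mul_left_comm]

theorem LvlOne.mulMap_injective {w : ℤ} {p : ℍ → ℂ} (hp : p ∈ LvlOne w) (hp0 : p ≠ 0) (k : ℤ) :
    Function.Injective (LvlOne.mulMap hp k) := by
  rw [← LinearMap.ker_eq_bot, LinearMap.ker_eq_bot']
  intro g hg
  have h1 : p * g.1 = 0 := congrArg Subtype.val hg
  rcases LvlOne.mul_eq_zero hp g.2 h1 with h | h
  · exact absurd h hp0
  · exact Subtype.ext h

/-- general principal ideal lemma by dimension count -/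
theorem LvlOne.div_of_dim {w k : ℤ} {p : ℍ → ℂ} (hp : p ∈ LvlOne w) (hp0 : p ≠ 0) {z₀ : ℍ}
    (hpz : p z₀ = 0) (hdim : dimL k ≤ dimL (k - w) + 1)
    (hex : dimL k = dimL (k - w) + 1 → ∃ f ∈ LvlOne k, f z₀ ≠ 0)
    {f : ℍ → ℂ} (hf : f ∈ LvlOne k) (h0 : f z₀ = 0) : ∃ g ∈ LvlOne (k - w), f = p * g := by
  -- evaluation functional
  let ev : LvlOne k →ₗ[ℂ] ℂ :=
    { toFun := fun g => g.1 z₀
      map_add' := fun _ _ => rfl
      map_smul' := fun _ _ => rfl }
  have hrange : LinearMap.range (LvlOne.mulMap hp k) ≤ LinearMap.ker ev := by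
    rintro _ ⟨g, rfl⟩
    show p z₀ * g.1 z₀ = 0
    rw [hpz, zero_mul]
  have hfin : Module.finrank ℂ (LinearMap.range (LvlOne.mulMap hp k)) = dimL (k - w) := by
    rw [LinearMap.finrank_range_of_inj (LvlOne.mulMap_injective hp hp0 k),
      LvlOne.finrank_eq_dimL]
  have hker : Module.finrank ℂ (LinearMap.ker ev) ≤ dimL (k - w) := by
    by_cases hcase : dimL k = dimL (k - w) + 1
    · obtain ⟨f₀, hf₀, hf₀z⟩ := hex hcase
      have hlt : LinearMap.ker ev ≠ ⊤ := by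
        intro htop
        have : (⟨f₀, hf₀⟩ : LvlOne k) ∈ LinearMap.ker ev := by rw [htop]; trivial
        exact hf₀z this
      have := Submodule.finrank_lt hlt
      rw [LvlOne.finrank_eq_dimL] at this
      omega
    · have := Submodule.finrank_le (LinearMap.ker ev)
      rw [LvlOne.finrank_eq_dimL] at this
      omega
  have heq : LinearMap.range (LvlOne.mulMap hp k) = LinearMap.ker ev := by
    apply Submodule.eq_of_le_of_finrank_le hrange
    rw [hfin]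
    exact hker
  have hmem : (⟨f, hf⟩ : LvlOne k) ∈ LinearMap.range (LvlOne.mulMap hp k) := by
    rw [heq]
    exact h0
  obtain ⟨g, hg⟩ := hmem
  exact ⟨g.1, g.2, (congrArg Subtype.val hg).symm⟩

end Fermat.Agent.S20

namespace Fermat.Agent.S20

open Filter Topology EisensteinSeries

theorem LvlOne.monomial_mem (a b : ℕ) : E4 ^ a * E6 ^ b ∈ LvlOne (4 * a + 6 * b) := by
  have h1 := LvlOne.pow_mem E4_mem a
  have h2 := LvlOne.pow_mem E6_mem b
  have := LvlOne.mul_mem h1 h2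
  convert this using 2
  ring

theorem E4_ne_zero_of_E6 {z : ℍ} (h : E6 z = 0) : E4 z ≠ 0 := by
  intro h4
  have := Dl_eq z
  rw [h, h4] at this
  have h2 := Dl_ne_zero z
  apply h2
  have : (1728 : ℂ) * Dl z = 0 := by rw [this]; ring
  simpa using this

theorem E6_ne_zero_of_E4 {z : ℍ} (h : E4 z = 0) : E6 z ≠ 0 := by
  intro h6
  exact E4_ne_zero_of_E6 h6 h

theorem LvlOne.exists_ne_zero_generic {z₀ : ℍ} (h4 : E4 z₀ ≠ 0) (h6 : E6 z₀ ≠ 0) {k : ℤ}
    (hk : Even k) (hk4 : 4 ≤ k) : ∃ f ∈ LvlOne k, f z₀ ≠ 0 := by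
  obtain ⟨m, hm⟩ := hk
  by_cases hpar : m % 2 = 0
  · -- k = 4 a
    refine ⟨E4 ^ (k / 4).toNat * E6 ^ 0, ?_, ?_⟩
    · have := LvlOne.monomial_mem (k / 4).toNat 0
      convert this using 2
      have : ((k / 4).toNat : ℤ) = k / 4 := Int.toNat_of_nonneg (by omega)
      rw [this]
      omega
    · simp only [pow_zero, mul_one, Pi.pow_apply]
      exact pow_ne_zero _ h4
  · refine ⟨E4 ^ ((k - 6) / 4).toNat * E6 ^ 1, ?_, ?_⟩
    · have := LvlOne.monomial_mem ((k - 6) / 4).toNat 1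
      convert this using 2
      have : (((k - 6) / 4).toNat : ℤ) = (k - 6) / 4 := Int.toNat_of_nonneg (by omega)
      rw [this]
      omega
    · simp only [pow_one, Pi.mul_apply, Pi.pow_apply]
      exact mul_ne_zero (pow_ne_zero _ h4) h6

theorem LvlOne.exists_ne_zero_of_E6 {z₀ : ℍ} (h6 : E6 z₀ = 0) {k : ℤ}
    (hk : 4 ∣ k) (hk0 : 0 ≤ k) : ∃ f ∈ LvlOne k, f z₀ ≠ 0 := by
  obtain ⟨m, rfl⟩ := hk
  refine ⟨E4 ^ m.toNat * E6 ^ 0, ?_, ?_⟩
  · have := LvlOne.monomial_mem m.toNat 0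
    convert this using 2
    have : (m.toNat : ℤ) = m := Int.toNat_of_nonneg (by omega)
    rw [this]
    omega
  · simp only [pow_zero, mul_one, Pi.pow_apply]
    exact pow_ne_zero _ (E4_ne_zero_of_E6 h6)

theorem LvlOne.exists_ne_zero_of_E4 {z₀ : ℍ} (h4 : E4 z₀ = 0) {k : ℤ}
    (hk : 6 ∣ k) (hk0 : 0 ≤ k) : ∃ f ∈ LvlOne k, f z₀ ≠ 0 := by
  obtain ⟨m, rfl⟩ := hk
  refine ⟨E4 ^ 0 * E6 ^ m.toNat, ?_, ?_⟩
  · have := LvlOne.monomial_mem 0 m.toNat
    convert this using 2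
    have : (m.toNat : ℤ) = m := Int.toNat_of_nonneg (by omega)
    rw [this]
    omega
  · simp only [pow_zero, one_mul, Pi.pow_apply]
    exact pow_ne_zero _ (E6_ne_zero_of_E4 h4)

theorem E4_ne_zero : E4 ≠ 0 := by
  intro h
  have := vInf_E4
  rw [h] at this
  have h0 : vInf (0 : ℍ → ℂ) = 0 :=
    vInf_eq_of_tendsto tendsto_const_nhds
  rw [h0] at this
  exact zero_ne_one this

theorem E6_ne_zero : E6 ≠ 0 := by
  intro h
  have := vInf_E6
  rw [h] at this
  have h0 : vInf (0 : ℍ → ℂ) = 0 :=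
    vInf_eq_of_tendsto tendsto_const_nhds
  rw [h0] at this
  exact zero_ne_one this

/-- the generic weight 12 form vanishing at `z₀` -/
def piGen (z₀ : ℍ) : ℍ → ℂ := fun z => E6 z₀ ^ 2 * E4 z ^ 3 - E4 z₀ ^ 3 * E6 z ^ 2

theorem piGen_eq (z₀ : ℍ) : piGen z₀ = (E6 z₀ ^ 2) • (E4 ^ 3 * E6 ^ 0) -
    (E4 z₀ ^ 3) • (E4 ^ 0 * E6 ^ 2) := by
  ext z
  simp [piGen]

theorem piGen_mem (z₀ : ℍ) : piGen z₀ ∈ LvlOne 12 := by
  rw [piGen_eq]
  apply Submodule.sub_mem
  · apply Submodule.smul_mem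
    have := LvlOne.monomial_mem 3 0
    simpa using this
  · apply Submodule.smul_mem
    have := LvlOne.monomial_mem 0 2
    simpa using this

theorem piGen_self (z₀ : ℍ) : piGen z₀ z₀ = 0 := by
  simp [piGen]; ring

theorem vInf_piGen (z₀ : ℍ) : vInf (piGen z₀) = - 1728 * Dl z₀ := by
  have h4 := LvlOne.tendsto_vInf E4_mem
  have h6 := LvlOne.tendsto_vInf E6_mem
  rw [vInf_E4] at h4
  rw [vInf_E6] at h6
  have : Tendsto (piGen z₀) atImInfty (𝓝 (E6 z₀ ^ 2 * 1 ^ 3 - E4 z₀ ^ 3 * 1 ^ 2)) :=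
    ((h4.pow 3).const_mul _).sub ((h6.pow 2).const_mul _)
  rw [vInf_eq_of_tendsto this]
  have := Dl_eq z₀
  linear_combination this

theorem vInf_piGen_ne_zero (z₀ : ℍ) : vInf (piGen z₀) ≠ 0 := by
  rw [vInf_piGen]
  exact mul_ne_zero (by norm_num) (Dl_ne_zero z₀)

theorem piGen_ne_zero (z₀ : ℍ) : piGen z₀ ≠ 0 := by
  intro h
  have := vInf_piGen_ne_zero z₀
  rw [h] at this
  exact this (vInf_eq_of_tendsto tendsto_const_nhds)

theorem dimL_sub_twelve {k : ℤ} : dimL k ≤ dimL (k - 12) + 1 ∧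
    (dimL k = dimL (k - 12) + 1 → Even k ∧ (k = 0 ∨ 4 ≤ k)) := by
  unfold dimL
  constructor
  · split_ifs <;> omega
  · intro h
    split_ifs at h <;> first | omega | (constructor <;> [exact Int.even_iff.mpr (by omega); omega])

theorem LvlOne.div_piGen {z₀ : ℍ} (h4 : E4 z₀ ≠ 0) (h6 : E6 z₀ ≠ 0) {k : ℤ} {f : ℍ → ℂ}
    (hf : f ∈ LvlOne k) (h0 : f z₀ = 0) : ∃ g ∈ LvlOne (k - 12), f = piGen z₀ * g := by
  refine LvlOne.div_of_dim (piGen_mem z₀) (piGen_ne_zero z₀) (piGen_self z₀)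
    dimL_sub_twelve.1 ?_ hf h0
  intro h
  obtain ⟨hev, hk⟩ := dimL_sub_twelve.2 h
  rcases hk with rfl | hk
  · exact ⟨1, LvlOne.one_mem, by simp⟩
  · exact LvlOne.exists_ne_zero_generic h4 h6 hev hk

end Fermat.Agent.S20

namespace Fermat.Agent.S20

open Filter Topology EisensteinSeries

/-- surjectivity of multiplication when the dimensions agree -/
theorem LvlOne.div_of_dim_eq {w k : ℤ} {p : ℍ → ℂ} (hp : p ∈ LvlOne w) (hp0 : p ≠ 0)
    (hdim : dimL k = dimL (k - w)) {f : ℍ → ℂ} (hf : f ∈ LvlOne k) :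
    ∃ g ∈ LvlOne (k - w), f = p * g := by
  have hfin : Module.finrank ℂ (LinearMap.range (LvlOne.mulMap hp k)) =
      Module.finrank ℂ (LvlOne k) := by
    rw [LinearMap.finrank_range_of_inj (LvlOne.mulMap_injective hp hp0 k),
      LvlOne.finrank_eq_dimL, LvlOne.finrank_eq_dimL, hdim]
  have htop : LinearMap.range (LvlOne.mulMap hp k) = ⊤ :=
    Submodule.eq_top_of_finrank_eq hfin
  have hmem : (⟨f, hf⟩ : LvlOne k) ∈ LinearMap.range (LvlOne.mulMap hp k) := by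
    rw [htop]; trivial
  obtain ⟨g, hg⟩ := hmem
  exact ⟨g.1, g.2, (congrArg Subtype.val hg).symm⟩

theorem dimL_sub_six {k : ℤ} : dimL k ≤ dimL (k - 6) + 1 ∧
    (dimL k = dimL (k - 6) + 1 → 4 ∣ k ∧ 0 ≤ k) ∧ (¬ (4 ∣ k ∧ 0 ≤ k) → dimL k = dimL (k - 6)) := by
  unfold dimL
  refine ⟨?_, ?_, ?_⟩
  · split_ifs <;> omega
  · intro h
    split_ifs at h <;> omega
  · intro h
    split_ifs <;> omega

theorem dimL_sub_four {k : ℤ} : dimL k ≤ dimL (k - 4) + 1 ∧
    (dimL k = dimL (k - 4) + 1 → 6 ∣ k ∧ 0 ≤ k) ∧ (¬ (6 ∣ k ∧ 0 ≤ k) → dimL k = dimL (k - 4)) := by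
  unfold dimL
  refine ⟨?_, ?_, ?_⟩
  · split_ifs <;> omega
  · intro h
    split_ifs at h <;> omega
  · intro h
    split_ifs <;> omega

theorem LvlOne.div_E6 {z₀ : ℍ} (h6 : E6 z₀ = 0) {k : ℤ} {f : ℍ → ℂ}
    (hf : f ∈ LvlOne k) (h0 : f z₀ = 0) : ∃ g ∈ LvlOne (k - 6), f = E6 * g := by
  refine LvlOne.div_of_dim E6_mem E6_ne_zero h6 dimL_sub_six.1 ?_ hf h0
  intro h
  obtain ⟨h4, hk⟩ := dimL_sub_six.2.1 h
  exact LvlOne.exists_ne_zero_of_E6 h6 h4 hk

theorem LvlOne.div_E4 {z₀ : ℍ} (h4 : E4 z₀ = 0) {k : ℤ} {f : ℍ → ℂ}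
    (hf : f ∈ LvlOne k) (h0 : f z₀ = 0) : ∃ g ∈ LvlOne (k - 4), f = E4 * g := by
  refine LvlOne.div_of_dim E4_mem E4_ne_zero h4 dimL_sub_four.1 ?_ hf h0
  intro h
  obtain ⟨h6, hk⟩ := dimL_sub_four.2.1 h
  exact LvlOne.exists_ne_zero_of_E4 h4 h6 hk

theorem LvlOne.eq_zero_at_of_E6 {z₀ : ℍ} (h6 : E6 z₀ = 0) {k : ℤ} (hk : ¬ 4 ∣ k) {f : ℍ → ℂ}
    (hf : f ∈ LvlOne k) : f z₀ = 0 := by
  obtain ⟨g, _, rfl⟩ := LvlOne.div_of_dim_eq E6_mem E6_ne_zero
    (dimL_sub_six.2.2 (fun h => hk h.1)) hf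
  simp [h6]

theorem LvlOne.eq_zero_at_of_E4 {z₀ : ℍ} (h4 : E4 z₀ = 0) {k : ℤ} (hk : ¬ 6 ∣ k) {f : ℍ → ℂ}
    (hf : f ∈ LvlOne k) : f z₀ = 0 := by
  obtain ⟨g, _, rfl⟩ := LvlOne.div_of_dim_eq E4_mem E4_ne_zero
    (dimL_sub_four.2.2 (fun h => hk h.1)) hf
  simp [h4]

/-- every level one form of nonzero weight lies in the ideal generated by `E4` and `E6` -/
theorem LvlOne.exists_decomp {k : ℤ} (hk : k ≠ 0) {f : ℍ → ℂ} (hf : f ∈ LvlOne k) :
    ∃ a ∈ LvlOne (k - 4), ∃ b ∈ LvlOne (k - 6), f = E4 * a + E6 * b := by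
  by_cases h6 : (6 ∣ k ∧ 0 ≤ k)
  · -- subtract a multiple of a power of E6
    obtain ⟨⟨m, rfl⟩, hk0⟩ := h6
    have hm : 1 ≤ m := by omega
    -- g = f - vInf f • E6^m vanishes at the cusp, hence divisible by Δ, and Δ is in the ideal
    have hmono : E4 ^ 0 * E6 ^ m.toNat ∈ LvlOne (6 * m) := by
      have := LvlOne.monomial_mem 0 m.toNat
      convert this using 2
      have : (m.toNat : ℤ) = m := Int.toNat_of_nonneg (by omega)
      rw [this]; omega
    simp only [pow_zero, one_mul] at hmono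
    have hg : f - vInf f • E6 ^ m.toNat ∈ LvlOne (6 * m) :=
      Submodule.sub_mem _ hf (Submodule.smul_mem _ _ hmono)
    have hgv : vInf (f - vInf f • E6 ^ m.toNat) = 0 := by
      have h1 := LvlOne.tendsto_vInf hf
      have h2 := (LvlOne.tendsto_vInf E6_mem)
      rw [vInf_E6] at h2
      have h3 : Tendsto (f - vInf f • E6 ^ m.toNat) atImInfty
          (𝓝 (vInf f - vInf f • 1 ^ m.toNat)) :=
        h1.sub ((h2.pow m.toNat).const_smul (vInf f))
      rw [vInf_eq_of_tendsto h3]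
      simp
    obtain ⟨g, hg', hgeq⟩ := LvlOne.div_Dl hg ((LvlOne.isZeroAtImInfty_iff hg).mpr hgv)
    -- Δ = (E4^3 - E6^2)/1728
    have hD : Dl = (1 / 1728 : ℂ) • (E4 * (E4 ^ 2) - E6 * E6) := by
      ext z
      have := Dl_eq z
      simp only [Pi.smul_apply, Pi.sub_apply, Pi.mul_apply, Pi.pow_apply, smul_eq_mul]
      linear_combination (1 / 1728 : ℂ) * this
    have hm' : m.toNat = (m.toNat - 1) + 1 := by
      have : 1 ≤ m.toNat := by omega
      omega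
    refine ⟨(1 / 1728 : ℂ) • (E4 ^ 2 * g), ?_, (-(1 / 1728 : ℂ)) • (E6 * g) +
      vInf f • E6 ^ (m.toNat - 1), ?_, ?_⟩
    · apply Submodule.smul_mem
      have := LvlOne.mul_mem (LvlOne.pow_mem E4_mem 2) hg'
      convert this using 2
      push_cast; ring
    · apply Submodule.add_mem
      · apply Submodule.smul_mem
        have := LvlOne.mul_mem E6_mem hg'
        convert this using 2
        ring
      · apply Submodule.smul_mem
        have := LvlOne.pow_mem E6_mem (m.toNat - 1)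
        convert this using 2
        have : ((m.toNat - 1 : ℕ) : ℤ) = m - 1 := by omega
        rw [this]; ring
    · ext z
      have e1 : f z = Dl z * g z + vInf f * E6 z ^ m.toNat := by
        have := congrFun hgeq z
        simp only [Pi.sub_apply, Pi.smul_apply, Pi.pow_apply, Pi.mul_apply, smul_eq_mul] at this
        linear_combination this
      have e2 : E6 z ^ m.toNat = E6 z ^ (m.toNat - 1) * E6 z := by
        rw [← pow_succ, Nat.sub_add_cancel (by omega)]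
      have e3 := Dl_eq z
      simp only [Pi.add_apply, Pi.mul_apply, Pi.smul_apply, Pi.pow_apply, smul_eq_mul]
      rw [e1, e2]
      linear_combination (1 / 1728 : ℂ) * g z * e3
  · obtain ⟨g, hg, rfl⟩ := LvlOne.div_of_dim_eq E4_mem E4_ne_zero (dimL_sub_four.2.2 h6) hf
    exact ⟨g, hg, 0, Submodule.zero_mem _, by simp⟩

end Fermat.Agent.S20

namespace Fermat.Agent.S20

open Filter Topology EisensteinSeries

theorem S_smul_I : ModularGroup.S • UpperHalfPlane.I = UpperHalfPlane.I := by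
  rw [modular_S_smul]
  ext
  simp [UpperHalfPlane.I]


theorem E6_I : E6 UpperHalfPlane.I = 0 := by
  have h := congrFun (E6_mem.2.1 ModularGroup.S) UpperHalfPlane.I
  rw [SL_slash_apply, S_smul_I, ModularGroup.denom_S] at h
  have hI : ((UpperHalfPlane.I : ℍ) : ℂ) ^ (-(6 : ℤ)) = -1 := by
    rw [UpperHalfPlane.coe_I, zpow_neg]
    have : (Complex.I : ℂ) ^ (6 : ℤ) = -1 := by
      have : (Complex.I : ℂ) ^ (6 : ℤ) = Complex.I ^ (6 : ℕ) := by norm_cast
      rw [this, show (6 : ℕ) = 2 * 3 by norm_num, pow_mul, Complex.I_sq]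
      norm_num
    rw [this]
    norm_num
  rw [hI] at h
  have : 2 * E6 UpperHalfPlane.I = 0 := by linear_combination -h
  simpa using this

/-- the fixed point of `S * T` -/
def rho : ℍ := ⟨-1 / 2 + (Real.sqrt 3 / 2 : ℝ) * Complex.I, by
  simp⟩

theorem rho_coe : (rho : ℂ) = -1 / 2 + (Real.sqrt 3 / 2 : ℝ) * Complex.I := rfl

theorem rho_sq : (rho : ℂ) ^ 2 + (rho : ℂ) + 1 = 0 := by
  rw [rho_coe]
  have h3 : ((Real.sqrt 3 : ℝ) : ℂ) ^ 2 = 3 := by
    have : (Real.sqrt 3) ^ 2 = 3 := Real.sq_sqrt (by norm_num)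
    exact_mod_cast this
  push_cast
  ring_nf
  rw [Complex.I_sq, h3]
  ring

theorem ST_smul_rho : (ModularGroup.S * ModularGroup.T) • rho = rho := by
  ext
  rw [coe_specialLinearGroup_apply]
  have hne : (rho : ℂ) + 1 ≠ 0 := by
    intro h
    have := rho_sq
    have h2 : (rho : ℂ) = -1 := by linear_combination h
    rw [h2] at this
    norm_num at this
  simp only [ModularGroup.coe_S, ModularGroup.coe_T, Matrix.SpecialLinearGroup.coe_mul,
    Matrix.mul_apply, Fin.sum_univ_two]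
  simp
  field_simp
  linear_combination -rho_sq

theorem denom_ST (z : ℍ) :
    denom ((ModularGroup.S * ModularGroup.T : SL(2, ℤ)) : GL (Fin 2) ℝ) z = (z : ℂ) + 1 := by
  rw [ModularGroup.denom_apply]
  simp [ModularGroup.coe_S, ModularGroup.coe_T, Matrix.SpecialLinearGroup.coe_mul,
    Matrix.mul_apply, Fin.sum_univ_two]

theorem rho_add_one_pow_six : ((rho : ℂ) + 1) ^ 6 = 1 := by
  have h := rho_sq
  have h2 : ((rho : ℂ) + 1) ^ 2 = (rho : ℂ) := by linear_combination h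
  have h3 : (rho : ℂ) ^ 3 = 1 := by linear_combination ((rho : ℂ) - 1) * h
  calc ((rho : ℂ) + 1) ^ 6 = (((rho : ℂ) + 1) ^ 2) ^ 3 := by ring
    _ = 1 := by rw [h2, h3]

theorem rho_add_one_sq : ((rho : ℂ) + 1) ^ 2 = (rho : ℂ) := by linear_combination rho_sq

theorem rho_cube : (rho : ℂ) ^ 3 = 1 := by linear_combination ((rho : ℂ) - 1) * rho_sq

theorem rho_ne_one : (rho : ℂ) ≠ 1 := by
  intro h
  have := rho_sq
  rw [h] at this
  norm_num at this

theorem E4_rho : E4 rho = 0 := by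
  have h := congrFun (E4_mem.2.1 (ModularGroup.S * ModularGroup.T)) rho
  rw [SL_slash_apply, ST_smul_rho, denom_ST] at h
  have hne : (rho : ℂ) + 1 ≠ 0 := by
    intro h0
    have := rho_add_one_pow_six
    rw [h0] at this
    norm_num at this
  have h4 : ((rho : ℂ) + 1) ^ (-(4 : ℤ)) = (rho : ℂ) := by
    rw [zpow_neg]
    have : ((rho : ℂ) + 1) ^ (4 : ℤ) = (rho : ℂ) ^ 2 := by
      have : ((rho : ℂ) + 1) ^ (4 : ℤ) = ((rho : ℂ) + 1) ^ (4 : ℕ) := by norm_cast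
      rw [this]
      calc ((rho : ℂ) + 1) ^ 4 = (((rho : ℂ) + 1) ^ 2) ^ 2 := by ring
        _ = (rho : ℂ) ^ 2 := by rw [rho_add_one_sq]
    rw [this]
    have hr : (rho : ℂ) ≠ 0 := by
      intro h0
      have := rho_cube
      rw [h0] at this
      norm_num at this
    field_simp
    linear_combination -rho_cube
  rw [h4] at h
  have : E4 rho * ((rho : ℂ) - 1) = 0 := by linear_combination h
  rcases mul_eq_zero.mp this with h' | h'
  · exact h'
  · exact absurd (by linear_combination h') rho_ne_one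

end Fermat.Agent.S20
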