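import Mathlib
import Fermat.Agent.S20.LevelOne

set_option autoImplicit false

open UpperHalfPlane ModularForm
open scoped MatrixGroups ModularForm Manifold

noncomputable section

namespace Fermat.Agent.S20.Skel

open Fermat.Agent.S20

export Fermat.Agent.S20 (E4 E6 Dl vInf piGen)

section
variable {X : Type} [MulAction SL(2, ℤ) X]

/-- multiplication of a tuple by a scalar function -/
def smulV (f : ℍ → ℂ) (F : X → ℍ → ℂ) : X → ℍ → ℂ := fun x => f * F x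

end

section
variable {X : Type} [Fintype X] [MulAction SL(2, ℤ) X]

/-- A homogeneous basis, over level one forms, of a graded family of spaces of tuples. -/
structure HomBasis (M : ℤ → Submodule ℂ (X → ℍ → ℂ)) where
  n : ℕ
  wt : Fin n → ℤ
  gen : Fin n → (X → ℍ → ℂ)
  gen_mem : ∀ j, gen j ∈ M (wt j)
  span : ∀ (K : ℤ) (H : X → ℍ → ℂ), H ∈ M K → ∃ G : Fin n → (ℍ → ℂ),
    (∀ j, G j ∈ LvlOne (K - wt j)) ∧ H = ∑ j, smulV (G j) (gen j)
  indep : ∀ (K : ℤ) (G : Fin n → (ℍ → ℂ)), (∀ j, G j ∈ LvlOne (K - wt j)) →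
    (∑ j, smulV (G j) (gen j)) = 0 → ∀ j, G j = 0

/-- `n`-th coefficient vector of the `q_h`-expansion -/
def coeffVec (h : ℕ) (F : X → ℍ → ℂ) (n : ℕ) : X → ℂ :=
  fun x => (UpperHalfPlane.qExpansion (h : ℝ) (F x)).coeff n

def Lmap (h : ℕ) (F : X → ℍ → ℂ) : X → ℂ := ∑ n ∈ Finset.range h, coeffVec h F n
def Lmap' (h : ℕ) (F : X → ℍ → ℂ) : X → ℂ := ∑ n ∈ Finset.Icc 1 h, coeffVec h F n

end

/-- `Tper h` : `T ^ h` acts trivially on `X` -/
def Tper (X : Type) [MulAction SL(2, ℤ) X] (h : ℕ) : Prop :=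
  0 < h ∧ ∀ x : X, (ModularGroup.T ^ h) • x = x

/-- hypotheses on the `SL(2, ℤ)`-set `X` -/
structure GoodX (X : Type) [Fintype X] [MulAction SL(2, ℤ) X] : Prop where
  ne : Nonempty X
  trans : MulAction.IsPretransitive SL(2, ℤ) X
  neg : ∀ x : X, (-1 : SL(2, ℤ)) • x = x
  sep : ∃ (k : ℤ) (Φ : X → ℍ → ℂ), Φ ∈ VMod X k ∧ Function.Injective Φ

open CongruenceSubgroup

abbrev QN (N : ℕ) : Type := SL(2, ℤ) ⧸ Gamma0 N

instance (N : ℕ) [NeZero N] : Fintype (QN N) := Fintype.ofFinite _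

end Fermat.Agent.S20.Skel
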