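import Mathlib

/-!
# S20 / SZ : simple zeros of `E₄`, `E₆` and of `E₆(z₀)² E₄³ - E₄(z₀)³ E₆²` (helper36)

The bracket `2 E₄ D E₆ - 3 E₆ D E₄` (with `D = (2πi)⁻¹ d/dz`) is a cusp form of weight 12 and
level one, hence a multiple of `Δ`; comparing the first `q`-coefficients gives

  `2 E₄ D E₆ - 3 E₆ D E₄ = -1728 Δ`   (`bracket_eq`).

Since `Δ` has no zero on `ℍ`, the forms `E₄`, `E₆` and the generic weight 12 form vanishing at a
point `z₀` have only simple zeros.
-/

set_option autoImplicit false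

open UpperHalfPlane ModularForm Filter Topology
open scoped MatrixGroups ModularForm Manifold

noncomputable section

namespace Fermat.Agent.S20.H36

open Derivative

local notation "𝕢" => Function.Periodic.qParam

variable {k : ℤ}

/-! ## Derivatives in terms of the cusp function -/

/-- derivative of the `q`-parameter -/
theorem hasDerivAt_qParam (z : ℂ) :
    HasDerivAt (𝕢 1) (2 * Real.pi * Complex.I * 𝕢 1 z) z := by
  unfold Function.Periodic.qParam
  have h1 : HasDerivAt (fun w : ℂ => 2 * Real.pi * Complex.I * w / (1 : ℝ))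
      (2 * Real.pi * Complex.I) z := by
    simpa using (hasDerivAt_id z).const_mul (2 * Real.pi * Complex.I)
  exact h1.cexp.congr_deriv (by ring)

/-- `f ∘ ofComplex` as a function of `q`. -/
theorem comp_ofComplex_eq {f : ℍ → ℂ} (hper : Function.Periodic (f ∘ ofComplex) (1 : ℝ)) :
    f ∘ ofComplex = cuspFunction 1 f ∘ 𝕢 1 := by
  funext w
  exact (Function.Periodic.eq_cuspFunction one_ne_zero hper w).symm

/-- the derivative of a `1`-periodic holomorphic function bounded at `i∞` in terms of its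
cusp function -/
theorem deriv_comp_ofComplex {f : ℍ → ℂ} (hper : Function.Periodic (f ∘ ofComplex) (1 : ℝ))
    (hhol : MDiff f) (hbdd : IsBoundedAtImInfty f) (z : ℍ) :
    deriv (f ∘ ofComplex) z =
      2 * Real.pi * Complex.I * (𝕢 1 z * deriv (cuspFunction 1 f) (𝕢 1 z)) := by
  rw [comp_ofComplex_eq hper]
  have hq : ‖𝕢 1 (z : ℂ)‖ < 1 := Function.Periodic.norm_qParam_lt_one one_pos z.im_pos
  have hd : DifferentiableAt ℂ (cuspFunction 1 f) (𝕢 1 z) :=
    differentiableAt_cuspFunction one_pos hper hhol hbdd hq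
  have := (hd.hasDerivAt.comp (z : ℂ) (hasDerivAt_qParam z)).deriv
  rw [this]
  ring

/-- `D f = q * F'(q)` where `F` is the cusp function of `f`. -/
theorem normalizedDeriv_eq {f : ℍ → ℂ} (hper : Function.Periodic (f ∘ ofComplex) (1 : ℝ))
    (hhol : MDiff f) (hbdd : IsBoundedAtImInfty f) (z : ℍ) :
    D f z = 𝕢 1 z * deriv (cuspFunction 1 f) (𝕢 1 z) := by
  unfold normalizedDerivOfComplex
  rw [deriv_comp_ofComplex hper hhol hbdd z]
  have : (2 * Real.pi * Complex.I : ℂ) ≠ 0 := Complex.two_pi_I_ne_zero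
  field_simp

theorem per (f : ModularForm 𝒮ℒ k) : Function.Periodic ((⇑f) ∘ ofComplex) (1 : ℝ) :=
  SlashInvariantFormClass.periodic_comp_ofComplex f one_mem_strictPeriods_SL

theorem normalizedDeriv_modularForm (f : ModularForm 𝒮ℒ k) (z : ℍ) :
    D (⇑f) z = 𝕢 1 z * deriv (cuspFunction 1 f) (𝕢 1 z) :=
  normalizedDeriv_eq (per f) (ModularFormClass.holo f) (ModularFormClass.bdd_at_infty f) z

/-- a level one modular form tends to its constant term at `i∞` -/
theorem tendsto_coe (f : ModularForm 𝒮ℒ k) :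
    Tendsto (⇑f) atImInfty (𝓝 ((qExpansion 1 f).coeff 0)) := by
  have han : AnalyticAt ℂ (cuspFunction 1 f) 0 :=
    ModularFormClass.analyticAt_cuspFunction_zero f one_pos one_mem_strictPeriods_SL
  have h0 : (qExpansion 1 f).coeff 0 = cuspFunction 1 f 0 := by
    simp [qExpansion_coeff]
  rw [h0]
  have := han.continuousAt.tendsto.comp (qParam_tendsto_atImInfty (h := 1) one_pos)
  refine this.congr (fun τ => ?_)
  exact eq_cuspFunction τ one_ne_zero (per f)

/-- the derivative of the cusp function at `q(z)` tends to the first `q`-coefficient at `i∞` -/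
theorem tendsto_deriv_cusp (f : ModularForm 𝒮ℒ k) :
    Tendsto (fun z : ℍ => deriv (cuspFunction 1 f) (𝕢 1 z)) atImInfty
      (𝓝 ((qExpansion 1 f).coeff 1)) := by
  have han : AnalyticAt ℂ (cuspFunction 1 f) 0 :=
    ModularFormClass.analyticAt_cuspFunction_zero f one_pos one_mem_strictPeriods_SL
  have h1 : (qExpansion 1 f).coeff 1 = deriv (cuspFunction 1 f) 0 := by
    simp [qExpansion_coeff]
  rw [h1]
  exact han.deriv.continuousAt.tendsto.comp (qParam_tendsto_atImInfty (h := 1) one_pos)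

/-- `D f` of a level one modular form is zero at `i∞`. -/
theorem normalizedDeriv_isZeroAtImInfty (f : ModularForm 𝒮ℒ k) : IsZeroAtImInfty (D (⇑f)) := by
  have h := (qParam_tendsto_atImInfty (h := 1) one_pos).mul (tendsto_deriv_cusp f)
  rw [zero_mul] at h
  exact h.congr (fun z => (normalizedDeriv_modularForm f z).symm)

/-! ## The bracket -/

/-- the bracket `2 E₄ D E₆ - 3 E₆ D E₄` -/
def bracket : ℍ → ℂ := fun z => 2 * E₄ z * D (⇑E₆) z - 3 * E₆ z * D (⇑E₄) z

theorem bracket_eq_serre :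
    bracket = (2 : ℂ) • ((⇑E₄) * serreDerivative 6 (⇑E₆)) -
      (3 : ℂ) • ((⇑E₆) * serreDerivative 4 (⇑E₄)) := by
  funext z
  simp only [bracket, serreDerivative_apply, Pi.sub_apply, Pi.smul_apply, Pi.mul_apply,
    smul_eq_mul]
  ring

theorem bracket_mdiff : MDiff bracket := by
  rw [bracket_eq_serre]
  have h4 : MDiff (⇑E₄) := ModularFormClass.holo E₄
  have h6 : MDiff (⇑E₆) := ModularFormClass.holo E₆
  exact (mdifferentiable_const.smul (h4.mul (serreDerivative_mdifferentiable 6 h6))).sub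
    (mdifferentiable_const.smul (h6.mul (serreDerivative_mdifferentiable 4 h4)))

theorem slash_SL (f : ModularForm 𝒮ℒ k) (γ : SL(2, ℤ)) : (⇑f) ∣[k] γ = ⇑f :=
  f.slash_action_eq' _ ⟨γ, rfl⟩

theorem bracket_slash (γ : SL(2, ℤ)) : bracket ∣[(12 : ℤ)] γ = bracket := by
  rw [bracket_eq_serre]
  have h4 : MDiff (⇑E₄) := ModularFormClass.holo E₄
  have h6 : MDiff (⇑E₆) := ModularFormClass.holo E₆
  have e4 : (⇑E₄) ∣[(4 : ℤ)] γ = ⇑E₄ := slash_SL E₄ γ
  have e6 : (⇑E₆) ∣[(6 : ℤ)] γ = ⇑E₆ := slash_SL E₆ γ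
  have s4 : serreDerivative 4 (⇑E₄) ∣[(6 : ℤ)] γ = serreDerivative 4 (⇑E₄) := by
    have := serreDerivative_slash_invariant (k := 4) h4 (γ := γ) e4
    simpa using this
  have s6 : serreDerivative 6 (⇑E₆) ∣[(8 : ℤ)] γ = serreDerivative 6 (⇑E₆) := by
    have := serreDerivative_slash_invariant (k := 6) h6 (γ := γ) e6
    simpa using this
  have m1 : ((⇑E₄) * serreDerivative 6 (⇑E₆)) ∣[(12 : ℤ)] γ =
      (⇑E₄) * serreDerivative 6 (⇑E₆) := by
    have := ModularForm.mul_slash_SL2 4 8 γ (⇑E₄) (serreDerivative 6 (⇑E₆))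
    rw [e4, s6] at this
    exact this
  have m2 : ((⇑E₆) * serreDerivative 4 (⇑E₄)) ∣[(12 : ℤ)] γ =
      (⇑E₆) * serreDerivative 4 (⇑E₄) := by
    have := ModularForm.mul_slash_SL2 6 6 γ (⇑E₆) (serreDerivative 4 (⇑E₄))
    rw [e6, s4] at this
    exact this
  rw [sub_eq_add_neg, SlashAction.add_slash, SlashAction.neg_slash, SL_smul_slash, SL_smul_slash,
    m1, m2, ← sub_eq_add_neg]

/-- the bracket divided by `q` -/
def bracketQ : ℍ → ℂ := fun z =>
  2 * E₄ z * deriv (cuspFunction 1 E₆) (𝕢 1 z) - 3 * E₆ z * deriv (cuspFunction 1 E₄) (𝕢 1 z)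

theorem bracket_eq_q_mul (z : ℍ) : bracket z = 𝕢 1 z * bracketQ z := by
  simp only [bracket, bracketQ, normalizedDeriv_modularForm]
  ring

theorem tendsto_E4 : Tendsto (⇑E₄) atImInfty (𝓝 1) := by
  have h4 := tendsto_coe E₄
  rwa [EisensteinSeries.E_qExpansion_coeff_zero _ ⟨2, rfl⟩] at h4

theorem tendsto_E6 : Tendsto (⇑E₆) atImInfty (𝓝 1) := by
  have h6 := tendsto_coe E₆
  rwa [EisensteinSeries.E_qExpansion_coeff_zero _ ⟨3, rfl⟩] at h6

theorem tendsto_bracketQ : Tendsto bracketQ atImInfty (𝓝 (-1728)) := by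
  have h4 := tendsto_E4
  have h6 := tendsto_E6
  have d4 := tendsto_deriv_cusp E₄
  have d6 := tendsto_deriv_cusp E₆
  rw [E₄_qExpansion_coeff_one] at d4
  rw [E₆_qExpansion_coeff_one] at d6
  have := ((h4.const_mul 2).mul d6).sub ((h6.const_mul 3).mul d4)
  have e : (-1728 : ℂ) = 2 * 1 * -504 - 3 * 1 * 240 := by norm_num
  rw [e]
  exact this

theorem bracket_isZeroAtImInfty : IsZeroAtImInfty bracket := by
  have h := (qParam_tendsto_atImInfty (h := 1) one_pos).mul tendsto_bracketQ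
  rw [zero_mul] at h
  exact h.congr (fun z => (bracket_eq_q_mul z).symm)

/-- the bracket as a cusp form of weight 12 -/
def bracketCuspForm : CuspForm 𝒮ℒ 12 where
  toFun := bracket
  slash_action_eq' A hA := by
    obtain ⟨A, rfl⟩ := hA
    exact bracket_slash A
  holo' := bracket_mdiff
  zero_at_cusps' hc := by
    rw [Subgroup.IsArithmetic.isCusp_iff_isCusp_SL2Z] at hc
    rw [OnePoint.isZeroAt_iff_forall_SL2Z hc]
    intro γ _
    rw [bracket_slash]
    exact bracket_isZeroAtImInfty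

/-- **The bracket identity**: `2 E₄ D E₆ - 3 E₆ D E₄ = -1728 Δ`. -/
theorem bracket_eq (z : ℍ) : bracket z = -1728 * discriminant z := by
  obtain ⟨c, hc⟩ := CuspForm.exists_smul_discriminant_of_weight_eq_twelve bracketCuspForm
  have hcz : ∀ z : ℍ, c * discriminant z = bracket z := fun z => by
    have := DFunLike.congr_fun hc z
    exact this
  have hQ : ∀ z : ℍ, c * ∏' n, (1 - eta_q n z) ^ 24 = bracketQ z := fun z => by
    have h1 := hcz z
    rw [bracket_eq_q_mul, discriminant_eq_q_prod] at h1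
    have hq : 𝕢 1 (z : ℂ) ≠ 0 := Function.Periodic.qParam_ne_zero _
    apply mul_left_cancel₀ hq
    rw [← h1]; ring
  have hlim : Tendsto (fun z : ℍ => c * ∏' n, (1 - eta_q n z) ^ 24) atImInfty (𝓝 (c * 1)) :=
    tendsto_atImInfty_tprod_one_sub_eta_q_pow.const_mul c
  have hc' : c = -1728 := by
    have := tendsto_nhds_unique (hlim.congr hQ) tendsto_bracketQ
    simpa using this
  rw [← hcz z, hc']

/-- the bracket identity, written out -/
theorem bracket_normalizedDeriv_eq (z : ℍ) :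
    2 * E₄ z * D (⇑E₆) z - 3 * E₆ z * D (⇑E₄) z = -1728 * discriminant z :=
  bracket_eq z

/-- un-normalised version of the bracket identity -/
theorem bracket_deriv_eq (z : ℍ) :
    2 * E₄ z * deriv ((⇑E₆) ∘ ofComplex) z - 3 * E₆ z * deriv ((⇑E₄) ∘ ofComplex) z =
      -1728 * (2 * Real.pi * Complex.I) * discriminant z := by
  have h := bracket_eq z
  simp only [bracket, normalizedDerivOfComplex] at h
  have hpi : (2 * Real.pi * Complex.I : ℂ) ≠ 0 := Complex.two_pi_I_ne_zero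
  field_simp at h
  linear_combination h

theorem bracket_rhs_ne_zero (z : ℍ) :
    (-1728 : ℂ) * (2 * Real.pi * Complex.I) * discriminant z ≠ 0 :=
  mul_ne_zero (mul_ne_zero (by norm_num) Complex.two_pi_I_ne_zero) (discriminant_ne_zero z)

/-! ## Simple zeros -/

/-- `E₄` has only simple zeros on `ℍ`. -/
theorem simpleZero_E4 {z : ℍ} (h : E₄ z = 0) : deriv ((⇑E₄) ∘ ofComplex) z ≠ 0 := by
  intro h0
  have hb := bracket_deriv_eq z
  rw [h, h0] at hb
  apply bracket_rhs_ne_zero z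
  rw [← hb]; ring

/-- `E₆` has only simple zeros on `ℍ`. -/
theorem simpleZero_E6 {z : ℍ} (h : E₆ z = 0) : deriv ((⇑E₆) ∘ ofComplex) z ≠ 0 := by
  intro h0
  have hb := bracket_deriv_eq z
  rw [h, h0] at hb
  apply bracket_rhs_ne_zero z
  rw [← hb]; ring

/-- `E₄` and `E₆` have no common zero. -/
theorem not_E4_E6_zero {z : ℍ} (h4 : E₄ z = 0) (h6 : E₆ z = 0) : False := by
  apply discriminant_ne_zero z
  rw [discriminant_eq_E₄_cube_sub_E₆_sq z, h4, h6]; simp

/-- The generic weight 12 form `E₆(z₀)² E₄³ - E₄(z₀)³ E₆²` vanishing at `z₀`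
(with `E₄ z₀ ≠ 0`, `E₆ z₀ ≠ 0`) has only simple zeros on `ℍ`. -/
theorem simpleZero_piGen {z₀ z : ℍ} (h4 : E₄ z₀ ≠ 0) (h6 : E₆ z₀ ≠ 0)
    (h : E₆ z₀ ^ 2 * E₄ z ^ 3 - E₄ z₀ ^ 3 * E₆ z ^ 2 = 0) :
    deriv ((fun z : ℍ => E₆ z₀ ^ 2 * E₄ z ^ 3 - E₄ z₀ ^ 3 * E₆ z ^ 2) ∘ ofComplex) z ≠ 0 := by
  intro h0
  have d4 : HasDerivAt ((⇑E₄) ∘ ofComplex) (deriv ((⇑E₄) ∘ ofComplex) z) z :=
    (UpperHalfPlane.mdifferentiableAt_iff.mp (ModularFormClass.holo E₄ z)).hasDerivAt
  have d6 : HasDerivAt ((⇑E₆) ∘ ofComplex) (deriv ((⇑E₆) ∘ ofComplex) z) z :=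
    (UpperHalfPlane.mdifferentiableAt_iff.mp (ModularFormClass.holo E₆ z)).hasDerivAt
  have hd' : HasDerivAt ((fun z : ℍ => E₆ z₀ ^ 2 * E₄ z ^ 3 - E₄ z₀ ^ 3 * E₆ z ^ 2) ∘ ofComplex)
      _ z := ((d4.pow 3).const_mul (E₆ z₀ ^ 2)).sub ((d6.pow 2).const_mul (E₄ z₀ ^ 3))
  have hd := hd'.deriv
  rw [h0] at hd
  simp only [Function.comp_apply, ofComplex_apply] at hd
  have hb := bracket_deriv_eq z
  have hw := bracket_rhs_ne_zero z
  set x := E₄ z
  set y := E₆ z
  set x' := deriv ((⇑E₄) ∘ ofComplex) z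
  set y' := deriv ((⇑E₆) ∘ ofComplex) z
  set a := E₆ z₀ ^ 2
  set b := E₄ z₀ ^ 3
  have ha : a ≠ 0 := pow_ne_zero _ h6
  have hb0 : b ≠ 0 := pow_ne_zero _ h4
  have hd2 : a * (3 * x ^ 2 * x') - b * (2 * y * y') = 0 := by
    calc a * (3 * x ^ 2 * x') - b * (2 * y * y')
        = a * (((3 : ℕ) : ℂ) * x ^ (3 - 1) * x') - b * (((2 : ℕ) : ℂ) * y ^ (2 - 1) * y') := by
          norm_num
      _ = 0 := hd.symm
  -- `x * D P = - b * y * bracket` at a zero of `P`
  have key : b * y * (-1728 * (2 * Real.pi * Complex.I) * discriminant z) = 0 := by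
    rw [← hb]
    linear_combination (-x) * hd2 + (3 * x') * h
  have hy : y = 0 := by
    rcases mul_eq_zero.mp key with h1 | h1
    · rcases mul_eq_zero.mp h1 with h2 | h2
      · exact absurd h2 hb0
      · exact h2
    · exact absurd h1 hw
  have hx : x = 0 := by
    rw [hy] at h
    have : a * x ^ 3 = 0 := by linear_combination h
    rcases mul_eq_zero.mp this with h1 | h1
    · exact absurd h1 ha
    · exact pow_eq_zero_iff (by norm_num) |>.mp h1
  exact not_E4_E6_zero hx hy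

end Fermat.Agent.S20.H36
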