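import Mathlib
import Fermat.Agent.S20.Defs

set_option autoImplicit false

open UpperHalfPlane ModularForm Filter Topology
open scoped MatrixGroups ModularForm Manifold

noncomputable section

namespace Fermat.Agent.S20.H38

open Fermat.Agent.S20

/-! ### Local division on `ℂ` -/

/-- Local holomorphic division: if `f` and `p` are differentiable on an open set `U`, vanish at
`z₀ ∈ U` and `p` has a simple zero at `z₀`, then any function `G` agreeing with `f / p` off the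
zeros of `p` and taking the value `f'(z₀)/p'(z₀)` at `z₀` is differentiable at `z₀`. -/
theorem differentiableAt_of_eq_div {U : Set ℂ} (hU : IsOpen U) {f p G : ℂ → ℂ} {z₀ : ℂ}
    (hz₀ : z₀ ∈ U) (hf : DifferentiableOn ℂ f U) (hp : DifferentiableOn ℂ p U)
    (hf0 : f z₀ = 0) (hp0 : p z₀ = 0) (hp' : deriv p z₀ ≠ 0)
    (hG : ∀ z ∈ U, p z ≠ 0 → G z = f z / p z) (hG0 : G z₀ = deriv f z₀ / deriv p z₀) :
    DifferentiableAt ℂ G z₀ ∧ ∀ᶠ z in 𝓝[≠] z₀, p z ≠ 0 := by
  have hUn : U ∈ 𝓝 z₀ := hU.mem_nhds hz₀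
  have hdf : DifferentiableOn ℂ (dslope f z₀) U := (Complex.differentiableOn_dslope hUn).2 hf
  have hdp : DifferentiableOn ℂ (dslope p z₀) U := (Complex.differentiableOn_dslope hUn).2 hp
  have hdp0 : dslope p z₀ z₀ ≠ 0 := by rwa [dslope_same]
  have hcont : ContinuousAt (dslope p z₀) z₀ := (hdp.differentiableAt hUn).continuousAt
  have hev : ∀ᶠ z in 𝓝 z₀, dslope p z₀ z ≠ 0 := hcont.eventually_ne hdp0
  have hfz : ∀ z, f z = (z - z₀) * dslope f z₀ z := by
    intro z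
    have := sub_smul_dslope f z₀ z
    rw [hf0, sub_zero, smul_eq_mul] at this
    exact this.symm
  have hpz : ∀ z, p z = (z - z₀) * dslope p z₀ z := by
    intro z
    have := sub_smul_dslope p z₀ z
    rw [hp0, sub_zero, smul_eq_mul] at this
    exact this.symm
  have hpne : ∀ᶠ z in 𝓝[≠] z₀, p z ≠ 0 := by
    have h1 : ∀ᶠ z in 𝓝[≠] z₀, dslope p z₀ z ≠ 0 := hev.filter_mono nhdsWithin_le_nhds
    have h2 : ∀ᶠ z in 𝓝[≠] z₀, z ≠ z₀ := eventually_mem_nhdsWithin
    filter_upwards [h1, h2] with z hz1 hz2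
    rw [hpz z]
    exact mul_ne_zero (sub_ne_zero.2 hz2) hz1
  refine ⟨?_, hpne⟩
  set g : ℂ → ℂ := fun z => dslope f z₀ z / dslope p z₀ z with hg
  have hgd : DifferentiableAt ℂ g z₀ :=
    (hdf.differentiableAt hUn).div (hdp.differentiableAt hUn) hdp0
  have hGg : G =ᶠ[𝓝 z₀] g := by
    filter_upwards [hev, hUn] with z hz hzU
    by_cases hzz : z = z₀
    · subst hzz
      rw [hG0, hg]
      simp only [dslope_same]
    · have hpzne : p z ≠ 0 := by
        rw [hpz z]; exact mul_ne_zero (sub_ne_zero.2 hzz) hz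
      rw [hG z hzU hpzne, hg, hfz z, hpz z]
      simp only
      rw [mul_div_mul_left _ _ (sub_ne_zero.2 hzz)]
  exact hgd.congr_of_eventuallyEq hGg

/-! ### The quotient function on `ℍ` -/

/-- The quotient `f / p`, extended to the zeros of `p` by l'Hôpital's value. -/
def divFun (p f : ℍ → ℂ) : ℍ → ℂ := fun z =>
  if p z = 0 then deriv (f ∘ ofComplex) z / deriv (p ∘ ofComplex) z else f z / p z

theorem divFun_of_ne {p f : ℍ → ℂ} {z : ℍ} (h : p z ≠ 0) : divFun p f z = f z / p z := by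
  simp [divFun, h]

theorem divFun_of_eq {p f : ℍ → ℂ} {z : ℍ} (h : p z = 0) :
    divFun p f z = deriv (f ∘ ofComplex) z / deriv (p ∘ ofComplex) z := by
  simp [divFun, h]

theorem mul_divFun {p f : ℍ → ℂ} (hvan : ∀ z : ℍ, p z = 0 → f z = 0) :
    p * divFun p f = f := by
  funext z
  by_cases h : p z = 0
  · simp [Pi.mul_apply, h, hvan z h]
  · rw [Pi.mul_apply, divFun_of_ne h, mul_div_cancel₀ _ h]

/-- Zeros of `p` are isolated: statement on `ℂ` near a point of the upper half plane. -/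
theorem eventually_ne_of_simple {p : ℍ → ℂ} (hp : MDiff p) {z₀ : ℍ} (h0 : p z₀ = 0)
    (hs : deriv (p ∘ ofComplex) z₀ ≠ 0) :
    ∀ᶠ z in 𝓝[≠] (z₀ : ℂ), (p ∘ ofComplex) z ≠ 0 := by
  have hp' := UpperHalfPlane.mdifferentiable_iff.1 hp
  have := differentiableAt_of_eq_div (G := fun _ => deriv (p ∘ ofComplex) z₀ / deriv (p ∘ ofComplex) z₀)
    isOpen_upperHalfPlaneSet (show (z₀ : ℂ) ∈ {z : ℂ | 0 < z.im} from z₀.im_pos) hp' hp'
    (by simp [h0]) (by simp [h0]) hs ?_ rfl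
  · exact this.2
  · intro z _ hz
    rw [div_self hs, div_self hz]

theorem mdiff_divFun {p f : ℍ → ℂ} (hp : MDiff p) (hf : MDiff f)
    (hs : ∀ z : ℍ, p z = 0 → deriv (p ∘ ofComplex) z ≠ 0)
    (hvan : ∀ z : ℍ, p z = 0 → f z = 0) : MDiff (divFun p f) := by
  have hp' := UpperHalfPlane.mdifferentiable_iff.1 hp
  have hf' := UpperHalfPlane.mdifferentiable_iff.1 hf
  intro z₀
  rw [UpperHalfPlane.mdifferentiableAt_iff]
  have hz₀ : (z₀ : ℂ) ∈ {z : ℂ | 0 < z.im} := z₀.im_pos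
  have hGoff : ∀ z ∈ {z : ℂ | 0 < z.im}, (p ∘ ofComplex) z ≠ 0 →
      (divFun p f ∘ ofComplex) z = (f ∘ ofComplex) z / (p ∘ ofComplex) z := by
    intro z _ hz
    simp only [Function.comp_apply] at hz ⊢
    rw [divFun_of_ne hz]
  by_cases h0 : p z₀ = 0
  · refine (differentiableAt_of_eq_div isOpen_upperHalfPlaneSet hz₀ hf' hp' ?_ ?_ (hs z₀ h0)
      hGoff ?_).1
    · simp [hvan z₀ h0]
    · simp [h0]
    · simp only [Function.comp_apply, ofComplex_apply]
      rw [divFun_of_eq h0]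
  · -- near `z₀`, `p ≠ 0`
    have hcont : ContinuousAt (p ∘ ofComplex) z₀ :=
      ((hp' z₀ hz₀).differentiableAt (isOpen_upperHalfPlaneSet.mem_nhds hz₀)).continuousAt
    have hne : ∀ᶠ z in 𝓝 (z₀ : ℂ), (p ∘ ofComplex) z ≠ 0 :=
      hcont.eventually_ne (by simpa using h0)
    have hU : ∀ᶠ z in 𝓝 (z₀ : ℂ), z ∈ {z : ℂ | 0 < z.im} :=
      isOpen_upperHalfPlaneSet.mem_nhds hz₀
    have heq : (divFun p f ∘ ofComplex) =ᶠ[𝓝 (z₀ : ℂ)]
        fun z => (f ∘ ofComplex) z / (p ∘ ofComplex) z := by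
      filter_upwards [hne, hU] with z hz hzU using hGoff z hzU hz
    refine DifferentiableAt.congr_of_eventuallyEq ?_ heq
    exact ((hf' z₀ hz₀).differentiableAt (isOpen_upperHalfPlaneSet.mem_nhds hz₀)).div
      ((hp' z₀ hz₀).differentiableAt (isOpen_upperHalfPlaneSet.mem_nhds hz₀)) (by simpa using h0)

/-- Cancellation of a holomorphic factor with simple zeros. -/
theorem eq_of_mul_eq {p g₁ g₂ : ℍ → ℂ} (hp : MDiff p)
    (hs : ∀ z : ℍ, p z = 0 → deriv (p ∘ ofComplex) z ≠ 0)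
    (hg₁ : MDiff g₁) (hg₂ : MDiff g₂) (h : p * g₁ = p * g₂) : g₁ = g₂ := by
  have hpt : ∀ z : ℍ, p z ≠ 0 → g₁ z = g₂ z := by
    intro z hz
    have := congrFun h z
    simp only [Pi.mul_apply] at this
    exact mul_left_cancel₀ hz this
  funext z₀
  by_cases h0 : p z₀ = 0
  · have hz₀ : (z₀ : ℂ) ∈ {z : ℂ | 0 < z.im} := z₀.im_pos
    have hne := eventually_ne_of_simple hp h0 (hs z₀ h0)
    have hc₁ : ContinuousAt (g₁ ∘ ofComplex) z₀ :=
      (UpperHalfPlane.mdifferentiableAt_iff.1 (hg₁ z₀)).continuousAt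
    have hc₂ : ContinuousAt (g₂ ∘ ofComplex) z₀ :=
      (UpperHalfPlane.mdifferentiableAt_iff.1 (hg₂ z₀)).continuousAt
    have ht₁ : Tendsto (g₁ ∘ ofComplex) (𝓝[≠] (z₀ : ℂ)) (𝓝 (g₁ z₀)) := by
      have := hc₁.tendsto.mono_left (nhdsWithin_le_nhds (s := {(z₀ : ℂ)}ᶜ))
      simpa using this
    have ht₂ : Tendsto (g₂ ∘ ofComplex) (𝓝[≠] (z₀ : ℂ)) (𝓝 (g₂ z₀)) := by
      have := hc₂.tendsto.mono_left (nhdsWithin_le_nhds (s := {(z₀ : ℂ)}ᶜ))
      simpa using this
    have heq : (g₁ ∘ ofComplex) =ᶠ[𝓝[≠] (z₀ : ℂ)] (g₂ ∘ ofComplex) := by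
      filter_upwards [hne] with z hz
      exact hpt _ hz
    exact tendsto_nhds_unique (ht₁.congr' heq) ht₂
  · exact hpt z₀ h0

/-- Compatibility of the quotient with the slash action. -/
theorem divFun_slash {p f f' : ℍ → ℂ} {k w : ℤ} (γ : SL(2, ℤ)) (hp : MDiff p) (hf : MDiff f)
    (hf' : MDiff f')
    (hs : ∀ z : ℍ, p z = 0 → deriv (p ∘ ofComplex) z ≠ 0)
    (hvan : ∀ z : ℍ, p z = 0 → f z = 0) (hvan' : ∀ z : ℍ, p z = 0 → f' z = 0)
    (hγp : p ∣[w] γ = p) (hγf : f ∣[k] γ = f') :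
    (divFun p f) ∣[k - w] γ = divFun p f' := by
  have hk : w + (k - w) = k := by ring
  have h1 : (p * divFun p f) ∣[w + (k - w)] γ = p ∣[w] γ * (divFun p f) ∣[k - w] γ :=
    mul_slash_SL2 w (k - w) γ p (divFun p f)
  rw [mul_divFun hvan, hk, hγp, hγf] at h1
  have h2 : p * ((divFun p f) ∣[k - w] γ) = p * divFun p f' := by
    rw [← h1, mul_divFun hvan']
  have hmd : MDiff ((divFun p f) ∣[k - w] γ) := by
    have := (mdiff_divFun hp hf hs hvan).slash (k - w) (γ : GL (Fin 2) ℝ)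
    exact this
  exact eq_of_mul_eq hp hs hmd (mdiff_divFun hp hf' hs hvan') h2

/-! ### Behaviour at the cusp -/

theorem eventually_divFun_eq {p f : ℍ → ℂ} {c : ℂ} (hc : c ≠ 0)
    (hp : Tendsto p atImInfty (𝓝 c)) :
    divFun p f =ᶠ[atImInfty] fun z => f z * (p z)⁻¹ := by
  have hne : ∀ᶠ z in atImInfty, p z ≠ 0 := hp.eventually_ne hc
  filter_upwards [hne] with z hz
  rw [divFun_of_ne hz, div_eq_mul_inv]

theorem isBoundedAtImInfty_divFun {p f : ℍ → ℂ} {c : ℂ} (hc : c ≠ 0)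
    (hp : Tendsto p atImInfty (𝓝 c)) (hf : IsBoundedAtImInfty f) :
    IsBoundedAtImInfty (divFun p f) := by
  have hinv : Tendsto (fun z => (p z)⁻¹) atImInfty (𝓝 c⁻¹) := hp.inv₀ hc
  have hb : BoundedAtFilter atImInfty (fun z => (p z)⁻¹) := hinv.isBigO_one ℝ
  have hmul : BoundedAtFilter atImInfty (fun z => f z * (p z)⁻¹) := hf.mul hb
  exact hmul.congr' (eventually_divFun_eq hc hp).symm (EventuallyEq.refl _ _)

theorem isZeroAtImInfty_divFun {p f : ℍ → ℂ} {c : ℂ} (hc : c ≠ 0)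
    (hp : Tendsto p atImInfty (𝓝 c)) (hf : IsZeroAtImInfty f) :
    IsZeroAtImInfty (divFun p f) := by
  have hinv : Tendsto (fun z => (p z)⁻¹) atImInfty (𝓝 c⁻¹) := hp.inv₀ hc
  have hmul : Tendsto (fun z => f z * (p z)⁻¹) atImInfty (𝓝 (0 * c⁻¹)) := hf.mul hinv
  rw [zero_mul] at hmul
  exact hmul.congr' (eventually_divFun_eq hc hp).symm

/-- A level one form is `1`-periodic. -/
theorem periodic_of_mem_lvlOne {w : ℤ} {p : ℍ → ℂ} (hp : p ∈ LvlOne w) :
    Function.Periodic (p ∘ ofComplex) (1 : ℝ) := by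
  obtain ⟨-, hinv, -⟩ := hp
  have hT := hinv ModularGroup.T
  have hTz : ∀ z : ℍ, p (ModularGroup.T • z) = p z := by
    intro z
    have h := (slash_action_eq'_iff w p ModularGroup.T z).1 (congrFun hT _)
    have h10 : ((ModularGroup.T : SL(2, ℤ)) 1 0 : ℤ) = 0 := by simp [ModularGroup.T]
    have h11 : ((ModularGroup.T : SL(2, ℤ)) 1 1 : ℤ) = 1 := by simp [ModularGroup.T]
    rw [h10, h11] at h
    simpa using h
  have hTc : ∀ z : ℍ, ((ModularGroup.T • z : ℍ) : ℂ) = z + 1 := by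
    intro z
    have := ModularGroup.coe_T_zpow_smul_eq (z := z) (n := 1)
    simpa using this
  intro z
  by_cases hz : 0 < z.im
  · have hz1 : 0 < (z + (1 : ℝ)).im := by simpa using hz
    simp only [Function.comp_apply, ofComplex_apply_of_im_pos hz1, ofComplex_apply_of_im_pos hz]
    rw [← hTz ⟨z, hz⟩]
    congr 1
    ext
    rw [hTc]
    simp
  · have hz' : z.im ≤ 0 := not_lt.1 hz
    have hz1 : (z + (1 : ℝ)).im ≤ 0 := by simpa using hz'
    simp only [Function.comp_apply]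
    rw [ofComplex_apply_eq_of_im_nonpos hz1 hz']

/-- A level one form tends to its value at infinity. -/
theorem tendsto_valueAtInfty_of_mem_lvlOne {w : ℤ} {p : ℍ → ℂ} (hp : p ∈ LvlOne w) :
    Tendsto p atImInfty (𝓝 (valueAtInfty p)) := by
  have hper := periodic_of_mem_lvlOne hp
  obtain ⟨hhol, -, hbdd⟩ := hp
  have han : AnalyticAt ℂ (cuspFunction 1 p) 0 :=
    analyticAt_cuspFunction_zero one_pos hper hhol hbdd
  have h0 : cuspFunction 1 p 0 = valueAtInfty p := cuspFunction_apply_zero one_pos han hper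
  have hcomp : (cuspFunction 1 p ∘ fun τ : ℍ => Function.Periodic.qParam 1 τ : ℍ → ℂ) = p := by
    funext τ
    simpa using eq_cuspFunction τ one_ne_zero hper
  have := han.continuousAt.tendsto.comp (qParam_tendsto_atImInfty (h := 1) one_pos)
  rw [h0] at this
  rwa [hcomp] at this

/-! ### Division of tuples -/

variable {X : Type} [MulAction SL(2, ℤ) X]

/-- Division of a vector valued modular form by a level one form with simple zeros and nonzero
value at infinity, along whose zeros all components vanish. -/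
theorem VMod_div {k w : ℤ} {p : ℍ → ℂ} (hp : p ∈ LvlOne w) (hpinf : valueAtInfty p ≠ 0)
    (hsimple : ∀ z : ℍ, p z = 0 → deriv (p ∘ ofComplex) z ≠ 0)
    {F : X → ℍ → ℂ} (hF : F ∈ VMod X k) (hvan : ∀ z : ℍ, p z = 0 → ∀ x, F x z = 0) :
    ∃ G ∈ VMod X (k - w), F = fun x => p * G x := by
  have htend := tendsto_valueAtInfty_of_mem_lvlOne hp
  obtain ⟨hphol, hpinv, -⟩ := hp
  obtain ⟨hFhol, hFinv, hFbdd⟩ := hF
  refine ⟨fun x => divFun p (F x), ⟨fun x => ?_, fun γ x => ?_, fun x => ?_⟩, ?_⟩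
  · exact mdiff_divFun hphol (hFhol x) hsimple (fun z hz => hvan z hz x)
  · exact divFun_slash γ hphol (hFhol x) (hFhol _) hsimple (fun z hz => hvan z hz x)
      (fun z hz => hvan z hz _) (hpinv γ) (hFinv γ x)
  · exact isBoundedAtImInfty_divFun hpinf htend (hFbdd x)
  · funext x
    exact (mul_divFun (fun z hz => hvan z hz x)).symm

/-- Division of a vector valued cusp form by a level one form with simple zeros and nonzero
value at infinity, along whose zeros all components vanish. -/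
theorem VCusp_div {k w : ℤ} {p : ℍ → ℂ} (hp : p ∈ LvlOne w) (hpinf : valueAtInfty p ≠ 0)
    (hsimple : ∀ z : ℍ, p z = 0 → deriv (p ∘ ofComplex) z ≠ 0)
    {F : X → ℍ → ℂ} (hF : F ∈ VCusp X k) (hvan : ∀ z : ℍ, p z = 0 → ∀ x, F x z = 0) :
    ∃ G ∈ VCusp X (k - w), F = fun x => p * G x := by
  have htend := tendsto_valueAtInfty_of_mem_lvlOne hp
  obtain ⟨hphol, hpinv, -⟩ := hp
  obtain ⟨hFhol, hFinv, hFzero⟩ := hF
  refine ⟨fun x => divFun p (F x), ⟨fun x => ?_, fun γ x => ?_, fun x => ?_⟩, ?_⟩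
  · exact mdiff_divFun hphol (hFhol x) hsimple (fun z hz => hvan z hz x)
  · exact divFun_slash γ hphol (hFhol x) (hFhol _) hsimple (fun z hz => hvan z hz x)
      (fun z hz => hvan z hz _) (hpinv γ) (hFinv γ x)
  · exact isZeroAtImInfty_divFun hpinf htend (hFzero x)
  · funext x
    exact (mul_divFun (fun z hz => hvan z hz x)).symm

end Fermat.Agent.S20.H38
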