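import Mathlib
import Fermat.Agent.S20.Defs2
import Fermat.Agent.S20.H36_SimpleZeros
import Fermat.Agent.S20.H38_Div

set_option autoImplicit false

open UpperHalfPlane ModularForm
open scoped MatrixGroups ModularForm Manifold

noncomputable section

namespace Fermat.Agent.S20.Skel

open Fermat.Agent.S20

variable {X : Type} [MulAction SL(2, ℤ) X]

/-! ## L1 -/

theorem E4_mem : E4 ∈ LvlOne 4 := Fermat.Agent.S20.E4_mem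
theorem E6_mem : E6 ∈ LvlOne 6 := Fermat.Agent.S20.E6_mem
theorem Dl_mem : Dl ∈ LvlOne 12 := Fermat.Agent.S20.Dl_mem
theorem Dl_ne_zero (z : ℍ) : Dl z ≠ 0 := Fermat.Agent.S20.Dl_ne_zero z
theorem Dl_zero_at : IsZeroAtImInfty Dl := Fermat.Agent.S20.Dl_zero_at
theorem Dl_eq (z : ℍ) : 1728 * Dl z = E4 z ^ 3 - E6 z ^ 2 := Fermat.Agent.S20.Dl_eq z
theorem vInf_E4 : vInf E4 = 1 := Fermat.Agent.S20.vInf_E4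
theorem vInf_E6 : vInf E6 = 1 := Fermat.Agent.S20.vInf_E6
theorem LvlOne.mul_mem {a b : ℤ} {f g : ℍ → ℂ} (hf : f ∈ LvlOne a) (hg : g ∈ LvlOne b) :
    f * g ∈ LvlOne (a + b) := Fermat.Agent.S20.LvlOne.mul_mem hf hg
theorem LvlOne.eq_bot_of_neg {k : ℤ} (hk : k < 0) : LvlOne k = ⊥ :=
  Fermat.Agent.S20.LvlOne.eq_bot_of_neg hk
theorem LvlOne.eq_bot_of_odd {k : ℤ} (hk : Odd k) : LvlOne k = ⊥ :=
  Fermat.Agent.S20.LvlOne.eq_bot_of_odd hk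
theorem LvlOne.two_eq_bot : LvlOne 2 = ⊥ := Fermat.Agent.S20.LvlOne.two_eq_bot
theorem LvlOne.zero_eq_const {f : ℍ → ℂ} (hf : f ∈ LvlOne 0) : ∃ c : ℂ, f = fun _ => c :=
  Fermat.Agent.S20.LvlOne.zero_eq_const hf
theorem LvlOne.finrank_eq (k : ℕ) (hk : Even k) :
    Module.finrank ℂ (LvlOne (k : ℤ)) = if k % 12 = 2 then k / 12 else k / 12 + 1 :=
  Fermat.Agent.S20.LvlOne.finrank_eq k hk
theorem LvlOne.div_Dl {k : ℤ} {f : ℍ → ℂ} (hf : f ∈ LvlOne k) (h0 : IsZeroAtImInfty f) :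
    ∃ g ∈ LvlOne (k - 12), f = Dl * g := Fermat.Agent.S20.LvlOne.div_Dl hf h0
theorem E6_I : E6 UpperHalfPlane.I = 0 := Fermat.Agent.S20.E6_I
theorem piGen_mem (z₀ : ℍ) : piGen z₀ ∈ LvlOne 12 := Fermat.Agent.S20.piGen_mem z₀
theorem piGen_self (z₀ : ℍ) : piGen z₀ z₀ = 0 := Fermat.Agent.S20.piGen_self z₀
theorem vInf_piGen (z₀ : ℍ) : vInf (piGen z₀) = - 1728 * Dl z₀ := Fermat.Agent.S20.vInf_piGen z₀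
theorem LvlOne.div_piGen {z₀ : ℍ} (h4 : E4 z₀ ≠ 0) (h6 : E6 z₀ ≠ 0) {k : ℤ} {f : ℍ → ℂ}
    (hf : f ∈ LvlOne k) (h0 : f z₀ = 0) : ∃ g ∈ LvlOne (k - 12), f = piGen z₀ * g :=
  Fermat.Agent.S20.LvlOne.div_piGen h4 h6 hf h0
theorem LvlOne.div_E6 {z₀ : ℍ} (h6 : E6 z₀ = 0) {k : ℤ} {f : ℍ → ℂ}
    (hf : f ∈ LvlOne k) (h0 : f z₀ = 0) : ∃ g ∈ LvlOne (k - 6), f = E6 * g :=
  Fermat.Agent.S20.LvlOne.div_E6 h6 hf h0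
theorem LvlOne.div_E4 {z₀ : ℍ} (h4 : E4 z₀ = 0) {k : ℤ} {f : ℍ → ℂ}
    (hf : f ∈ LvlOne k) (h0 : f z₀ = 0) : ∃ g ∈ LvlOne (k - 4), f = E4 * g :=
  Fermat.Agent.S20.LvlOne.div_E4 h4 hf h0
theorem LvlOne.exists_ne_zero_generic {z₀ : ℍ} (h4 : E4 z₀ ≠ 0) (h6 : E6 z₀ ≠ 0) {k : ℤ}
    (hk : Even k) (hk4 : 4 ≤ k) : ∃ f ∈ LvlOne k, f z₀ ≠ 0 :=
  Fermat.Agent.S20.LvlOne.exists_ne_zero_generic h4 h6 hk hk4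
theorem LvlOne.exists_ne_zero_of_E6 {z₀ : ℍ} (h6 : E6 z₀ = 0) {k : ℤ}
    (hk : 4 ∣ k) (hk0 : 0 ≤ k) : ∃ f ∈ LvlOne k, f z₀ ≠ 0 :=
  Fermat.Agent.S20.LvlOne.exists_ne_zero_of_E6 h6 hk hk0
theorem LvlOne.exists_ne_zero_of_E4 {z₀ : ℍ} (h4 : E4 z₀ = 0) {k : ℤ}
    (hk : 6 ∣ k) (hk0 : 0 ≤ k) : ∃ f ∈ LvlOne k, f z₀ ≠ 0 :=
  Fermat.Agent.S20.LvlOne.exists_ne_zero_of_E4 h4 hk hk0
theorem LvlOne.eq_zero_at_of_E6 {z₀ : ℍ} (h6 : E6 z₀ = 0) {k : ℤ} (hk : ¬ 4 ∣ k) {f : ℍ → ℂ}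
    (hf : f ∈ LvlOne k) : f z₀ = 0 := Fermat.Agent.S20.LvlOne.eq_zero_at_of_E6 h6 hk hf
theorem LvlOne.eq_zero_at_of_E4 {z₀ : ℍ} (h4 : E4 z₀ = 0) {k : ℤ} (hk : ¬ 6 ∣ k) {f : ℍ → ℂ}
    (hf : f ∈ LvlOne k) : f z₀ = 0 := Fermat.Agent.S20.LvlOne.eq_zero_at_of_E4 h4 hk hf

/-! ## SZ -/

theorem simpleZero_E4 {z : ℍ} (h : E4 z = 0) : deriv (E4 ∘ ofComplex) z ≠ 0 :=
  Fermat.Agent.S20.H36.simpleZero_E4 h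
theorem simpleZero_E6 {z : ℍ} (h : E6 z = 0) : deriv (E6 ∘ ofComplex) z ≠ 0 :=
  Fermat.Agent.S20.H36.simpleZero_E6 h
theorem simpleZero_piGen {z₀ z : ℍ} (h4 : E4 z₀ ≠ 0) (h6 : E6 z₀ ≠ 0) (h : piGen z₀ z = 0) :
    deriv (piGen z₀ ∘ ofComplex) z ≠ 0 :=
  Fermat.Agent.S20.H36.simpleZero_piGen h4 h6 h

/-! ## DIV -/

theorem VMod.div {k w : ℤ} {p : ℍ → ℂ} (hp : p ∈ LvlOne w) (hpinf : vInf p ≠ 0)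
    (hsimple : ∀ z : ℍ, p z = 0 → deriv (p ∘ ofComplex) z ≠ 0)
    {F : X → ℍ → ℂ} (hF : F ∈ VMod X k) (hvan : ∀ z : ℍ, p z = 0 → ∀ x, F x z = 0) :
    ∃ G ∈ VMod X (k - w), F = smulV p G :=
  Fermat.Agent.S20.H38.VMod_div hp hpinf hsimple hF hvan
theorem VCusp.div {k w : ℤ} {p : ℍ → ℂ} (hp : p ∈ LvlOne w) (hpinf : vInf p ≠ 0)
    (hsimple : ∀ z : ℍ, p z = 0 → deriv (p ∘ ofComplex) z ≠ 0)
    {F : X → ℍ → ℂ} (hF : F ∈ VCusp X k) (hvan : ∀ z : ℍ, p z = 0 → ∀ x, F x z = 0) :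
    ∃ G ∈ VCusp X (k - w), F = smulV p G :=
  Fermat.Agent.S20.H38.VCusp_div hp hpinf hsimple hF hvan

end Fermat.Agent.S20.Skel
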