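import Mathlib
import Fermat.Agent.S20.SkelA

/-!
S20 package DUAL (helper19): duality between the generator weights of `VMod X` and `VCusp X`.
-/

set_option autoImplicit false

open UpperHalfPlane ModularForm Filter Topology
open scoped MatrixGroups ModularForm Manifold

noncomputable section

namespace Fermat.Agent.S20.H19

open Fermat.Agent.S20 Fermat.Agent.S20.Skel

/-! ### Generalities on level one forms as plain functions -/

/-- A level one form as a bundled slash invariant form. -/
def sifOf {k : ℤ} {f : ℍ → ℂ} (hf : f ∈ LvlOne k) : SlashInvariantForm 𝒮ℒ k where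
  toFun := f
  slash_action_eq' := by
    rintro _ ⟨γ, rfl⟩
    exact hf.2.1 γ

theorem periodic_of_mem {k : ℤ} {f : ℍ → ℂ} (hf : f ∈ LvlOne k) :
    Function.Periodic (f ∘ ofComplex) 1 := by
  exact SlashInvariantFormClass.periodic_comp_ofComplex (f := sifOf hf) (h := 1) (by simp)

theorem analyticAt_cusp {k : ℤ} {f : ℍ → ℂ} (hf : f ∈ LvlOne k) :
    AnalyticAt ℂ (cuspFunction 1 f) 0 :=
  analyticAt_cuspFunction_zero one_pos (periodic_of_mem hf) hf.1 hf.2.2

theorem tendsto_vInf {k : ℤ} {f : ℍ → ℂ} (hf : f ∈ LvlOne k) :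
    Tendsto f atImInfty (𝓝 (vInf f)) := by
  have h1 := analyticAt_cusp hf
  have hper := periodic_of_mem hf
  have hcomp : (cuspFunction 1 f ∘ fun τ : ℍ => Function.Periodic.qParam 1 τ) = f := by
    funext τ
    simpa using eq_cuspFunction τ one_ne_zero hper
  have h2 := h1.continuousAt.tendsto.comp (qParam_tendsto_atImInfty one_pos)
  rw [cuspFunction_apply_zero one_pos h1 hper, hcomp] at h2
  exact h2

theorem coeff_zero_eq_vInf {k : ℤ} {f : ℍ → ℂ} (hf : f ∈ LvlOne k) :
    (qExpansion 1 f).coeff 0 = vInf f :=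
  qExpansion_coeff_zero one_pos (analyticAt_cusp hf) (periodic_of_mem hf)

/-- The first coefficient of `Δ * t` is the value of `t` at the cusp. -/
theorem coeff_one_Dl_mul {k : ℤ} {t : ℍ → ℂ} (ht : t ∈ LvlOne k) :
    (qExpansion 1 (Dl * t)).coeff 1 = vInf t := by
  rw [qExpansion_mul (analyticAt_cusp Dl_mem) (analyticAt_cusp ht), PowerSeries.coeff_mul]
  have hD0 : (qExpansion 1 Dl).coeff 0 = 0 := by
    rw [coeff_zero_eq_vInf Dl_mem]
    exact IsZeroAtImInfty.valueAtInfty_eq_zero Dl_zero_at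
  have hD1 : (qExpansion 1 Dl).coeff 1 = 1 := discriminant_qExpansion_coeff_one
  rw [Finset.Nat.antidiagonal_succ, Finset.sum_cons]
  simp [hD0, hD1, coeff_zero_eq_vInf ht]

/-! ### Pure linear algebra: Gram-type matrices of two bases -/

/-- If `a` and `b` are two linearly independent families of `card X` vectors in `X → ℂ`, then the
matrix of their mutual dot products is nonsingular. -/
theorem det_gram_ne_zero {ι X : Type} [Fintype ι] [DecidableEq ι] [Fintype X]
    (hcard : Fintype.card ι = Fintype.card X) (a b : ι → X → ℂ)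
    (ha : LinearIndependent ℂ a) (hb : LinearIndependent ℂ b) :
    (Matrix.of fun i j => ∑ x, a i x * b j x : Matrix ι ι ℂ).det ≠ 0 := by
  classical
  intro hdet
  obtain ⟨v, hv, hmul⟩ := Matrix.exists_mulVec_eq_zero_iff.mpr hdet
  apply hv
  -- the vector `u = ∑ j, v j • b j` is orthogonal to every `a i`
  set u : X → ℂ := ∑ j, v j • b j with hu
  have horth : ∀ i, ∑ x, a i x * u x = 0 := by
    intro i
    have := congrFun hmul i
    simp only [Matrix.mulVec, dotProduct, Matrix.of_apply, Pi.zero_apply] at this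
    rw [← this]
    simp only [hu, Finset.sum_apply, Pi.smul_apply, smul_eq_mul, Finset.mul_sum, Finset.sum_mul]
    rw [Finset.sum_comm]
    refine Finset.sum_congr rfl fun j _ => Finset.sum_congr rfl fun x _ => by ring
  have hspan : Submodule.span ℂ (Set.range a) = ⊤ :=
    ha.span_eq_top_of_card_eq_finrank' (by rw [hcard, Module.finrank_fintype_fun_eq_card])
  have hall : ∀ y : X → ℂ, ∑ x, y x * u x = 0 := by
    intro y
    have hy : y ∈ Submodule.span ℂ (Set.range a) := hspan ▸ Submodule.mem_top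
    induction hy using Submodule.span_induction with
    | mem y hy => obtain ⟨i, rfl⟩ := hy; exact horth i
    | zero => simp
    | add y z _ _ hy hz => simp [add_mul, Finset.sum_add_distrib, hy, hz]
    | smul c y _ hy => simp [mul_assoc, ← Finset.mul_sum, hy]
  have hu0 : u = 0 := by
    funext x
    have := hall (Pi.single x 1)
    simpa [Pi.single_apply, Finset.sum_ite_eq'] using this
  have := (Fintype.linearIndependent_iff.mp hb) v (by rw [← hu0, hu])
  funext j; exact this j

/-! ### Closure properties of `LvlOne` -/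

theorem one_mem : (1 : ℍ → ℂ) ∈ LvlOne 0 :=
  ⟨mdifferentiable_const, fun γ => ModularForm.is_invariant_one γ,
    (tendsto_const_nhds (x := (1 : ℂ))).isBigO_one ℝ⟩

theorem prod_mem {ι : Type} (s : Finset ι) (w : ι → ℤ) (f : ι → ℍ → ℂ)
    (hf : ∀ i ∈ s, f i ∈ LvlOne (w i)) : ∏ i ∈ s, f i ∈ LvlOne (∑ i ∈ s, w i) := by
  classical
  induction s using Finset.induction_on with
  | empty => simpa using one_mem
  | insert i s hi ih =>
    rw [Finset.prod_insert hi, Finset.sum_insert hi]
    exact LvlOne.mul_mem (hf i (Finset.mem_insert_self i s))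
      (ih fun j hj => hf j (Finset.mem_insert_of_mem hj))

/-- The determinant of a matrix of level one forms with weights `a i + b j`. -/
theorem det_mem {ι : Type} [Fintype ι] [DecidableEq ι] (a b : ι → ℤ)
    (M : Matrix ι ι (ℍ → ℂ)) (hM : ∀ i j, M i j ∈ LvlOne (a i + b j)) :
    M.det ∈ LvlOne (∑ i, a i + ∑ i, b i) := by
  rw [Matrix.det_apply]
  refine Submodule.sum_mem _ fun σ _ => ?_
  have hprod : ∏ i, M (σ i) i ∈ LvlOne (∑ i, a i + ∑ i, b i) := by
    have h := prod_mem Finset.univ (fun i => a (σ i) + b i) (fun i => M (σ i) i)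
      (fun i _ => hM (σ i) i)
    have hsum : ∑ i, (a (σ i) + b i) = ∑ i, a i + ∑ i, b i := by
      rw [Finset.sum_add_distrib, Equiv.sum_comp σ a]
    rwa [hsum] at h
  rcases Int.units_eq_one_or (Equiv.Perm.sign σ) with h | h
  · rw [h, one_smul]; exact hprod
  · rw [h, Units.neg_smul, one_smul]; exact Submodule.neg_mem _ hprod

theorem det_apply_point {ι : Type} [Fintype ι] [DecidableEq ι] (M : Matrix ι ι (ℍ → ℂ)) (z : ℍ) :
    M.det z = (Matrix.of fun i j => M i j z : Matrix ι ι ℂ).det := by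
  have := RingHom.map_det (Pi.evalRingHom (fun _ : ℍ => ℂ) z) M
  simpa [Matrix.map, RingHom.mapMatrix_apply] using this

theorem tendsto_det {ι : Type} [Fintype ι] [DecidableEq ι] (w : ι → ι → ℤ)
    (M : Matrix ι ι (ℍ → ℂ)) (hM : ∀ i j, M i j ∈ LvlOne (w i j)) :
    Tendsto M.det atImInfty (𝓝 (Matrix.of fun i j => vInf (M i j) : Matrix ι ι ℂ).det) := by
  have h1 : Tendsto (fun z : ℍ => (Matrix.of fun i j => M i j z : Matrix ι ι ℂ)) atImInfty
      (𝓝 (Matrix.of fun i j => vInf (M i j) : Matrix ι ι ℂ)) := by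
    refine tendsto_pi_nhds.mpr fun i => tendsto_pi_nhds.mpr fun j => ?_
    exact tendsto_vInf (hM i j)
  have h2 := ((Continuous.matrix_det continuous_id).tendsto
    (Matrix.of fun i j => vInf (M i j) : Matrix ι ι ℂ)).comp h1
  refine h2.congr fun z => ?_
  simp [det_apply_point]

/-- The inverse of a nowhere vanishing level one form which does not vanish at the cusp. -/
theorem inv_mem {w : ℤ} {f : ℍ → ℂ} (hf : f ∈ LvlOne w) (hne : ∀ z, f z ≠ 0)
    (hinf : vInf f ≠ 0) : f⁻¹ ∈ LvlOne (-w) := by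
  refine ⟨?_, fun γ => ?_, ?_⟩
  · rw [UpperHalfPlane.mdifferentiable_iff]
    have h := UpperHalfPlane.mdifferentiable_iff.mp hf.1
    have : (f⁻¹ ∘ ofComplex) = (f ∘ ofComplex)⁻¹ := rfl
    rw [this]
    exact h.inv fun z _ => hne _
  · funext z
    have h := congrFun (hf.2.1 γ) z
    rw [ModularForm.SL_slash_apply] at h ⊢
    simp only [Pi.inv_apply, neg_neg]
    rw [← h, mul_inv, ← zpow_neg, neg_neg]
  · have := (tendsto_vInf hf).inv₀ hinf
    exact this.isBigO_one ℝ

/-! ### The trace pairing and the duality theorem -/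

variable {X : Type} [Fintype X] [MulAction SL(2, ℤ) X]

/-- The trace pairing of two tuples. -/
def pair (F G : X → ℍ → ℂ) : ℍ → ℂ := fun z => ∑ x, F x z * G x z

/-- The two facts about the trace pairing (package CUSP-b) used by the duality theorem. -/
structure PairingFacts (X : Type) [Fintype X] [MulAction SL(2, ℤ) X] (h : ℕ) : Prop where
  mem : ∀ {k k' : ℤ} {F G : X → ℍ → ℂ}, F ∈ VMod X k → G ∈ VCusp X k' →
    (fun z => ∑ x, F x z * G x z) ∈ LvlOne (k + k') ∧
      IsZeroAtImInfty (fun z => ∑ x, F x z * G x z)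
  coeff_one : ∀ {k k' : ℤ} {F G : X → ℍ → ℂ}, F ∈ VMod X k → G ∈ VCusp X k' →
    (UpperHalfPlane.qExpansion 1 (fun z => ∑ x, F x z * G x z)).coeff 1 =
      ∑ x, Lmap h F x * Lmap' h G x

theorem exists_quot {h : ℕ} (hP : PairingFacts X h) {k k' : ℤ} {F G : X → ℍ → ℂ}
    (hF : F ∈ VMod X k) (hG : G ∈ VCusp X k') :
    ∃ t ∈ LvlOne (k + k' - 12), pair F G = Dl * t :=
  LvlOne.div_Dl (hP.mem hF hG).1 (hP.mem hF hG).2

theorem vInf_quot {h : ℕ} (hP : PairingFacts X h) {k k' : ℤ} {F G : X → ℍ → ℂ}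
    (hF : F ∈ VMod X k)
    (hG : G ∈ VCusp X k') {t : ℍ → ℂ} (ht : t ∈ LvlOne (k + k' - 12))
    (heq : pair F G = Dl * t) : vInf t = ∑ x, Lmap h F x * Lmap' h G x := by
  rw [← coeff_one_Dl_mul ht, ← heq]
  exact hP.coeff_one hF hG

/-- DUAL: the generator weights of `VMod X` and `VCusp X` are matched by `w ↦ 12 - w`. -/
theorem duality_of (B : HomBasis (VMod X)) (B' : HomBasis (VCusp X)) {h : ℕ}
    (hP : PairingFacts X h) (hn : B.n = Fintype.card X) (hn' : B'.n = Fintype.card X)
    (hL : LinearIndependent ℂ (fun j => Lmap h (B.gen j)))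
    (hL' : LinearIndependent ℂ (fun l => Lmap' h (B'.gen l)))
    (hev : ∀ z : ℍ, LinearIndependent ℂ (fun j => (fun x => B.gen j x z : X → ℂ)))
    (hev' : ∀ z : ℍ, LinearIndependent ℂ (fun l => (fun x => B'.gen l x z : X → ℂ)))
    (w₀ : ℤ) :
    (Finset.univ.filter (fun j => B.wt j = w₀)).card =
      (Finset.univ.filter (fun l => B'.wt l = 12 - w₀)).card := by
  classical
  let e : Fin B.n ≃ Fin B'.n := finCongr (hn.trans hn'.symm)
  -- choose the quotients of the pairings by `Δ`
  have hex : ∀ j l, ∃ t ∈ LvlOne (B.wt j + B'.wt (e l) - 12),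
      pair (B.gen j) (B'.gen (e l)) = Dl * t :=
    fun j l => exists_quot hP (B.gen_mem j) (B'.gen_mem (e l))
  choose T hTmem hTeq using hex
  let M : Matrix (Fin B.n) (Fin B.n) (ℍ → ℂ) := Matrix.of T
  set W : ℤ := ∑ j, B.wt j + ∑ l, (B'.wt (e l) - 12) with hW
  have hMmem : ∀ i j, M i j ∈ LvlOne (B.wt i + (B'.wt (e j) - 12)) := by
    intro i j
    have := hTmem i j
    rwa [add_sub_assoc] at this
  have hD : M.det ∈ LvlOne W := det_mem _ _ M hMmem
  have hcard : Fintype.card (Fin B.n) = Fintype.card X := by simp [hn]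
  -- pointwise nonvanishing
  have hpt : ∀ z, M.det z ≠ 0 := by
    intro z
    have ha := hev z
    have hb : LinearIndependent ℂ (fun l : Fin B.n => (fun x => B'.gen (e l) x z : X → ℂ)) :=
      (hev' z).comp e e.injective
    have hg := det_gram_ne_zero hcard _ _ ha hb
    have hmat : (Matrix.of fun i j => ∑ x, B.gen i x z * B'.gen (e j) x z :
        Matrix (Fin B.n) (Fin B.n) ℂ) = Dl z • (Matrix.of fun i j => M i j z) := by
      ext i j
      have := congrFun (hTeq i j) z
      simpa [pair, M] using this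
    rw [hmat, Matrix.det_smul] at hg
    rw [det_apply_point]
    exact right_ne_zero_of_mul hg
  -- nonvanishing at infinity
  have hinfm : (Matrix.of fun i j => vInf (M i j) : Matrix (Fin B.n) (Fin B.n) ℂ).det ≠ 0 := by
    have ha := hL
    have hb : LinearIndependent ℂ (fun l : Fin B.n => Lmap' h (B'.gen (e l))) :=
      hL'.comp e e.injective
    have hg := det_gram_ne_zero hcard _ _ ha hb
    convert hg using 2
    ext i j
    simp only [Matrix.of_apply, M]
    exact vInf_quot hP (B.gen_mem i) (B'.gen_mem (e j)) (hTmem i j) (hTeq i j)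
  have hinf : vInf M.det ≠ 0 := by
    have := (tendsto_det (fun i j => B.wt i + (B'.wt (e j) - 12)) M hMmem).limUnder_eq
    rw [vInf, valueAtInfty, this]
    exact hinfm
  -- the total weight vanishes
  have hW0 : W = 0 := by
    rcases lt_trichotomy W 0 with hlt | h0 | hgt
    · exfalso
      have : M.det ∈ (⊥ : Submodule ℂ (ℍ → ℂ)) := LvlOne.eq_bot_of_neg hlt ▸ hD
      have h0 : M.det = 0 := (Submodule.mem_bot ℂ).mp this
      exact hpt UpperHalfPlane.I (by rw [h0]; rfl)
    · exact h0
    · exfalso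
      have hinv := inv_mem hD hpt hinf
      have : (M.det)⁻¹ ∈ (⊥ : Submodule ℂ (ℍ → ℂ)) :=
        LvlOne.eq_bot_of_neg (by omega : -W < 0) ▸ hinv
      have h0 : (M.det)⁻¹ = 0 := (Submodule.mem_bot ℂ).mp this
      have := congrFun h0 UpperHalfPlane.I
      simp only [Pi.inv_apply, Pi.zero_apply, inv_eq_zero] at this
      exact hpt _ this
  -- a nonzero Leibniz term
  have hdet_ne : M.det ≠ 0 := fun h0 => hpt UpperHalfPlane.I (by rw [h0]; rfl)
  obtain ⟨σ, hσ⟩ : ∃ σ : Equiv.Perm (Fin B.n), ∏ i, M (σ i) i ≠ 0 := by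
    by_contra hcon
    simp only [not_exists, not_not] at hcon
    apply hdet_ne
    rw [Matrix.det_apply]
    exact Finset.sum_eq_zero fun σ _ => by rw [hcon σ, smul_zero]
  have hfac : ∀ i, M (σ i) i ≠ 0 := fun i h0 =>
    hσ (Finset.prod_eq_zero (Finset.mem_univ i) h0)
  have hnonneg : ∀ i, 0 ≤ B.wt (σ i) + (B'.wt (e i) - 12) := by
    intro i
    by_contra hlt
    rw [not_le] at hlt
    have : M (σ i) i ∈ (⊥ : Submodule ℂ (ℍ → ℂ)) :=
      LvlOne.eq_bot_of_neg hlt ▸ hMmem (σ i) i
    exact hfac i ((Submodule.mem_bot ℂ).mp this)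
  have hsum : ∑ i, (B.wt (σ i) + (B'.wt (e i) - 12)) = 0 := by
    rw [Finset.sum_add_distrib, Equiv.sum_comp σ B.wt]
    exact hW0
  have hzero : ∀ i, B.wt (σ i) + (B'.wt (e i) - 12) = 0 := fun i =>
    (Finset.sum_eq_zero_iff_of_nonneg (fun i _ => hnonneg i)).mp hsum i (Finset.mem_univ i)
  -- the bijection between generators
  let φ : Fin B.n ≃ Fin B'.n := σ.symm.trans e
  refine Finset.card_bijective φ φ.bijective fun j => ?_
  simp only [Finset.mem_filter, Finset.mem_univ, true_and]
  have := hzero (σ.symm j)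
  simp only [Equiv.apply_symm_apply] at this
  show B.wt j = w₀ ↔ B'.wt (e (σ.symm j)) = 12 - w₀
  constructor <;> intro h <;> omega

end Fermat.Agent.S20.H19
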