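import Mathlib
import Fermat.Agent.S20.SkelA

set_option autoImplicit false
set_option linter.unusedSectionVars false
set_option linter.unusedVariables false

open UpperHalfPlane ModularForm
open scoped MatrixGroups ModularForm Manifold

noncomputable section

namespace Fermat.Agent.S20.H35

open Fermat.Agent.S20

variable {X : Type} [Fintype X] [MulAction SL(2, ℤ) X]

/-! ## Slash action, powers and products -/

theorem pow_slash_SL2 (k : ℤ) (γ : SL(2, ℤ)) (f : ℍ → ℂ) (r : ℕ) :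
    (f ^ r) ∣[(r : ℤ) * k] γ = (f ∣[k] γ) ^ r := by
  induction r with
  | zero =>
    simp only [pow_zero, Nat.cast_zero, zero_mul]
    exact is_invariant_one γ
  | succ r ih =>
    have h : ((r + 1 : ℕ) : ℤ) * k = (r : ℤ) * k + k := by push_cast; ring
    rw [h, pow_succ, mul_slash_SL2, ih, pow_succ]

theorem prod_slash_SL2 {ι : Type} (k : ℤ) (γ : SL(2, ℤ)) (f : ι → ℍ → ℂ) (s : Finset ι) :
    (∏ i ∈ s, f i) ∣[(s.card : ℤ) * k] γ = ∏ i ∈ s, (f i ∣[k] γ) := by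
  classical
  induction s using Finset.induction_on with
  | empty =>
    simp only [Finset.prod_empty, Finset.card_empty, Nat.cast_zero, zero_mul]
    exact is_invariant_one γ
  | insert i t hi ih =>
    have h : ((insert i t).card : ℤ) * k = k + (t.card : ℤ) * k := by
      rw [Finset.card_insert_of_notMem hi]; push_cast; ring
    rw [h, Finset.prod_insert hi, mul_slash_SL2, ih, Finset.prod_insert hi]

/-! ## PS : power sums -/

theorem psum_mem {k : ℤ} {F : X → ℍ → ℂ} (hF : F ∈ VMod X k) (r : ℕ) :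
    (fun z => ∑ x, F x z ^ r) ∈ LvlOne (r * k) := by
  obtain ⟨h1, h2, h3⟩ := hF
  have heq : (fun z => ∑ x, F x z ^ r) = ∑ x, (F x) ^ r := by
    ext z
    simp [Finset.sum_apply]
  rw [heq]
  refine ⟨?_, ?_, ?_⟩
  · exact MDifferentiable.sum (fun x _ => (h1 x).pow r)
  · intro γ
    rw [SlashAction.sum_slash]
    simp_rw [pow_slash_SL2, h2]
    exact Fintype.sum_equiv (MulAction.toPerm γ⁻¹) _ _ (fun x => rfl)
  · exact (boundedAtImInftySubalgebra ℂ).sum_mem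
      (fun x _ => (boundedAtImInftySubalgebra ℂ).pow_mem (h3 x) r)

/-- the norm (product of the components) of a vector valued form is a level one form -/
theorem prod_mem {k : ℤ} {F : X → ℍ → ℂ} (hF : F ∈ VMod X k) :
    (fun z => ∏ x, F x z) ∈ LvlOne (Fintype.card X * k) := by
  obtain ⟨h1, h2, h3⟩ := hF
  have heq : (fun z => ∏ x, F x z) = ∏ x, F x := by
    ext z
    simp [Finset.prod_apply]
  rw [heq]
  refine ⟨?_, ?_, ?_⟩
  · exact MDifferentiable.prod (fun x _ => h1 x)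
  · intro γ
    rw [← Finset.card_univ, prod_slash_SL2]
    simp_rw [h2]
    exact Fintype.prod_equiv (MulAction.toPerm γ⁻¹) _ _ (fun x => rfl)
  · exact (boundedAtImInftySubalgebra ℂ).prod_mem (fun x _ => h3 x)

/-- Newton: if the first `n` power sums of `n` complex numbers vanish, the numbers vanish. -/
theorem eq_zero_of_psum_eq_zero {ι : Type} [Fintype ι] (a : ι → ℂ)
    (h : ∀ r : ℕ, 1 ≤ r → r ≤ Fintype.card ι → ∑ i, a i ^ r = 0) : ∀ i, a i = 0 := by
  classical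
  -- all elementary symmetric polynomials of positive degree vanish
  have hes : ∀ k : ℕ, 1 ≤ k → k ≤ Fintype.card ι →
      MvPolynomial.aeval a (MvPolynomial.esymm ι ℂ k) = 0 := by
    intro k
    induction k using Nat.strong_induction_on with
    | _ k ih =>
      intro hk1 hkn
      have hN := congrArg (MvPolynomial.aeval a) (MvPolynomial.mul_esymm_eq_sum ι ℂ k)
      rw [map_mul, map_mul, map_sum, Finset.sum_eq_zero, mul_zero, map_natCast] at hN
      · have hk0 : (k : ℂ) ≠ 0 := by exact_mod_cast (by omega : k ≠ 0)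
        exact (mul_eq_zero.mp hN).resolve_left hk0
      · intro x hx
        rw [Finset.mem_filter, Finset.HasAntidiagonal.mem_antidiagonal] at hx
        have hx2 : 1 ≤ x.2 ∧ x.2 ≤ Fintype.card ι := by omega
        have : (MvPolynomial.aeval a) (MvPolynomial.psum ι ℂ x.2) = 0 := by
          simp only [MvPolynomial.psum, map_sum, map_pow, MvPolynomial.aeval_X]
          exact h _ hx2.1 hx2.2
        rw [map_mul, this, mul_zero]
  -- hence `∏ (X - a i) = X ^ n`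
  have hes' : ∀ k : ℕ, 1 ≤ k → k ≤ Fintype.card ι →
      (Finset.univ.val.map a).esymm k = 0 := by
    intro k hk1 hkn
    rw [← MvPolynomial.aeval_esymm_eq_multiset_esymm ι ℂ]
    exact hes k hk1 hkn
  have hprod : ((Finset.univ.val.map a).map fun t => Polynomial.X - Polynomial.C t).prod =
      Polynomial.X ^ Fintype.card ι := by
    rw [Multiset.prod_X_sub_X_eq_sum_esymm]
    have hcard : Multiset.card (Finset.univ.val.map a) = Fintype.card ι := by simp
    rw [hcard, Finset.sum_eq_single 0]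
    · simp [Multiset.esymm]
    · intro j hj hj0
      have hj' : j ≤ Fintype.card ι := by
        have := Finset.mem_range.mp hj; omega
      rw [hes' j (Nat.one_le_iff_ne_zero.mpr hj0) hj']
      simp
    · intro h0; exact absurd (Finset.mem_range.mpr (Nat.succ_pos _)) h0
  intro i
  have hroot : Polynomial.eval (a i)
      (((Finset.univ.val.map a).map fun t => Polynomial.X - Polynomial.C t).prod) = 0 := by
    rw [Polynomial.eval_multiset_prod]
    apply Multiset.prod_eq_zero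
    simp only [Multiset.map_map, Function.comp_apply, Polynomial.eval_sub, Polynomial.eval_X,
      Polynomial.eval_C, Multiset.mem_map, Finset.mem_val, Finset.mem_univ, true_and]
    exact ⟨i, sub_self _⟩
  rw [hprod, Polynomial.eval_pow, Polynomial.eval_X] at hroot
  exact pow_eq_zero_iff (by
    have : 0 < Fintype.card ι := Fintype.card_pos_iff.mpr ⟨i⟩
    omega) |>.mp hroot

/-- if all level one forms vanishing at `z₀` vanish at `z₁`, then a tuple vanishing at `z₀`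
vanishes at `z₁` -/
theorem VMod.vanish_transfer {k : ℤ} {F : X → ℍ → ℂ} (hF : F ∈ VMod X k) {z₀ z₁ : ℍ}
    (h01 : ∀ (w : ℤ) (f : ℍ → ℂ), f ∈ LvlOne w → f z₀ = 0 → f z₁ = 0)
    (h0 : ∀ x, F x z₀ = 0) : ∀ x, F x z₁ = 0 := by
  apply eq_zero_of_psum_eq_zero
  intro r hr1 _
  refine h01 _ _ (psum_mem hF r) ?_
  simp only [h0]
  rw [zero_pow (by omega), Finset.sum_const_zero]

/-! ## REG : closure properties -/

theorem VCusp.le_VMod (k : ℤ) : VCusp X k ≤ VMod X k := by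
  rintro F ⟨h1, h2, h3⟩
  exact ⟨h1, h2, fun x => (h3 x).isBoundedAtImInfty⟩

theorem VMod.smulV_mem {a b : ℤ} {f : ℍ → ℂ} (hf : f ∈ LvlOne a) {F : X → ℍ → ℂ}
    (hF : F ∈ VMod X b) : Skel.smulV f F ∈ VMod X (a + b) := by
  obtain ⟨f1, f2, f3⟩ := hf
  obtain ⟨h1, h2, h3⟩ := hF
  refine ⟨fun x => f1.mul (h1 x), fun γ x => ?_, fun x => ?_⟩
  · show (f * F x) ∣[a + b] γ = f * F (γ⁻¹ • x)
    rw [mul_slash_SL2, f2, h2]
  · exact f3.mul (h3 x)

theorem VCusp.smulV_mem {a b : ℤ} {f : ℍ → ℂ} (hf : f ∈ LvlOne a) {F : X → ℍ → ℂ}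
    (hF : F ∈ VCusp X b) : Skel.smulV f F ∈ VCusp X (a + b) := by
  obtain ⟨f1, f2, f3⟩ := hf
  obtain ⟨h1, h2, h3⟩ := hF
  refine ⟨fun x => f1.mul (h1 x), fun γ x => ?_, fun x => ?_⟩
  · show (f * F x) ∣[a + b] γ = f * F (γ⁻¹ • x)
    rw [mul_slash_SL2, f2, h2]
  · exact f3.mul_zeroAtFilter (h3 x)

theorem VCusp.vanish_transfer {k : ℤ} {F : X → ℍ → ℂ} (hF : F ∈ VCusp X k) {z₀ z₁ : ℍ}
    (h01 : ∀ (w : ℤ) (f : ℍ → ℂ), f ∈ LvlOne w → f z₀ = 0 → f z₁ = 0)
    (h0 : ∀ x, F x z₀ = 0) : ∀ x, F x z₁ = 0 :=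
  VMod.vanish_transfer (VCusp.le_VMod k hF) h01 h0

/-! ## Division at a point -/

theorem vInf_piGen_ne_zero (z₀ : ℍ) : Skel.vInf (Skel.piGen z₀) ≠ 0 := by
  rw [Skel.vInf_piGen]
  exact mul_ne_zero (by norm_num) (Skel.Dl_ne_zero z₀)

theorem transfer_generic {z₀ : ℍ} (h4 : Skel.E4 z₀ ≠ 0) (h6 : Skel.E6 z₀ ≠ 0) {z : ℍ}
    (hz : Skel.piGen z₀ z = 0) (w : ℤ) (f : ℍ → ℂ) (hf : f ∈ LvlOne w) (h0 : f z₀ = 0) : f z = 0 := by
  obtain ⟨g, -, rfl⟩ := Skel.LvlOne.div_piGen h4 h6 hf h0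
  simp [hz]

theorem transfer_E6 {z₀ : ℍ} (h6 : Skel.E6 z₀ = 0) {z : ℍ}
    (hz : Skel.E6 z = 0) (w : ℤ) (f : ℍ → ℂ) (hf : f ∈ LvlOne w) (h0 : f z₀ = 0) : f z = 0 := by
  obtain ⟨g, -, rfl⟩ := Skel.LvlOne.div_E6 h6 hf h0
  simp [hz]

theorem transfer_E4 {z₀ : ℍ} (h4 : Skel.E4 z₀ = 0) {z : ℍ}
    (hz : Skel.E4 z = 0) (w : ℤ) (f : ℍ → ℂ) (hf : f ∈ LvlOne w) (h0 : f z₀ = 0) : f z = 0 := by
  obtain ⟨g, -, rfl⟩ := Skel.LvlOne.div_E4 h4 hf h0
  simp [hz]

/-- division at a generic point -/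
theorem VMod.div_at_generic {k : ℤ} {F : X → ℍ → ℂ} (hF : F ∈ VMod X k) {z₀ : ℍ}
    (h4 : Skel.E4 z₀ ≠ 0) (h6 : Skel.E6 z₀ ≠ 0) (h0 : ∀ x, F x z₀ = 0) :
    ∃ G ∈ VMod X (k - 12), F = Skel.smulV (Skel.piGen z₀) G :=
  Skel.VMod.div (Skel.piGen_mem z₀) (vInf_piGen_ne_zero z₀)
    (fun _ hz => Skel.simpleZero_piGen h4 h6 hz) hF
    (fun _ hz => VMod.vanish_transfer hF (transfer_generic h4 h6 hz) h0)

theorem VMod.div_at_E6 {k : ℤ} {F : X → ℍ → ℂ} (hF : F ∈ VMod X k) {z₀ : ℍ}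
    (h6 : Skel.E6 z₀ = 0) (h0 : ∀ x, F x z₀ = 0) : ∃ G ∈ VMod X (k - 6), F = Skel.smulV Skel.E6 G :=
  Skel.VMod.div Skel.E6_mem (by rw [Skel.vInf_E6]; exact one_ne_zero)
    (fun _ hz => Skel.simpleZero_E6 hz) hF
    (fun _ hz => VMod.vanish_transfer hF (transfer_E6 h6 hz) h0)

theorem VMod.div_at_E4 {k : ℤ} {F : X → ℍ → ℂ} (hF : F ∈ VMod X k) {z₀ : ℍ}
    (h4 : Skel.E4 z₀ = 0) (h0 : ∀ x, F x z₀ = 0) : ∃ G ∈ VMod X (k - 4), F = Skel.smulV Skel.E4 G :=
  Skel.VMod.div Skel.E4_mem (by rw [Skel.vInf_E4]; exact one_ne_zero)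
    (fun _ hz => Skel.simpleZero_E4 hz) hF
    (fun _ hz => VMod.vanish_transfer hF (transfer_E4 h4 hz) h0)

theorem VCusp.div_at_generic {k : ℤ} {F : X → ℍ → ℂ} (hF : F ∈ VCusp X k) {z₀ : ℍ}
    (h4 : Skel.E4 z₀ ≠ 0) (h6 : Skel.E6 z₀ ≠ 0) (h0 : ∀ x, F x z₀ = 0) :
    ∃ G ∈ VCusp X (k - 12), F = Skel.smulV (Skel.piGen z₀) G :=
  Skel.VCusp.div (Skel.piGen_mem z₀) (vInf_piGen_ne_zero z₀)
    (fun _ hz => Skel.simpleZero_piGen h4 h6 hz) hF
    (fun _ hz => VCusp.vanish_transfer hF (transfer_generic h4 h6 hz) h0)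

theorem VCusp.div_at_E6 {k : ℤ} {F : X → ℍ → ℂ} (hF : F ∈ VCusp X k) {z₀ : ℍ}
    (h6 : Skel.E6 z₀ = 0) (h0 : ∀ x, F x z₀ = 0) : ∃ G ∈ VCusp X (k - 6), F = Skel.smulV Skel.E6 G :=
  Skel.VCusp.div Skel.E6_mem (by rw [Skel.vInf_E6]; exact one_ne_zero)
    (fun _ hz => Skel.simpleZero_E6 hz) hF
    (fun _ hz => VCusp.vanish_transfer hF (transfer_E6 h6 hz) h0)

theorem VCusp.div_at_E4 {k : ℤ} {F : X → ℍ → ℂ} (hF : F ∈ VCusp X k) {z₀ : ℍ}
    (h4 : Skel.E4 z₀ = 0) (h0 : ∀ x, F x z₀ = 0) : ∃ G ∈ VCusp X (k - 4), F = Skel.smulV Skel.E4 G :=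
  Skel.VCusp.div Skel.E4_mem (by rw [Skel.vInf_E4]; exact one_ne_zero)
    (fun _ hz => Skel.simpleZero_E4 hz) hF
    (fun _ hz => VCusp.vanish_transfer hF (transfer_E4 h4 hz) h0)

/-! ## REG : the regular sequence property -/

/-- `Skel.E4` and `Skel.E6` have no common zero. -/
theorem E6_ne_zero_of_E4_eq_zero {z : ℍ} (h : Skel.E4 z = 0) : Skel.E6 z ≠ 0 := by
  intro h6
  have := Skel.Dl_eq z
  rw [h, h6] at this
  have h0 : Skel.Dl z = 0 := by
    have : (1728 : ℂ) * Skel.Dl z = 0 := by rw [this]; ring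
    exact (mul_eq_zero.mp this).resolve_left (by norm_num)
  exact Skel.Dl_ne_zero z h0

theorem VMod.reg {k : ℤ} {F G : X → ℍ → ℂ} (hF : F ∈ VMod X k) (hG : G ∈ VMod X (k + 2))
    (h : Skel.smulV Skel.E6 F = Skel.smulV Skel.E4 G) : ∃ F' ∈ VMod X (k - 4), F = Skel.smulV Skel.E4 F' := by
  refine Skel.VMod.div Skel.E4_mem (by rw [Skel.vInf_E4]; exact one_ne_zero)
    (fun _ hz => Skel.simpleZero_E4 hz) hF (fun z hz x => ?_)
  have h1 := congrFun (congrFun h x) z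
  simp only [Skel.smulV, Pi.mul_apply, hz, zero_mul] at h1
  exact (mul_eq_zero.mp h1).resolve_left (E6_ne_zero_of_E4_eq_zero hz)

theorem VCusp.reg {k : ℤ} {F G : X → ℍ → ℂ} (hF : F ∈ VCusp X k) (hG : G ∈ VCusp X (k + 2))
    (h : Skel.smulV Skel.E6 F = Skel.smulV Skel.E4 G) : ∃ F' ∈ VCusp X (k - 4), F = Skel.smulV Skel.E4 F' := by
  refine Skel.VCusp.div Skel.E4_mem (by rw [Skel.vInf_E4]; exact one_ne_zero)
    (fun _ hz => Skel.simpleZero_E4 hz) hF (fun z hz x => ?_)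
  have h1 := congrFun (congrFun h x) z
  simp only [Skel.smulV, Pi.mul_apply, hz, zero_mul] at h1
  exact (mul_eq_zero.mp h1).resolve_left (E6_ne_zero_of_E4_eq_zero hz)

/-! ## Vanishing results -/

theorem VMod.eq_bot_of_neg [MulAction.IsPretransitive SL(2, ℤ) X] {k : ℤ} (hk : k < 0) :
    VMod X k = ⊥ := by
  rw [eq_bot_iff]
  intro F hF
  rw [Submodule.mem_bot]
  funext x z
  revert x
  apply eq_zero_of_psum_eq_zero
  intro r hr1 _
  have hmem := psum_mem hF r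
  have hneg : (r : ℤ) * k < 0 := mul_neg_of_pos_of_neg (by exact_mod_cast hr1) hk
  rw [Skel.LvlOne.eq_bot_of_neg hneg, Submodule.mem_bot] at hmem
  exact congrFun hmem z

theorem slash_neg_one_of_odd {k : ℤ} (hk : Odd k) (f : ℍ → ℂ) :
    f ∣[k] (-1 : SL(2, ℤ)) = -f := by
  ext z
  rw [SL_slash_apply]
  have h1 : ((-1 : SL(2, ℤ)) • z) = z := by
    simp
  rw [h1]
  have h2 : denom (-1 : SL(2, ℤ)) z = -1 := by
    simp [denom]
  rw [h2, Odd.neg_one_zpow (by simpa using hk)]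
  simp

theorem VMod.eq_bot_of_odd (hneg : ∀ x : X, (-1 : SL(2, ℤ)) • x = x) {k : ℤ} (hk : Odd k) :
    VMod X k = ⊥ := by
  rw [eq_bot_iff]
  intro F hF
  rw [Submodule.mem_bot]
  funext x
  have h2 := hF.2.1 (-1) x
  rw [inv_neg, inv_one, hneg, slash_neg_one_of_odd hk] at h2
  have : (2 : ℂ) • F x = 0 := by
    rw [two_smul]; nth_rewrite 1 [← h2]; simp
  exact (smul_eq_zero.mp this).resolve_left two_ne_zero

theorem const_mem_VMod (c : ℂ) : (fun (_ : X) (_ : ℍ) => c) ∈ VMod X 0 := by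
  refine ⟨fun _ => mdifferentiable_const, fun γ x => ?_, fun x => ?_⟩
  · exact is_invariant_const γ c
  · exact Filter.const_boundedAtFilter _ c

/-- in weight zero, every value taken by a component at `z` is taken by a component at `z₀` -/
theorem exists_eq_value {F : X → ℍ → ℂ} (hF : F ∈ VMod X 0) (z z₀ : ℍ) (x : X) :
    ∃ y, F y z₀ = F x z := by
  set c := F x z with hc
  have hG : F - (fun _ _ => c) ∈ VMod X 0 := (VMod X 0).sub_mem hF (const_mem_VMod c)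
  have hN := prod_mem hG
  rw [mul_zero] at hN
  obtain ⟨d, hd⟩ := Skel.LvlOne.zero_eq_const hN
  have hz : ∏ y, (F y z - c) = 0 := Finset.prod_eq_zero (Finset.mem_univ x) (sub_self _)
  have hd0 : d = 0 := by
    have := congrFun hd z
    simp only [Pi.sub_apply] at this
    rw [← this]; exact hz
  have hz0 : ∏ y, (F y z₀ - c) = 0 := by
    have := congrFun hd z₀
    simpa [hd0] using this
  obtain ⟨y, -, hy⟩ := Finset.prod_eq_zero_iff.mp hz0
  exact ⟨y, sub_eq_zero.mp hy⟩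

/-- in weight zero every component is constant -/
theorem component_const {F : X → ℍ → ℂ} (hF : F ∈ VMod X 0) (x : X) (z z' : ℍ) :
    F x z = F x z' := by
  have hSfin : (Set.range (fun y => F y UpperHalfPlane.I)).Finite := Set.finite_range _
  have hcont : Continuous (F x) := (hF.1 x).continuous
  refine isPreconnected_univ.constant_of_mapsTo hSfin.isDiscrete hcont.continuousOn
    (fun w _ => ?_) (Set.mem_univ _) (Set.mem_univ _)
  obtain ⟨y, hy⟩ := exists_eq_value hF w UpperHalfPlane.I x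
  exact ⟨y, hy⟩

theorem VMod.zero_eq_const [MulAction.IsPretransitive SL(2, ℤ) X] {F : X → ℍ → ℂ}
    (hF : F ∈ VMod X 0) : ∃ c : ℂ, F = fun _ _ => c := by
  rcases isEmpty_or_nonempty X with hX | ⟨⟨x₀⟩⟩
  · exact ⟨0, funext fun x => (hX.false x).elim⟩
  refine ⟨F x₀ UpperHalfPlane.I, ?_⟩
  funext x z
  obtain ⟨γ, hγ⟩ := MulAction.exists_smul_eq SL(2, ℤ) x x₀
  -- `F x₀ ∣[0] γ = F (γ⁻¹ • x₀) = F x`
  have h2 := hF.2.1 γ x₀
  have hx : γ⁻¹ • x₀ = x := by rw [← hγ, inv_smul_smul]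
  rw [hx] at h2
  have h3 := congrFun h2 z
  rw [SL_slash_apply] at h3
  simp only [neg_zero, zpow_zero, mul_one] at h3
  rw [← h3]
  exact component_const hF x₀ _ _

theorem VCusp.eq_bot_of_nonpos [MulAction.IsPretransitive SL(2, ℤ) X] {k : ℤ} (hk : k ≤ 0) :
    VCusp X k = ⊥ := by
  rcases hk.lt_or_eq with hk | rfl
  · rw [eq_bot_iff]
    exact (VCusp.le_VMod k).trans (VMod.eq_bot_of_neg hk).le
  · rw [eq_bot_iff]
    intro F hF
    rw [Submodule.mem_bot]
    funext x z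
    have hM := VCusp.le_VMod 0 hF
    -- `F x` is constant and tends to zero at infinity
    have hconst : F x = fun _ => F x z := funext fun w => component_const hM x w z
    have hzero : IsZeroAtImInfty (F x) := hF.2.2 x
    rw [hconst] at hzero
    have := tendsto_nhds_unique hzero tendsto_const_nhds
    exact this.symm

end Fermat.Agent.S20.H35
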