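import Mathlib
import Fermat.Agent.S20.SkelA
import Fermat.Agent.S20.H35_PSReg
import Fermat.Agent.S20.H19_Dual

/-!
S20 package COUNT (helper19): Hilbert functions of homogeneous bases and the counting statements.
-/

set_option autoImplicit false

open UpperHalfPlane ModularForm Filter Topology
open scoped MatrixGroups ModularForm Manifold

noncomputable section

namespace Fermat.Agent.S20.H19

open Fermat.Agent.S20 Fermat.Agent.S20.Skel

variable {X : Type} [Fintype X] [MulAction SL(2, ℤ) X]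

/-! ### The Hilbert function of a homogeneous basis -/

/-- The graded family `M` is stable under multiplication by level one forms. -/
def SmulStable (M : ℤ → Submodule ℂ (X → ℍ → ℂ)) : Prop :=
  ∀ (a b : ℤ) (f : ℍ → ℂ) (F : X → ℍ → ℂ), f ∈ LvlOne a → F ∈ M b → smulV f F ∈ M (a + b)

theorem smulStable_VMod : SmulStable (VMod X) := fun _ _ _ _ hf hF => H35.VMod.smulV_mem hf hF
theorem smulStable_VCusp : SmulStable (VCusp X) := fun _ _ _ _ hf hF => H35.VCusp.smulV_mem hf hF

omit [Fintype X] [MulAction SL(2, ℤ) X] in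
theorem smulV_add (f g : ℍ → ℂ) (F : X → ℍ → ℂ) : smulV (f + g) F = smulV f F + smulV g F := by
  funext x; simp [smulV, add_mul]

omit [Fintype X] [MulAction SL(2, ℤ) X] in
theorem smulV_smul (c : ℂ) (f : ℍ → ℂ) (F : X → ℍ → ℂ) : smulV (c • f) F = c • smulV f F := by
  funext x; simp [smulV]

omit [Fintype X] [MulAction SL(2, ℤ) X] in
theorem smulV_zero (F : X → ℍ → ℂ) : smulV (0 : ℍ → ℂ) F = 0 := by
  funext x; simp [smulV]

omit [Fintype X] [MulAction SL(2, ℤ) X] in
theorem smulV_one (F : X → ℍ → ℂ) : smulV (1 : ℍ → ℂ) F = F := by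
  funext x; simp [smulV]

/-- The map `(G_j) ↦ ∑ G_j • gen_j` from coefficient tuples to the degree `K` piece. -/
def sumMap {M : ℤ → Submodule ℂ (X → ℍ → ℂ)} (hM : SmulStable M) (B : HomBasis M) (K : ℤ) :
    ((j : Fin B.n) → LvlOne (K - B.wt j)) →ₗ[ℂ] M K where
  toFun G := ⟨∑ j, smulV (G j : ℍ → ℂ) (B.gen j), by
    refine Submodule.sum_mem _ fun j _ => ?_
    have := hM _ _ _ _ (G j).2 (B.gen_mem j)
    rwa [sub_add_cancel] at this⟩
  map_add' G G' := by
    ext1
    simp [smulV_add, Finset.sum_add_distrib]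
  map_smul' c G := by
    ext1
    simp [smulV_smul, Finset.smul_sum]

omit [Fintype X] [MulAction SL(2, ℤ) X] in
theorem sumMap_bijective {M : ℤ → Submodule ℂ (X → ℍ → ℂ)} (hM : SmulStable M) (B : HomBasis M)
    (K : ℤ) : Function.Bijective (sumMap hM B K) := by
  constructor
  · rw [← LinearMap.ker_eq_bot, LinearMap.ker_eq_bot']
    intro G hG
    have h0 : (∑ j, smulV (G j : ℍ → ℂ) (B.gen j)) = 0 := congrArg Subtype.val hG
    have := B.indep K (fun j => (G j : ℍ → ℂ)) (fun j => (G j).2) h0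
    funext j
    exact Subtype.ext (this j)
  · rintro ⟨H, hH⟩
    obtain ⟨G, hG, hsum⟩ := B.span K H hH
    exact ⟨fun j => ⟨G j, hG j⟩, Subtype.ext hsum.symm⟩

omit [Fintype X] [MulAction SL(2, ℤ) X] in
/-- Hilbert function of a homogeneous basis. -/
theorem finrank_eq_sum {M : ℤ → Submodule ℂ (X → ℍ → ℂ)} (hM : SmulStable M) (B : HomBasis M)
    (K : ℤ) : Module.finrank ℂ (M K) = ∑ j, Module.finrank ℂ (LvlOne (K - B.wt j)) := by
  rw [← (LinearEquiv.ofBijective _ (sumMap_bijective hM B K)).finrank_eq,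
    Module.finrank_pi_fintype]

/-! ### Dimensions of the spaces of level one forms -/

theorem finrank_lvlOne_neg {k : ℤ} (hk : k < 0) : Module.finrank ℂ (LvlOne k) = 0 := by
  rw [LvlOne.eq_bot_of_neg hk]; exact finrank_bot ℂ _

theorem finrank_lvlOne_zero : Module.finrank ℂ (LvlOne 0) = 1 := by
  have := LvlOne.finrank_eq 0 (by decide)
  simpa using this

theorem finrank_lvlOne_of_eq_zero {k : ℤ} (hk : k = 0) : Module.finrank ℂ (LvlOne k) = 1 := by
  subst hk; exact finrank_lvlOne_zero

/-! ### Generators are nonzero -/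

omit [Fintype X] [MulAction SL(2, ℤ) X] in
theorem gen_ne_zero {M : ℤ → Submodule ℂ (X → ℍ → ℂ)} (B : HomBasis M) (j : Fin B.n) :
    B.gen j ≠ 0 := by
  classical
  intro h0
  have hmem : ∀ i, (if i = j then (1 : ℍ → ℂ) else 0) ∈ LvlOne (B.wt j - B.wt i) := by
    intro i
    by_cases h : i = j
    · subst h; simpa using one_mem
    · simp [h]
  have hsum : (∑ i, smulV (if i = j then (1 : ℍ → ℂ) else 0) (B.gen i)) = 0 := by
    refine Finset.sum_eq_zero fun i _ => ?_
    by_cases h : i = j
    · subst h; simp [smulV_one, h0]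
    · simp [h, smulV_zero]
  have := B.indep (B.wt j) _ hmem hsum j
  simp only [if_true] at this
  have h1 := congrFun this UpperHalfPlane.I
  simp at h1

/-! ### COUNT: the easy statements -/

theorem wt_pos_VCusp (hX : GoodX X) (B' : HomBasis (VCusp X)) (l : Fin B'.n) : 2 ≤ B'.wt l := by
  have := hX.trans
  by_contra hlt
  rw [not_le] at hlt
  have hmem := B'.gen_mem l
  have hbot : B'.gen l = 0 := by
    rcases lt_or_eq_of_le (Int.lt_add_one_iff.mp (by omega : B'.wt l < 1 + 1)) with h | h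
    · have : VCusp X (B'.wt l) = ⊥ := H35.VCusp.eq_bot_of_nonpos (by omega)
      rw [this] at hmem
      exact (Submodule.mem_bot ℂ).mp hmem
    · have h1 : B'.gen l ∈ VMod X (B'.wt l) := H35.VCusp.le_VMod _ hmem
      have : VMod X (B'.wt l) = ⊥ := H35.VMod.eq_bot_of_odd hX.neg (by rw [h]; decide)
      rw [this] at h1
      exact (Submodule.mem_bot ℂ).mp h1
  exact gen_ne_zero B' l hbot

theorem finrank_VCusp_two (hX : GoodX X) (B' : HomBasis (VCusp X)) :
    Module.finrank ℂ (VCusp X 2) = (Finset.univ.filter (fun l => B'.wt l = 2)).card := by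
  classical
  rw [finrank_eq_sum smulStable_VCusp B' 2, Finset.card_filter]
  refine Finset.sum_congr rfl fun l _ => ?_
  have h2 := wt_pos_VCusp hX B' l
  by_cases h : B'.wt l = 2
  · rw [if_pos h]; exact finrank_lvlOne_of_eq_zero (by omega)
  · rw [if_neg h]; exact finrank_lvlOne_neg (by omega)

omit [Fintype X] in
theorem const_one_mem_VMod : (fun _ _ => 1 : X → ℍ → ℂ) ∈ VMod X 0 :=
  ⟨fun _ => mdifferentiable_const, fun γ _ => ModularForm.is_invariant_one γ,
    fun _ => one_mem.2.2⟩

theorem finrank_VMod_zero (hX : GoodX X) : Module.finrank ℂ (VMod X 0) = 1 := by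
  have := hX.trans
  have := hX.ne
  refine finrank_eq_one ⟨_, const_one_mem_VMod⟩ ?_ ?_
  · intro h
    have h1 := congrFun (congrFun (congrArg Subtype.val h) (Classical.arbitrary X))
      UpperHalfPlane.I
    simp at h1
  · rintro ⟨F, hF⟩
    obtain ⟨c, rfl⟩ := H35.VMod.zero_eq_const hF
    refine ⟨c, Subtype.ext ?_⟩
    funext x z
    simp

theorem card_wt_zero_of (hX : GoodX X) (B : HomBasis (VMod X)) (hwt : ∀ j, 0 ≤ B.wt j) :
    (Finset.univ.filter (fun j => B.wt j = 0)).card = 1 := by
  classical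
  rw [← finrank_VMod_zero hX, finrank_eq_sum smulStable_VMod B 0, Finset.card_filter]
  refine Finset.sum_congr rfl fun j _ => ?_
  have h0 := hwt j
  by_cases h : B.wt j = 0
  · rw [if_pos h]; exact (finrank_lvlOne_of_eq_zero (by omega)).symm
  · rw [if_neg h]; exact (finrank_lvlOne_neg (by omega)).symm

end Fermat.Agent.S20.H19
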