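import Mathlib
import Fermat.Agent.S20.H35_PSReg

/-!
# S20 / PT-b : the weight counts of a homogeneous basis

For a homogeneous basis `B` of `VMod X` whose values at `i` (resp. `ρ`) are linearly independent
(package PT-a, taken here as a hypothesis) and with `B.n = card X` (package RANK, hypothesis),
the values `v_j = (gen_j x z₀)_x` form an eigenbasis of the permutation operator of `S`
(resp. `S * T`) with eigenvalues `denom ^ (- wt_j)`; comparing traces gives the counts.
-/

set_option autoImplicit false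
set_option linter.unusedSectionVars false
set_option linter.unusedVariables false

open UpperHalfPlane ModularForm
open scoped MatrixGroups ModularForm Manifold

noncomputable section

namespace Fermat.Agent.S20.H35

open Fermat.Agent.S20

variable {X : Type} [Fintype X] [MulAction SL(2, ℤ) X]

/-! ## Generators are nonzero, weights are even and nonnegative -/

theorem HomBasis.gen_ne_zero {M : ℤ → Submodule ℂ (X → ℍ → ℂ)} (B : Skel.HomBasis M)
    (j : Fin B.n) : B.gen j ≠ 0 := by
  classical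
  intro h0
  have hG : ∀ i, (Pi.single j (1 : ℍ → ℂ) : Fin B.n → ℍ → ℂ) i ∈ LvlOne (B.wt j - B.wt i) := by
    intro i
    by_cases hij : i = j
    · subst hij
      rw [Pi.single_eq_same, sub_self]
      exact LvlOne.one_mem
    · rw [Pi.single_eq_of_ne hij]
      exact Submodule.zero_mem _
  have hsum : (∑ i, Skel.smulV ((Pi.single j (1 : ℍ → ℂ) : Fin B.n → ℍ → ℂ) i) (B.gen i)) = 0 := by
    rw [Finset.sum_eq_single j]
    · rw [h0]; funext x; simp [Skel.smulV]
    · intro i _ hij
      rw [Pi.single_eq_of_ne hij]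
      funext x; simp [Skel.smulV]
    · intro h; exact absurd (Finset.mem_univ j) h
  have := B.indep (B.wt j) _ hG hsum j
  rw [Pi.single_eq_same] at this
  exact one_ne_zero this

theorem HomBasis.wt_even (hX : Skel.GoodX X) (B : Skel.HomBasis (VMod X)) (j : Fin B.n) :
    Even (B.wt j) ∧ 0 ≤ B.wt j := by
  have := hX.trans
  have hne := HomBasis.gen_ne_zero B j
  have hmem := B.gen_mem j
  constructor
  · by_contra hodd
    rw [Int.not_even_iff_odd] at hodd
    rw [VMod.eq_bot_of_odd hX.neg hodd, Submodule.mem_bot] at hmem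
    exact hne hmem
  · by_contra hneg
    rw [not_le] at hneg
    rw [VMod.eq_bot_of_neg hneg, Submodule.mem_bot] at hmem
    exact hne hmem

/-! ## Trace identities -/

/-- trace of a linear map with an eigenbasis given as a linearly independent family of the
right cardinality -/
theorem trace_eq_sum_of_eigen {ι : Type} [Fintype ι] [DecidableEq ι]
    (P : (X → ℂ) →ₗ[ℂ] (X → ℂ)) (v : ι → (X → ℂ)) (c : ι → ℂ)
    (hv : LinearIndependent ℂ v) (hcard : Fintype.card ι = Fintype.card X)
    (hP : ∀ j, P (v j) = c j • v j) : LinearMap.trace ℂ (X → ℂ) P = ∑ j, c j := by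
  have hfin : Fintype.card ι = Module.finrank ℂ (X → ℂ) := by
    rw [hcard, Module.finrank_fintype_fun_eq_card]
  let b := basisOfLinearIndependentOfCardEqFinrank' v hv hfin
  have hb : ∀ j, b j = v j := fun j => by
    simp [b]
  rw [LinearMap.trace_eq_matrix_trace ℂ b, Matrix.trace]
  refine Finset.sum_congr rfl fun j _ => ?_
  rw [Matrix.diag_apply, LinearMap.toMatrix_apply, hb, hP, ← hb, map_smul,
    Module.Basis.repr_self]
  simp

/-- trace of the permutation operator `v ↦ v ∘ σ` is the number of fixed points of `σ` -/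
theorem trace_funLeft [DecidableEq X] (σ : X → X) :
    LinearMap.trace ℂ (X → ℂ) (LinearMap.funLeft ℂ ℂ σ) =
      ((Finset.univ.filter (fun x => σ x = x)).card : ℂ) := by
  rw [LinearMap.trace_eq_matrix_trace ℂ (Pi.basisFun ℂ X), Matrix.trace]
  simp only [Matrix.diag_apply, LinearMap.toMatrix_apply, Pi.basisFun_apply, Pi.basisFun_repr,
    LinearMap.funLeft_apply]
  rw [Finset.card_filter]
  push_cast
  refine Finset.sum_congr rfl fun x _ => ?_
  simp [Pi.single_apply]

/-- values at a fixed point are eigenvectors of the permutation operator -/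
theorem eval_fixed {k : ℤ} {F : X → ℍ → ℂ} (hF : F ∈ VMod X k) (γ : SL(2, ℤ)) {z₀ : ℍ}
    (hz : γ • z₀ = z₀) (x : X) : F (γ⁻¹ • x) z₀ = denom γ z₀ ^ (-k) * F x z₀ := by
  have h := congrFun (hF.2.1 γ x) z₀
  rw [SL_slash_apply, hz] at h
  rw [← h, mul_comm]

/-- the trace identity: sum of the eigenvalues equals the number of fixed points -/
theorem sum_denom_zpow_eq_card_fixed (B : Skel.HomBasis (VMod X)) (hn : B.n = Fintype.card X)
    (γ : SL(2, ℤ)) {z₀ : ℍ} (hz : γ • z₀ = z₀)
    (hind : LinearIndependent ℂ (fun j => (fun x => B.gen j x z₀ : X → ℂ))) :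
    ∑ j, denom γ z₀ ^ (-(B.wt j)) = (Nat.card {x : X // γ • x = x} : ℂ) := by
  classical
  have h1 := trace_eq_sum_of_eigen (LinearMap.funLeft ℂ ℂ (fun x : X => γ⁻¹ • x))
    (fun j => (fun x => B.gen j x z₀ : X → ℂ)) (fun j => denom γ z₀ ^ (-(B.wt j))) hind
    (by rw [Fintype.card_fin, hn]) (fun j => by
      funext x
      simp only [LinearMap.funLeft_apply, Pi.smul_apply, smul_eq_mul]
      exact eval_fixed (B.gen_mem j) γ hz x)
  rw [← h1, trace_funLeft, Nat.card_eq_fintype_card, Fintype.card_subtype]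
  congr 2
  ext x
  simp only [Finset.mem_filter, Finset.mem_univ, true_and]
  rw [inv_smul_eq_iff]
  exact eq_comm


/-! ## The count at `i` -/

theorem I_zpow_neg_of_even {k : ℤ} (hk : Even k) :
    ((UpperHalfPlane.I : ℍ) : ℂ) ^ (-k) = if (4 : ℤ) ∣ k then 1 else -1 := by
  obtain ⟨m, rfl⟩ := hk
  have h1 : ((UpperHalfPlane.I : ℍ) : ℂ) ^ (-(m + m)) = (-1 : ℂ) ^ m := by
    rw [UpperHalfPlane.coe_I, show -(m + m) = (-2 : ℤ) * m by ring, zpow_mul]
    congr 1
    rw [zpow_neg, show (2 : ℤ) = ((2 : ℕ) : ℤ) by norm_num, zpow_natCast, Complex.I_sq]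
    norm_num
  rw [h1]
  by_cases h4 : (4 : ℤ) ∣ m + m
  · rw [if_pos h4]
    exact Even.neg_one_zpow (Int.even_iff.mpr (by omega))
  · rw [if_neg h4]
    exact Odd.neg_one_zpow (Int.odd_iff.mpr (by omega))

theorem card_wt_mod4_of (hX : Skel.GoodX X) (B : Skel.HomBasis (VMod X))
    (hn : B.n = Fintype.card X)
    (hind : LinearIndependent ℂ (fun j => (fun x => B.gen j x UpperHalfPlane.I : X → ℂ))) :
    2 * (Finset.univ.filter (fun j => (4 : ℤ) ∣ B.wt j)).card =
      Fintype.card X + Nat.card {x : X // ModularGroup.S • x = x} := by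
  classical
  have h := sum_denom_zpow_eq_card_fixed B hn ModularGroup.S S_smul_I hind
  rw [ModularGroup.denom_S] at h
  have h2 : ∀ j, ((UpperHalfPlane.I : ℍ) : ℂ) ^ (-(B.wt j)) =
      if (4 : ℤ) ∣ B.wt j then 1 else -1 :=
    fun j => I_zpow_neg_of_even (HomBasis.wt_even hX B j).1
  simp_rw [h2] at h
  rw [Finset.sum_ite, Finset.sum_const, Finset.sum_const] at h
  have hc := Finset.card_filter_add_card_filter_not (s := (Finset.univ : Finset (Fin B.n)))
    (fun j => (4 : ℤ) ∣ B.wt j)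
  rw [Finset.card_univ, Fintype.card_fin] at hc
  replace hc := hc.trans hn
  set a := (Finset.univ.filter (fun j => (4 : ℤ) ∣ B.wt j)).card
  set b := (Finset.univ.filter (fun j => ¬ (4 : ℤ) ∣ B.wt j)).card
  set f := Nat.card {x : X // ModularGroup.S • x = x}
  have h3 : ((2 * a : ℕ) : ℂ) = ((Fintype.card X + f : ℕ) : ℂ) := by
    rw [← hc]
    push_cast
    simp only [nsmul_eq_mul, mul_one, mul_neg] at h
    linear_combination h
  exact_mod_cast h3


/-! ## The counts at `ρ` -/

theorem rho_inv : ((rho : ℂ))⁻¹ = (rho : ℂ) ^ 2 := by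
  have h3 : (rho : ℂ) * (rho : ℂ) ^ 2 = 1 := by linear_combination rho_cube
  exact (eq_inv_of_mul_eq_one_right h3).symm

theorem rho_add_one_zpow_neg_of_even {k : ℤ} (hk : Even k) :
    ((rho : ℂ) + 1) ^ (-k) = (if (6 : ℤ) ∣ k then 1 else 0) +
      (if (6 : ℤ) ∣ k - 2 then (rho : ℂ) ^ 2 else 0) + (if (6 : ℤ) ∣ k - 4 then (rho : ℂ) else 0) := by
  obtain ⟨m, rfl⟩ := hk
  have hne : (rho : ℂ) ≠ 0 := by
    intro h0; have h3 := rho_cube; rw [h0] at h3; norm_num at h3
  -- `(ρ + 1) ^ (-(m + m)) = (ρ⁻¹) ^ m = (ρ ^ 2) ^ m`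
  have h1 : ((rho : ℂ) + 1) ^ (-(m + m)) = ((rho : ℂ) ^ 2) ^ m := by
    rw [show -(m + m) = (2 : ℤ) * (-m) by ring, zpow_mul,
      show (2 : ℤ) = ((2 : ℕ) : ℤ) by norm_num, zpow_natCast, rho_add_one_sq, zpow_neg,
      ← inv_zpow, rho_inv]
  rw [h1]
  -- write `m = 3 q + r`
  obtain ⟨q, r, hr, rfl⟩ : ∃ q r : ℤ, (r = 0 ∨ r = 1 ∨ r = 2) ∧ m = 3 * q + r :=
    ⟨m / 3, m % 3, by omega, by omega⟩
  have h6 : ((rho : ℂ) ^ 2) ^ (3 * q + r) = ((rho : ℂ) ^ 2) ^ r := by
    rw [zpow_add₀ (pow_ne_zero 2 hne), zpow_mul]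
    have : ((rho : ℂ) ^ 2) ^ (3 : ℤ) = 1 := by
      rw [show (3 : ℤ) = ((3 : ℕ) : ℤ) by norm_num, zpow_natCast]
      calc ((rho : ℂ) ^ 2) ^ 3 = ((rho : ℂ) ^ 3) ^ 2 := by ring
        _ = 1 := by rw [rho_cube]; norm_num
    rw [this, one_zpow, one_mul]
  rw [h6]
  rcases hr with rfl | rfl | rfl
  · rw [if_pos (by omega), if_neg (by omega), if_neg (by omega)]
    simp
  · rw [if_neg (by omega), if_pos (by omega), if_neg (by omega)]
    simp
  · rw [if_neg (by omega), if_neg (by omega), if_pos (by omega)]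
    rw [show (2 : ℤ) = ((2 : ℕ) : ℤ) by norm_num, zpow_natCast]
    have h3 := rho_cube
    linear_combination (rho : ℂ) * h3

theorem card_wt_mod6_aux (hX : Skel.GoodX X) (B : Skel.HomBasis (VMod X))
    (hn : B.n = Fintype.card X)
    (hind : LinearIndependent ℂ (fun j => (fun x => B.gen j x rho : X → ℂ))) :
    3 * (Finset.univ.filter (fun j => (6 : ℤ) ∣ B.wt j)).card =
      Fintype.card X + 2 * Nat.card {x : X // (ModularGroup.S * ModularGroup.T) • x = x} ∧
    (Finset.univ.filter (fun j => (6 : ℤ) ∣ B.wt j - 2)).card =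
      (Finset.univ.filter (fun j => (6 : ℤ) ∣ B.wt j - 4)).card := by
  classical
  have h := sum_denom_zpow_eq_card_fixed B hn (ModularGroup.S * ModularGroup.T) ST_smul_rho hind
  rw [denom_ST] at h
  simp_rw [fun j => rho_add_one_zpow_neg_of_even (HomBasis.wt_even hX B j).1] at h
  rw [Finset.sum_add_distrib, Finset.sum_add_distrib, Finset.sum_ite, Finset.sum_ite,
    Finset.sum_ite] at h
  simp only [Finset.sum_const, nsmul_eq_mul, mul_one, mul_zero, add_zero] at h
  -- the three classes partition the index set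
  have hpart : ∀ j : Fin B.n, (1 : ℕ) = (if (6 : ℤ) ∣ B.wt j then 1 else 0) +
      (if (6 : ℤ) ∣ B.wt j - 2 then 1 else 0) + (if (6 : ℤ) ∣ B.wt j - 4 then 1 else 0) := by
    intro j
    obtain ⟨m, hm⟩ := (HomBasis.wt_even hX B j).1
    rw [hm]
    obtain ⟨q, r, hr, rfl⟩ : ∃ q r : ℤ, (r = 0 ∨ r = 1 ∨ r = 2) ∧ m = 3 * q + r :=
      ⟨m / 3, m % 3, by omega, by omega⟩
    rcases hr with rfl | rfl | rfl
    · rw [if_pos (by omega), if_neg (by omega), if_neg (by omega)]
    · rw [if_neg (by omega), if_pos (by omega), if_neg (by omega)]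
    · rw [if_neg (by omega), if_neg (by omega), if_pos (by omega)]
  have hc : (Finset.univ.filter (fun j => (6 : ℤ) ∣ B.wt j)).card +
      (Finset.univ.filter (fun j => (6 : ℤ) ∣ B.wt j - 2)).card +
      (Finset.univ.filter (fun j => (6 : ℤ) ∣ B.wt j - 4)).card = Fintype.card X := by
    have h1 : ∑ j : Fin B.n, (1 : ℕ) = B.n := by simp
    have h2 : (Finset.univ.filter (fun j => (6 : ℤ) ∣ B.wt j)).card +
        (Finset.univ.filter (fun j => (6 : ℤ) ∣ B.wt j - 2)).card +
        (Finset.univ.filter (fun j => (6 : ℤ) ∣ B.wt j - 4)).card = ∑ j : Fin B.n, (1 : ℕ) := by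
      rw [Finset.sum_congr rfl (fun j _ => hpart j), Finset.sum_add_distrib,
        Finset.sum_add_distrib, Finset.card_filter, Finset.card_filter, Finset.card_filter]
    exact (h2.trans h1).trans hn
  set a₀ := (Finset.univ.filter (fun j => (6 : ℤ) ∣ B.wt j)).card
  set a₁ := (Finset.univ.filter (fun j => (6 : ℤ) ∣ B.wt j - 2)).card
  set a₂ := (Finset.univ.filter (fun j => (6 : ℤ) ∣ B.wt j - 4)).card
  set f := Nat.card {x : X // (ModularGroup.S * ModularGroup.T) • x = x}
  -- `(a₀ - a₁) + (a₂ - a₁) ρ = f`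
  have hE : (((a₀ : ℝ) - a₁ : ℝ) : ℂ) + (((a₂ : ℝ) - a₁ : ℝ) : ℂ) * (rho : ℂ) = ((f : ℝ) : ℂ) := by
    push_cast
    linear_combination h - (a₁ : ℂ) * rho_sq
  have him : ((a₂ : ℝ) - a₁) * (Real.sqrt 3 / 2) = 0 := by
    have := congrArg Complex.im hE
    rw [rho_coe] at this
    simpa using this
  have hre : ((a₀ : ℝ) - a₁) + ((a₂ : ℝ) - a₁) * (-1 / 2) = f := by
    have := congrArg Complex.re hE
    rw [rho_coe] at this
    simpa using this
  have h21 : (a₂ : ℝ) = a₁ := by
    have hs : Real.sqrt 3 / 2 ≠ 0 := by positivity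
    have := (mul_eq_zero.mp him).resolve_right hs
    linarith
  have h01 : (a₀ : ℝ) - a₁ = f := by
    rw [h21] at hre; linarith
  have h21' : a₂ = a₁ := by exact_mod_cast h21
  refine ⟨?_, h21'.symm⟩
  have : ((3 * a₀ : ℕ) : ℝ) = ((Fintype.card X + 2 * f : ℕ) : ℝ) := by
    rw [← hc]
    push_cast
    rw [h21]
    linarith
  exact_mod_cast this

theorem card_wt_mod6_of (hX : Skel.GoodX X) (B : Skel.HomBasis (VMod X))
    (hn : B.n = Fintype.card X)
    (hind : LinearIndependent ℂ (fun j => (fun x => B.gen j x rho : X → ℂ))) :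
    3 * (Finset.univ.filter (fun j => (6 : ℤ) ∣ B.wt j)).card =
      Fintype.card X + 2 * Nat.card {x : X // (ModularGroup.S * ModularGroup.T) • x = x} :=
  (card_wt_mod6_aux hX B hn hind).1

theorem card_wt_mod6'_of (hX : Skel.GoodX X) (B : Skel.HomBasis (VMod X))
    (hn : B.n = Fintype.card X)
    (hind : LinearIndependent ℂ (fun j => (fun x => B.gen j x rho : X → ℂ))) :
    (Finset.univ.filter (fun j => (6 : ℤ) ∣ B.wt j - 2)).card =
      (Finset.univ.filter (fun j => (6 : ℤ) ∣ B.wt j - 4)).card :=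
  (card_wt_mod6_aux hX B hn hind).2

end Fermat.Agent.S20.H35
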