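import Mathlib
import Fermat.Agent.S20.Defs

set_option autoImplicit false

/-!
# PT package, part 2: the elliptic fixed points `i` (of `S`) and `ρ` (of `S * T`)

Values of vector valued forms at the fixed points are eigenvectors of the permutation operators
of `S` resp. `S * T`; the eigenvalue depends only on the weight modulo `4` resp. `6`.
-/

open UpperHalfPlane ModularForm
open scoped MatrixGroups ModularForm Manifold

noncomputable section

namespace Fermat.Agent.S20.H43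

open Fermat.Agent.S20

/-! ## The fixed point `i` of `S` -/

theorem S_smul_I : ModularGroup.S • UpperHalfPlane.I = UpperHalfPlane.I := by
  rw [UpperHalfPlane.modular_S_smul]
  ext
  simp [UpperHalfPlane.I]

theorem denom_S_I : denom (ModularGroup.S : SL(2, ℤ)) UpperHalfPlane.I = Complex.I := by
  rw [ModularGroup.denom_S]
  rfl

/-! ## The fixed point `ρ` of `S * T` -/

/-- the point `ρ = (-1 + i √3) / 2` of the upper half plane -/
def rho : ℍ := ⟨(-1 / 2 : ℝ) + (Real.sqrt 3 / 2 : ℝ) * Complex.I, by simp⟩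

theorem coe_rho : (rho : ℂ) = (-1 / 2 : ℝ) + (Real.sqrt 3 / 2 : ℝ) * Complex.I := rfl

theorem rho_sq : (rho : ℂ) ^ 2 + (rho : ℂ) + 1 = 0 := by
  have h3 : ((Real.sqrt 3 : ℝ) : ℂ) ^ 2 = 3 := by
    rw [← Complex.ofReal_pow, Real.sq_sqrt (by norm_num)]
    norm_num
  rw [coe_rho]
  push_cast
  ring_nf
  rw [h3, Complex.I_sq]
  ring

theorem ST_smul_rho : (ModularGroup.S * ModularGroup.T) • rho = rho := by
  rw [mul_smul, UpperHalfPlane.modular_T_smul, UpperHalfPlane.modular_S_smul]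
  ext
  simp only [UpperHalfPlane.coe_vadd]
  have h := rho_sq
  apply inv_eq_of_mul_eq_one_right
  push_cast
  linear_combination (-1 : ℂ) * h

theorem ST_one_zero : (ModularGroup.S * ModularGroup.T : SL(2, ℤ)) 1 0 = 1 := by
  rw [Matrix.SpecialLinearGroup.coe_mul]
  simp [ModularGroup.S, ModularGroup.T, Matrix.mul_apply, Fin.sum_univ_two]

theorem ST_one_one : (ModularGroup.S * ModularGroup.T : SL(2, ℤ)) 1 1 = 1 := by
  rw [Matrix.SpecialLinearGroup.coe_mul]
  simp [ModularGroup.S, ModularGroup.T, Matrix.mul_apply, Fin.sum_univ_two]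

theorem denom_ST_rho :
    denom ((ModularGroup.S * ModularGroup.T : SL(2, ℤ))) rho = (rho : ℂ) + 1 := by
  rw [ModularGroup.denom_apply, ST_one_zero, ST_one_one]
  simp

/-! ## Roots of unity -/

/-- `ζ = ρ + 1`, a primitive sixth root of unity -/
def zeta : ℂ := (rho : ℂ) + 1

theorem zeta_sq : zeta ^ 2 = (rho : ℂ) := by
  unfold zeta
  linear_combination rho_sq

theorem rho_cube : (rho : ℂ) ^ 3 = 1 := by
  linear_combination ((rho : ℂ) - 1) * rho_sq

theorem rho_ne_zero : (rho : ℂ) ≠ 0 := by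
  intro h
  have := rho_cube
  rw [h] at this
  norm_num at this

theorem zeta_ne_zero : zeta ≠ 0 := by
  intro h
  have := zeta_sq
  rw [h] at this
  exact rho_ne_zero (by rw [← this]; ring)

theorem zeta_pow_six : zeta ^ 6 = 1 := by
  have : zeta ^ 6 = (zeta ^ 2) ^ 3 := by ring
  rw [this, zeta_sq, rho_cube]

theorem rho_ne_one : (rho : ℂ) ≠ 1 := by
  intro h
  have := rho_sq
  rw [h] at this
  norm_num at this

theorem rho_sq_ne_one : (rho : ℂ) ^ 2 ≠ 1 := by
  intro h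
  have h2 := rho_sq
  rw [h] at h2
  have h3 : (rho : ℂ) = -2 := by linear_combination h2
  rw [h3] at h
  norm_num at h

theorem rho_sq_ne_rho : (rho : ℂ) ^ 2 ≠ (rho : ℂ) := by
  intro h
  have h2 : (rho : ℂ) * ((rho : ℂ) - 1) = 0 := by linear_combination h
  rcases mul_eq_zero.mp h2 with h3 | h3
  · exact rho_ne_zero h3
  · exact rho_ne_one (by linear_combination h3)

theorem zeta_zpow_of_dvd {k : ℤ} (h : (6 : ℤ) ∣ k) : zeta ^ (-k) = 1 := by
  obtain ⟨m, rfl⟩ := h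
  rw [zpow_neg, zpow_mul, show (6 : ℤ) = ((6 : ℕ) : ℤ) from rfl, zpow_natCast, zeta_pow_six]
  simp

theorem zeta_zpow_of_dvd_sub_two {k : ℤ} (h : (6 : ℤ) ∣ k - 2) : zeta ^ (-k) = (rho : ℂ) ^ 2 := by
  obtain ⟨m, hm⟩ := h
  have hk : -k = -(6 * m) + (-2) := by omega
  rw [hk, zpow_add₀ zeta_ne_zero, zeta_zpow_of_dvd (Dvd.intro m rfl), one_mul, zpow_neg,
    show (2 : ℤ) = ((2 : ℕ) : ℤ) from rfl, zpow_natCast, zeta_sq]
  apply inv_eq_of_mul_eq_one_right
  linear_combination rho_cube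

theorem zeta_zpow_of_dvd_sub_four {k : ℤ} (h : (6 : ℤ) ∣ k - 4) : zeta ^ (-k) = (rho : ℂ) := by
  obtain ⟨m, hm⟩ := h
  have hk : -k = -(6 * m) + (-4) := by omega
  rw [hk, zpow_add₀ zeta_ne_zero, zeta_zpow_of_dvd (Dvd.intro m rfl), one_mul, zpow_neg,
    show (4 : ℤ) = ((4 : ℕ) : ℤ) from rfl, zpow_natCast]
  have : zeta ^ 4 = (rho : ℂ) ^ 2 := by
    have : zeta ^ 4 = (zeta ^ 2) ^ 2 := by ring
    rw [this, zeta_sq]
  rw [this]
  apply inv_eq_of_mul_eq_one_right
  linear_combination rho_cube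

theorem I_zpow_of_dvd {k : ℤ} (h : (4 : ℤ) ∣ k) : Complex.I ^ (-k) = 1 := by
  obtain ⟨m, rfl⟩ := h
  rw [zpow_neg, zpow_mul, show (4 : ℤ) = ((4 : ℕ) : ℤ) from rfl, zpow_natCast, Complex.I_pow_four]
  simp

theorem I_zpow_of_dvd_sub_two {k : ℤ} (h : (4 : ℤ) ∣ k - 2) : Complex.I ^ (-k) = -1 := by
  obtain ⟨m, hm⟩ := h
  have hk : -k = -(4 * m) + (-2) := by omega
  rw [hk, zpow_add₀ Complex.I_ne_zero, I_zpow_of_dvd (Dvd.intro m rfl), one_mul, zpow_neg,
    show (2 : ℤ) = ((2 : ℕ) : ℤ) from rfl, zpow_natCast, Complex.I_sq]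
  norm_num

theorem I_zpow_neg_of_even {k : ℤ} (hk : Even k) :
    Complex.I ^ (-k) = if (4 : ℤ) ∣ k then 1 else -1 := by
  by_cases h : (4 : ℤ) ∣ k
  · rw [if_pos h, I_zpow_of_dvd h]
  · rw [if_neg h]
    obtain ⟨m, hm⟩ := hk
    exact I_zpow_of_dvd_sub_two (by omega)

theorem zeta_zpow_neg_of_even {k : ℤ} (hk : Even k) :
    zeta ^ (-k) = if (6 : ℤ) ∣ k then 1 else if (6 : ℤ) ∣ k - 2 then (rho : ℂ) ^ 2 else (rho : ℂ) := by
  by_cases h : (6 : ℤ) ∣ k
  · rw [if_pos h, zeta_zpow_of_dvd h]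
  · rw [if_neg h]
    by_cases h2 : (6 : ℤ) ∣ k - 2
    · rw [if_pos h2, zeta_zpow_of_dvd_sub_two h2]
    · rw [if_neg h2]
      obtain ⟨m, hm⟩ := hk
      exact zeta_zpow_of_dvd_sub_four (by omega)

theorem I_zpow_neg_eq {a b : ℤ} (ha : Even a) (hb : Even b)
    (h : Complex.I ^ (-a) = Complex.I ^ (-b)) : (4 : ℤ) ∣ a - b := by
  by_contra hnd
  have hd : (4 : ℤ) ∣ (a - b) - 2 := by
    obtain ⟨m, hm⟩ := ha
    obtain ⟨m', hm'⟩ := hb
    omega
  have h1 : Complex.I ^ (-a) = Complex.I ^ (-(a - b)) * Complex.I ^ (-b) := by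
    rw [← zpow_add₀ Complex.I_ne_zero]
    congr 1
    ring
  rw [I_zpow_of_dvd_sub_two hd, h] at h1
  have h2 : (2 : ℂ) * Complex.I ^ (-b) = 0 := by linear_combination h1
  have h3 : Complex.I ^ (-b) ≠ 0 := zpow_ne_zero _ Complex.I_ne_zero
  rcases mul_eq_zero.mp h2 with h4 | h4
  · norm_num at h4
  · exact h3 h4

theorem zeta_zpow_neg_eq {a b : ℤ} (ha : Even a) (hb : Even b)
    (h : zeta ^ (-a) = zeta ^ (-b)) : (6 : ℤ) ∣ a - b := by
  by_contra hnd
  have h1 : zeta ^ (-a) = zeta ^ (-(a - b)) * zeta ^ (-b) := by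
    rw [← zpow_add₀ zeta_ne_zero]
    congr 1
    ring
  have h3 : zeta ^ (-b) ≠ 0 := zpow_ne_zero _ zeta_ne_zero
  have hev : Even (a - b) := ha.sub hb
  rw [zeta_zpow_neg_of_even hev, if_neg hnd, h] at h1
  by_cases h2 : (6 : ℤ) ∣ a - b - 2
  · rw [if_pos h2] at h1
    have h4 : ((rho : ℂ) ^ 2 - 1) * zeta ^ (-b) = 0 := by linear_combination -h1
    rcases mul_eq_zero.mp h4 with h5 | h5
    · exact rho_sq_ne_one (by linear_combination h5)
    · exact h3 h5
  · rw [if_neg h2] at h1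
    have h4 : ((rho : ℂ) - 1) * zeta ^ (-b) = 0 := by linear_combination -h1
    rcases mul_eq_zero.mp h4 with h5 | h5
    · exact rho_ne_one (by linear_combination h5)
    · exact h3 h5

/-- `1` and `ρ` are linearly independent over the reals -/
theorem rho_real_indep {a b : ℝ} (h : (a : ℂ) + (b : ℂ) * (rho : ℂ) = 0) : a = 0 ∧ b = 0 := by
  have him := congrArg Complex.im h
  have hre := congrArg Complex.re h
  simp only [Complex.add_im, Complex.mul_im, Complex.ofReal_im, Complex.ofReal_re, zero_mul,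
    add_zero, zero_add, Complex.zero_im, UpperHalfPlane.coe_im] at him
  have hb : b = 0 := by
    rcases mul_eq_zero.mp him with h1 | h1
    · exact h1
    · exact absurd h1 rho.im_pos.ne'
  subst hb
  simp only [Complex.ofReal_re, Complex.ofReal_zero, zero_mul, Complex.zero_re,
    add_zero] at hre
  exact ⟨hre, rfl⟩

/-! ## Values at the fixed points -/

variable {X : Type} [MulAction SL(2, ℤ) X]

theorem VMod.eval_S_I {k : ℤ} {F : X → ℍ → ℂ} (hF : F ∈ VMod X k) (x : X) :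
    F (ModularGroup.S⁻¹ • x) UpperHalfPlane.I = Complex.I ^ (-k) * F x UpperHalfPlane.I := by
  have h := congrFun (hF.2.1 ModularGroup.S x) UpperHalfPlane.I
  rw [SL_slash_apply, S_smul_I, denom_S_I] at h
  rw [← h, mul_comm]

theorem VMod.eval_ST_rho {k : ℤ} {F : X → ℍ → ℂ} (hF : F ∈ VMod X k) (x : X) :
    F ((ModularGroup.S * ModularGroup.T)⁻¹ • x) rho = zeta ^ (-k) * F x rho := by
  have h := congrFun (hF.2.1 (ModularGroup.S * ModularGroup.T) x) rho
  rw [SL_slash_apply, ST_smul_rho, denom_ST_rho] at h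
  rw [← h, mul_comm, zeta]

theorem LvlOne.eval_I {k : ℤ} {f : ℍ → ℂ} (hf : f ∈ LvlOne k) :
    f UpperHalfPlane.I = Complex.I ^ (-k) * f UpperHalfPlane.I := by
  have h := congrFun (hf.2.1 ModularGroup.S) UpperHalfPlane.I
  rw [SL_slash_apply, S_smul_I, denom_S_I] at h
  rw [mul_comm]
  exact h.symm

theorem LvlOne.eval_rho {k : ℤ} {f : ℍ → ℂ} (hf : f ∈ LvlOne k) :
    f rho = zeta ^ (-k) * f rho := by
  have h := congrFun (hf.2.1 (ModularGroup.S * ModularGroup.T)) rho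
  rw [SL_slash_apply, ST_smul_rho, denom_ST_rho] at h
  rw [mul_comm, zeta]
  exact h.symm

/-- a level one form of weight `≡ 2 mod 4` vanishes at `i` -/
theorem LvlOne.eq_zero_at_I {k : ℤ} {f : ℍ → ℂ} (hf : f ∈ LvlOne k) (hk : (4 : ℤ) ∣ k - 2) :
    f UpperHalfPlane.I = 0 := by
  have h := LvlOne.eval_I hf
  rw [I_zpow_of_dvd_sub_two hk] at h
  have h2 : (2 : ℂ) * f UpperHalfPlane.I = 0 := by linear_combination h
  simpa using h2

/-- a level one form of weight `≡ 4 mod 6` vanishes at `ρ` -/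
theorem LvlOne.eq_zero_at_rho {k : ℤ} {f : ℍ → ℂ} (hf : f ∈ LvlOne k) (hk : (6 : ℤ) ∣ k - 4) :
    f rho = 0 := by
  have h := LvlOne.eval_rho hf
  rw [zeta_zpow_of_dvd_sub_four hk] at h
  have h2 : ((rho : ℂ) - 1) * f rho = 0 := by linear_combination -h
  rcases mul_eq_zero.mp h2 with h3 | h3
  · exact absurd (by linear_combination h3) rho_ne_one
  · exact h3

end Fermat.Agent.S20.H43
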