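import Mathlib

set_option autoImplicit false

/-!
# PT package, part 1: pure linear algebra

* eigenvectors grouped by eigenvalue classes: classwise independence implies independence;
* trace of a permutation operator on `X → ℂ` is the number of fixed points;
* trace of an operator having an eigenbasis;
* Gram determinant criterion.
-/

namespace Fermat.Agent.S20.H43

open Module

section Classes

variable {V : Type*} [AddCommGroup V] [Module ℂ V]

/-- If every `v j` is an eigenvector of `P` with eigenvalue `lam j`, and for every `μ` the subfamily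
of those `v j` with `lam j = μ` is linearly independent (stated via coefficients), then the whole
family is linearly independent. -/
theorem linearIndependent_of_eigen_classes {ι : Type*} [Fintype ι] (P : V →ₗ[ℂ] V) (v : ι → V)
    (lam : ι → ℂ) (hP : ∀ j, P (v j) = lam j • v j)
    (hcls : ∀ (μ : ℂ) (c : ι → ℂ), (∑ j, (if lam j = μ then c j else 0) • v j) = 0 →
      ∀ j, lam j = μ → c j = 0) :
    LinearIndependent ℂ v := by
  classical
  rw [Fintype.linearIndependent_iff]
  intro c hc j
  set u : ℂ → V := fun μ => ∑ j, (if lam j = μ then c j else 0) • v j with hu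
  have hmem : ∀ μ, u μ ∈ Module.End.eigenspace (P : Module.End ℂ V) μ := by
    intro μ
    rw [Module.End.mem_eigenspace_iff]
    simp only [hu, map_sum, map_smul, hP, Finset.smul_sum]
    refine Finset.sum_congr rfl fun i _ => ?_
    by_cases h : lam i = μ
    · simp [h, smul_smul, mul_comm]
    · simp [h]
  have hsum : ∑ μ ∈ Finset.univ.image lam, u μ = 0 := by
    rw [← hc]
    simp only [hu]
    rw [Finset.sum_comm]
    refine Finset.sum_congr rfl fun i _ => ?_
    rw [← Finset.sum_smul]
    congr 1
    rw [Finset.sum_ite_eq]
    simp
  have hind := (iSupIndep_iff_finsetSum_eq_zero_imp_eq_zero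
    (Module.End.eigenspace (P : Module.End ℂ V))).mp (Module.End.eigenspaces_iSupIndep _)
    (Finset.univ.image lam) u (fun μ _ => hmem μ) hsum
  exact hcls (lam j) c (hind (lam j) (Finset.mem_image_of_mem _ (Finset.mem_univ j))) j rfl

end Classes

section Trace

variable {X : Type*} [Fintype X] [DecidableEq X]

/-- The trace of the operator `v ↦ v ∘ σ` on `X → ℂ` is the number of fixed points of `σ`. -/
theorem trace_funLeft (σ : X → X) :
    LinearMap.trace ℂ (X → ℂ) (LinearMap.funLeft ℂ ℂ σ) =
      ((Finset.univ.filter (fun x => σ x = x)).card : ℂ) := by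
  rw [LinearMap.trace_eq_matrix_trace ℂ (Pi.basisFun ℂ X), LinearMap.toMatrix_eq_toMatrix',
    Matrix.trace]
  simp only [Matrix.diag_apply, LinearMap.toMatrix'_apply, LinearMap.funLeft_apply]
  rw [Finset.card_filter, Nat.cast_sum]
  refine Finset.sum_congr rfl fun x _ => ?_
  by_cases h : σ x = x
  · simp [h]
  · simp [h]

variable {V : Type*} [AddCommGroup V] [Module ℂ V]

/-- The trace of an operator with an eigenbasis is the sum of the eigenvalues. -/
theorem trace_of_eigenbasis {ι : Type*} [Fintype ι] [DecidableEq ι] (b : Basis ι ℂ V)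
    (P : V →ₗ[ℂ] V) (lam : ι → ℂ) (hP : ∀ j, P (b j) = lam j • b j) :
    LinearMap.trace ℂ V P = ∑ j, lam j := by
  rw [LinearMap.trace_eq_matrix_trace ℂ b, Matrix.trace]
  refine Finset.sum_congr rfl fun j _ => ?_
  simp [Matrix.diag_apply, LinearMap.toMatrix_apply, hP]

end Trace

section Gram

variable {n : ℕ} {X : Type*} [Fintype X]

/-- If the Gram determinant `det (A Aᵀ)` is nonzero, the rows of `A` are linearly independent. -/
theorem linearIndependent_rows_of_gram_det_ne_zero (A : Matrix (Fin n) X ℂ)
    (h : (A * A.transpose).det ≠ 0) : LinearIndependent ℂ (fun j => A j) := by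
  classical
  rw [Fintype.linearIndependent_iff]
  intro c hc
  have h1 : Matrix.vecMul c A = 0 := by
    ext x
    have := congrFun hc x
    simpa [Matrix.vecMul, dotProduct, Finset.sum_apply] using this
  have h2 : Matrix.vecMul c (A * A.transpose) = 0 := by
    rw [← Matrix.vecMul_vecMul, h1, Matrix.zero_vecMul]
  have h3 := Matrix.eq_zero_of_vecMul_eq_zero h h2
  intro j
  exact congrFun h3 j

/-- For a "square" matrix with linearly independent rows the Gram determinant is nonzero. -/
theorem gram_det_ne_zero_of_linearIndependent (A : Matrix (Fin n) X ℂ)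
    (hcard : n = Fintype.card X) (h : LinearIndependent ℂ (fun j => A j)) :
    (A * A.transpose).det ≠ 0 := by
  classical
  let e : Fin n ≃ X := (Fintype.equivFinOfCardEq hcard.symm).symm
  let A' : Matrix (Fin n) (Fin n) ℂ := A.submatrix id e
  have hAA : A * A.transpose = A' * A'.transpose := by
    ext j l
    simp only [Matrix.mul_apply, Matrix.transpose_apply, A', Matrix.submatrix_apply, id]
    exact (Equiv.sum_comp e (fun x => A j x * A l x)).symm
  have hrows : LinearIndependent ℂ A'.row := by
    have := h.map' (LinearMap.funLeft ℂ ℂ e)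
      (LinearMap.ker_eq_bot.mpr (LinearMap.funLeft_injective_of_surjective _ _ _ e.surjective))
    exact this
  have hunit : IsUnit A'.det :=
    (Matrix.isUnit_iff_isUnit_det _).mp (Matrix.linearIndependent_rows_iff_isUnit.mp hrows)
  rw [hAA, Matrix.det_mul, Matrix.det_transpose]
  exact mul_ne_zero hunit.ne_zero hunit.ne_zero

end Gram

end Fermat.Agent.S20.H43
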