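import Mathlib
import Fermat.Agent.S20.SkelA
import Fermat.Agent.S20.H35_PSReg

set_option autoImplicit false

open UpperHalfPlane ModularForm
open scoped MatrixGroups ModularForm Manifold

noncomputable section

namespace Fermat.Agent.S20.Skel

open Fermat.Agent.S20

variable {X : Type} [Fintype X] [MulAction SL(2, ℤ) X]

/-! ## PS : power sums and the characteristic polynomial trick -/

theorem psum_mem {k : ℤ} {F : X → ℍ → ℂ} (hF : F ∈ VMod X k) (r : ℕ) :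
    (fun z => ∑ x, F x z ^ r) ∈ LvlOne (r * k) :=
  Fermat.Agent.S20.H35.psum_mem hF r

theorem eq_zero_of_psum_eq_zero {ι : Type} [Fintype ι] (a : ι → ℂ)
    (h : ∀ r : ℕ, 1 ≤ r → r ≤ Fintype.card ι → ∑ i, a i ^ r = 0) : ∀ i, a i = 0 :=
  Fermat.Agent.S20.H35.eq_zero_of_psum_eq_zero a h

/-- if all level one forms vanishing at `z₀` vanish at `z₁`, then a tuple vanishing at `z₀`
vanishes at `z₁` -/
theorem VMod.vanish_transfer {k : ℤ} {F : X → ℍ → ℂ} (hF : F ∈ VMod X k) {z₀ z₁ : ℍ}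
    (h01 : ∀ (w : ℤ) (f : ℍ → ℂ), f ∈ LvlOne w → f z₀ = 0 → f z₁ = 0)
    (h0 : ∀ x, F x z₀ = 0) : ∀ x, F x z₁ = 0 :=
  Fermat.Agent.S20.H35.VMod.vanish_transfer hF h01 h0

/-- division at a generic point -/
theorem VMod.div_at_generic {k : ℤ} {F : X → ℍ → ℂ} (hF : F ∈ VMod X k) {z₀ : ℍ}
    (h4 : E4 z₀ ≠ 0) (h6 : E6 z₀ ≠ 0) (h0 : ∀ x, F x z₀ = 0) :
    ∃ G ∈ VMod X (k - 12), F = smulV (piGen z₀) G :=
  Fermat.Agent.S20.H35.VMod.div_at_generic hF h4 h6 h0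
theorem VMod.div_at_E6 {k : ℤ} {F : X → ℍ → ℂ} (hF : F ∈ VMod X k) {z₀ : ℍ}
    (h6 : E6 z₀ = 0) (h0 : ∀ x, F x z₀ = 0) : ∃ G ∈ VMod X (k - 6), F = smulV E6 G :=
  Fermat.Agent.S20.H35.VMod.div_at_E6 hF h6 h0
theorem VMod.div_at_E4 {k : ℤ} {F : X → ℍ → ℂ} (hF : F ∈ VMod X k) {z₀ : ℍ}
    (h4 : E4 z₀ = 0) (h0 : ∀ x, F x z₀ = 0) : ∃ G ∈ VMod X (k - 4), F = smulV E4 G :=
  Fermat.Agent.S20.H35.VMod.div_at_E4 hF h4 h0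
-- and the same three statements for VCusp

/-! ## REG : regular sequence properties -/

theorem VMod.smulV_mem {a b : ℤ} {f : ℍ → ℂ} (hf : f ∈ LvlOne a) {F : X → ℍ → ℂ}
    (hF : F ∈ VMod X b) : smulV f F ∈ VMod X (a + b) :=
  Fermat.Agent.S20.H35.VMod.smulV_mem hf hF
theorem VCusp.smulV_mem {a b : ℤ} {f : ℍ → ℂ} (hf : f ∈ LvlOne a) {F : X → ℍ → ℂ}
    (hF : F ∈ VCusp X b) : smulV f F ∈ VCusp X (a + b) :=
  Fermat.Agent.S20.H35.VCusp.smulV_mem hf hF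
theorem VCusp.le_VMod (k : ℤ) : VCusp X k ≤ VMod X k :=
  Fermat.Agent.S20.H35.VCusp.le_VMod k
theorem VMod.reg {k : ℤ} {F G : X → ℍ → ℂ} (hF : F ∈ VMod X k) (hG : G ∈ VMod X (k + 2))
    (h : smulV E6 F = smulV E4 G) : ∃ F' ∈ VMod X (k - 4), F = smulV E4 F' :=
  Fermat.Agent.S20.H35.VMod.reg hF hG h
theorem VCusp.reg {k : ℤ} {F G : X → ℍ → ℂ} (hF : F ∈ VCusp X k) (hG : G ∈ VCusp X (k + 2))
    (h : smulV E6 F = smulV E4 G) : ∃ F' ∈ VCusp X (k - 4), F = smulV E4 F' :=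
  Fermat.Agent.S20.H35.VCusp.reg hF hG h
theorem VMod.eq_bot_of_neg [MulAction.IsPretransitive SL(2, ℤ) X] {k : ℤ} (hk : k < 0) :
    VMod X k = ⊥ :=
  Fermat.Agent.S20.H35.VMod.eq_bot_of_neg hk
theorem VMod.eq_bot_of_odd (hneg : ∀ x : X, (-1 : SL(2, ℤ)) • x = x) {k : ℤ} (hk : Odd k) :
    VMod X k = ⊥ :=
  Fermat.Agent.S20.H35.VMod.eq_bot_of_odd hneg hk
theorem VMod.zero_eq_const [MulAction.IsPretransitive SL(2, ℤ) X] {F : X → ℍ → ℂ}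
    (hF : F ∈ VMod X 0) : ∃ c : ℂ, F = fun _ _ => c :=
  Fermat.Agent.S20.H35.VMod.zero_eq_const hF
theorem VCusp.eq_bot_of_nonpos [MulAction.IsPretransitive SL(2, ℤ) X] {k : ℤ} (hk : k ≤ 0) :
    VCusp X k = ⊥ :=
  Fermat.Agent.S20.H35.VCusp.eq_bot_of_nonpos hk



theorem VCusp.vanish_transfer {k : ℤ} {F : X → ℍ → ℂ} (hF : F ∈ VCusp X k) {z₀ z₁ : ℍ}
    (h01 : ∀ (w : ℤ) (f : ℍ → ℂ), f ∈ LvlOne w → f z₀ = 0 → f z₁ = 0)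
    (h0 : ∀ x, F x z₀ = 0) : ∀ x, F x z₁ = 0 :=
  Fermat.Agent.S20.H35.VCusp.vanish_transfer hF h01 h0
theorem VCusp.div_at_generic {k : ℤ} {F : X → ℍ → ℂ} (hF : F ∈ VCusp X k) {z₀ : ℍ}
    (h4 : E4 z₀ ≠ 0) (h6 : E6 z₀ ≠ 0) (h0 : ∀ x, F x z₀ = 0) :
    ∃ G ∈ VCusp X (k - 12), F = smulV (piGen z₀) G :=
  Fermat.Agent.S20.H35.VCusp.div_at_generic hF h4 h6 h0
theorem VCusp.div_at_E6 {k : ℤ} {F : X → ℍ → ℂ} (hF : F ∈ VCusp X k) {z₀ : ℍ}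
    (h6 : E6 z₀ = 0) (h0 : ∀ x, F x z₀ = 0) : ∃ G ∈ VCusp X (k - 6), F = smulV E6 G :=
  Fermat.Agent.S20.H35.VCusp.div_at_E6 hF h6 h0
theorem VCusp.div_at_E4 {k : ℤ} {F : X → ℍ → ℂ} (hF : F ∈ VCusp X k) {z₀ : ℍ}
    (h4 : E4 z₀ = 0) (h0 : ∀ x, F x z₀ = 0) : ∃ G ∈ VCusp X (k - 4), F = smulV E4 G :=
  Fermat.Agent.S20.H35.VCusp.div_at_E4 hF h4 h0

end Fermat.Agent.S20.Skel
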