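import Mathlib
import Fermat.Agent.S20.SkelPS
import Fermat.Agent.S20.H43_PT_Lin
import Fermat.Agent.S20.H43_PT_Fix

set_option autoImplicit false

/-!
# PT package: pointwise independence of a homogeneous basis and the eigenvalue counts
-/

open UpperHalfPlane ModularForm
open scoped MatrixGroups ModularForm Manifold

noncomputable section

namespace Fermat.Agent.S20.H43

open Fermat.Agent.S20

variable {X : Type} [Fintype X] [MulAction SL(2, ℤ) X]

/-! ## Algebra of `smulV` -/

theorem smulV_apply (f : ℍ → ℂ) (F : X → ℍ → ℂ) (x : X) (z : ℍ) :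
    Skel.smulV f F x z = f z * F x z := rfl

theorem sum_smulV_apply {ι : Type} (s : Finset ι) (G : ι → ℍ → ℂ) (F : ι → X → ℍ → ℂ)
    (x : X) (z : ℍ) : (∑ j ∈ s, Skel.smulV (G j) (F j)) x z = ∑ j ∈ s, G j z * F j x z := by
  simp [Finset.sum_apply, smulV_apply]

/-! ## Graded families to which the arguments apply -/

/-- the properties of a graded family of spaces of tuples (`VMod X` or `VCusp X`) used below -/
structure GoodFam (M : ℤ → Submodule ℂ (X → ℍ → ℂ)) : Prop where
  le_VMod : ∀ k, M k ≤ VMod X k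
  smulV_mem : ∀ {a b : ℤ} {f : ℍ → ℂ} {F : X → ℍ → ℂ}, f ∈ LvlOne a → F ∈ M b →
    Skel.smulV f F ∈ M (a + b)
  div : ∀ z₀ : ℍ, ∃ (w : ℤ) (p : ℍ → ℂ), p ∈ LvlOne w ∧ p z₀ = 0 ∧
    ∀ (k : ℤ) (F : X → ℍ → ℂ), F ∈ M k → (∀ x, F x z₀ = 0) →
      ∃ G ∈ M (k - w), F = Skel.smulV p G

theorem goodFam_VMod : GoodFam (VMod X) where
  le_VMod := fun _ => le_rfl
  smulV_mem := fun hf hF => Skel.VMod.smulV_mem hf hF
  div := by
    intro z₀
    by_cases h6 : Skel.E6 z₀ = 0
    · exact ⟨6, Skel.E6, Skel.E6_mem, h6, fun k F hF h0 => Skel.VMod.div_at_E6 hF h6 h0⟩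
    by_cases h4 : Skel.E4 z₀ = 0
    · exact ⟨4, Skel.E4, Skel.E4_mem, h4, fun k F hF h0 => Skel.VMod.div_at_E4 hF h4 h0⟩
    · exact ⟨12, Skel.piGen z₀, Skel.piGen_mem z₀, Skel.piGen_self z₀,
        fun k F hF h0 => Skel.VMod.div_at_generic hF h4 h6 h0⟩

theorem goodFam_VCusp : GoodFam (VCusp X) where
  le_VMod := fun k => Skel.VCusp.le_VMod k
  smulV_mem := fun hf hF => Skel.VCusp.smulV_mem hf hF
  div := by
    intro z₀
    by_cases h6 : Skel.E6 z₀ = 0
    · exact ⟨6, Skel.E6, Skel.E6_mem, h6, fun k F hF h0 => Skel.VCusp.div_at_E6 hF h6 h0⟩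
    by_cases h4 : Skel.E4 z₀ = 0
    · exact ⟨4, Skel.E4, Skel.E4_mem, h4, fun k F hF h0 => Skel.VCusp.div_at_E4 hF h4 h0⟩
    · exact ⟨12, Skel.piGen z₀, Skel.piGen_mem z₀, Skel.piGen_self z₀,
        fun k F hF h0 => Skel.VCusp.div_at_generic hF h4 h6 h0⟩

variable {M : ℤ → Submodule ℂ (X → ℍ → ℂ)}

/-! ## Generators are nonzero, weights are even and nonnegative -/

theorem one_mem_LvlOne : (fun _ => (1 : ℂ)) ∈ LvlOne 0 :=
  ⟨mdifferentiable_const, fun γ => ModularForm.is_invariant_const γ 1,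
    Filter.const_boundedAtFilter _ _⟩

theorem gen_ne_zero (B : Skel.HomBasis M) (j : Fin B.n) : B.gen j ≠ 0 := by
  classical
  intro h
  have h1 := B.indep (B.wt j) (fun i => if i = j then (fun _ => (1 : ℂ)) else 0) ?_ ?_ j
  · simp only [if_true] at h1
    have := congrFun h1 UpperHalfPlane.I
    simp at this
  · intro i
    by_cases hi : i = j
    · subst hi
      simp only [if_true, sub_self]
      exact one_mem_LvlOne
    · simp only [hi, if_false]
      exact Submodule.zero_mem _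
  · funext x z
    rw [sum_smulV_apply]
    simp only [Pi.zero_apply]
    refine Finset.sum_eq_zero fun i _ => ?_
    by_cases hi : i = j
    · subst hi
      simp [h]
    · simp [hi]

theorem wt_even_nonneg (hX : Skel.GoodX X) (hM : GoodFam M) (B : Skel.HomBasis M)
    (j : Fin B.n) : Even (B.wt j) ∧ 0 ≤ B.wt j := by
  have := hX.trans
  have hmem : B.gen j ∈ VMod X (B.wt j) := hM.le_VMod _ (B.gen_mem j)
  have hne := gen_ne_zero B j
  constructor
  · by_contra hodd
    rw [Int.not_even_iff_odd] at hodd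
    rw [Skel.VMod.eq_bot_of_odd hX.neg hodd] at hmem
    exact hne ((Submodule.mem_bot ℂ).mp hmem)
  · by_contra hneg
    rw [not_le] at hneg
    rw [Skel.VMod.eq_bot_of_neg hneg] at hmem
    exact hne ((Submodule.mem_bot ℂ).mp hmem)

/-! ## Independence inside a class of weights -/

/-- Key lemma: a relation at `z₀` between the values of those generators `j ∈ J` which can all be
brought to a common weight `K` by multiplying with level one forms not vanishing at `z₀` is
trivial. -/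
theorem class_indep (hM : GoodFam M) (B : Skel.HomBasis M) (z₀ : ℍ) (K : ℤ)
    (J : Finset (Fin B.n))
    (hJ : ∀ j ∈ J, ∃ f ∈ LvlOne (K - B.wt j), f z₀ ≠ 0)
    (c : Fin B.n → ℂ) (hc : ∀ x, ∑ j ∈ J, c j * B.gen j x z₀ = 0) : ∀ j ∈ J, c j = 0 := by
  classical
  obtain ⟨w, p, hp, hp0, hdiv⟩ := hM.div z₀
  -- choose the multipliers
  have hJ' : ∀ j, ∃ f : ℍ → ℂ, j ∈ J → f ∈ LvlOne (K - B.wt j) ∧ f z₀ ≠ 0 := by
    intro j
    by_cases hj : j ∈ J
    · obtain ⟨f, hf, hf0⟩ := hJ j hj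
      exact ⟨f, fun _ => ⟨hf, hf0⟩⟩
    · exact ⟨0, fun h => absurd h hj⟩
  choose f hf using hJ'
  set coef : Fin B.n → ℍ → ℂ := fun j => if j ∈ J then (c j / f j z₀) • f j else 0 with hcoef
  have hcoef_mem : ∀ j, coef j ∈ LvlOne (K - B.wt j) := by
    intro j
    by_cases hj : j ∈ J
    · simp only [hcoef, hj, if_true]
      exact Submodule.smul_mem _ _ (hf j hj).1
    · simp only [hcoef, hj, if_false]
      exact Submodule.zero_mem _
  have hcoef_z : ∀ j, coef j z₀ = if j ∈ J then c j else 0 := by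
    intro j
    by_cases hj : j ∈ J
    · simp only [hcoef, hj, if_true, Pi.smul_apply, smul_eq_mul]
      exact div_mul_cancel₀ _ (hf j hj).2
    · simp [hcoef, hj]
  set H : X → ℍ → ℂ := ∑ j, Skel.smulV (coef j) (B.gen j) with hH
  have hHmem : H ∈ M K := by
    refine Submodule.sum_mem _ fun j _ => ?_
    have := hM.smulV_mem (hcoef_mem j) (B.gen_mem j)
    rwa [sub_add_cancel] at this
  have hH0 : ∀ x, H x z₀ = 0 := by
    intro x
    rw [hH, sum_smulV_apply, ← hc x]
    simp only [hcoef_z, ite_mul, zero_mul]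
    rw [Finset.sum_ite_mem, Finset.univ_inter]
  obtain ⟨G, hG, hHG⟩ := hdiv K H hHmem hH0
  obtain ⟨g, hg, hGg⟩ := B.span (K - w) G hG
  have hrel := B.indep K (fun j => coef j - p * g j) ?_ ?_
  · intro j hj
    have h1 := congrFun (hrel j) z₀
    simp only [Pi.sub_apply, Pi.mul_apply, Pi.zero_apply, hcoef_z, hj, if_true, hp0,
      zero_mul, sub_zero] at h1
    exact h1
  · intro j
    refine Submodule.sub_mem _ (hcoef_mem j) ?_
    have := Skel.LvlOne.mul_mem hp (hg j)
    have hw : w + (K - w - B.wt j) = K - B.wt j := by ring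
    rwa [hw] at this
  · funext x z
    have h1 : H x z = p z * G x z := by rw [hHG, smulV_apply]
    have h2 : G x z = ∑ j, g j z * B.gen j x z := by rw [hGg, sum_smulV_apply]
    have h3 : H x z = ∑ j, coef j z * B.gen j x z := by rw [hH, sum_smulV_apply]
    rw [sum_smulV_apply]
    simp only [Pi.sub_apply, Pi.mul_apply, Pi.zero_apply, sub_mul, Finset.sum_sub_distrib]
    rw [← h3, h1, h2, Finset.mul_sum]
    simp only [mul_assoc, sub_self]

/-- the evaluation vectors of a basis at a point -/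
abbrev evalVec (B : Skel.HomBasis M) (z : ℍ) : Fin B.n → X → ℂ := fun j x => B.gen j x z

theorem sum_wt_ge (hX : Skel.GoodX X) (hM : GoodFam M) (B : Skel.HomBasis M) (j : Fin B.n) :
    B.wt j ≤ ∑ i, B.wt i :=
  Finset.single_le_sum (fun i _ => (wt_even_nonneg hX hM B i).2) (Finset.mem_univ j)

theorem sum_wt_even (hX : Skel.GoodX X) (hM : GoodFam M) (B : Skel.HomBasis M) :
    Even (∑ i, B.wt i) :=
  Finset.sum_induction _ Even (fun _ _ => Even.add) Even.zero
    (fun i _ => (wt_even_nonneg hX hM B i).1)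

/-- independence at a generic point -/
theorem evalIndep_generic (hX : Skel.GoodX X) (hM : GoodFam M) (B : Skel.HomBasis M) {z₀ : ℍ}
    (h4 : Skel.E4 z₀ ≠ 0) (h6 : Skel.E6 z₀ ≠ 0) : LinearIndependent ℂ (evalVec B z₀) := by
  rw [Fintype.linearIndependent_iff]
  intro c hc j
  refine class_indep hM B z₀ (4 + ∑ i, B.wt i) Finset.univ ?_ c ?_ j (Finset.mem_univ j)
  · intro j _
    apply Skel.LvlOne.exists_ne_zero_generic h4 h6
    · have h1 := sum_wt_even hX hM B
      have h2 := (wt_even_nonneg hX hM B j).1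
      exact (Even.add (by decide) h1).sub h2
    · have := sum_wt_ge hX hM B j
      omega
  · intro x
    have := congrFun hc x
    simpa [Finset.sum_apply, evalVec] using this

/-- independence inside a class modulo `4` at a zero of `E6` -/
theorem class_indep_E6 (hX : Skel.GoodX X) (hM : GoodFam M) (B : Skel.HomBasis M) {z₀ : ℍ}
    (h6 : Skel.E6 z₀ = 0) (r : ℤ) (hr : 0 ≤ r) (J : Finset (Fin B.n))
    (hJ : ∀ j ∈ J, (4 : ℤ) ∣ B.wt j - r) (c : Fin B.n → ℂ)
    (hc : ∀ x, ∑ j ∈ J, c j * B.gen j x z₀ = 0) : ∀ j ∈ J, c j = 0 := by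
  refine class_indep hM B z₀ (4 * ∑ i, B.wt i + r) J ?_ c hc
  intro j hj
  apply Skel.LvlOne.exists_ne_zero_of_E6 h6
  · have h1 := hJ j hj
    have h2 : (4 : ℤ) ∣ 4 * ∑ i, B.wt i := Dvd.intro _ rfl
    have h3 : 4 * ∑ i, B.wt i + r - B.wt j = 4 * ∑ i, B.wt i - (B.wt j - r) := by ring
    rw [h3]
    exact dvd_sub h2 h1
  · have h1 := sum_wt_ge hX hM B j
    have h2 := (wt_even_nonneg hX hM B j).2
    omega

/-- independence inside a class modulo `6` at a zero of `E4` -/
theorem class_indep_E4 (hX : Skel.GoodX X) (hM : GoodFam M) (B : Skel.HomBasis M) {z₀ : ℍ}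
    (h4 : Skel.E4 z₀ = 0) (r : ℤ) (hr : 0 ≤ r) (J : Finset (Fin B.n))
    (hJ : ∀ j ∈ J, (6 : ℤ) ∣ B.wt j - r) (c : Fin B.n → ℂ)
    (hc : ∀ x, ∑ j ∈ J, c j * B.gen j x z₀ = 0) : ∀ j ∈ J, c j = 0 := by
  refine class_indep hM B z₀ (6 * ∑ i, B.wt i + r) J ?_ c hc
  intro j hj
  apply Skel.LvlOne.exists_ne_zero_of_E4 h4
  · have h1 := hJ j hj
    have h2 : (6 : ℤ) ∣ 6 * ∑ i, B.wt i := Dvd.intro _ rfl
    have h3 : 6 * ∑ i, B.wt i + r - B.wt j = 6 * ∑ i, B.wt i - (B.wt j - r) := by ring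
    rw [h3]
    exact dvd_sub h2 h1
  · have h1 := sum_wt_ge hX hM B j
    have h2 := (wt_even_nonneg hX hM B j).2
    omega

/-! ## The elliptic points `i` and `ρ` -/

/-- the permutation operator of `γ` on `X → ℂ` -/
def permOp (γ : SL(2, ℤ)) : (X → ℂ) →ₗ[ℂ] (X → ℂ) := LinearMap.funLeft ℂ ℂ (fun x : X => γ⁻¹ • x)

theorem permOp_apply (γ : SL(2, ℤ)) (v : X → ℂ) (x : X) : permOp γ v x = v (γ⁻¹ • x) := rfl

theorem permOp_S_evalVec (hM : GoodFam M) (B : Skel.HomBasis M) (j : Fin B.n) :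
    permOp ModularGroup.S (evalVec B UpperHalfPlane.I j) =
      Complex.I ^ (-B.wt j) • evalVec B UpperHalfPlane.I j := by
  funext x
  rw [permOp_apply]
  exact VMod.eval_S_I (hM.le_VMod _ (B.gen_mem j)) x

theorem permOp_ST_evalVec (hM : GoodFam M) (B : Skel.HomBasis M) (j : Fin B.n) :
    permOp (ModularGroup.S * ModularGroup.T) (evalVec B rho j) =
      zeta ^ (-B.wt j) • evalVec B rho j := by
  funext x
  rw [permOp_apply]
  exact VMod.eval_ST_rho (hM.le_VMod _ (B.gen_mem j)) x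

theorem E4_rho : Skel.E4 rho = 0 := LvlOne.eq_zero_at_rho Skel.E4_mem (by norm_num)

/-- independence at `i` -/
theorem evalIndep_I (hX : Skel.GoodX X) (hM : GoodFam M) (B : Skel.HomBasis M) :
    LinearIndependent ℂ (evalVec B UpperHalfPlane.I) := by
  classical
  refine linearIndependent_of_eigen_classes (permOp ModularGroup.S) _
    (fun j => Complex.I ^ (-B.wt j)) (permOp_S_evalVec hM B) ?_
  intro μ c hrel j hj
  have hJ : ∀ i ∈ Finset.univ.filter (fun i => Complex.I ^ (-B.wt i) = μ),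
      (4 : ℤ) ∣ B.wt i - B.wt j % 4 := by
    intro i hi
    rw [Finset.mem_filter] at hi
    have h1 := I_zpow_neg_eq (wt_even_nonneg hX hM B i).1 (wt_even_nonneg hX hM B j).1
      (hi.2.trans hj.symm)
    omega
  refine class_indep_E6 hX hM B Skel.E6_I (B.wt j % 4) (Int.emod_nonneg _ (by norm_num))
    _ hJ c ?_ j (Finset.mem_filter.mpr ⟨Finset.mem_univ j, hj⟩)
  intro x
  have h := congrFun hrel x
  rw [Finset.sum_apply, Pi.zero_apply] at h
  rw [Finset.sum_filter]
  refine Eq.trans (Finset.sum_congr rfl fun i _ => ?_) h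
  by_cases hi : Complex.I ^ (-B.wt i) = μ
  · rw [if_pos hi, if_pos hi]
    rfl
  · rw [if_neg hi, if_neg hi, zero_smul]
    rfl

/-- independence at `ρ` -/
theorem evalIndep_rho (hX : Skel.GoodX X) (hM : GoodFam M) (B : Skel.HomBasis M) :
    LinearIndependent ℂ (evalVec B rho) := by
  classical
  refine linearIndependent_of_eigen_classes (permOp (ModularGroup.S * ModularGroup.T)) _
    (fun j => zeta ^ (-B.wt j)) (permOp_ST_evalVec hM B) ?_
  intro μ c hrel j hj
  have hJ : ∀ i ∈ Finset.univ.filter (fun i => zeta ^ (-B.wt i) = μ),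
      (6 : ℤ) ∣ B.wt i - B.wt j % 6 := by
    intro i hi
    rw [Finset.mem_filter] at hi
    have h1 := zeta_zpow_neg_eq (wt_even_nonneg hX hM B i).1 (wt_even_nonneg hX hM B j).1
      (hi.2.trans hj.symm)
    omega
  refine class_indep_E4 hX hM B E4_rho (B.wt j % 6) (Int.emod_nonneg _ (by norm_num))
    _ hJ c ?_ j (Finset.mem_filter.mpr ⟨Finset.mem_univ j, hj⟩)
  intro x
  have h := congrFun hrel x
  rw [Finset.sum_apply, Pi.zero_apply] at h
  rw [Finset.sum_filter]
  refine Eq.trans (Finset.sum_congr rfl fun i _ => ?_) h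
  by_cases hi : zeta ^ (-B.wt i) = μ
  · rw [if_pos hi, if_pos hi]
    rfl
  · rw [if_neg hi, if_neg hi, zero_smul]
    rfl

/-! ## The Gram determinant -/

/-- the trace pairing of two tuples -/
def pair (F G : X → ℍ → ℂ) : ℍ → ℂ := fun z => ∑ x, F x z * G x z

theorem pair_mem {a b : ℤ} {F G : X → ℍ → ℂ} (hF : F ∈ VMod X a) (hG : G ∈ VMod X b) :
    pair F G ∈ LvlOne (a + b) := by
  have hfun : pair F G = ∑ x, F x * G x := by
    funext z
    simp [pair, Finset.sum_apply]
  refine ⟨?_, fun γ => ?_, ?_⟩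
  · rw [hfun]
    exact MDifferentiable.sum fun x _ => (hF.1 x).mul (hG.1 x)
  · rw [hfun, SlashAction.sum_slash]
    have h1 : ∀ x, (F x * G x) ∣[a + b] γ = F (γ⁻¹ • x) * G (γ⁻¹ • x) := by
      intro x
      rw [ModularForm.mul_slash_SL2, hF.2.1, hG.2.1]
    simp_rw [h1]
    exact Fintype.sum_equiv (MulAction.toPerm γ⁻¹) _ _ (fun x => rfl)
  · rw [hfun]
    refine Finset.sum_induction _ IsBoundedAtImInfty (fun _ _ h1 h2 => h1.add h2)
      zero_form_isBoundedAtImInfty fun x _ => ?_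
    exact (hF.2.2 x).mul (hG.2.2 x)

theorem prod_mem_LvlOne {ι : Type} (s : Finset ι) (w : ι → ℤ) (f : ι → ℍ → ℂ)
    (hf : ∀ i ∈ s, f i ∈ LvlOne (w i)) : ∏ i ∈ s, f i ∈ LvlOne (∑ i ∈ s, w i) := by
  classical
  induction s using Finset.induction_on with
  | empty =>
    rw [Finset.prod_empty, Finset.sum_empty]
    exact one_mem_LvlOne
  | insert i s hi ih =>
    rw [Finset.prod_insert hi, Finset.sum_insert hi]
    exact Skel.LvlOne.mul_mem (hf i (Finset.mem_insert_self i s))
      (ih fun j hj => hf j (Finset.mem_insert_of_mem hj))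

/-- The determinant of a matrix of level one forms with weights `a i + b j`. -/
theorem det_mem_LvlOne {ι : Type} [Fintype ι] [DecidableEq ι] (a b : ι → ℤ)
    (A : Matrix ι ι (ℍ → ℂ)) (hA : ∀ i j, A i j ∈ LvlOne (a i + b j)) :
    A.det ∈ LvlOne (∑ i, a i + ∑ i, b i) := by
  rw [Matrix.det_apply]
  refine Submodule.sum_mem _ fun σ _ => ?_
  have hprod : ∏ i, A (σ i) i ∈ LvlOne (∑ i, a i + ∑ i, b i) := by
    have h := prod_mem_LvlOne Finset.univ (fun i => a (σ i) + b i) (fun i => A (σ i) i)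
      (fun i _ => hA (σ i) i)
    have hsum : ∑ i, (a (σ i) + b i) = ∑ i, a i + ∑ i, b i := by
      rw [Finset.sum_add_distrib, Equiv.sum_comp σ a]
    rwa [hsum] at h
  rcases Int.units_eq_one_or (Equiv.Perm.sign σ) with h | h
  · rw [h, one_smul]; exact hprod
  · rw [h, Units.neg_smul, one_smul]; exact Submodule.neg_mem _ hprod

theorem det_apply_point {ι : Type} [Fintype ι] [DecidableEq ι] (A : Matrix ι ι (ℍ → ℂ)) (z : ℍ) :
    A.det z = (Matrix.of fun i j => A i j z : Matrix ι ι ℂ).det := by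
  have := RingHom.map_det (Pi.evalRingHom (fun _ : ℍ => ℂ) z) A
  simpa [Matrix.map, RingHom.mapMatrix_apply] using this

/-- the matrix of values of a basis at a point -/
def evalMat (B : Skel.HomBasis M) (z : ℍ) : Matrix (Fin B.n) X ℂ := Matrix.of (evalVec B z)

/-- the Gram determinant of a basis, a level one form -/
def gramDet (B : Skel.HomBasis M) : ℍ → ℂ :=
  (Matrix.of fun j l => pair (B.gen j) (B.gen l) : Matrix (Fin B.n) (Fin B.n) (ℍ → ℂ)).det

theorem gramDet_mem (hM : GoodFam M) (B : Skel.HomBasis M) :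
    gramDet B ∈ LvlOne (∑ j, B.wt j + ∑ j, B.wt j) :=
  det_mem_LvlOne B.wt B.wt _ fun j l =>
    pair_mem (hM.le_VMod _ (B.gen_mem j)) (hM.le_VMod _ (B.gen_mem l))

theorem gramDet_apply (B : Skel.HomBasis M) (z : ℍ) :
    gramDet B z = (evalMat B z * (evalMat B z).transpose).det := by
  rw [gramDet, det_apply_point]
  congr 1

/-! ## Pointwise independence everywhere -/

theorem evalIndep (hX : Skel.GoodX X) (hM : GoodFam M) (B : Skel.HomBasis M)
    (hn : B.n = Fintype.card X) (z : ℍ) : LinearIndependent ℂ (evalVec B z) := by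
  by_cases h6 : Skel.E6 z = 0
  · refine linearIndependent_rows_of_gram_det_ne_zero (evalMat B z) ?_
    rw [← gramDet_apply]
    intro h0
    obtain ⟨g, _, hfg⟩ := Skel.LvlOne.div_E6 h6 (gramDet_mem hM B) h0
    have h1 : gramDet B UpperHalfPlane.I = 0 := by
      rw [hfg, Pi.mul_apply, Skel.E6_I, zero_mul]
    refine gram_det_ne_zero_of_linearIndependent (evalMat B UpperHalfPlane.I) hn
      (evalIndep_I hX hM B) ?_
    rw [← gramDet_apply]
    exact h1
  by_cases h4 : Skel.E4 z = 0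
  · refine linearIndependent_rows_of_gram_det_ne_zero (evalMat B z) ?_
    rw [← gramDet_apply]
    intro h0
    obtain ⟨g, _, hfg⟩ := Skel.LvlOne.div_E4 h4 (gramDet_mem hM B) h0
    have h1 : gramDet B rho = 0 := by
      rw [hfg, Pi.mul_apply, E4_rho, zero_mul]
    refine gram_det_ne_zero_of_linearIndependent (evalMat B rho) hn
      (evalIndep_rho hX hM B) ?_
    rw [← gramDet_apply]
    exact h1
  · exact evalIndep_generic hX hM B h4 h6

/-- PT, first statement: values of a basis at any point are linearly independent.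
The hypothesis `hn` is the RANK statement `HomBasis.n_eq_VMod` resp. `HomBasis.n_eq_VCusp`. -/
theorem eval_linearIndependent_of (hX : Skel.GoodX X) {M : ℤ → Submodule ℂ (X → ℍ → ℂ)}
    (hM : M = VMod X ∨ M = VCusp X) (B : Skel.HomBasis M) (hn : B.n = Fintype.card X) (z : ℍ) :
    LinearIndependent ℂ (fun j => (fun x => B.gen j x z : X → ℂ)) := by
  rcases hM with rfl | rfl
  · exact evalIndep hX goodFam_VMod B hn z
  · exact evalIndep hX goodFam_VCusp B hn z

/-- PT, second statement: weights of a basis are even and nonnegative -/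
theorem wt_even (hX : Skel.GoodX X) (B : Skel.HomBasis (VMod X)) (j : Fin B.n) :
    Even (B.wt j) ∧ 0 ≤ B.wt j :=
  wt_even_nonneg hX goodFam_VMod B j

/-- the same for a basis of the cusp forms -/
theorem wt_even_VCusp (hX : Skel.GoodX X) (B : Skel.HomBasis (VCusp X)) (j : Fin B.n) :
    Even (B.wt j) ∧ 0 ≤ B.wt j :=
  wt_even_nonneg hX goodFam_VCusp B j

/-! ## Eigenvalue counts -/

theorem trace_permOp [DecidableEq X] (γ : SL(2, ℤ)) :
    LinearMap.trace ℂ (X → ℂ) (permOp γ) =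
      ((Finset.univ.filter (fun x : X => γ • x = x)).card : ℂ) := by
  rw [permOp, trace_funLeft]
  congr 2
  ext x
  simp only [Finset.mem_filter, Finset.mem_univ, true_and]
  rw [inv_smul_eq_iff, eq_comm]

theorem card_fixed [DecidableEq X] (γ : SL(2, ℤ)) :
    Nat.card {x : X // γ • x = x} = (Finset.univ.filter (fun x : X => γ • x = x)).card := by
  rw [Nat.card_eq_fintype_card, Fintype.card_subtype]

/-- the trace of the permutation operator of `γ`, computed in the basis of values at a point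
`z` where these values are eigenvectors -/
theorem sum_eigen_eq_card_fixed (hX : Skel.GoodX X) (B : Skel.HomBasis (VMod X))
    (hn : B.n = Fintype.card X) (z : ℍ) (γ : SL(2, ℤ)) (lam : Fin B.n → ℂ)
    (hP : ∀ j, permOp γ (evalVec B z j) = lam j • evalVec B z j) :
    ∑ j, lam j = (Nat.card {x : X // γ • x = x} : ℂ) := by
  classical
  have hM : GoodFam (VMod X) := goodFam_VMod
  have hv := evalIndep hX hM B hn z
  have hcard : Fintype.card (Fin B.n) = Module.finrank ℂ (X → ℂ) := by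
    rw [Fintype.card_fin, Module.finrank_fintype_fun_eq_card, hn]
  let b := basisOfLinearIndependentOfCardEqFinrank' (evalVec B z) hv hcard
  have hb : ∀ j, b j = evalVec B z j := fun j => by
    rw [coe_basisOfLinearIndependentOfCardEqFinrank']
  have h1 := trace_of_eigenbasis b (permOp γ) lam (fun j => by rw [hb]; exact hP j)
  rw [← h1, trace_permOp, card_fixed]

/-- PT: the number of generators of weight `≡ 0 mod 4` -/
theorem card_wt_mod4_of (hX : Skel.GoodX X) (B : Skel.HomBasis (VMod X))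
    (hn : B.n = Fintype.card X) :
    2 * (Finset.univ.filter (fun j => (4 : ℤ) ∣ B.wt j)).card =
      Fintype.card X + Nat.card {x : X // ModularGroup.S • x = x} := by
  classical
  have hM : GoodFam (VMod X) := goodFam_VMod
  have h := sum_eigen_eq_card_fixed hX B hn UpperHalfPlane.I ModularGroup.S
    (fun j => if (4 : ℤ) ∣ B.wt j then 1 else -1) (fun j => by
      rw [← I_zpow_neg_of_even (wt_even hX B j).1]
      exact permOp_S_evalVec hM B j)
  rw [Finset.sum_ite, Finset.sum_const, Finset.sum_const] at h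
  have hn := Finset.card_filter_add_card_filter_not (s := (Finset.univ : Finset (Fin B.n)))
    (fun j => (4 : ℤ) ∣ B.wt j)
  rw [Finset.card_univ, Fintype.card_fin] at hn
  replace hn := hn.trans ‹B.n = Fintype.card X›
  have hn' : ((Finset.univ.filter (fun j => (4 : ℤ) ∣ B.wt j)).card : ℂ) +
      ((Finset.univ.filter (fun j => ¬ (4 : ℤ) ∣ B.wt j)).card : ℂ) = (Fintype.card X : ℂ) := by
    exact_mod_cast hn
  have key : (2 : ℂ) * ((Finset.univ.filter (fun j => (4 : ℤ) ∣ B.wt j)).card : ℂ) =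
      (Fintype.card X : ℂ) + (Nat.card {x : X // ModularGroup.S • x = x} : ℂ) := by
    simp only [nsmul_eq_mul, mul_one, mul_neg] at h
    linear_combination h + hn'
  exact_mod_cast key

/-- the three counts modulo `6` -/
theorem counts_mod6 (hX : Skel.GoodX X) (B : Skel.HomBasis (VMod X))
    (hn : B.n = Fintype.card X) :
    ((Finset.univ.filter (fun j => (6 : ℤ) ∣ B.wt j)).card : ℤ) -
        (Finset.univ.filter (fun j => (6 : ℤ) ∣ B.wt j - 2)).card =
      Nat.card {x : X // (ModularGroup.S * ModularGroup.T) • x = x} ∧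
    (Finset.univ.filter (fun j => (6 : ℤ) ∣ B.wt j - 2)).card =
      (Finset.univ.filter (fun j => (6 : ℤ) ∣ B.wt j - 4)).card ∧
    (Finset.univ.filter (fun j => (6 : ℤ) ∣ B.wt j)).card +
      (Finset.univ.filter (fun j => (6 : ℤ) ∣ B.wt j - 2)).card +
      (Finset.univ.filter (fun j => (6 : ℤ) ∣ B.wt j - 4)).card = Fintype.card X := by
  classical
  have hM : GoodFam (VMod X) := goodFam_VMod
  set N0 := (Finset.univ.filter (fun j => (6 : ℤ) ∣ B.wt j)).card with hN0
  set N2 := (Finset.univ.filter (fun j => (6 : ℤ) ∣ B.wt j - 2)).card with hN2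
  set N4 := (Finset.univ.filter (fun j => (6 : ℤ) ∣ B.wt j - 4)).card with hN4
  set f := Nat.card {x : X // (ModularGroup.S * ModularGroup.T) • x = x} with hf
  -- the eigenvalues
  have hlam : ∀ j, zeta ^ (-B.wt j) = (if (6 : ℤ) ∣ B.wt j then (1 : ℂ) else 0) +
      (if (6 : ℤ) ∣ B.wt j - 2 then (rho : ℂ) ^ 2 else 0) +
      (if (6 : ℤ) ∣ B.wt j - 4 then (rho : ℂ) else 0) := by
    intro j
    have hev := (wt_even hX B j).1
    rw [zeta_zpow_neg_of_even hev]
    obtain ⟨m, hm⟩ := hev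
    by_cases h0 : (6 : ℤ) ∣ B.wt j
    · have h2 : ¬ (6 : ℤ) ∣ B.wt j - 2 := by omega
      have h4 : ¬ (6 : ℤ) ∣ B.wt j - 4 := by omega
      simp [h0, h2, h4]
    · by_cases h2 : (6 : ℤ) ∣ B.wt j - 2
      · have h4 : ¬ (6 : ℤ) ∣ B.wt j - 4 := by omega
        simp [h0, h2, h4]
      · have h4 : (6 : ℤ) ∣ B.wt j - 4 := by omega
        simp [h0, h2, h4]
  have hone : ∀ j : Fin B.n, (1 : ℕ) = (if (6 : ℤ) ∣ B.wt j then 1 else 0) +
      (if (6 : ℤ) ∣ B.wt j - 2 then 1 else 0) + (if (6 : ℤ) ∣ B.wt j - 4 then 1 else 0) := by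
    intro j
    obtain ⟨m, hm⟩ := (wt_even hX B j).1
    by_cases h0 : (6 : ℤ) ∣ B.wt j
    · have h2 : ¬ (6 : ℤ) ∣ B.wt j - 2 := by omega
      have h4 : ¬ (6 : ℤ) ∣ B.wt j - 4 := by omega
      simp [h0, h2, h4]
    · by_cases h2 : (6 : ℤ) ∣ B.wt j - 2
      · have h4 : ¬ (6 : ℤ) ∣ B.wt j - 4 := by omega
        simp [h0, h2, h4]
      · have h4 : (6 : ℤ) ∣ B.wt j - 4 := by omega
        simp [h0, h2, h4]
  -- the total count
  have htot : N0 + N2 + N4 = Fintype.card X := by
    have h1 : ∑ _j : Fin B.n, (1 : ℕ) = N0 + N2 + N4 := by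
      rw [Finset.sum_congr rfl fun j _ => hone j]
      simp only [Finset.sum_add_distrib, Finset.sum_boole, hN0, hN2, hN4, Nat.cast_id]
    rw [← h1, Finset.sum_const, Finset.card_univ, Fintype.card_fin, smul_eq_mul, mul_one,
      hn]
  -- the trace
  have h := sum_eigen_eq_card_fixed hX B hn rho (ModularGroup.S * ModularGroup.T)
    (fun j => zeta ^ (-B.wt j)) (permOp_ST_evalVec hM B)
  have hsum : ∑ j, zeta ^ (-B.wt j) = (N0 : ℂ) + (N2 : ℂ) * (rho : ℂ) ^ 2 + (N4 : ℂ) * (rho : ℂ) := by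
    rw [Finset.sum_congr rfl fun j _ => hlam j]
    simp only [Finset.sum_add_distrib, Finset.sum_ite, Finset.sum_const, Finset.sum_const_zero,
      add_zero, nsmul_eq_mul, mul_one, mul_zero, hN0, hN2, hN4]
  rw [hsum] at h
  have hrel : (((N0 : ℝ) - N2 - f : ℝ) : ℂ) + (((N4 : ℝ) - N2 : ℝ) : ℂ) * (rho : ℂ) = 0 := by
    push_cast
    linear_combination h - (N2 : ℂ) * rho_sq
  obtain ⟨ha, hb⟩ := rho_real_indep hrel
  have hb' : N2 = N4 := by
    have : (N4 : ℝ) = N2 := by linarith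
    exact_mod_cast this.symm
  refine ⟨?_, hb', htot⟩
  have : ((N0 : ℤ) : ℝ) - (N2 : ℤ) = ((f : ℤ) : ℝ) := by
    push_cast
    linarith
  exact_mod_cast this

/-- PT: the number of generators of weight `≡ 0 mod 6` -/
theorem card_wt_mod6_of (hX : Skel.GoodX X) (B : Skel.HomBasis (VMod X))
    (hn : B.n = Fintype.card X) :
    3 * (Finset.univ.filter (fun j => (6 : ℤ) ∣ B.wt j)).card =
      Fintype.card X + 2 * Nat.card {x : X // (ModularGroup.S * ModularGroup.T) • x = x} := by
  obtain ⟨h1, h2, h3⟩ := counts_mod6 hX B hn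
  omega

/-- PT: as many generators of weight `≡ 2 mod 6` as of weight `≡ 4 mod 6` -/
theorem card_wt_mod6'_of (hX : Skel.GoodX X) (B : Skel.HomBasis (VMod X))
    (hn : B.n = Fintype.card X) :
    (Finset.univ.filter (fun j => (6 : ℤ) ∣ B.wt j - 2)).card =
      (Finset.univ.filter (fun j => (6 : ℤ) ∣ B.wt j - 4)).card :=
  (counts_mod6 hX B hn).2.1

end Fermat.Agent.S20.H43
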