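import Mathlib
import Fermat.Agent.S20.Defs2

set_option autoImplicit false

/-!
# S20, package CUSP-b (helper47)

Statements of Skeleton2, section CUSP, second half, verbatim (in terms of the `Defs2` objects):
`coeffVec_T`, `pairing_coeff_one`, `pairing_mem`.
-/

open UpperHalfPlane ModularForm Function Filter
open scoped MatrixGroups ModularForm Manifold Topology

noncomputable section

namespace Fermat.Agent.S20.H47

open Fermat.Agent.S20 Fermat.Agent.S20.Skel

local notation "𝕢" => Periodic.qParam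

/-- `h`-periodic, holomorphic and bounded at `i∞`. -/
structure IsPHB (h : ℝ) (f : ℍ → ℂ) : Prop where
  per : Periodic (f ∘ ofComplex) h
  hol : MDiff f
  bdd : IsBoundedAtImInfty f

namespace IsPHB

variable {h : ℝ} {f g : ℍ → ℂ}

lemma analyticAt (hh : 0 < h) (hf : IsPHB h f) : AnalyticAt ℂ (cuspFunction h f) 0 :=
  analyticAt_cuspFunction_zero hh hf.per hf.hol hf.bdd

lemma hasSum (hh : 0 < h) (hf : IsPHB h f) (τ : ℍ) :
    HasSum (fun m : ℕ ↦ (qExpansion h f).coeff m • 𝕢 h τ ^ m) (f τ) :=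
  hasSum_qExpansion hh hf.per hf.hol hf.bdd τ

lemma add (hf : IsPHB h f) (hg : IsPHB h g) : IsPHB h (f + g) :=
  ⟨fun w => by
    have h1 := hf.per w
    have h2 := hg.per w
    simp only [comp_apply, Pi.add_apply] at h1 h2 ⊢
    rw [h1, h2], hf.hol.add hg.hol, hf.bdd.add hg.bdd⟩

lemma mul (hf : IsPHB h f) (hg : IsPHB h g) : IsPHB h (f * g) :=
  ⟨fun w => by
    have h1 := hf.per w
    have h2 := hg.per w
    simp only [comp_apply, Pi.mul_apply] at h1 h2 ⊢
    rw [h1, h2], hf.hol.mul hg.hol, hf.bdd.mul hg.bdd⟩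

lemma zero : IsPHB h (0 : ℍ → ℂ) :=
  ⟨fun w => by simp, mdifferentiable_const, zero_form_isBoundedAtImInfty⟩

lemma sum {ι : Type*} (s : Finset ι) (f : ι → ℍ → ℂ) (hf : ∀ i ∈ s, IsPHB h (f i)) :
    IsPHB h (∑ i ∈ s, f i) := by
  classical
  induction s using Finset.induction_on with
  | empty => simpa using zero
  | insert i t hi IH =>
    rw [Finset.sum_insert hi]
    exact (hf i (Finset.mem_insert_self i t)).add
      (IH fun j hj => hf j (Finset.mem_insert_of_mem hj))

lemma qExpansion_sum (hh : 0 < h) {ι : Type*} (s : Finset ι) (f : ι → ℍ → ℂ)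
    (hf : ∀ i ∈ s, IsPHB h (f i)) :
    qExpansion h (∑ i ∈ s, f i) = ∑ i ∈ s, qExpansion h (f i) := by
  classical
  induction s using Finset.induction_on with
  | empty => simpa using qExpansion_zero h
  | insert i t hi IH =>
    have h1 : IsPHB h (f i) := hf i (Finset.mem_insert_self i t)
    have h2 : IsPHB h (∑ j ∈ t, f j) := sum t f fun j hj => hf j (Finset.mem_insert_of_mem hj)
    rw [Finset.sum_insert hi, Finset.sum_insert hi,
      qExpansion_add (h1.analyticAt hh) (h2.analyticAt hh),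
      IH fun j hj => hf j (Finset.mem_insert_of_mem hj)]

/-- uniqueness of `q`-expansion coefficients for plain functions -/
lemma coeff_unique (hh : 0 < h) (hf : IsPHB h f) {c : ℕ → ℂ}
    (hc : ∀ τ : ℍ, HasSum (fun m ↦ c m • 𝕢 h τ ^ m) (f τ)) (m : ℕ) :
    c m = (qExpansion h f).coeff m := by
  have h1 := (hasFPowerSeriesOnBall_cuspFunction hh (hf.analyticAt hh) hc).hasFPowerSeriesAt
  have h2 := (hasFPowerSeriesOnBall_cuspFunction hh (hf.analyticAt hh)
    (hf.hasSum hh)).hasFPowerSeriesAt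
  simpa using congr_arg (FormalMultilinearSeries.coeff · m) (h1.eq_formalMultilinearSeries h2)

end IsPHB

/-! ### slash by powers of `T` -/

lemma slash_T_zpow_apply (k : ℤ) (f : ℍ → ℂ) (n : ℤ) (τ : ℍ) :
    (f ∣[k] (ModularGroup.T ^ n)) τ = f ((n : ℝ) +ᵥ τ) := by
  rw [SL_slash_apply, modular_T_zpow_smul]
  have : denom (ModularGroup.T ^ n : SL(2, ℤ)) τ = 1 := by
    rw [ModularGroup.denom_apply, ModularGroup.coe_T_zpow]
    simp
  rw [this]
  simp

lemma slash_T_apply (k : ℤ) (f : ℍ → ℂ) (τ : ℍ) :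
    (f ∣[k] ModularGroup.T) τ = f ((1 : ℝ) +ᵥ τ) := by
  simpa using slash_T_zpow_apply k f 1 τ

variable {X : Type} [Fintype X] [MulAction SL(2, ℤ) X] {h : ℕ}

omit [Fintype X] in
lemma tper_pos (hh : Tper X h) : (0 : ℝ) < h := by exact_mod_cast hh.1

omit [Fintype X] in
/-- components of a vector valued form are `h`-periodic, holomorphic and bounded -/
lemma isPHB_of_mem_VMod {k : ℤ} {F : X → ℍ → ℂ} (hh : Tper X h) (hF : F ∈ VMod X k) (x : X) :
    IsPHB (h : ℝ) (F x) := by
  refine ⟨fun w => ?_, hF.1 x, hF.2.2 x⟩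
  by_cases! hw : 0 < Complex.im w
  · have hw' : 0 < Complex.im (w + (h : ℝ)) := by simpa using hw
    simp only [comp_apply, ofComplex_apply_of_im_pos hw', ofComplex_apply_of_im_pos hw]
    have h1 := congrFun (hF.2.1 (ModularGroup.T ^ (h : ℤ)) x) ⟨w, hw⟩
    rw [slash_T_zpow_apply, zpow_natCast, inv_smul_eq_iff.mpr (hh.2 x).symm] at h1
    rw [← h1]
    congr 1
    ext
    simp [add_comm]
  · have hw' : Complex.im (w + (h : ℝ)) ≤ 0 := by simpa using hw
    simp only [comp_apply]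
    rw [ofComplex_apply_eq_of_im_nonpos hw' hw]

omit [Fintype X] in
lemma mem_VMod_of_mem_VCusp {k : ℤ} {F : X → ℍ → ℂ} (hF : F ∈ VCusp X k) : F ∈ VMod X k :=
  ⟨hF.1, hF.2.1, fun x => (hF.2.2 x).isBoundedAtImInfty⟩

lemma qParam_vadd_one (hr : ℝ) (τ : ℍ) :
    𝕢 hr (((1 : ℝ) +ᵥ τ : ℍ) : ℂ) = Complex.exp (2 * Real.pi * Complex.I / hr) * 𝕢 hr (τ : ℂ) := by
  simp only [Periodic.qParam, coe_vadd, ← Complex.exp_add]
  congr 1
  push_cast
  ring

/-- equivariance of coefficient vectors under `T` -/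
theorem coeffVec_T {k : ℤ} {F : X → ℍ → ℂ} (hh : Tper X h) (hF : F ∈ VMod X k) (n : ℕ) (x : X) :
    coeffVec h F n (ModularGroup.T⁻¹ • x) =
      Complex.exp (2 * Real.pi * Complex.I * n / h) * coeffVec h F n x := by
  have hh0 : (0 : ℝ) < h := tper_pos hh
  have h1 := isPHB_of_mem_VMod hh hF x
  have h2 := isPHB_of_mem_VMod hh hF (ModularGroup.T⁻¹ • x)
  have key : ∀ τ, F (ModularGroup.T⁻¹ • x) τ = F x ((1 : ℝ) +ᵥ τ) := fun τ => by
    rw [← hF.2.1 ModularGroup.T x, slash_T_apply]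
  symm
  refine IsPHB.coeff_unique hh0 h2 (c := fun m => Complex.exp (2 * Real.pi * Complex.I * m / h) *
    (qExpansion (h : ℝ) (F x)).coeff m) (fun τ => ?_) n
  have h3 := h1.hasSum hh0 ((1 : ℝ) +ᵥ τ)
  rw [← key τ] at h3
  convert h3 using 2 with m
  rw [qParam_vadd_one, mul_pow, ← Complex.exp_nat_mul]
  simp only [smul_eq_mul]
  have : (m : ℂ) * (2 * Real.pi * Complex.I / ((h : ℝ) : ℂ)) =
      2 * Real.pi * Complex.I * m / ((h : ℕ) : ℂ) := by
    push_cast
    ring
  rw [this]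
  ring

/-! ### the pairing -/

lemma mdiff_sum {ι : Type*} (s : Finset ι) (f : ι → ℍ → ℂ) (hf : ∀ i ∈ s, MDiff (f i)) :
    MDiff (∑ i ∈ s, f i) := by
  classical
  induction s using Finset.induction_on with
  | empty =>
    rw [Finset.sum_empty]
    exact (mdifferentiable_const : MDiff (fun _ : ℍ => (0 : ℂ)))
  | insert i t hi IH =>
    rw [Finset.sum_insert hi]
    exact (hf i (Finset.mem_insert_self i t)).add
      (IH fun j hj => hf j (Finset.mem_insert_of_mem hj))

lemma periodic_of_vadd (f : ℍ → ℂ) (c : ℝ) (hc : ∀ τ : ℍ, f (c +ᵥ τ) = f τ) :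
    Periodic (f ∘ ofComplex) c := by
  intro w
  by_cases! hw : 0 < Complex.im w
  · have hw' : 0 < Complex.im (w + (c : ℂ)) := by simpa using hw
    simp only [comp_apply, ofComplex_apply_of_im_pos hw', ofComplex_apply_of_im_pos hw]
    rw [← hc ⟨w, hw⟩]
    congr 1
    ext
    simp [add_comm]
  · have hw' : Complex.im (w + (c : ℂ)) ≤ 0 := by simpa using hw
    simp only [comp_apply]
    rw [ofComplex_apply_eq_of_im_nonpos hw' hw]

/-- the pairing of a vector valued modular form with a vector valued cusp form is a level one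
cusp form -/
theorem pairing_mem {k k' : ℤ} {F G : X → ℍ → ℂ} (hF : F ∈ VMod X k) (hG : G ∈ VCusp X k') :
    (fun z => ∑ x, F x z * G x z) ∈ LvlOne (k + k') ∧
      IsZeroAtImInfty (fun z => ∑ x, F x z * G x z) := by
  have hzero : IsZeroAtImInfty (fun z => ∑ x, F x z * G x z) := by
    have h1 : ∀ x ∈ (Finset.univ : Finset X),
        Tendsto (fun z => F x z * G x z) atImInfty (𝓝 0) := fun x _ =>
      (hF.2.2 x).mul_zeroAtFilter (hG.2.2 x)
    have h2 := tendsto_finsetSum (Finset.univ : Finset X) h1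
    simpa [IsZeroAtImInfty, ZeroAtFilter] using h2
  have hP : (fun z => ∑ x, F x z * G x z) = ∑ x, F x * G x := by
    funext z
    simp [Finset.sum_apply]
  refine ⟨⟨?_, ?_, hzero.isBoundedAtImInfty⟩, hzero⟩
  · rw [hP]
    exact mdiff_sum _ _ fun x _ => (hF.1 x).mul (hG.1 x)
  · intro γ
    rw [hP, SlashAction.sum_slash]
    simp_rw [mul_slash_SL2, hF.2.1 γ, hG.2.1 γ]
    exact Equiv.sum_comp (MulAction.toPerm γ⁻¹) (fun x => F x * G x)

lemma qParam_one_eq_pow (h : ℕ) (hh : 0 < h) (τ : ℍ) :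
    𝕢 1 (τ : ℂ) = 𝕢 (h : ℝ) (τ : ℂ) ^ h := by
  simp only [Periodic.qParam, ← Complex.exp_nat_mul]
  congr 1
  have : ((h : ℝ) : ℂ) ≠ 0 := by exact_mod_cast hh.ne'
  push_cast at this ⊢
  field_simp

/-- relation between the `q_1`- and the `q_h`-expansion of a `1`-periodic function -/
lemma coeff_qExpansion_one_eq {P : ℍ → ℂ} (h : ℕ) (hh : 0 < h) (hP1 : IsPHB 1 P)
    (hPh : IsPHB (h : ℝ) P) (m : ℕ) :
    (qExpansion 1 P).coeff m = (qExpansion (h : ℝ) P).coeff (h * m) := by
  set c : ℕ → ℂ := fun n => if h ∣ n then (qExpansion 1 P).coeff (n / h) else 0 with hc_def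
  have hc : ∀ τ : ℍ, HasSum (fun n => c n • 𝕢 (h : ℝ) τ ^ n) (P τ) := by
    intro τ
    have h1 := hP1.hasSum one_pos τ
    have hinj : Injective (fun m : ℕ => h * m) := mul_right_injective₀ hh.ne'
    rw [← hinj.hasSum_iff]
    · convert h1 using 2 with m
      simp only [comp_apply, hc_def, dvd_mul_right, if_true, Nat.mul_div_cancel_left _ hh,
        pow_mul, qParam_one_eq_pow h hh]
    · intro n hn
      have : ¬ h ∣ n := fun ⟨d, hd⟩ => hn ⟨d, hd.symm⟩
      simp [hc_def, this]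
  have := hPh.coeff_unique (by exact_mod_cast hh) hc (h * m)
  simpa [hc_def, Nat.mul_div_cancel_left _ hh] using this

lemma exp_eq_pow (h n : ℕ) :
    Complex.exp (2 * Real.pi * Complex.I * n / h) =
      Complex.exp (2 * Real.pi * Complex.I / h) ^ n := by
  rw [← Complex.exp_nat_mul]
  congr 1
  ring

/-- orthogonality of the `T`-eigenvectors -/
lemma sum_coeffVec_mul_eq_zero {k k' : ℤ} {F G : X → ℍ → ℂ} (hh : Tper X h) (hF : F ∈ VMod X k)
    (hG : G ∈ VMod X k') (n m : ℕ) (hnm : ¬ h ∣ n + m) :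
    ∑ x, coeffVec h F n x * coeffVec h G m x = 0 := by
  set S := ∑ x, coeffVec h F n x * coeffVec h G m x with hS
  set ζ := Complex.exp (2 * Real.pi * Complex.I / h) with hζ
  have h1 : S = ζ ^ (n + m) * S := by
    calc S = ∑ x, coeffVec h F n (ModularGroup.T⁻¹ • x) * coeffVec h G m (ModularGroup.T⁻¹ • x) :=
          (Equiv.sum_comp (MulAction.toPerm (ModularGroup.T⁻¹ : SL(2, ℤ)))
            (fun x => coeffVec h F n x * coeffVec h G m x)).symm
      _ = ∑ x, ζ ^ (n + m) * (coeffVec h F n x * coeffVec h G m x) := by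
          refine Finset.sum_congr rfl fun x _ => ?_
          rw [coeffVec_T hh hF, coeffVec_T hh hG, exp_eq_pow, exp_eq_pow, pow_add]
          ring
      _ = ζ ^ (n + m) * S := by rw [Finset.mul_sum]
  have hprim : IsPrimitiveRoot ζ h := Complex.isPrimitiveRoot_exp h hh.1.ne'
  have hne : ζ ^ (n + m) ≠ 1 := fun h2 => hnm ((hprim.pow_eq_one_iff_dvd _).mp h2)
  have h3 : (1 - ζ ^ (n + m)) * S = 0 := by linear_combination h1
  rcases mul_eq_zero.mp h3 with h4 | h4
  · exact absurd (sub_eq_zero.mp h4).symm hne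
  · exact h4

/-- the pairing: first coefficient of the trace of a product -/
theorem pairing_coeff_one {k k' : ℤ} {F G : X → ℍ → ℂ} (hh : Tper X h) (hF : F ∈ VMod X k)
    (hG : G ∈ VCusp X k') :
    (UpperHalfPlane.qExpansion 1 (fun z => ∑ x, F x z * G x z)).coeff 1 =
      ∑ x, Lmap h F x * Lmap' h G x := by
  have hh0 := tper_pos hh
  have hG' := mem_VMod_of_mem_VCusp hG
  have hP : (fun z => ∑ x, F x z * G x z) = ∑ x, F x * G x := by
    funext z
    simp [Finset.sum_apply]
  have hFx := fun x => isPHB_of_mem_VMod hh hF x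
  have hGx := fun x => isPHB_of_mem_VMod hh hG' x
  have hPh : IsPHB (h : ℝ) (∑ x, F x * G x) :=
    IsPHB.sum _ _ (fun x _ => (hFx x).mul (hGx x))
  have hP1 : IsPHB 1 (∑ x, F x * G x) := by
    obtain ⟨⟨hol, inv, bdd⟩, -⟩ := pairing_mem hF hG
    rw [hP] at hol inv bdd
    refine ⟨?_, hol, bdd⟩
    have := periodic_of_vadd (∑ x, F x * G x) 1 (fun τ => by
      rw [← slash_T_apply (k + k') (∑ x, F x * G x) τ, inv ModularGroup.T])
    simpa using this
  -- the zeroth coefficients of the cusp form vanish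
  have hb0 : ∀ x, coeffVec h G 0 x = 0 := fun x => by
    have := qExpansion_coeff_zero hh0 ((hGx x).analyticAt hh0) (hGx x).per
    rw [(hG.2.2 x).valueAtInfty_eq_zero] at this
    exact this
  rw [hP, coeff_qExpansion_one_eq h hh.1 hP1 hPh 1, mul_one,
    IsPHB.qExpansion_sum hh0 _ _ (fun x _ => (hFx x).mul (hGx x)), map_sum]
  have e1 : ∀ x, (PowerSeries.coeff h) (qExpansion (h : ℝ) (F x * G x)) =
      ∑ p ∈ Finset.HasAntidiagonal.antidiagonal h, coeffVec h F p.1 x * coeffVec h G p.2 x := fun x => by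
    rw [qExpansion_mul ((hFx x).analyticAt hh0) ((hGx x).analyticAt hh0), PowerSeries.coeff_mul]
    rfl
  simp_rw [e1]
  rw [Finset.sum_comm, Finset.Nat.sum_antidiagonal_eq_sum_range_succ
    (fun i j => ∑ x, coeffVec h F i x * coeffVec h G j x) h, Finset.sum_range_succ]
  have e2 : ∑ x, coeffVec h F h x * coeffVec h G (h - h) x = 0 := by
    refine Finset.sum_eq_zero fun x _ => ?_
    rw [Nat.sub_self, hb0 x, mul_zero]
  rw [e2, add_zero]
  -- now the right hand side
  have e3 : ∀ x, Lmap h F x * Lmap' h G x =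
      ∑ n ∈ Finset.range h, ∑ m ∈ Finset.Icc 1 h, coeffVec h F n x * coeffVec h G m x := fun x => by
    simp only [Lmap, Lmap', Finset.sum_apply]
    rw [Finset.sum_mul_sum]
  simp_rw [e3]
  conv_rhs => rw [Finset.sum_comm]
  refine Finset.sum_congr rfl fun n hn => ?_
  conv_rhs => rw [Finset.sum_comm]
  have hn' : n < h := Finset.mem_range.mp hn
  symm
  apply Finset.sum_eq_single (h - n)
  · intro m hm hmn
    refine sum_coeffVec_mul_eq_zero hh hF hG' n m fun hdvd => hmn ?_
    obtain ⟨hm1, hm2⟩ := Finset.mem_Icc.mp hm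
    obtain ⟨d, hd⟩ := hdvd
    have hd1 : d = 1 := by
      have h1 : h * d < h * 2 := by omega
      have h2 : h * 0 < h * d := by omega
      have := Nat.lt_of_mul_lt_mul_left h1
      have := Nat.lt_of_mul_lt_mul_left h2
      omega
    subst hd1
    omega
  · intro hmem
    exact absurd (Finset.mem_Icc.mpr ⟨by omega, by omega⟩) hmem

end Fermat.Agent.S20.H47
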