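import Mathlib
import Fermat.Agent.S20.Defs2
import Fermat.Agent.S20.SkelA

set_option autoImplicit false

open UpperHalfPlane ModularForm Filter Topology
open scoped MatrixGroups ModularForm Manifold

noncomputable section

namespace Fermat.Agent.S20.H48

open Fermat.Agent.S20 Fermat.Agent.S20.Skel

/-! ## Level one forms with value one at infinity -/

lemma vInf_pow' {k : ℤ} {f : ℍ → ℂ} (hf : f ∈ LvlOne k) (r : ℕ) :
    Skel.vInf (f ^ r) = Skel.vInf f ^ r :=
  vInf_eq_of_tendsto ((LvlOne.tendsto_vInf hf).pow r)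

lemma exists_vInf_one' {m : ℤ} (hm : Even m) (h4 : 4 ≤ m) :
    ∃ u ∈ LvlOne m, Skel.vInf u = 1 := by
  obtain ⟨t, ht⟩ := hm
  rcases Int.even_or_odd t with ⟨s, hs⟩ | ⟨s, hs⟩
  · have hs0 : 0 ≤ s := by omega
    refine ⟨Skel.E4 ^ s.toNat, ?_, ?_⟩
    · have := LvlOne.pow_mem Skel.E4_mem s.toNat
      have hw : ((s.toNat : ℕ) : ℤ) * 4 = m := by
        rw [Int.toNat_of_nonneg hs0]; omega
      rwa [hw] at this
    · rw [vInf_pow' Skel.E4_mem, Skel.vInf_E4, one_pow]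
  · have hs0 : 0 ≤ s - 1 := by omega
    refine ⟨Skel.E4 ^ (s - 1).toNat * Skel.E6, ?_, ?_⟩
    · have := LvlOne.mul_mem (LvlOne.pow_mem Skel.E4_mem (s - 1).toNat) Skel.E6_mem
      have hw : (((s - 1).toNat : ℕ) : ℤ) * 4 + 6 = m := by
        rw [Int.toNat_of_nonneg hs0]; omega
      rwa [hw] at this
    · rw [LvlOne.vInf_mul (LvlOne.pow_mem Skel.E4_mem _) Skel.E6_mem, vInf_pow' Skel.E4_mem,
        Skel.vInf_E4, Skel.vInf_E6, one_pow, one_mul]

end Fermat.Agent.S20.H48
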