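import Mathlib
import Fermat.Agent.S20.SkelPS
import Fermat.Agent.S20.H47_CuspB
import Fermat.Agent.S20.H48_Tools

set_option autoImplicit false

open UpperHalfPlane ModularForm Filter Topology
open scoped MatrixGroups ModularForm Manifold

noncomputable section

namespace Fermat.Agent.S20.H48

open Fermat.Agent.S20 Fermat.Agent.S20.Skel

variable {X : Type} [Fintype X] [MulAction SL(2, ℤ) X]

/-! ## linearity of coefficient vectors -/

omit [Fintype X] in
lemma coeffVec_add_aux {k : ℤ} {F G : X → ℍ → ℂ} {h : ℕ} (hh : Tper X h) (hF : F ∈ VMod X k)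
    (hG : G ∈ VMod X k) (n : ℕ) : coeffVec h (F + G) n = coeffVec h F n + coeffVec h G n := by
  funext x
  have hf := H47.isPHB_of_mem_VMod hh hF x
  have hg := H47.isPHB_of_mem_VMod hh hG x
  have hpos := H47.tper_pos hh
  show (qExpansion (h : ℝ) (F x + G x)).coeff n = _
  rw [qExpansion_add (hf.analyticAt hpos) (hg.analyticAt hpos)]
  simp [coeffVec]

omit [Fintype X] in
lemma coeffVec_smul_aux {k : ℤ} {F : X → ℍ → ℂ} {h : ℕ} (hh : Tper X h) (hF : F ∈ VMod X k)
    (c : ℂ) (n : ℕ) : coeffVec h (c • F) n = c • coeffVec h F n := by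
  funext x
  have hf := H47.isPHB_of_mem_VMod hh hF x
  have hpos := H47.tper_pos hh
  show (qExpansion (h : ℝ) (c • F x)).coeff n = _
  rw [qExpansion_smul (hf.analyticAt hpos)]
  simp [coeffVec]

omit [Fintype X] in
lemma lmap'_add_aux {k : ℤ} {F G : X → ℍ → ℂ} {h : ℕ} (hh : Tper X h) (hF : F ∈ VCusp X k)
    (hG : G ∈ VCusp X k) : Lmap' h (F + G) = Lmap' h F + Lmap' h G := by
  simp only [Lmap', ← Finset.sum_add_distrib]
  exact Finset.sum_congr rfl fun n _ =>
    coeffVec_add_aux hh (H47.mem_VMod_of_mem_VCusp hF) (H47.mem_VMod_of_mem_VCusp hG) n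

omit [Fintype X] in
lemma lmap'_smul_aux {k : ℤ} {F : X → ℍ → ℂ} {h : ℕ} (hh : Tper X h) (hF : F ∈ VCusp X k)
    (c : ℂ) : Lmap' h (c • F) = c • Lmap' h F := by
  simp only [Lmap', Finset.smul_sum]
  exact Finset.sum_congr rfl fun n _ => coeffVec_smul_aux hh (H47.mem_VMod_of_mem_VCusp hF) c n


/-! ## generators are nonzero, weights are even and nonnegative -/

lemma gen_ne_zero {M : ℤ → Submodule ℂ (X → ℍ → ℂ)} (B : HomBasis M) (j : Fin B.n) :
    B.gen j ≠ 0 := by
  classical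
  intro h0
  have hG : ∀ j', (Pi.single j (1 : ℍ → ℂ) : Fin B.n → ℍ → ℂ) j' ∈ LvlOne (B.wt j - B.wt j') := by
    intro j'
    by_cases hj : j' = j
    · subst hj
      rw [Pi.single_eq_same, sub_self]
      exact LvlOne.one_mem
    · rw [Pi.single_eq_of_ne hj]
      exact Submodule.zero_mem _
  have hsum : (∑ j', smulV ((Pi.single j (1 : ℍ → ℂ) : Fin B.n → ℍ → ℂ) j') (B.gen j')) = 0 := by
    refine Finset.sum_eq_zero fun j' _ => ?_
    by_cases hj : j' = j
    · subst hj
      rw [h0]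
      funext x
      simp [smulV]
    · rw [Pi.single_eq_of_ne hj]
      funext x
      simp [smulV]
  have := B.indep (B.wt j) _ hG hsum j
  rw [Pi.single_eq_same] at this
  exact one_ne_zero (congrFun this UpperHalfPlane.I)

lemma wt_even_of_le (hX : GoodX X) {M : ℤ → Submodule ℂ (X → ℍ → ℂ)}
    (hle : ∀ k, M k ≤ VMod X k) (B : HomBasis M) (j : Fin B.n) :
    Even (B.wt j) ∧ 0 ≤ B.wt j := by
  have hne := gen_ne_zero B j
  have hmem : B.gen j ∈ VMod X (B.wt j) := hle _ (B.gen_mem j)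
  haveI := hX.trans
  constructor
  · rw [← Int.not_odd_iff_even]
    intro hodd
    rw [VMod.eq_bot_of_odd hX.neg hodd, Submodule.mem_bot] at hmem
    exact hne hmem
  · by_contra hneg
    push_neg at hneg
    rw [VMod.eq_bot_of_neg hneg, Submodule.mem_bot] at hmem
    exact hne hmem

/-! ## RANK-a : leading vectors of a homogeneous basis are linearly independent -/

theorem leading_linearIndependent (hX : GoodX X) {M : ℤ → Submodule ℂ (X → ℍ → ℂ)}
    (hle : ∀ k, M k ≤ VMod X k)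
    (hsm : ∀ (a b : ℤ) (f : ℍ → ℂ), f ∈ LvlOne a → ∀ F : X → ℍ → ℂ, F ∈ M b →
      smulV f F ∈ M (a + b))
    (L : (X → ℍ → ℂ) → (X → ℂ))
    (L_add : ∀ (k : ℤ) (F G : X → ℍ → ℂ), F ∈ M k → G ∈ M k → L (F + G) = L F + L G)
    (L_smul : ∀ (k : ℤ) (F : X → ℍ → ℂ), F ∈ M k → ∀ c : ℂ, L (c • F) = c • L F)
    (L_smulV : ∀ (a b : ℤ) (f : ℍ → ℂ) (F : X → ℍ → ℂ), f ∈ LvlOne a → F ∈ M b →
      L (smulV f F) = Skel.vInf f • L F)
    (L_ker : ∀ (k : ℤ) (F : X → ℍ → ℂ), F ∈ M k → L F = 0 →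
      ∃ G ∈ M (k - 12), F = smulV Skel.Dl G)
    (B : HomBasis M) : LinearIndependent ℂ (fun j => L (B.gen j)) := by
  classical
  rw [Fintype.linearIndependent_iff]
  intro c hc
  have hev : ∀ j, Even (B.wt j) ∧ 0 ≤ B.wt j := wt_even_of_le hX hle B
  -- a large even weight
  set K : ℤ := 2 * ∑ j, B.wt j + 4 with hK
  have hKj : ∀ j, Even (K - B.wt j) ∧ 4 ≤ K - B.wt j := fun j => by
    have h1 : B.wt j ≤ ∑ j', B.wt j' :=
      Finset.single_le_sum (fun j' _ => (hev j').2) (Finset.mem_univ j)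
    obtain ⟨r, hr⟩ := (hev j).1
    refine ⟨⟨∑ j', B.wt j' + 2 - r, by omega⟩, ?_⟩
    have := (hev j).2
    omega
  choose u hu hu1 using fun j => exists_vInf_one' (hKj j).1 (hKj j).2
  have hmem : ∀ j, smulV (u j) (B.gen j) ∈ M K := fun j => by
    have := hsm _ _ _ (hu j) _ (B.gen_mem j)
    rwa [sub_add_cancel] at this
  -- the linear map `L` on `M K`
  let LK : M K →ₗ[ℂ] (X → ℂ) :=
    { toFun := fun F => L (F : X → ℍ → ℂ)
      map_add' := fun F G => L_add K _ _ F.2 G.2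
      map_smul' := fun a F => L_smul K _ F.2 a }
  let F : M K := ∑ j, c j • (⟨smulV (u j) (B.gen j), hmem j⟩ : M K)
  have hLF : L (F : X → ℍ → ℂ) = 0 := by
    show LK F = 0
    rw [map_sum]
    rw [← hc]
    refine Finset.sum_congr rfl fun j _ => ?_
    rw [map_smul]
    congr 1
    show L (smulV (u j) (B.gen j)) = L (B.gen j)
    rw [L_smulV _ _ _ _ (hu j) (B.gen_mem j), hu1 j, one_smul]
  obtain ⟨G, hG, hFG⟩ := L_ker K _ F.2 hLF
  obtain ⟨g, hg, hGg⟩ := B.span (K - 12) G hG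
  -- coordinates of `F` in two ways
  have hFval : (F : X → ℍ → ℂ) = ∑ j, smulV (c j • u j) (B.gen j) := by
    simp only [F, Submodule.coe_sum, Submodule.coe_smul]
    refine Finset.sum_congr rfl fun j _ => ?_
    funext x
    simp [smulV, smul_mul_assoc]
  have hDg : ∀ j, Skel.Dl * g j ∈ LvlOne (K - B.wt j) := fun j => by
    have := LvlOne.mul_mem Skel.Dl_mem (hg j)
    have hw : (12 : ℤ) + (K - 12 - B.wt j) = K - B.wt j := by ring
    rwa [hw] at this
  have hsum : (∑ j, smulV (c j • u j - Skel.Dl * g j) (B.gen j)) = 0 := by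
    have h1 : (∑ j, smulV (c j • u j - Skel.Dl * g j) (B.gen j)) =
        (∑ j, smulV (c j • u j) (B.gen j)) - smulV Skel.Dl (∑ j, smulV (g j) (B.gen j)) := by
      funext x z
      simp only [smulV, Finset.sum_apply, Pi.sub_apply, Pi.mul_apply, Pi.smul_apply,
        Finset.mul_sum, ← Finset.sum_sub_distrib]
      refine Finset.sum_congr rfl fun j _ => ?_
      ring
    rw [h1, ← hFval, hFG, hGg, sub_self]
  have hcoord := B.indep K (fun j => c j • u j - Skel.Dl * g j)
    (fun j => Submodule.sub_mem _ (Submodule.smul_mem _ _ (hu j)) (hDg j)) hsum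
  intro j
  have h1 : c j • u j = Skel.Dl * g j := sub_eq_zero.mp (hcoord j)
  have h2 := congrArg Skel.vInf h1
  rw [LvlOne.vInf_smul (hu j), hu1 j, LvlOne.vInf_mul Skel.Dl_mem (hg j), vInf_Dl, zero_mul,
    mul_one] at h2
  exact h2

end Fermat.Agent.S20.H48
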