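import Mathlib
import Fermat.Agent.S20.H35_PSReg

set_option autoImplicit false
set_option linter.unusedSectionVars false
set_option linter.style.haveILetI false

open UpperHalfPlane ModularForm
open scoped MatrixGroups ModularForm Manifold

noncomputable section

namespace Fermat.Agent.S20.H49

open Fermat.Agent.S20

variable {X : Type} [Fintype X] [MulAction SL(2, ℤ) X]

/-! ## Generic points -/

/-- A nonzero holomorphic function and a finite family of nonzero holomorphic functions on `ℍ`
have a common non-zero. -/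
theorem exists_forall_ne_zero {ι : Type*} (s : Finset ι) (f : ι → ℍ → ℂ)
    (hf : ∀ i ∈ s, MDiff (f i)) (h0 : ∀ i ∈ s, f i ≠ 0) {g : ℍ → ℂ} (hg : MDiff g)
    (hg0 : g ≠ 0) : ∃ z, g z ≠ 0 ∧ ∀ i ∈ s, f i z ≠ 0 := by
  classical
  have key : MDiff (g * ∏ i ∈ s, f i) ∧ g * ∏ i ∈ s, f i ≠ 0 := by
    induction s using Finset.induction_on with
    | empty => simpa using ⟨hg, hg0⟩
    | insert i t hi ih =>
      have ih' := ih (fun j hj => hf j (Finset.mem_insert_of_mem hj))
        (fun j hj => h0 j (Finset.mem_insert_of_mem hj))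
      rw [Finset.prod_insert hi]
      have e : g * (f i * ∏ j ∈ t, f j) = f i * (g * ∏ j ∈ t, f j) := by ring
      rw [e]
      refine ⟨(hf i (Finset.mem_insert_self i t)).mul ih'.1, ?_⟩
      intro h
      rcases (UpperHalfPlane.mul_eq_zero_iff (hf i (Finset.mem_insert_self i t)) ih'.1).1 h
        with h | h
      · exact h0 i (Finset.mem_insert_self i t) h
      · exact ih'.2 h
  obtain ⟨z, hz⟩ := Function.ne_iff.1 key.2
  rw [Pi.mul_apply, Finset.prod_apply, Pi.zero_apply] at hz
  exact ⟨z, left_ne_zero_of_mul hz, fun i hi => Finset.prod_ne_zero_iff.1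
    (right_ne_zero_of_mul hz) i hi⟩

/-- A point where a separating tuple has pairwise distinct components and `E4`, `E6` do not
vanish. -/
theorem exists_generic_point {k : ℤ} {Φ : X → ℍ → ℂ} (hΦ : Φ ∈ VMod X k)
    (hinj : Function.Injective Φ) :
    ∃ z : ℍ, E4 z ≠ 0 ∧ E6 z ≠ 0 ∧ Function.Injective (fun x => Φ x z) := by
  classical
  have hg : MDiff (E4 * E6) := E4_mem.1.mul E6_mem.1
  have hg0 : E4 * E6 ≠ 0 := by
    intro h
    rcases (UpperHalfPlane.mul_eq_zero_iff E4_mem.1 E6_mem.1).1 h with h | h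
    · exact E4_ne_zero h
    · exact E6_ne_zero h
  obtain ⟨z, hz, hz'⟩ := exists_forall_ne_zero
    ((Finset.univ : Finset (X × X)).filter (fun p => p.1 ≠ p.2))
    (fun p => Φ p.1 - Φ p.2)
    (fun p _ => (hΦ.1 p.1).sub (hΦ.1 p.2))
    (fun p hp => sub_ne_zero.2 (fun h => (Finset.mem_filter.1 hp).2 (hinj h))) hg hg0
  rw [Pi.mul_apply] at hz
  refine ⟨z, left_ne_zero_of_mul hz, right_ne_zero_of_mul hz, ?_⟩
  intro x y hxy
  by_contra hne
  have := hz' (x, y) (Finset.mem_filter.2 ⟨Finset.mem_univ _, hne⟩)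
  simp only [Pi.sub_apply] at this
  exact this (sub_eq_zero.2 hxy)

/-! ## Componentwise powers -/

/-- componentwise power of a tuple -/
def powV (F : X → ℍ → ℂ) (i : ℕ) : X → ℍ → ℂ := fun x => F x ^ i

theorem powV_mem {k : ℤ} {F : X → ℍ → ℂ} (hF : F ∈ VMod X k) (i : ℕ) :
    powV F i ∈ VMod X (i * k) := by
  obtain ⟨h1, h2, h3⟩ := hF
  refine ⟨fun x => (h1 x).pow i, fun γ x => ?_, fun x => ?_⟩
  · show (F x ^ i) ∣[(i : ℤ) * k] γ = F (γ⁻¹ • x) ^ i
    rw [H35.pow_slash_SL2, h2]
  · exact (boundedAtImInftySubalgebra ℂ).pow_mem (h3 x) i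

/-- the weight of a separating tuple on a set with at least two elements is even and
nonnegative -/
theorem sep_weight (hX : Skel.GoodX X) {k : ℤ} {Φ : X → ℍ → ℂ} (hΦ : Φ ∈ VMod X k)
    (hinj : Function.Injective Φ) (h2 : 2 ≤ Fintype.card X) : Even k ∧ 0 ≤ k := by
  haveI := hX.trans
  by_contra hcon
  have hbot : VMod X k = ⊥ := by
    by_cases hk : k < 0
    · exact H35.VMod.eq_bot_of_neg hk
    · have : ¬ Even k := fun he => hcon ⟨he, not_lt.1 hk⟩
      exact H35.VMod.eq_bot_of_odd hX.neg (Int.not_even_iff_odd.1 this)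
  rw [hbot, Submodule.mem_bot] at hΦ
  have : Fintype.card X ≤ 1 := by
    rw [Fintype.card_le_one_iff]
    intro a b
    apply hinj
    rw [hΦ]
    rfl
  omega

/-! ## Vandermonde -/

theorem vandermonde_linearIndependent {ι : Type*} [Fintype ι] (a : ι → ℂ)
    (ha : Function.Injective a) (c : Fin (Fintype.card ι) → ℂ) (hc : ∀ i, c i ≠ 0) :
    LinearIndependent ℂ
      (fun i : Fin (Fintype.card ι) => (fun x => c i * a x ^ (i : ℕ) : ι → ℂ)) := by
  rw [Fintype.linearIndependent_iff]
  intro g hg i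
  have hp : (∑ j : Fin (Fintype.card ι), Polynomial.C (g j * c j) * Polynomial.X ^ (j : ℕ)) = 0 := by
    by_contra hne
    apply hne
    apply Polynomial.eq_zero_of_natDegree_lt_card_of_eval_eq_zero _ ha
    · intro x
      have := congrFun hg x
      simp only [Finset.sum_apply, Pi.smul_apply, smul_eq_mul, Pi.zero_apply] at this
      rw [Polynomial.eval_finsetSum]
      simp only [Polynomial.eval_mul, Polynomial.eval_C, Polynomial.eval_pow, Polynomial.eval_X]
      rw [← this]
      exact Finset.sum_congr rfl (fun j _ => by ring)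
    · exact (Polynomial.natDegree_lt_iff_degree_lt hne).2
        (Polynomial.degree_sum_fin_lt (fun j => g j * c j))
  have hcoeff := congrArg (fun q => Polynomial.coeff q (i : ℕ)) hp
  simp only [Polynomial.finsetSum_coeff, Polynomial.coeff_C_mul, Polynomial.coeff_X_pow,
    Polynomial.coeff_zero] at hcoeff
  rw [Finset.sum_eq_single i] at hcoeff
  · simp only [if_true, mul_one] at hcoeff
    exact (mul_eq_zero.1 hcoeff).resolve_right (hc i)
  · intro j _ hji
    rw [if_neg (fun h => hji (Fin.ext h.symm)), mul_zero]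
  · intro h; exact absurd (Finset.mem_univ i) h

/-! ## The rank is at least `card X` -/

/-- If some graded piece contains a family whose values at a point are linearly independent,
then the family is no bigger than the number of generators. -/
theorem card_le_n_of_family {M : ℤ → Submodule ℂ (X → ℍ → ℂ)} (B : Skel.HomBasis M)
    {ι : Type} [Fintype ι] (K : ℤ) (z : ℍ) (H : ι → (X → ℍ → ℂ)) (hH : ∀ i, H i ∈ M K)
    (hind : LinearIndependent ℂ (fun i => (fun x => H i x z : X → ℂ))) :
    Fintype.card ι ≤ B.n := by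
  have hsub : Submodule.span ℂ (Set.range (fun i => (fun x => H i x z : X → ℂ))) ≤
      Submodule.span ℂ (Set.range (fun j => (fun x => B.gen j x z : X → ℂ))) := by
    rw [Submodule.span_le]
    rintro _ ⟨i, rfl⟩
    obtain ⟨G, -, hG⟩ := B.span K (H i) (hH i)
    have : (fun x => H i x z : X → ℂ) = ∑ j, G j z • (fun x => B.gen j x z : X → ℂ) := by
      funext x
      rw [hG]
      simp [Skel.smulV, Finset.sum_apply]
    show (fun x => H i x z : X → ℂ) ∈ _
    rw [this]
    exact Submodule.sum_mem _ (fun j _ => Submodule.smul_mem _ _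
      (Submodule.subset_span ⟨j, rfl⟩))
  calc Fintype.card ι = Module.finrank ℂ (Submodule.span ℂ
        (Set.range (fun i => (fun x => H i x z : X → ℂ)))) := (finrank_span_eq_card hind).symm
    _ ≤ Module.finrank ℂ (Submodule.span ℂ
        (Set.range (fun j => (fun x => B.gen j x z : X → ℂ)))) := Submodule.finrank_mono hsub
    _ ≤ Fintype.card (Fin B.n) := finrank_range_le_card _
    _ = B.n := Fintype.card_fin _

theorem smulV_Dl_mem {b : ℤ} {F : X → ℍ → ℂ} (hF : F ∈ VMod X b) :
    Skel.smulV Dl F ∈ VCusp X (12 + b) := by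
  obtain ⟨h1, h2, -⟩ := H35.VMod.smulV_mem Dl_mem hF
  refine ⟨h1, h2, fun x => ?_⟩
  show IsZeroAtImInfty (Dl * F x)
  rw [mul_comm]
  exact (hF.2.2 x).mul_zeroAtFilter Dl_zero_at

/-- The Vandermonde family attached to a separating tuple at a generic point. -/
theorem exists_family (hX : Skel.GoodX X) :
    ∃ (K : ℤ) (z : ℍ) (H : Fin (Fintype.card X) → (X → ℍ → ℂ)), (∀ i, H i ∈ VMod X K) ∧
      LinearIndependent ℂ (fun i => (fun x => H i x z : X → ℂ)) := by
  obtain ⟨k0, Φ, hΦ, hinj⟩ := hX.sep
  obtain ⟨z, h4, h6, hz⟩ := exists_generic_point hΦ hinj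
  have hwt : ∀ i : Fin (Fintype.card X),
      Even (((Fintype.card X : ℤ) - 1) * k0 + 4 - ((i : ℕ) : ℤ) * k0) ∧
        4 ≤ ((Fintype.card X : ℤ) - 1) * k0 + 4 - ((i : ℕ) : ℤ) * k0 := by
    intro i
    have hi := i.2
    by_cases h2 : 2 ≤ Fintype.card X
    · obtain ⟨he, h0⟩ := sep_weight hX hΦ hinj h2
      have e : ((Fintype.card X : ℤ) - 1) * k0 + 4 - ((i : ℕ) : ℤ) * k0 =
          ((Fintype.card X : ℤ) - 1 - ((i : ℕ) : ℤ)) * k0 + 4 := by ring
      rw [e]
      constructor
      · exact Even.add (he.mul_left _) (by decide)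
      · have : 0 ≤ ((Fintype.card X : ℤ) - 1 - ((i : ℕ) : ℤ)) := by omega
        nlinarith [mul_nonneg this h0]
    · have hi0 : (i : ℕ) = 0 := by omega
      have hN1 : Fintype.card X = 1 := by omega
      rw [hi0, hN1]
      norm_num
  choose m hm hmz using fun i : Fin (Fintype.card X) =>
    LvlOne.exists_ne_zero_generic h4 h6 (hwt i).1 (hwt i).2
  refine ⟨((Fintype.card X : ℤ) - 1) * k0 + 4, z,
    fun i => Skel.smulV (m i) (powV Φ i), fun i => ?_, ?_⟩
  · have := H35.VMod.smulV_mem (hm i) (powV_mem hΦ i)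
    have e : ((Fintype.card X : ℤ) - 1) * k0 + 4 - ((i : ℕ) : ℤ) * k0 + ((i : ℕ) : ℤ) * k0 =
        ((Fintype.card X : ℤ) - 1) * k0 + 4 := by ring
    rw [e] at this
    exact this
  · have := vandermonde_linearIndependent (fun x => Φ x z) hz (fun i => m i z) hmz
    have e : (fun i : Fin (Fintype.card X) =>
        (fun x => Skel.smulV (m i) (powV Φ i) x z : X → ℂ)) =
        (fun i : Fin (Fintype.card X) => (fun x => m i z * Φ x z ^ (i : ℕ) : X → ℂ)) := by
      funext i x
      simp [Skel.smulV, powV]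
    rw [e]
    exact this

/-- lower bound for the number of generators of a homogeneous basis of `VMod X` -/
theorem card_le_n_VMod (hX : Skel.GoodX X) (B : Skel.HomBasis (VMod X)) :
    Fintype.card X ≤ B.n := by
  obtain ⟨K, z, H, hH, hind⟩ := exists_family hX
  simpa using card_le_n_of_family B K z H hH hind

/-- lower bound for the number of generators of a homogeneous basis of `VCusp X` -/
theorem card_le_n_VCusp (hX : Skel.GoodX X) (B : Skel.HomBasis (VCusp X)) :
    Fintype.card X ≤ B.n := by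
  obtain ⟨K, z, H, hH, hind⟩ := exists_family hX
  have hind' : LinearIndependent ℂ
      (fun i => (fun x => Skel.smulV Dl (H i) x z : X → ℂ)) := by
    have e : (fun i => (fun x => Skel.smulV Dl (H i) x z : X → ℂ)) =
        (fun i => Dl z • (fun x => H i x z : X → ℂ)) := by
      funext i x
      simp [Skel.smulV]
    rw [e]
    exact hind.units_smul (fun _ => Units.mk0 (Dl z) (Dl_ne_zero z))
  simpa using card_le_n_of_family B (12 + K) z (fun i => Skel.smulV Dl (H i))
    (fun i => smulV_Dl_mem (hH i)) hind'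

/-- upper bound from any linear map separating the generators -/
theorem n_le_card_of_linearIndependent {M : ℤ → Submodule ℂ (X → ℍ → ℂ)} (B : Skel.HomBasis M)
    (L : (X → ℍ → ℂ) → (X → ℂ)) (h : LinearIndependent ℂ (fun j => L (B.gen j))) :
    B.n ≤ Fintype.card X := by
  have := h.fintype_card_le_finrank
  simpa using this

theorem n_eq_VMod_of (hX : Skel.GoodX X) (B : Skel.HomBasis (VMod X)) {h : ℕ}
    (hLI : LinearIndependent ℂ (fun j => Skel.Lmap h (B.gen j))) : B.n = Fintype.card X :=
  le_antisymm (n_le_card_of_linearIndependent B (Skel.Lmap h) hLI) (card_le_n_VMod hX B)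

theorem n_eq_VCusp_of (hX : Skel.GoodX X) (B : Skel.HomBasis (VCusp X)) {h : ℕ}
    (hLI : LinearIndependent ℂ (fun j => Skel.Lmap' h (B.gen j))) : B.n = Fintype.card X :=
  le_antisymm (n_le_card_of_linearIndependent B (Skel.Lmap' h) hLI) (card_le_n_VCusp hX B)

end Fermat.Agent.S20.H49
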