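import Mathlib

set_option autoImplicit false
set_option linter.unusedSectionVars false

/-!
# Graded freeness over a two-generator graded ring (pure algebra)

`R` is a commutative `K`-algebra with graded pieces `RR m` (think: level one modular forms of
weight `m`), generated by `x` (degree 4) and `y` (degree 6) in the weak sense `RR_dec`.
`W` is an `R`-module with graded pieces `MM k`, zero in negative degrees, on which `x, y` is a
regular sequence.  Then `MM` has a homogeneous basis over `RR`.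
-/

namespace Fermat.Agent.S20.H33.Free

open Submodule

/-- Strong induction on integers for predicates that hold on negative integers. -/
theorem int_strong_induction {P : ℤ → Prop} (hneg : ∀ k, k < 0 → P k)
    (h : ∀ k, 0 ≤ k → (∀ j, j < k → P j) → P k) : ∀ k, P k := by
  have key : ∀ n : ℕ, ∀ k : ℤ, k < (n : ℤ) → P k := by
    intro n
    induction n with
    | zero => intro k hk; exact hneg k (by simpa using hk)
    | succ n ih =>
      intro k hk
      rcases lt_or_ge k 0 with hk0 | hk0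
      · exact hneg k hk0
      · exact h k hk0 (fun j hj => ih j (by push_cast at hk; omega))
  intro k
  exact key (k.toNat + 1) k (by push_cast; omega)

variable {K R W : Type*} [Field K] [CommRing R] [Algebra K R] [AddCommGroup W] [Module K W]
  [Module R W] [IsScalarTower K R W]

/-- multiplication by a ring element as a `K`-linear map -/
def mulL (r : R) : W →ₗ[K] W where
  toFun w := r • w
  map_add' := smul_add r
  map_smul' c w := by
    simp only [RingHom.id_apply]
    exact smul_comm r c w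

@[simp] theorem mulL_apply (r : R) (w : W) : mulL (K := K) r w = r • w := rfl

/-- Hypotheses of the graded freeness theorem. -/
structure GradedInput (x y : R) (RR : ℤ → Submodule K R) (MM : ℤ → Submodule K W) : Prop where
  one_mem : (1 : R) ∈ RR 0
  RR_zero : ∀ r ∈ RR 0, ∃ c : K, r = algebraMap K R c
  RR_neg : ∀ m, m < 0 → RR m = ⊥
  x_mem : x ∈ RR 4
  y_mem : y ∈ RR 6
  mul_mem : ∀ a b, ∀ r ∈ RR a, ∀ r' ∈ RR b, r * r' ∈ RR (a + b)
  RR_dec : ∀ m, m ≠ 0 → ∀ r ∈ RR m, ∃ a ∈ RR (m - 4), ∃ b ∈ RR (m - 6), r = x * a + y * b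
  smul_mem : ∀ a b, ∀ r ∈ RR a, ∀ w ∈ MM b, r • w ∈ MM (a + b)
  neg : ∀ k, k < 0 → MM k = ⊥
  x_inj : ∀ k, ∀ w ∈ MM k, x • w = 0 → w = 0
  reg : ∀ k, ∀ w ∈ MM k, ∀ w' ∈ MM (k + 2), y • w = x • w' → ∃ w'' ∈ MM (k - 4), w = x • w''

/-- Relative complements exist in vector spaces. -/
theorem exists_rel_compl {V D : Submodule K W} (hD : D ≤ V) :
    ∃ C : Submodule K W, C ≤ V ∧ Disjoint C D ∧ C ⊔ D = V := by
  obtain ⟨q, hq⟩ := Submodule.exists_isCompl D
  refine ⟨q ⊓ V, inf_le_right, ?_, ?_⟩
  · exact (hq.symm.disjoint).mono_left inf_le_left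
  · rw [sup_comm, ← sup_inf_assoc_of_le q hD, hq.sup_eq_top, top_inf_eq]

section Construction

variable (x y : R) (MM : ℤ → Submodule K W)

/-- The decomposable part of degree `k`: `x • MM (k-4) + y • MM (k-6)`. -/
def dec (k : ℤ) : Submodule K W :=
  (MM (k - 4)).map (mulL x) ⊔ (MM (k - 6)).map (mulL y)

end Construction

variable {x y : R} {RR : ℤ → Submodule K R} {MM : ℤ → Submodule K W}

namespace GradedInput

theorem RR_cast (_h : GradedInput x y RR MM) {a b : ℤ} (hab : a = b) {r : R} (hr : r ∈ RR a) :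
    r ∈ RR b := hab ▸ hr

theorem MM_cast (_h : GradedInput x y RR MM) {a b : ℤ} (hab : a = b) {w : W} (hw : w ∈ MM a) :
    w ∈ MM b := hab ▸ hw

theorem smul_x (h : GradedInput x y RR MM) (k : ℤ) {w : W} (hw : w ∈ MM (k - 4)) :
    x • w ∈ MM k :=
  h.MM_cast (by ring) (h.smul_mem 4 (k - 4) x h.x_mem w hw)

theorem smul_y (h : GradedInput x y RR MM) (k : ℤ) {w : W} (hw : w ∈ MM (k - 6)) :
    y • w ∈ MM k :=
  h.MM_cast (by ring) (h.smul_mem 6 (k - 6) y h.y_mem w hw)

theorem dec_le (h : GradedInput x y RR MM) (k : ℤ) : dec x y MM k ≤ MM k := by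
  refine sup_le ?_ ?_
  · rintro _ ⟨m, hm, rfl⟩
    exact h.smul_x k hm
  · rintro _ ⟨m, hm, rfl⟩
    exact h.smul_y k hm

/-- A chosen complement of the decomposable part. -/
noncomputable def gens (h : GradedInput x y RR MM) (k : ℤ) : Submodule K W :=
  (exists_rel_compl (h.dec_le k)).choose

theorem gens_le (h : GradedInput x y RR MM) (k : ℤ) : h.gens k ≤ MM k :=
  (exists_rel_compl (h.dec_le k)).choose_spec.1

theorem gens_disjoint (h : GradedInput x y RR MM) (k : ℤ) : Disjoint (h.gens k) (dec x y MM k) :=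
  (exists_rel_compl (h.dec_le k)).choose_spec.2.1

theorem gens_sup (h : GradedInput x y RR MM) (k : ℤ) : h.gens k ⊔ dec x y MM k = MM k :=
  (exists_rel_compl (h.dec_le k)).choose_spec.2.2

/-- Index type of the homogeneous generators. -/
abbrev Gen (h : GradedInput x y RR MM) : Type _ :=
  Σ k : ℤ, Module.Basis.ofVectorSpaceIndex K (h.gens k)

/-- weight of a generator -/
def wt {h : GradedInput x y RR MM} (i : h.Gen) : ℤ := i.1

/-- the generator as an element of `W` -/
noncomputable def val {h : GradedInput x y RR MM} (i : h.Gen) : W :=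
  ((Module.Basis.ofVectorSpace K (h.gens i.1) i.2 : h.gens i.1) : W)

theorem val_mem_gens {h : GradedInput x y RR MM} (i : h.Gen) : val i ∈ h.gens (wt i) :=
  (Module.Basis.ofVectorSpace K (h.gens i.1) i.2).2

theorem val_mem {h : GradedInput x y RR MM} (i : h.Gen) : val i ∈ MM (wt i) :=
  h.gens_le _ (val_mem_gens i)

theorem val_ne_zero {h : GradedInput x y RR MM} (i : h.Gen) : val i ≠ 0 := by
  intro h0
  have := (Module.Basis.ofVectorSpace K (h.gens i.1)).ne_zero i.2
  exact this (Subtype.ext h0)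

theorem wt_nonneg {h : GradedInput x y RR MM} (i : h.Gen) : 0 ≤ wt i := by
  by_contra hlt
  rw [not_le] at hlt
  have hm := val_mem i
  rw [h.neg _ hlt] at hm
  exact val_ne_zero i (by simpa using hm)

/-- admissible coefficient families of total degree `k` -/
def Coeffs (h : GradedInput x y RR MM) (k : ℤ) : Submodule K (h.Gen →₀ R) where
  carrier := {c | ∀ i, c i ∈ RR (k - wt i)}
  add_mem' := by
    intro c c' hc hc' i
    rw [Finsupp.add_apply]
    exact add_mem (hc i) (hc' i)
  zero_mem' := fun i => by rw [Finsupp.zero_apply]; exact zero_mem _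
  smul_mem' := by
    intro t c hc i
    rw [Finsupp.smul_apply]
    exact Submodule.smul_mem _ t (hc i)

theorem mem_Coeffs (h : GradedInput x y RR MM) {k : ℤ} {c : h.Gen →₀ R} :
    c ∈ h.Coeffs k ↔ ∀ i, c i ∈ RR (k - wt i) := Iff.rfl

/-- evaluation of a coefficient family -/
noncomputable def ev (h : GradedInput x y RR MM) : (h.Gen →₀ R) →ₗ[R] W :=
  Finsupp.linearCombination R (val (h := h))

theorem ev_single (h : GradedInput x y RR MM) (i : h.Gen) (r : R) :
    h.ev (Finsupp.single i r) = r • val i := by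
  simp [ev, Finsupp.linearCombination_single]

theorem ev_smul_K (h : GradedInput x y RR MM) (t : K) (c : h.Gen →₀ R) :
    h.ev (t • c) = t • h.ev c := LinearMap.map_smul_of_tower _ t c

theorem single_mem_Coeffs (h : GradedInput x y RR MM) {k : ℤ} (i : h.Gen) {r : R}
    (hr : r ∈ RR (k - wt i)) : Finsupp.single i r ∈ h.Coeffs k := by
  classical
  intro i'
  rw [Finsupp.single_apply]
  split_ifs with hii
  · subst hii; exact hr
  · exact zero_mem _

theorem smul_mem_Coeffs (h : GradedInput x y RR MM) {a k : ℤ} {r : R} (hr : r ∈ RR a)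
    {c : h.Gen →₀ R} (hc : c ∈ h.Coeffs k) : r • c ∈ h.Coeffs (a + k) := by
  intro i
  rw [Finsupp.smul_apply, smul_eq_mul]
  exact h.RR_cast (by ring) (h.mul_mem a (k - wt i) r hr (c i) (hc i))

theorem ev_mem (h : GradedInput x y RR MM) {k : ℤ} {c : h.Gen →₀ R} (hc : c ∈ h.Coeffs k) :
    h.ev c ∈ MM k := by
  rw [ev, Finsupp.linearCombination_apply]
  refine Submodule.sum_mem _ fun i _ => ?_
  exact h.MM_cast (by ring) (h.smul_mem (k - wt i) (wt i) (c i) (hc i) (val i) (val_mem i))


variable (h : GradedInput x y RR MM)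

/-- the basis of the chosen complement -/
noncomputable def bas (k : ℤ) :
    Module.Basis (Module.Basis.ofVectorSpaceIndex K (h.gens k)) K (h.gens k) :=
  Module.Basis.ofVectorSpace K (h.gens k)

/-- constant coefficient families supported on generators of weight `k` -/
noncomputable def Phi (k : ℤ) :
    (Module.Basis.ofVectorSpaceIndex K (h.gens k) →₀ K) →ₗ[K] (h.Gen →₀ R) :=
  Finsupp.linearCombination K (fun j => Finsupp.single (⟨k, j⟩ : h.Gen) (1 : R))

theorem Phi_single (k : ℤ) (j : Module.Basis.ofVectorSpaceIndex K (h.gens k)) (t : K) :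
    h.Phi k (Finsupp.single j t) = Finsupp.single (⟨k, j⟩ : h.Gen) (algebraMap K R t) := by
  rw [Phi, Finsupp.linearCombination_single, Finsupp.smul_single, Algebra.algebraMap_eq_smul_one]

theorem ev_Phi (k : ℤ) (l : Module.Basis.ofVectorSpaceIndex K (h.gens k) →₀ K) :
    h.ev (h.Phi k l) = (((h.bas k).repr.symm l : h.gens k) : W) := by
  have key : (h.ev.restrictScalars K) ∘ₗ (h.Phi k) =
      (h.gens k).subtype ∘ₗ ((h.bas k).repr.symm : _ →ₗ[K] _) := by
    apply Finsupp.lhom_ext'
    intro j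
    apply LinearMap.ext_ring
    simp only [LinearMap.coe_comp, Function.comp_apply, Finsupp.lsingle_apply,
      LinearMap.coe_restrictScalars, Phi_single, map_one, ev_single, one_smul,
      LinearEquiv.coe_coe, Module.Basis.repr_symm_single_one, Submodule.subtype_apply]
    rfl
  exact LinearMap.congr_fun key l

theorem Phi_mem (k : ℤ) (l : Module.Basis.ofVectorSpaceIndex K (h.gens k) →₀ K) :
    h.Phi k l ∈ h.Coeffs k := by
  rw [Phi, Finsupp.linearCombination_apply]
  refine Submodule.sum_mem _ fun j _ => Submodule.smul_mem _ _ ?_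
  exact h.single_mem_Coeffs _ (h.RR_cast (sub_self k).symm h.one_mem)

theorem Phi_eq_zero (k : ℤ) (l : Module.Basis.ofVectorSpaceIndex K (h.gens k) →₀ K)
    (h0 : h.ev (h.Phi k l) = 0) : h.Phi k l = 0 := by
  rw [ev_Phi] at h0
  have h1 : (h.bas k).repr.symm l = 0 := Subtype.ext h0
  have h2 : l = 0 := by
    have := congrArg (h.bas k).repr h1
    simpa using this
  rw [h2, map_zero]

theorem Coeffs_dec (k : ℤ) {c : h.Gen →₀ R} (hc : c ∈ h.Coeffs k) :
    ∃ l, ∃ a ∈ h.Coeffs (k - 4), ∃ b ∈ h.Coeffs (k - 6), c = h.Phi k l + x • a + y • b := by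
  classical
  let T : Submodule K (h.Gen →₀ R) :=
    LinearMap.range (h.Phi k) ⊔ (h.Coeffs (k - 4)).map (mulL x) ⊔ (h.Coeffs (k - 6)).map (mulL y)
  have hT : c ∈ T := by
    rw [← Finsupp.sum_single c, Finsupp.sum]
    refine Submodule.sum_mem _ fun i _ => ?_
    by_cases hk : wt i = k
    · obtain ⟨k', j⟩ := i
      have hk' : k' = k := hk
      subst hk'
      obtain ⟨t, ht⟩ := h.RR_zero _ (h.RR_cast (sub_self k') (hc ⟨k', j⟩))
      refine Submodule.mem_sup_left (Submodule.mem_sup_left ⟨Finsupp.single j t, ?_⟩)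
      rw [Phi_single, ht]
    · have hm : k - wt i ≠ 0 := fun h0 => hk (by omega)
      obtain ⟨a, ha, b, hb, hab⟩ := h.RR_dec _ hm _ (hc i)
      have e : Finsupp.single i (c i) = x • Finsupp.single i a + y • Finsupp.single i b := by
        rw [hab, Finsupp.smul_single, Finsupp.smul_single, smul_eq_mul, smul_eq_mul,
          Finsupp.single_add]
      rw [e]
      refine Submodule.add_mem _ (Submodule.mem_sup_left (Submodule.mem_sup_right ?_))
        (Submodule.mem_sup_right ?_)
      · exact ⟨_, h.single_mem_Coeffs i (h.RR_cast (by ring) ha), rfl⟩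
      · exact ⟨_, h.single_mem_Coeffs i (h.RR_cast (by ring) hb), rfl⟩
  obtain ⟨pq, hpq, r, ⟨b, hb, rfl⟩, rfl⟩ := Submodule.mem_sup.1 hT
  obtain ⟨p, ⟨l, rfl⟩, q, ⟨a, ha, rfl⟩, rfl⟩ := Submodule.mem_sup.1 hpq
  exact ⟨l, a, ha, b, hb, rfl⟩

/-- **Graded freeness**: every element of `MM k` has unique homogeneous coordinates. -/
theorem main : ∀ k : ℤ, (∀ w ∈ MM k, ∃ c ∈ h.Coeffs k, h.ev c = w) ∧
    (∀ c ∈ h.Coeffs k, h.ev c = 0 → c = 0) := by
  refine int_strong_induction ?_ ?_
  · intro k hk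
    refine ⟨fun w hw => ⟨0, zero_mem _, ?_⟩, fun c hc _ => ?_⟩
    · rw [h.neg k hk] at hw
      rw [map_zero]
      exact ((Submodule.mem_bot K).1 hw).symm
    · ext i
      have := hc i
      rw [h.RR_neg _ (by have := wt_nonneg i; omega)] at this
      simpa using this
  · intro k _ ih
    have hspan : ∀ w ∈ MM k, ∃ c ∈ h.Coeffs k, h.ev c = w := by
      intro w hw
      rw [← h.gens_sup k] at hw
      obtain ⟨g, hg, d', hd', rfl⟩ := Submodule.mem_sup.1 hw
      obtain ⟨_, ⟨w1, hw1, rfl⟩, _, ⟨w2, hw2, rfl⟩, rfl⟩ := Submodule.mem_sup.1 hd'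
      obtain ⟨c1, hc1, rfl⟩ := (ih (k - 4) (by omega)).1 w1 hw1
      obtain ⟨c2, hc2, rfl⟩ := (ih (k - 6) (by omega)).1 w2 hw2
      refine ⟨h.Phi k ((h.bas k).repr ⟨g, hg⟩) + x • c1 + y • c2, ?_, ?_⟩
      · refine add_mem (add_mem (h.Phi_mem k _) ?_) ?_
        · have := h.smul_mem_Coeffs h.x_mem hc1
          rwa [show (4 : ℤ) + (k - 4) = k by ring] at this
        · have := h.smul_mem_Coeffs h.y_mem hc2
          rwa [show (6 : ℤ) + (k - 6) = k by ring] at this
      · rw [map_add, map_add, ev_Phi, LinearEquiv.symm_apply_apply, map_smul, map_smul, add_assoc]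
        rfl
    refine ⟨hspan, ?_⟩
    intro c hc hc0
    obtain ⟨l, a, ha, b, hb, rfl⟩ := h.Coeffs_dec k hc
    rw [map_add, map_add, map_smul, map_smul] at hc0
    -- the generator part vanishes
    have hA : h.ev a ∈ MM (k - 4) := h.ev_mem ha
    have hB : h.ev b ∈ MM (k - 6) := h.ev_mem hb
    have h1 : h.ev (h.Phi k l) ∈ h.gens k := by
      rw [ev_Phi]; exact Subtype.mem _
    have h2 : x • h.ev a + y • h.ev b ∈ dec x y MM k :=
      Submodule.add_mem_sup ⟨_, hA, rfl⟩ ⟨_, hB, rfl⟩
    have h3 : h.ev (h.Phi k l) = -(x • h.ev a + y • h.ev b) := by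
      rw [eq_neg_iff_add_eq_zero, ← add_assoc]; exact hc0
    have h4 : h.ev (h.Phi k l) = 0 := by
      have := (Submodule.disjoint_def.1 (h.gens_disjoint k)) _ h1
        (by rw [h3]; exact Submodule.neg_mem _ h2)
      exact this
    have hl : h.Phi k l = 0 := h.Phi_eq_zero k l h4
    rw [h4, zero_add] at hc0
    -- regularity
    have h5 : y • h.ev b = x • (-h.ev a) := by
      rw [smul_neg, eq_neg_iff_add_eq_zero, add_comm]; exact hc0
    obtain ⟨w'', hw'', hw''e⟩ := h.reg (k - 6) _ hB (-h.ev a)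
      (h.MM_cast (by ring) (Submodule.neg_mem _ hA)) h5
    obtain ⟨b', hb', rfl⟩ := (ih (k - 6 - 4) (by omega)).1 w'' hw''
    have hxb' : x • b' ∈ h.Coeffs (k - 6) := by
      have := h.smul_mem_Coeffs h.x_mem hb'
      rwa [show (4 : ℤ) + (k - 6 - 4) = k - 6 by ring] at this
    have h6 : b = x • b' := by
      have := (ih (k - 6) (by omega)).2 (b - x • b') (sub_mem hb hxb')
        (by rw [map_sub, map_smul, hw''e, sub_self])
      exact sub_eq_zero.1 this
    have hyb' : y • b' ∈ h.Coeffs (k - 4) := by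
      have := h.smul_mem_Coeffs h.y_mem hb'
      rwa [show (6 : ℤ) + (k - 6 - 4) = k - 4 by ring] at this
    have h7 : x • (h.ev a + y • h.ev b') = 0 := by
      rw [h6, map_smul] at hc0
      rw [smul_add, smul_comm x y, hc0]
    have h8 : h.ev (a + y • b') = 0 := by
      rw [map_add, map_smul]
      refine h.x_inj (k - 4) _ ?_ h7
      exact add_mem hA (by have := h.ev_mem hyb'; rwa [map_smul] at this)
    have h9 : a + y • b' = 0 := (ih (k - 4) (by omega)).2 _ (add_mem ha hyb') h8
    have h10 : a = -(y • b') := eq_neg_of_add_eq_zero_left h9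
    rw [hl, h6, h10, zero_add, smul_neg, smul_comm x y, neg_add_cancel]

end GradedInput

/-! ## Finiteness of the set of generators via a leading term map -/

variable {V : Type*} [AddCommGroup V] [Module K V]

/-- All hypotheses: the graded ring `RR` (generated by `x`, `y`), the graded module `MM`
(regularity), the leading term map `L : W → V` with kernel `d • MM` on homogeneous elements,
and the augmentation `ε`. -/
structure FreeInput (x y d : R) (ε : R → K) (RR : ℤ → Submodule K R) (MM : ℤ → Submodule K W)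
    (L : W → V) : Prop where
  one_mem : (1 : R) ∈ RR 0
  RR_zero : ∀ r ∈ RR 0, ∃ c : K, r = algebraMap K R c
  RR_neg : ∀ m, m < 0 → RR m = ⊥
  x_mem : x ∈ RR 4
  y_mem : y ∈ RR 6
  mul_mem : ∀ a b, ∀ r ∈ RR a, ∀ r' ∈ RR b, r * r' ∈ RR (a + b)
  RR_dec : ∀ m, m ≠ 0 → ∀ r ∈ RR m, ∃ a ∈ RR (m - 4), ∃ b ∈ RR (m - 6), r = x * a + y * b
  smul_mem : ∀ a b, ∀ r ∈ RR a, ∀ w ∈ MM b, r • w ∈ MM (a + b)
  neg : ∀ k, k < 0 → MM k = ⊥
  odd : ∀ k, Odd k → MM k = ⊥
  reg : ∀ k, ∀ w ∈ MM k, ∀ w' ∈ MM (k + 2), y • w = x • w' → ∃ w'' ∈ MM (k - 4), w = x • w''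
  d_mem : d ∈ RR 12
  d_inj : ∀ w : W, d • w = 0 → w = 0
  L_add : ∀ k, ∀ w ∈ MM k, ∀ w' ∈ MM k, L (w + w') = L w + L w'
  L_smul : ∀ k, ∀ w ∈ MM k, ∀ c : K, L (c • w) = c • L w
  L_rsmul : ∀ a b, ∀ r ∈ RR a, ∀ w ∈ MM b, L (r • w) = ε r • L w
  L_ker : ∀ k, ∀ w ∈ MM k, L w = 0 → ∃ w' ∈ MM (k - 12), w = d • w'
  eps_x : ε x = 1
  eps_unit : ∀ m, 0 ≤ m → Even m → m ≠ 2 → ∃ u ∈ RR m, ε u = 1
  eps_d : ∀ m, ∀ r ∈ RR m, ε (d * r) = 0

namespace FreeInput

variable {d : R} {ε : R → K} {L : W → V}

theorem L_zero (hf : FreeInput x y d ε RR MM L) : L 0 = 0 := by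
  have := hf.L_smul 0 0 (zero_mem _) 0
  rwa [zero_smul, zero_smul] at this

theorem x_inj (hf : FreeInput x y d ε RR MM L) : ∀ k, ∀ w ∈ MM k, x • w = 0 → w = 0 := by
  refine int_strong_induction ?_ ?_
  · intro k hk w hw _
    rw [hf.neg k hk] at hw
    exact (Submodule.mem_bot K).1 hw
  · intro k _ ih w hw hxw
    have h1 : L w = 0 := by
      have := hf.L_rsmul 4 k x hf.x_mem w hw
      rw [hxw, hf.L_zero, hf.eps_x, one_smul] at this
      exact this.symm
    obtain ⟨w', hw', rfl⟩ := hf.L_ker k w hw h1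
    have h2 : d • (x • w') = 0 := by rw [smul_comm]; exact hxw
    rw [ih (k - 12) (by omega) w' hw' (hf.d_inj _ h2), smul_zero]

theorem toGradedInput (hf : FreeInput x y d ε RR MM L) : GradedInput x y RR MM where
  one_mem := hf.one_mem
  RR_zero := hf.RR_zero
  RR_neg := hf.RR_neg
  x_mem := hf.x_mem
  y_mem := hf.y_mem
  mul_mem := hf.mul_mem
  RR_dec := hf.RR_dec
  smul_mem := hf.smul_mem
  neg := hf.neg
  x_inj := hf.x_inj
  reg := hf.reg

theorem L_sum (hf : FreeInput x y d ε RR MM L) {ι : Type*} (s : Finset ι) (f : ι → W) (k : ℤ)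
    (hmem : ∀ i ∈ s, f i ∈ MM k) : L (∑ i ∈ s, f i) = ∑ i ∈ s, L (f i) := by
  classical
  induction s using Finset.induction_on with
  | empty => simpa using hf.L_zero
  | insert a s ha ih =>
    rw [Finset.sum_insert ha, Finset.sum_insert ha,
      hf.L_add k _ (hmem a (Finset.mem_insert_self a s)) _
        (Submodule.sum_mem _ fun i hi => hmem i (Finset.mem_insert_of_mem hi)),
      ih fun i hi => hmem i (Finset.mem_insert_of_mem hi)]

open GradedInput in
/-- The leading terms of the generators are linearly independent. -/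
theorem L_indep (hf : FreeInput x y d ε RR MM L) :
    LinearIndependent K (fun i : hf.toGradedInput.Gen => L (val i)) := by
  classical
  have h := hf.toGradedInput
  rw [linearIndependent_iff']
  intro s t hsum i0 hi0
  have heven : ∀ i : hf.toGradedInput.Gen, Even (wt i) := by
    intro i
    by_contra hodd
    rw [Int.not_even_iff_odd] at hodd
    have hm := val_mem i
    rw [hf.odd _ hodd] at hm
    exact val_ne_zero i ((Submodule.mem_bot K).1 hm)
  set K0 : ℤ := 4 + ∑ i ∈ s, wt i with hK0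
  have hu : ∀ i ∈ s, ∃ u ∈ RR (K0 - wt i), ε u = 1 := by
    intro i hi
    have e : K0 - wt i = 4 + ∑ j ∈ s.erase i, wt j := by
      rw [hK0, ← Finset.add_sum_erase s _ hi]; ring
    have hnn : 0 ≤ ∑ j ∈ s.erase i, wt j := Finset.sum_nonneg fun j _ => wt_nonneg j
    refine hf.eps_unit _ ?_ ?_ ?_
    · omega
    · rw [e]; exact Even.add (by decide) (Finset.even_sum _ fun j _ => heven j)
    · omega
  choose! u hu1 hu2 using hu
  set c : hf.toGradedInput.Gen →₀ R := ∑ i ∈ s, Finsupp.single i (t i • u i) with hc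
  have hcmem : c ∈ hf.toGradedInput.Coeffs K0 :=
    Submodule.sum_mem _ fun i hi =>
      hf.toGradedInput.single_mem_Coeffs i (Submodule.smul_mem _ _ (hu1 i hi))
  have hev : hf.toGradedInput.ev c = ∑ i ∈ s, t i • (u i • val i) := by
    rw [hc, map_sum]
    refine Finset.sum_congr rfl fun i _ => ?_
    rw [ev_single, smul_assoc]
  have hmemK0 : ∀ i ∈ s, u i • val i ∈ MM K0 := fun i hi =>
    h.MM_cast (by ring) (hf.smul_mem _ _ _ (hu1 i hi) _ (val_mem i))
  have hL : L (hf.toGradedInput.ev c) = 0 := by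
    rw [hev, hf.L_sum s _ K0 fun i hi => Submodule.smul_mem _ _ (hmemK0 i hi), ← hsum]
    refine Finset.sum_congr rfl fun i hi => ?_
    rw [hf.L_smul K0 _ (hmemK0 i hi), hf.L_rsmul _ _ _ (hu1 i hi) _ (val_mem i), hu2 i hi,
      one_smul]
  obtain ⟨w', hw', hw'e⟩ := hf.L_ker K0 _ (h.ev_mem hcmem) hL
  obtain ⟨b', hb', rfl⟩ := (hf.toGradedInput.main (K0 - 12)).1 w' hw'
  have hdb' : d • b' ∈ hf.toGradedInput.Coeffs K0 := by
    have := hf.toGradedInput.smul_mem_Coeffs hf.d_mem hb'
    rwa [show (12 : ℤ) + (K0 - 12) = K0 by ring] at this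
  have hcd : c = d • b' := by
    have := (hf.toGradedInput.main K0).2 (c - d • b') (sub_mem hcmem hdb')
      (by rw [map_sub, map_smul, hw'e, sub_self])
    exact sub_eq_zero.1 this
  have hci0 : c i0 = t i0 • u i0 := by
    rw [hc, Finsupp.finsetSum_apply]
    simp only [Finsupp.single_apply]
    rw [Finset.sum_ite_eq' s i0, if_pos hi0]
  by_contra ht
  have h1 : u i0 = d * ((t i0)⁻¹ • b' i0) := by
    have h2 : t i0 • u i0 = d * b' i0 := by
      rw [← hci0, hcd, Finsupp.smul_apply, smul_eq_mul]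
    rw [mul_smul_comm, ← h2, smul_smul, inv_mul_cancel₀ ht, one_smul]
  have h3 := hf.eps_d _ ((t i0)⁻¹ • b' i0) (Submodule.smul_mem _ _ (hb' i0))
  rw [← h1, hu2 i0 hi0] at h3
  exact one_ne_zero h3

open GradedInput in
/-- **Existence of a finite homogeneous basis.** -/
theorem exists_basis [FiniteDimensional K V] (hf : FreeInput x y d ε RR MM L) :
    ∃ (n : ℕ) (wt' : Fin n → ℤ) (gen : Fin n → W), (∀ j, gen j ∈ MM (wt' j)) ∧
      (∀ (k : ℤ) (w : W), w ∈ MM k →
        ∃ G : Fin n → R, (∀ j, G j ∈ RR (k - wt' j)) ∧ w = ∑ j, G j • gen j) ∧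
      (∀ (k : ℤ) (G : Fin n → R), (∀ j, G j ∈ RR (k - wt' j)) →
        ∑ j, G j • gen j = 0 → ∀ j, G j = 0) := by
  classical
  have hfin : Finite hf.toGradedInput.Gen := hf.L_indep.finite
  let _ : Fintype hf.toGradedInput.Gen := Fintype.ofFinite _
  let e := Finite.equivFin hf.toGradedInput.Gen
  have hev : ∀ c : hf.toGradedInput.Gen →₀ R,
      hf.toGradedInput.ev c = ∑ j, c (e.symm j) • val (e.symm j) := by
    intro c
    rw [Equiv.sum_comp e.symm (fun i => c i • val i), ev, Finsupp.linearCombination_apply,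
      c.sum_fintype (fun i r => r • val i) fun i => zero_smul _ _]
  refine ⟨Nat.card hf.toGradedInput.Gen, fun j => wt (e.symm j), fun j => val (e.symm j),
    fun j => val_mem _, ?_, ?_⟩
  · intro k w hw
    obtain ⟨c, hc, rfl⟩ := (hf.toGradedInput.main k).1 w hw
    exact ⟨fun j => c (e.symm j), fun j => hc _, hev c⟩
  · intro k G hG hsum j
    let c : hf.toGradedInput.Gen →₀ R := Finsupp.equivFunOnFinite.symm fun i => G (e i)
    have hci : ∀ i, c i = G (e i) := fun i => rfl
    have hc : c ∈ hf.toGradedInput.Coeffs k := by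
      intro i
      have := hG (e i)
      simp only [Equiv.symm_apply_apply] at this
      rw [hci]; exact this
    have h0 : hf.toGradedInput.ev c = 0 := by
      rw [hev, ← hsum]
      refine Finset.sum_congr rfl fun j _ => ?_
      rw [hci, e.apply_symm_apply]
    have := (hf.toGradedInput.main k).2 c hc h0
    have h1 : c (e.symm j) = 0 := by rw [this, Finsupp.zero_apply]
    rwa [hci, e.apply_symm_apply] at h1

/-- multiplication of a fixed vector by ring elements, as a `K`-linear map -/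
def smulR (w : W) : R →ₗ[K] W where
  toFun r := r • w
  map_add' r r' := add_smul r r' w
  map_smul' c r := by
    simp only [RingHom.id_apply]
    exact smul_assoc c r w

/-- The graded pieces are finite dimensional when those of the coefficient ring are. -/
theorem finiteDimensional_MM [FiniteDimensional K V] (hf : FreeInput x y d ε RR MM L)
    (hRR : ∀ m, FiniteDimensional K (RR m)) (k : ℤ) : FiniteDimensional K (MM k) := by
  obtain ⟨n, wt', gen, _, hspan, _⟩ := hf.exists_basis
  have hle : MM k ≤ ⨆ j : Fin n, (RR (k - wt' j)).map (smulR (K := K) (gen j)) := by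
    intro w hw
    obtain ⟨G, hG, rfl⟩ := hspan k w hw
    refine Submodule.sum_mem _ fun j _ => ?_
    exact Submodule.mem_iSup_of_mem j ⟨G j, hG j, rfl⟩
  exact Submodule.finiteDimensional_of_le hle

end FreeInput

end Fermat.Agent.S20.H33.Free
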