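import Mathlib
import Fermat.Agent.S20.Defs2
import Fermat.Agent.S20.H33_Free

set_option autoImplicit false

/-!
# FREE : homogeneous bases of graded families of tuples (instantiation of `H33_Free`)

`TupleInput M L` collects the facts about a graded family `M` of `X`-tuples of functions
(think `VMod X` or `VCusp X`) and a leading-term map `L` (think `Lmap h`, `Lmap' h`) which are
needed for the existence of a finite homogeneous basis over level one forms.
-/

open UpperHalfPlane ModularForm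
open scoped MatrixGroups ModularForm Manifold

noncomputable section

namespace Fermat.Agent.S20.H33

open Fermat.Agent.S20 Fermat.Agent.S20.Skel

variable {X : Type} [Fintype X] [MulAction SL(2, ℤ) X]

theorem smulV_eq_smul (f : ℍ → ℂ) (F : X → ℍ → ℂ) : smulV f F = f • F := rfl

/-- the hypotheses on a graded family `M` of tuples and a leading-term map `L` -/
structure TupleInput (M : ℤ → Submodule ℂ (X → ℍ → ℂ)) (L : (X → ℍ → ℂ) → X → ℂ) : Prop where
  smulV_mem : ∀ (a b : ℤ) (f : ℍ → ℂ), f ∈ LvlOne a → ∀ F ∈ M b, smulV f F ∈ M (a + b)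
  neg : ∀ k : ℤ, k < 0 → M k = ⊥
  odd : ∀ k : ℤ, Odd k → M k = ⊥
  reg : ∀ (k : ℤ), ∀ F ∈ M k, ∀ G ∈ M (k + 2), smulV E6 F = smulV E4 G →
    ∃ F' ∈ M (k - 4), F = smulV E4 F'
  L_add : ∀ (k : ℤ), ∀ F ∈ M k, ∀ G ∈ M k, L (F + G) = L F + L G
  L_smul : ∀ (k : ℤ), ∀ F ∈ M k, ∀ c : ℂ, L (c • F) = c • L F
  L_smulV : ∀ (a b : ℤ) (f : ℍ → ℂ), f ∈ LvlOne a → ∀ F ∈ M b, L (smulV f F) = vInf f • L F
  L_ker : ∀ (k : ℤ), ∀ F ∈ M k, L F = 0 → ∃ G ∈ M (k - 12), F = smulV Dl G

theorem vInf_one : vInf (1 : ℍ → ℂ) = 1 :=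
  vInf_eq_of_tendsto tendsto_const_nhds

theorem vInf_pow {a : ℤ} {f : ℍ → ℂ} (hf : f ∈ LvlOne a) (n : ℕ) :
    vInf (f ^ n) = vInf f ^ n := by
  induction n with
  | zero => simpa using vInf_one
  | succ n ih =>
    rw [pow_succ, LvlOne.vInf_mul (LvlOne.pow_mem hf n) hf, ih, pow_succ]

theorem exists_unit (m : ℤ) (h0 : 0 ≤ m) (hev : Even m) (h2 : m ≠ 2) :
    ∃ u ∈ LvlOne m, vInf u = 1 := by
  obtain ⟨a, b, hab⟩ : ∃ a b : ℕ, m = 4 * (a : ℤ) + 6 * (b : ℤ) := by
    obtain ⟨t, ht⟩ := hev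
    rcases Int.emod_two_eq_zero_or_one t with h | h
    · exact ⟨(t / 2).toNat, 0, by omega⟩
    · exact ⟨((t - 3) / 2).toNat, 1, by omega⟩
  refine ⟨E4 ^ a * E6 ^ b, hab ▸ LvlOne.monomial_mem a b, ?_⟩
  rw [LvlOne.vInf_mul (LvlOne.pow_mem E4_mem a) (LvlOne.pow_mem E6_mem b), vInf_pow E4_mem,
    vInf_pow E6_mem, vInf_E4, vInf_E6, one_pow, one_pow, one_mul]

variable {M : ℤ → Submodule ℂ (X → ℍ → ℂ)} {L : (X → ℍ → ℂ) → X → ℂ}

theorem TupleInput.freeInput (hM : TupleInput M L) :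
    Free.FreeInput (K := ℂ) (R := ℍ → ℂ) (W := X → ℍ → ℂ) (V := X → ℂ)
      E4 E6 Dl vInf LvlOne M L where
  one_mem := LvlOne.one_mem
  RR_zero := by
    intro r hr
    obtain ⟨c, rfl⟩ := LvlOne.zero_eq_const hr
    exact ⟨c, rfl⟩
  RR_neg := fun m hm => LvlOne.eq_bot_of_neg hm
  x_mem := E4_mem
  y_mem := E6_mem
  mul_mem := fun a b r hr r' hr' => LvlOne.mul_mem hr hr'
  RR_dec := fun m hm r hr => LvlOne.exists_decomp hm hr
  smul_mem := fun a b r hr w hw => hM.smulV_mem a b r hr w hw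
  neg := hM.neg
  odd := hM.odd
  reg := hM.reg
  d_mem := Dl_mem
  d_inj := by
    intro w hw
    funext x z
    have := congrFun (congrFun hw x) z
    simp only [Pi.smul_apply, smul_eq_mul, Pi.mul_apply, Pi.zero_apply] at this
    exact (mul_eq_zero.1 this).resolve_left (Dl_ne_zero z)
  L_add := hM.L_add
  L_smul := hM.L_smul
  L_rsmul := hM.L_smulV
  L_ker := hM.L_ker
  eps_x := vInf_E4
  eps_unit := exists_unit
  eps_d := by
    intro m r hr
    rw [LvlOne.vInf_mul Dl_mem hr, vInf_Dl, zero_mul]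

/-- **FREE**: a graded family of tuples satisfying `TupleInput` has a homogeneous basis. -/
theorem TupleInput.exists_homBasis (hM : TupleInput M L) : Nonempty (HomBasis M) := by
  obtain ⟨n, wt', gen, hmem, hspan, hindep⟩ := hM.freeInput.exists_basis
  exact ⟨⟨n, wt', gen, hmem, hspan, hindep⟩⟩

/-- the graded pieces are finite dimensional -/
theorem TupleInput.finiteDimensional (hM : TupleInput M L) (k : ℤ) :
    FiniteDimensional ℂ (M k) :=
  hM.freeInput.finiteDimensional_MM (fun m => LvlOne.finiteDimensional m) k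

end Fermat.Agent.S20.H33
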