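import Mathlib
import Fermat.Agent.S20.SkelPS
import Fermat.Agent.S20.H33_FreeInst

set_option autoImplicit false

/-!
# FREE : homogeneous bases of `VMod X` and `VCusp X`, given the CUSP facts

`CuspFacts X h` is the list of the eight statements of the CUSP package (Skeleton2) about the
leading-term maps `Lmap h` and `Lmap' h` which FREE uses.  Everything else (PSREG, L1) is taken
from the landed files.
-/

open UpperHalfPlane ModularForm
open scoped MatrixGroups ModularForm Manifold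

noncomputable section

namespace Fermat.Agent.S20.H33

open Fermat.Agent.S20 Fermat.Agent.S20.Skel

variable {X : Type} [Fintype X] [MulAction SL(2, ℤ) X]

/-- the statements of the CUSP package used by FREE -/
structure CuspFacts (X : Type) [Fintype X] [MulAction SL(2, ℤ) X] (h : ℕ) : Prop where
  Lmap_add : ∀ {k : ℤ} {F G : X → ℍ → ℂ}, F ∈ VMod X k → G ∈ VMod X k →
    Lmap h (F + G) = Lmap h F + Lmap h G
  Lmap_smul : ∀ {k : ℤ} {F : X → ℍ → ℂ}, F ∈ VMod X k → ∀ c : ℂ, Lmap h (c • F) = c • Lmap h F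
  Lmap_smulV : ∀ {a b : ℤ} {f : ℍ → ℂ} {F : X → ℍ → ℂ}, f ∈ LvlOne a → F ∈ VMod X b →
    Lmap h (smulV f F) = Skel.vInf f • Lmap h F
  Lmap_eq_zero : ∀ {k : ℤ} {F : X → ℍ → ℂ}, F ∈ VMod X k → Lmap h F = 0 →
    ∃ G ∈ VMod X (k - 12), F = smulV Skel.Dl G
  Lmap'_add : ∀ {k : ℤ} {F G : X → ℍ → ℂ}, F ∈ VCusp X k → G ∈ VCusp X k →
    Lmap' h (F + G) = Lmap' h F + Lmap' h G
  Lmap'_smul : ∀ {k : ℤ} {F : X → ℍ → ℂ}, F ∈ VCusp X k → ∀ c : ℂ,
    Lmap' h (c • F) = c • Lmap' h F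
  Lmap'_smulV : ∀ {a b : ℤ} {f : ℍ → ℂ} {F : X → ℍ → ℂ}, f ∈ LvlOne a → F ∈ VCusp X b →
    Lmap' h (smulV f F) = Skel.vInf f • Lmap' h F
  Lmap'_eq_zero : ∀ {k : ℤ} {F : X → ℍ → ℂ}, F ∈ VCusp X k → Lmap' h F = 0 →
    ∃ G ∈ VCusp X (k - 12), F = smulV Skel.Dl G

theorem tupleInput_VMod (hX : GoodX X) {h : ℕ} (hC : CuspFacts X h) :
    TupleInput (VMod X) (Lmap h) where
  smulV_mem := fun _ _ _ hf _ hF => Skel.VMod.smulV_mem hf hF
  neg := fun _ hk => by have := hX.trans; exact Skel.VMod.eq_bot_of_neg hk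
  odd := fun _ hk => Skel.VMod.eq_bot_of_odd hX.neg hk
  reg := fun _ _ hF _ hG h => Skel.VMod.reg hF hG h
  L_add := fun _ _ hF _ hG => hC.Lmap_add hF hG
  L_smul := fun _ _ hF c => hC.Lmap_smul hF c
  L_smulV := fun _ _ _ hf _ hF => hC.Lmap_smulV hf hF
  L_ker := fun _ _ hF h0 => hC.Lmap_eq_zero hF h0

theorem tupleInput_VCusp (hX : GoodX X) {h : ℕ} (hC : CuspFacts X h) :
    TupleInput (VCusp X) (Lmap' h) where
  smulV_mem := fun _ _ _ hf _ hF => Skel.VCusp.smulV_mem hf hF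
  neg := fun k hk => by
    have := hX.trans
    exact le_bot_iff.1 ((Skel.VCusp.le_VMod k).trans (Skel.VMod.eq_bot_of_neg hk).le)
  odd := fun k hk =>
    le_bot_iff.1 ((Skel.VCusp.le_VMod k).trans (Skel.VMod.eq_bot_of_odd hX.neg hk).le)
  reg := fun _ _ hF _ hG h => Skel.VCusp.reg hF hG h
  L_add := fun _ _ hF _ hG => hC.Lmap'_add hF hG
  L_smul := fun _ _ hF c => hC.Lmap'_smul hF c
  L_smulV := fun _ _ _ hf _ hF => hC.Lmap'_smulV hf hF
  L_ker := fun _ _ hF h0 => hC.Lmap'_eq_zero hF h0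

theorem finiteDimensional_VMod_of (hX : GoodX X) {h : ℕ} (hC : CuspFacts X h) (k : ℤ) :
    FiniteDimensional ℂ (VMod X k) :=
  (tupleInput_VMod hX hC).finiteDimensional k

theorem finiteDimensional_VCusp_of (hX : GoodX X) {h : ℕ} (hC : CuspFacts X h) (k : ℤ) :
    FiniteDimensional ℂ (VCusp X k) :=
  (tupleInput_VCusp hX hC).finiteDimensional k

theorem exists_homBasis_VMod_of (hX : GoodX X) {h : ℕ} (hC : CuspFacts X h) :
    Nonempty (HomBasis (VMod X)) :=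
  (tupleInput_VMod hX hC).exists_homBasis

theorem exists_homBasis_VCusp_of (hX : GoodX X) {h : ℕ} (hC : CuspFacts X h) :
    Nonempty (HomBasis (VCusp X)) :=
  (tupleInput_VCusp hX hC).exists_homBasis

end Fermat.Agent.S20.H33
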