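import Mathlib
import Fermat.Agent.S20.Defs2

/-!
# S20, package CUSP: expansions at the cusp of vector valued modular forms

(helper99)  Everything in section CUSP of the S20 skeleton.
-/

set_option autoImplicit false

open UpperHalfPlane ModularForm
open scoped MatrixGroups ModularForm Manifold

noncomputable section

namespace Fermat.Agent.S20.H99

open Fermat.Agent.S20 Fermat.Agent.S20.Skel

local notation "𝕢" => Function.Periodic.qParam

/-! ## Generalities on translations and `q`-expansions -/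

/-- slash by `T ^ n` is translation by `n` -/
theorem slash_T_pow_apply (k : ℤ) (f : ℍ → ℂ) (n : ℕ) (z : ℍ) :
    (f ∣[k] (ModularGroup.T ^ n)) z = f (((n : ℤ) : ℝ) +ᵥ z) := by
  rw [SL_slash_apply]
  have h1 : ModularGroup.T ^ n • z = ((n : ℤ) : ℝ) +ᵥ z := by
    have := modular_T_zpow_smul z (n : ℤ)
    simpa using this
  rw [h1]
  have h3 := ModularGroup.coe_T_zpow (n : ℤ)
  simp only [zpow_natCast] at h3
  have h2 : denom (Matrix.SpecialLinearGroup.toGL ((Matrix.SpecialLinearGroup.map (Int.castRingHom ℝ))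
      (ModularGroup.T ^ n))) (z : ℂ) = 1 := by
    have := ModularGroup.denom_apply (ModularGroup.T ^ n) z
    rw [this, h3]
    simp
  rw [h2]
  simp

theorem slash_T_apply (k : ℤ) (f : ℍ → ℂ) (z : ℍ) :
    (f ∣[k] ModularGroup.T) z = f ((1 : ℝ) +ᵥ z) := by
  have := slash_T_pow_apply k f 1 z
  simpa using this

/-- translation of a function on the upper half plane by a real number, in terms of `ofComplex` -/
theorem comp_ofComplex_add_real (f : ℍ → ℂ) (c : ℝ) (w : ℂ) (hw : 0 < w.im) :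
    f (ofComplex (w + c)) = f (c +ᵥ ofComplex w) := by
  have hw' : 0 < (w + c).im := by simpa using hw
  congr 1
  ext
  rw [ofComplex_apply_of_im_pos hw', coe_vadd, ofComplex_apply_of_im_pos hw]
  simp [add_comm]

/-- a function invariant under translation by `c` gives a `c`-periodic function on `ℂ` -/
theorem periodic_of_vadd (f : ℍ → ℂ) (c : ℝ) (hf : ∀ z : ℍ, f (c +ᵥ z) = f z) :
    Function.Periodic (f ∘ ofComplex) c := by
  intro w
  by_cases hw : 0 < w.im
  · simp only [Function.comp_apply]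
    rw [comp_ofComplex_add_real f c w hw, hf]
  · have hw1 : w.im ≤ 0 := not_lt.mp hw
    have hw2 : (w + c).im ≤ 0 := by simpa using hw1
    simp [ofComplex_apply_of_im_nonpos hw2, ofComplex_apply_of_im_nonpos hw1]

/-- uniqueness of `q`-expansion coefficients, for plain functions -/
theorem qExpansion_coeff_unique' {f : ℍ → ℂ} {h : ℝ} {c : ℕ → ℂ} (hh : 0 < h)
    (hfanalytic : AnalyticAt ℂ (cuspFunction h f) 0)
    (hf : ∀ τ : ℍ, HasSum (fun m ↦ c m • 𝕢 h τ ^ m) (f τ)) (m : ℕ) :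
    c m = (qExpansion h f).coeff m := by
  have h1 := (hasFPowerSeriesOnBall_cuspFunction hh hfanalytic hf).hasFPowerSeriesAt
  have h2 : HasFPowerSeriesAt (cuspFunction h f)
      (FormalMultilinearSeries.ofScalars ℂ fun m ↦ (qExpansion h f).coeff m) 0 := by
    simpa [qExpansion_coeff, div_eq_mul_inv, mul_comm] using hfanalytic.hasFPowerSeriesAt
  simpa [FormalMultilinearSeries.coeff_ofScalars] using
    congr_arg (FormalMultilinearSeries.coeff · m) (h1.eq_formalMultilinearSeries h2)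

/-- the root of unity `exp (2 π i n / h)` -/
def zetaPow (h : ℕ) (n : ℕ) : ℂ := Complex.exp (2 * Real.pi * Complex.I * n / h)

theorem zetaPow_eq_pow (h n : ℕ) :
    zetaPow h n = Complex.exp (2 * Real.pi * Complex.I / h) ^ n := by
  rw [zetaPow, ← Complex.exp_nat_mul]
  congr 1
  ring

theorem zetaPow_add (h n m : ℕ) : zetaPow h (n + m) = zetaPow h n * zetaPow h m := by
  rw [zetaPow_eq_pow, zetaPow_eq_pow, zetaPow_eq_pow, pow_add]

theorem zetaPow_eq_one_iff {h : ℕ} (hh : 0 < h) (n : ℕ) : zetaPow h n = 1 ↔ h ∣ n := by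
  rw [zetaPow_eq_pow]
  exact (Complex.isPrimitiveRoot_exp h hh.ne').pow_eq_one_iff_dvd n

theorem zetaPow_ne_zero (h n : ℕ) : zetaPow h n ≠ 0 := Complex.exp_ne_zero _

/-- `n ↦ ζ_h ^ n` is injective on every set of natural numbers whose differences are `< h` -/
theorem zetaPow_injOn {h : ℕ} (hh : 0 < h) (S : Set ℕ)
    (hS : ∀ a ∈ S, ∀ b ∈ S, a ≤ b → b - a < h) : Set.InjOn (zetaPow h) S := by
  have key : ∀ a ∈ S, ∀ b ∈ S, a ≤ b → zetaPow h a = zetaPow h b → a = b := by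
    intro a ha b hb hab heq
    have h1 : zetaPow h (b - a) = 1 := by
      have h2 : zetaPow h b = zetaPow h a * zetaPow h (b - a) := by
        rw [← zetaPow_add, Nat.add_sub_cancel' hab]
      rw [← heq] at h2
      have h3 := zetaPow_ne_zero h a
      field_simp at h2
      exact h2.symm
    have h4 := (zetaPow_eq_one_iff hh _).mp h1
    have h5 := hS a ha b hb hab
    have h6 : b - a = 0 := Nat.eq_zero_of_dvd_of_lt h4 h5
    omega
  intro a ha b hb heq
  rcases le_total a b with hab | hab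
  · exact key a ha b hb hab heq
  · exact (key b hb a ha hab heq.symm).symm

theorem qParam_add_one (h : ℕ) (z : ℂ) :
    𝕢 (h : ℝ) (1 + z) = zetaPow h 1 * 𝕢 (h : ℝ) z := by
  unfold Function.Periodic.qParam zetaPow
  rw [← Complex.exp_add]
  congr 1
  push_cast
  ring

theorem qParam_vadd_one (h : ℕ) (τ : ℍ) :
    𝕢 (h : ℝ) (((1 : ℝ) +ᵥ τ : ℍ) : ℂ) = zetaPow h 1 * 𝕢 (h : ℝ) τ := by
  rw [coe_vadd]
  exact_mod_cast qParam_add_one h τ

/-- the `q`-expansion of the translate by `1` of an `h`-periodic function -/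
theorem qExpansion_shift {f g : ℍ → ℂ} {h : ℕ} (hh : 0 < h)
    (hper : Function.Periodic (f ∘ ofComplex) (h : ℝ)) (hhol : MDiff f)
    (hbdd : IsBoundedAtImInfty f) (hg : ∀ z, g z = f ((1 : ℝ) +ᵥ z))
    (hgan : AnalyticAt ℂ (cuspFunction (h : ℝ) g) 0) (n : ℕ) :
    (qExpansion (h : ℝ) g).coeff n = zetaPow h n * (qExpansion (h : ℝ) f).coeff n := by
  have hh' : (0 : ℝ) < (h : ℝ) := by exact_mod_cast hh
  have key : ∀ τ : ℍ, HasSum (fun m : ℕ => (zetaPow h m * (qExpansion (h : ℝ) f).coeff m) •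
      𝕢 (h : ℝ) τ ^ m) (g τ) := by
    intro τ
    have h1 := hasSum_qExpansion hh' hper hhol hbdd ((1 : ℝ) +ᵥ τ)
    rw [hg τ]
    have h2 : ∀ m : ℕ, (zetaPow h m * (qExpansion (h : ℝ) f).coeff m) • 𝕢 (h : ℝ) τ ^ m
        = (qExpansion (h : ℝ) f).coeff m • 𝕢 (h : ℝ) (((1 : ℝ) +ᵥ τ : ℍ) : ℂ) ^ m := by
      intro m
      rw [qParam_vadd_one, mul_pow, zetaPow_eq_pow h m, zetaPow_eq_pow h 1, pow_one]
      simp only [smul_eq_mul]
      ring
    simp only [h2]
    exact h1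
  exact (qExpansion_coeff_unique' hh' hgan key n).symm

/-! ## Eigenvectors for distinct eigenvalues -/

theorem eq_zero_of_sum_eigen {V : Type*} [AddCommGroup V] [Module ℂ V] (U : Module.End ℂ V)
    (S : Finset ℕ) (μ : ℕ → ℂ) (hμ : Set.InjOn μ (S : Set ℕ)) (v : ℕ → V)
    (hv : ∀ n ∈ S, U (v n) = μ n • v n) (hsum : ∑ n ∈ S, v n = 0) : ∀ n ∈ S, v n = 0 := by
  classical
  by_contra hne
  push Not at hne
  obtain ⟨n₀, hn₀, hvn₀⟩ := hne
  set S' : Finset ℕ := S.filter (fun n => v n ≠ 0) with hS'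
  have hmem : ∀ n : S', (n : ℕ) ∈ S ∧ v n ≠ 0 := fun n => Finset.mem_filter.mp n.2
  have hli : LinearIndependent ℂ (fun n : S' => v n) := by
    apply Module.End.eigenvectors_linearIndependent' U (fun n : S' => μ n)
    · intro a b hab
      exact Subtype.ext (hμ (hmem a).1 (hmem b).1 hab)
    · intro n
      exact ⟨Module.End.mem_eigenspace_iff.mpr (hv n (hmem n).1), (hmem n).2⟩
  have hsum' : ∑ n : S', v n = 0 := by
    rw [← hsum, Finset.sum_coe_sort S' (fun n => v n), hS', Finset.sum_filter_ne_zero]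
  have h1 := Fintype.linearIndependent_iff.mp hli (fun _ => 1) (by simpa using hsum')
  exact one_ne_zero (h1 ⟨n₀, Finset.mem_filter.mpr ⟨hn₀, hvn₀⟩⟩)

/-! ## Components of vector valued forms -/

section basics

variable {X : Type} [MulAction SL(2, ℤ) X] {h : ℕ}

theorem exists_Tper (X : Type) [Fintype X] [MulAction SL(2, ℤ) X] : ∃ h, Tper X h := by
  classical
  let σ : Equiv.Perm X := MulAction.toPermHom SL(2, ℤ) X ModularGroup.T
  refine ⟨orderOf σ, orderOf_pos σ, fun x => ?_⟩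
  have h1 : (MulAction.toPermHom SL(2, ℤ) X (ModularGroup.T ^ orderOf σ)) = 1 := by
    rw [map_pow]; exact pow_orderOf_eq_one σ
  have h2 := congrArg (fun e : Equiv.Perm X => e x) h1
  simpa using h2

theorem Tper.pos (hh : Tper X h) : (0 : ℝ) < (h : ℝ) := by exact_mod_cast hh.1

theorem VMod.vadd_nat {k : ℤ} {F : X → ℍ → ℂ} (hh : Tper X h) (hF : F ∈ VMod X k) (x : X)
    (z : ℍ) : F x ((h : ℝ) +ᵥ z) = F x z := by
  have h1 := hF.2.1 (ModularGroup.T ^ h) x
  have h2 : (ModularGroup.T ^ h)⁻¹ • x = x := by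
    rw [inv_smul_eq_iff, hh.2 x]
  rw [h2] at h1
  have h3 := congrFun h1 z
  rw [slash_T_pow_apply] at h3
  simpa using h3

theorem VMod.periodic {k : ℤ} {F : X → ℍ → ℂ} (hh : Tper X h) (hF : F ∈ VMod X k) (x : X) :
    Function.Periodic (F x ∘ ofComplex) (h : ℝ) :=
  periodic_of_vadd _ _ (VMod.vadd_nat hh hF x)

theorem VMod.analyticAt {k : ℤ} {F : X → ℍ → ℂ} (hh : Tper X h) (hF : F ∈ VMod X k) (x : X) :
    AnalyticAt ℂ (cuspFunction (h : ℝ) (F x)) 0 :=
  analyticAt_cuspFunction_zero (Tper.pos hh) (VMod.periodic hh hF x) (hF.1 x) (hF.2.2 x)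

theorem VMod.hasSum {k : ℤ} {F : X → ℍ → ℂ} (hh : Tper X h) (hF : F ∈ VMod X k) (x : X)
    (τ : ℍ) : HasSum (fun m : ℕ => coeffVec h F m x • 𝕢 (h : ℝ) τ ^ m) (F x τ) :=
  hasSum_qExpansion (Tper.pos hh) (VMod.periodic hh hF x) (hF.1 x) (hF.2.2 x) τ

theorem VMod.shift {k : ℤ} {F : X → ℍ → ℂ} (hF : F ∈ VMod X k) (x : X) (z : ℍ) :
    F (ModularGroup.T⁻¹ • x) z = F x ((1 : ℝ) +ᵥ z) := by
  have h1 := hF.2.1 ModularGroup.T x
  have h3 := congrFun h1 z
  rw [slash_T_apply] at h3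
  exact h3.symm

/-- equivariance of coefficient vectors under `T` -/
theorem coeffVec_T' {k : ℤ} {F : X → ℍ → ℂ} (hh : Tper X h) (hF : F ∈ VMod X k) (n : ℕ)
    (x : X) : coeffVec h F n (ModularGroup.T⁻¹ • x) = zetaPow h n * coeffVec h F n x :=
  qExpansion_shift hh.1 (VMod.periodic hh hF x) (hF.1 x) (hF.2.2 x) (VMod.shift hF x)
    (VMod.analyticAt hh hF _) n

theorem coeffVec_T {k : ℤ} {F : X → ℍ → ℂ} (hh : Tper X h) (hF : F ∈ VMod X k) (n : ℕ)
    (x : X) : coeffVec h F n (ModularGroup.T⁻¹ • x) =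
      Complex.exp (2 * Real.pi * Complex.I * n / h) * coeffVec h F n x :=
  coeffVec_T' hh hF n x

/-- the shift operator on `X → ℂ` -/
def shiftOp (X : Type) [MulAction SL(2, ℤ) X] : Module.End ℂ (X → ℂ) :=
  LinearMap.funLeft ℂ ℂ (fun x : X => ModularGroup.T⁻¹ • x)

theorem shiftOp_coeffVec {k : ℤ} {F : X → ℍ → ℂ} (hh : Tper X h) (hF : F ∈ VMod X k) (n : ℕ) :
    shiftOp X (coeffVec h F n) = zetaPow h n • coeffVec h F n := by
  funext x
  simp only [shiftOp, LinearMap.funLeft_apply, Pi.smul_apply, smul_eq_mul]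
  exact coeffVec_T' hh hF n x

/-- if a sum of coefficient vectors over a "short" set of indices vanishes, all of them vanish -/
theorem coeffVec_eq_zero_of_sum {k : ℤ} {F : X → ℍ → ℂ} (hh : Tper X h) (hF : F ∈ VMod X k)
    (S : Finset ℕ) (hS : ∀ a ∈ S, ∀ b ∈ S, a ≤ b → b - a < h)
    (hsum : ∑ n ∈ S, coeffVec h F n = 0) : ∀ n ∈ S, coeffVec h F n = 0 :=
  eq_zero_of_sum_eigen (shiftOp X) S (zetaPow h) (zetaPow_injOn hh.1 _ hS) _
    (fun n _ => shiftOp_coeffVec hh hF n) hsum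

theorem coeffVec_eq_zero_of_Lmap {k : ℤ} {F : X → ℍ → ℂ} (hh : Tper X h) (hF : F ∈ VMod X k)
    (h0 : Lmap h F = 0) : ∀ n < h, coeffVec h F n = 0 := by
  intro n hn
  refine coeffVec_eq_zero_of_sum hh hF (Finset.range h) ?_ h0 n (Finset.mem_range.mpr hn)
  intro a _ b hb _
  have := Finset.mem_range.mp hb
  omega

theorem coeffVec_eq_zero_of_Lmap' {k : ℤ} {F : X → ℍ → ℂ} (hh : Tper X h) (hF : F ∈ VMod X k)
    (h0 : Lmap' h F = 0) : ∀ n, 1 ≤ n → n ≤ h → coeffVec h F n = 0 := by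
  intro n hn1 hn2
  refine coeffVec_eq_zero_of_sum hh hF (Finset.Icc 1 h) ?_ h0 n (Finset.mem_Icc.mpr ⟨hn1, hn2⟩)
  intro a ha b hb _
  have := Finset.mem_Icc.mp hb
  have := Finset.mem_Icc.mp ha
  omega

end basics

section cusp

variable {X : Type} [MulAction SL(2, ℤ) X] {h : ℕ}

theorem VCusp.mem_VMod {k : ℤ} {F : X → ℍ → ℂ} (hF : F ∈ VCusp X k) : F ∈ VMod X k :=
  ⟨hF.1, hF.2.1, fun x => (hF.2.2 x).isBoundedAtImInfty⟩

theorem coeffVec_zero_eq {k : ℤ} {F : X → ℍ → ℂ} (hh : Tper X h) (hF : F ∈ VMod X k) (x : X) :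
    coeffVec h F 0 x = valueAtInfty (F x) :=
  qExpansion_coeff_zero (Tper.pos hh) (VMod.analyticAt hh hF x) (VMod.periodic hh hF x)

theorem VMod.tendsto {k : ℤ} {F : X → ℍ → ℂ} (hh : Tper X h) (hF : F ∈ VMod X k) (x : X) :
    Filter.Tendsto (F x) atImInfty (nhds (coeffVec h F 0 x)) := by
  have h1 := (VMod.analyticAt hh hF x).continuousAt.tendsto.comp
    (qParam_tendsto_atImInfty (Tper.pos hh))
  have h2 : (cuspFunction (h : ℝ) (F x) ∘ fun τ : ℍ => 𝕢 (h : ℝ) τ) = F x := by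
    funext τ
    exact eq_cuspFunction τ (Tper.pos hh).ne' (VMod.periodic hh hF x)
  rw [h2, cuspFunction_apply_zero (Tper.pos hh) (VMod.analyticAt hh hF x)
    (VMod.periodic hh hF x), ← coeffVec_zero_eq hh hF x] at h1
  exact h1

/-- cusp forms are the forms whose zeroth coefficient vector vanishes -/
theorem mem_VCusp_iff {k : ℤ} {F : X → ℍ → ℂ} (hh : Tper X h) (hF : F ∈ VMod X k) :
    F ∈ VCusp X k ↔ coeffVec h F 0 = 0 := by
  constructor
  · intro hc
    funext x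
    rw [coeffVec_zero_eq hh hF x]
    exact (hc.2.2 x).valueAtInfty_eq_zero
  · intro h0
    refine ⟨hF.1, hF.2.1, fun x => ?_⟩
    have h1 := VMod.tendsto hh hF x
    rw [h0] at h1
    exact h1

end cusp

section lvlone

theorem LvlOne.vadd_nat {a : ℤ} {f : ℍ → ℂ} (hf : f ∈ LvlOne a) (h : ℕ) (z : ℍ) :
    f ((h : ℝ) +ᵥ z) = f z := by
  have h1 := congrFun (hf.2.1 (ModularGroup.T ^ h)) z
  rw [slash_T_pow_apply] at h1
  simpa using h1

theorem LvlOne.vadd_one {a : ℤ} {f : ℍ → ℂ} (hf : f ∈ LvlOne a) (z : ℍ) :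
    f ((1 : ℝ) +ᵥ z) = f z := by
  have := LvlOne.vadd_nat hf 1 z
  simpa using this

theorem LvlOne.periodic {a : ℤ} {f : ℍ → ℂ} (hf : f ∈ LvlOne a) (h : ℕ) :
    Function.Periodic (f ∘ ofComplex) (h : ℝ) :=
  periodic_of_vadd _ _ (LvlOne.vadd_nat hf h)

theorem LvlOne.analyticAt {a : ℤ} {f : ℍ → ℂ} (hf : f ∈ LvlOne a) {h : ℕ} (hh : 0 < h) :
    AnalyticAt ℂ (cuspFunction (h : ℝ) f) 0 :=
  analyticAt_cuspFunction_zero (by exact_mod_cast hh) (LvlOne.periodic hf h) hf.1 hf.2.2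

/-- the `q_h`-expansion of a level one form only involves powers of `q_h ^ h` -/
theorem LvlOne.coeff_eq_zero {a : ℤ} {f : ℍ → ℂ} (hf : f ∈ LvlOne a) {h : ℕ} (hh : 0 < h)
    {n : ℕ} (hn : ¬ h ∣ n) : (qExpansion (h : ℝ) f).coeff n = 0 := by
  have h1 := qExpansion_shift hh (LvlOne.periodic hf h) hf.1 hf.2.2
    (fun z => (LvlOne.vadd_one hf z).symm) (LvlOne.analyticAt hf hh) n
  have h2 : zetaPow h n ≠ 1 := fun h3 => hn ((zetaPow_eq_one_iff hh n).mp h3)
  have h4 : (1 - zetaPow h n) * (qExpansion (h : ℝ) f).coeff n = 0 := by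
    rw [sub_mul, one_mul, ← h1, sub_self]
  rcases mul_eq_zero.mp h4 with h5 | h5
  · exact absurd (sub_eq_zero.mp h5).symm h2
  · exact h5

theorem LvlOne.coeff_zero {a : ℤ} {f : ℍ → ℂ} (hf : f ∈ LvlOne a) {h : ℕ} (hh : 0 < h) :
    (qExpansion (h : ℝ) f).coeff 0 = vInf f :=
  qExpansion_coeff_zero (by exact_mod_cast hh) (LvlOne.analyticAt hf hh) (LvlOne.periodic hf h)

end lvlone

section linear

variable {X : Type} [MulAction SL(2, ℤ) X] {h : ℕ}

theorem coeffVec_add {k : ℤ} {F G : X → ℍ → ℂ} (hh : Tper X h) (hF : F ∈ VMod X k)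
    (hG : G ∈ VMod X k) (n : ℕ) : coeffVec h (F + G) n = coeffVec h F n + coeffVec h G n := by
  funext x
  simp only [coeffVec, Pi.add_apply]
  rw [qExpansion_add (VMod.analyticAt hh hF x) (VMod.analyticAt hh hG x)]
  simp

theorem coeffVec_smul {k : ℤ} {F : X → ℍ → ℂ} (hh : Tper X h) (hF : F ∈ VMod X k) (c : ℂ)
    (n : ℕ) : coeffVec h (c • F) n = c • coeffVec h F n := by
  funext x
  simp only [coeffVec, Pi.smul_apply]
  rw [qExpansion_smul (VMod.analyticAt hh hF x)]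
  simp

theorem Lmap_add {k : ℤ} {F G : X → ℍ → ℂ} (hh : Tper X h) (hF : F ∈ VMod X k)
    (hG : G ∈ VMod X k) : Lmap h (F + G) = Lmap h F + Lmap h G := by
  simp only [Lmap, coeffVec_add hh hF hG, Finset.sum_add_distrib]

theorem Lmap_smul {k : ℤ} {F : X → ℍ → ℂ} (hh : Tper X h) (hF : F ∈ VMod X k) (c : ℂ) :
    Lmap h (c • F) = c • Lmap h F := by
  simp only [Lmap, coeffVec_smul hh hF, Finset.smul_sum]

theorem Lmap'_add {k : ℤ} {F G : X → ℍ → ℂ} (hh : Tper X h) (hF : F ∈ VCusp X k)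
    (hG : G ∈ VCusp X k) : Lmap' h (F + G) = Lmap' h F + Lmap' h G := by
  simp only [Lmap', coeffVec_add hh (VCusp.mem_VMod hF) (VCusp.mem_VMod hG),
    Finset.sum_add_distrib]

theorem Lmap'_smul {k : ℤ} {F : X → ℍ → ℂ} (hh : Tper X h) (hF : F ∈ VCusp X k) (c : ℂ) :
    Lmap' h (c • F) = c • Lmap' h F := by
  simp only [Lmap', coeffVec_smul hh (VCusp.mem_VMod hF), Finset.smul_sum]

/-- coefficients of a product of a level one form and a tuple -/
theorem coeffVec_smulV {a b : ℤ} {f : ℍ → ℂ} {F : X → ℍ → ℂ} (hh : Tper X h)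
    (hf : f ∈ LvlOne a) (hF : F ∈ VMod X b) (n : ℕ) (x : X) :
    coeffVec h (smulV f F) n x =
      ∑ p ∈ Finset.HasAntidiagonal.antidiagonal n, (qExpansion (h : ℝ) f).coeff p.1 * coeffVec h F p.2 x := by
  simp only [coeffVec, smulV]
  rw [qExpansion_mul (LvlOne.analyticAt hf hh.1) (VMod.analyticAt hh hF x), PowerSeries.coeff_mul]

/-- low coefficients of a product of a level one form and a tuple -/
theorem coeffVec_smulV_low {a b : ℤ} {f : ℍ → ℂ} {F : X → ℍ → ℂ} (hh : Tper X h)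
    (hf : f ∈ LvlOne a) (hF : F ∈ VMod X b) (n : ℕ) (x : X)
    (hn : n < h ∨ (n = h ∧ coeffVec h F 0 x = 0)) :
    coeffVec h (smulV f F) n x = vInf f * coeffVec h F n x := by
  rw [coeffVec_smulV hh hf hF, Finset.sum_eq_single (0, n)]
  · rw [LvlOne.coeff_zero hf hh.1]
  · rintro ⟨i, j⟩ hij hne
    have hij' : i + j = n := Finset.HasAntidiagonal.mem_antidiagonal.mp hij
    have hi0 : i ≠ 0 := by
      rintro rfl
      apply hne
      simp only [zero_add] at hij'
      rw [hij']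
    by_cases hdvd : h ∣ i
    · -- then `i = h = n` and `j = 0`
      have hle : h ≤ i := Nat.le_of_dvd (Nat.pos_of_ne_zero hi0) hdvd
      rcases hn with hn | ⟨hn, h0⟩
      · omega
      · have hj : j = 0 := by omega
        subst hj
        simp only [h0, mul_zero]
    · simp only [LvlOne.coeff_eq_zero hf hh.1 hdvd, zero_mul]
  · intro hnot
    exact absurd (Finset.HasAntidiagonal.mem_antidiagonal.mpr (zero_add n)) hnot

theorem Lmap_smulV {a b : ℤ} {f : ℍ → ℂ} {F : X → ℍ → ℂ} (hh : Tper X h) (hf : f ∈ LvlOne a)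
    (hF : F ∈ VMod X b) : Lmap h (smulV f F) = vInf f • Lmap h F := by
  funext x
  simp only [Lmap, Finset.sum_apply, Pi.smul_apply, smul_eq_mul, Finset.mul_sum]
  refine Finset.sum_congr rfl fun n hn => ?_
  exact coeffVec_smulV_low hh hf hF n x (Or.inl (Finset.mem_range.mp hn))

theorem Lmap'_smulV {a b : ℤ} {f : ℍ → ℂ} {F : X → ℍ → ℂ} (hh : Tper X h) (hf : f ∈ LvlOne a)
    (hF : F ∈ VCusp X b) : Lmap' h (smulV f F) = vInf f • Lmap' h F := by
  have hF' := VCusp.mem_VMod hF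
  have h0 : coeffVec h F 0 = 0 := (mem_VCusp_iff hh hF').mp hF
  funext x
  simp only [Lmap', Finset.sum_apply, Pi.smul_apply, smul_eq_mul, Finset.mul_sum]
  refine Finset.sum_congr rfl fun n hn => ?_
  have hn' := Finset.mem_Icc.mp hn
  refine coeffVec_smulV_low hh hf hF' n x ?_
  rcases Nat.lt_or_ge n h with h1 | h1
  · exact Or.inl h1
  · exact Or.inr ⟨le_antisymm hn'.2 h1, congrFun h0 x⟩

end linear

section division

theorem Dl_slash (γ : SL(2, ℤ)) : Dl ∣[(12 : ℤ)] γ = Dl :=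
  SlashInvariantForm.slash_action_generators_SL2Z ModularForm.discriminant_S_invariant
    ModularForm.discriminant_T_invariant γ

theorem Dl_mdiff : MDiff Dl := CuspForm.discriminant.holo'

theorem Dl_ne_zero' (z : ℍ) : Dl z ≠ 0 := ModularForm.discriminant_ne_zero z

/-- `q / Δ` is bounded at infinity -/
theorem qParam_div_Dl_bounded : IsBoundedAtImInfty (fun τ : ℍ => 𝕢 1 τ / Dl τ) := by
  obtain ⟨C, hC⟩ := ModularForm.exp_isBigO_discriminant.bound
  rw [IsBoundedAtImInfty, Filter.BoundedAtFilter, Asymptotics.isBigO_iff]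
  refine ⟨C, ?_⟩
  filter_upwards [hC] with τ hτ
  have h1 : ‖𝕢 1 (τ : ℂ)‖ = Real.exp (-2 * Real.pi * τ.im) := by
    simp [Function.Periodic.qParam, Complex.norm_exp]
  have h2 : 0 < ‖Dl τ‖ := norm_pos_iff.mpr (Dl_ne_zero' τ)
  rw [Real.norm_of_nonneg (Real.exp_pos _).le] at hτ
  rw [norm_div, h1, div_le_iff₀ h2]
  simpa [Dl] using hτ

theorem qParam_one_eq_pow {h : ℕ} (hh : 0 < h) (z : ℂ) : 𝕢 1 z = 𝕢 (h : ℝ) z ^ h := by
  unfold Function.Periodic.qParam
  rw [← Complex.exp_nat_mul]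
  congr 1
  have : (h : ℂ) ≠ 0 := by exact_mod_cast hh.ne'
  push_cast
  field_simp

/-- a function whose first `m` coefficients vanish is `O(q_h ^ m)` -/
theorem bounded_div_qParam_pow {f : ℍ → ℂ} {h : ℝ} (hh : 0 < h)
    (hper : Function.Periodic (f ∘ ofComplex) h) (hhol : MDiff f) (hbdd : IsBoundedAtImInfty f)
    (m : ℕ) (h0 : ∀ n < m, (qExpansion h f).coeff n = 0) :
    IsBoundedAtImInfty (fun τ : ℍ => f τ / 𝕢 h τ ^ m) := by
  refine isBoundedAtImInfty_of_hasSum_qExpansion (c := fun n => (qExpansion h f).coeff (n + m))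
    hh (fun τ => ?_)
  have h1 := hasSum_qExpansion hh hper hhol hbdd τ
  have h2 := (hasSum_nat_add_iff' m).mpr h1
  have h3 : ∑ i ∈ Finset.range m, (qExpansion h f).coeff i • 𝕢 h τ ^ i = 0 := by
    refine Finset.sum_eq_zero fun i hi => ?_
    rw [h0 i (Finset.mem_range.mp hi), zero_smul]
  rw [h3, sub_zero] at h2
  have hq : 𝕢 h (τ : ℂ) ≠ 0 := Complex.exp_ne_zero _
  have h4 := h2.div_const (𝕢 h (τ : ℂ) ^ m)
  have h5 : (fun n : ℕ => (qExpansion h f).coeff (n + m) • 𝕢 h (τ : ℂ) ^ n) =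
      fun i : ℕ => (qExpansion h f).coeff (i + m) • 𝕢 h (τ : ℂ) ^ (i + m) / 𝕢 h (τ : ℂ) ^ m := by
    funext n
    rw [pow_add, smul_eq_mul, smul_eq_mul]
    field_simp
  rw [h5]
  exact h4

/-- the quotient tuple `F / Δ` -/
def divDl {X : Type} (F : X → ℍ → ℂ) : X → ℍ → ℂ := fun x => F x / Dl

theorem smulV_divDl {X : Type} (F : X → ℍ → ℂ) : smulV Dl (divDl F) = F := by
  funext x z
  simp only [smulV, divDl, Pi.mul_apply, Pi.div_apply]
  field_simp [Dl_ne_zero' z]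

theorem divDl_mdiff {X : Type} {F : X → ℍ → ℂ} (hF : ∀ x, MDiff (F x)) (x : X) :
    MDiff (divDl F x) :=
  MDifferentiable.div (hF x) Dl_mdiff Dl_ne_zero'

variable {X : Type} [MulAction SL(2, ℤ) X] {h : ℕ}

theorem divDl_slash {k : ℤ} {F : X → ℍ → ℂ}
    (hF : ∀ (γ : SL(2, ℤ)) (x : X), F x ∣[k] γ = F (γ⁻¹ • x)) (γ : SL(2, ℤ)) (x : X) :
    divDl F x ∣[k - 12] γ = divDl F (γ⁻¹ • x) := by
  have h1 : ∀ y : X, divDl F y * Dl = F y := by
    intro y
    funext z
    simp only [divDl, Pi.mul_apply, Pi.div_apply]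
    field_simp [Dl_ne_zero' z]
  have h2 := mul_slash_SL2 (k - 12) 12 γ (divDl F x) Dl
  rw [h1 x, Dl_slash, sub_add_cancel, hF γ x, ← h1 (γ⁻¹ • x)] at h2
  funext z
  have h3 := congrFun h2 z
  simp only [Pi.mul_apply] at h3
  exact (mul_right_cancel₀ (Dl_ne_zero' z) h3).symm

/-- kernel of the leading term map is `Δ · M` -/
theorem Lmap_eq_zero {k : ℤ} {F : X → ℍ → ℂ} (hh : Tper X h) (hF : F ∈ VMod X k)
    (h0 : Lmap h F = 0) : ∃ G ∈ VMod X (k - 12), F = smulV Dl G := by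
  refine ⟨divDl F, ⟨divDl_mdiff hF.1, divDl_slash hF.2.1, fun x => ?_⟩, (smulV_divDl F).symm⟩
  have h1 : ∀ n < h, (qExpansion (h : ℝ) (F x)).coeff n = 0 := fun n hn =>
    congrFun (coeffVec_eq_zero_of_Lmap hh hF h0 n hn) x
  have h2 := bounded_div_qParam_pow (Tper.pos hh) (VMod.periodic hh hF x) (hF.1 x) (hF.2.2 x) h h1
  have h3 := h2.mul qParam_div_Dl_bounded
  have h4 : divDl F x = (fun τ : ℍ => F x τ / 𝕢 (h : ℝ) τ ^ h) * fun τ : ℍ => 𝕢 1 τ / Dl τ := by
    funext τ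
    have hq : 𝕢 (h : ℝ) (τ : ℂ) ≠ 0 := Complex.exp_ne_zero _
    simp only [divDl, Pi.mul_apply, Pi.div_apply, qParam_one_eq_pow hh.1]
    field_simp [Dl_ne_zero' τ]
  rw [h4]
  exact h3

theorem Lmap'_eq_zero {k : ℤ} {F : X → ℍ → ℂ} (hh : Tper X h) (hF : F ∈ VCusp X k)
    (h0 : Lmap' h F = 0) : ∃ G ∈ VCusp X (k - 12), F = smulV Dl G := by
  have hF' := VCusp.mem_VMod hF
  refine ⟨divDl F, ⟨divDl_mdiff hF.1, divDl_slash hF.2.1, fun x => ?_⟩, (smulV_divDl F).symm⟩
  have h1 : ∀ n < h + 1, (qExpansion (h : ℝ) (F x)).coeff n = 0 := by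
    intro n hn
    rcases Nat.eq_zero_or_pos n with rfl | hpos
    · exact congrFun ((mem_VCusp_iff hh hF').mp hF) x
    · exact congrFun (coeffVec_eq_zero_of_Lmap' hh hF' h0 n hpos (Nat.lt_succ_iff.mp hn)) x
  have h2 := bounded_div_qParam_pow (Tper.pos hh) (VMod.periodic hh hF' x) (hF.1 x)
    (hF'.2.2 x) (h + 1) h1
  have h3 := h2.mul qParam_div_Dl_bounded
  have h5 : IsZeroAtImInfty (fun τ : ℍ => 𝕢 (h : ℝ) τ) := qParam_tendsto_atImInfty (Tper.pos hh)
  have h6 := h5.mul_boundedAtFilter h3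
  have h4 : divDl F x = (fun τ : ℍ => 𝕢 (h : ℝ) τ) *
      ((fun τ : ℍ => F x τ / 𝕢 (h : ℝ) τ ^ (h + 1)) * fun τ : ℍ => 𝕢 1 τ / Dl τ) := by
    funext τ
    have hq : 𝕢 (h : ℝ) (τ : ℂ) ≠ 0 := Complex.exp_ne_zero _
    simp only [divDl, Pi.mul_apply, Pi.div_apply, qParam_one_eq_pow hh.1]
    field_simp [Dl_ne_zero' τ]
    ring
  rw [h4]
  exact h6

end division

section pairing

variable {X : Type} [Fintype X] [MulAction SL(2, ℤ) X] {h : ℕ}

omit [MulAction SL(2, ℤ) X] in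
theorem pairing_eq_sum (F G : X → ℍ → ℂ) :
    (fun z => ∑ x, F x z * G x z) = ∑ x, F x * G x := by
  funext z
  simp only [Finset.sum_apply, Pi.mul_apply]

theorem pairing_mem {k k' : ℤ} {F G : X → ℍ → ℂ} (hF : F ∈ VMod X k) (hG : G ∈ VCusp X k') :
    (fun z => ∑ x, F x z * G x z) ∈ LvlOne (k + k') ∧
      IsZeroAtImInfty (fun z => ∑ x, F x z * G x z) := by
  have hzero : IsZeroAtImInfty (fun z => ∑ x, F x z * G x z) := by
    have h1 : ∀ x ∈ (Finset.univ : Finset X),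
        Filter.Tendsto (fun z => F x z * G x z) atImInfty (nhds 0) := fun x _ =>
      (hF.2.2 x).mul_zeroAtFilter (hG.2.2 x)
    have h2 := tendsto_finsetSum (Finset.univ : Finset X) h1
    simp only [Finset.sum_const_zero] at h2
    exact h2
  refine ⟨⟨?_, fun γ => ?_, hzero.isBoundedAtImInfty⟩, hzero⟩
  · rw [pairing_eq_sum]
    exact MDifferentiable.sum fun x _ => (hF.1 x).mul (hG.1 x)
  · rw [pairing_eq_sum, SlashAction.sum_slash]
    have h1 : ∀ x, (F x * G x) ∣[k + k'] γ = F (γ⁻¹ • x) * G (γ⁻¹ • x) := fun x => by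
      rw [mul_slash_SL2, hF.2.1, hG.2.1]
    simp only [h1]
    exact Equiv.sum_comp (MulAction.toPerm γ⁻¹) (fun x => F x * G x)

/-- orthogonality of the `T`-eigenspaces -/
theorem sum_coeffVec_mul_eq_zero {k k' : ℤ} {F G : X → ℍ → ℂ} (hh : Tper X h) (hF : F ∈ VMod X k)
    (hG : G ∈ VMod X k') (i j : ℕ) (hij : ¬ h ∣ i + j) :
    ∑ x, coeffVec h F i x * coeffVec h G j x = 0 := by
  have h1 : ∑ x, coeffVec h F i (ModularGroup.T⁻¹ • x) * coeffVec h G j (ModularGroup.T⁻¹ • x) =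
      ∑ x, coeffVec h F i x * coeffVec h G j x :=
    Equiv.sum_comp (MulAction.toPerm ModularGroup.T⁻¹)
      (fun x => coeffVec h F i x * coeffVec h G j x)
  simp only [coeffVec_T' hh hF, coeffVec_T' hh hG] at h1
  have h2 : ∀ x, zetaPow h i * coeffVec h F i x * (zetaPow h j * coeffVec h G j x) =
      zetaPow h (i + j) * (coeffVec h F i x * coeffVec h G j x) := fun x => by
    rw [zetaPow_add]; ring
  simp only [h2, ← Finset.mul_sum] at h1
  have h3 : zetaPow h (i + j) ≠ 1 := fun h4 => hij ((zetaPow_eq_one_iff hh.1 _).mp h4)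
  have h5 : (zetaPow h (i + j) - 1) * ∑ x, coeffVec h F i x * coeffVec h G j x = 0 := by
    rw [sub_mul, one_mul, h1, sub_self]
  rcases mul_eq_zero.mp h5 with h6 | h6
  · exact absurd (sub_eq_zero.mp h6) h3
  · exact h6

/-- `q_1`-expansion from the `q_h`-expansion, for level one forms -/
theorem LvlOne.coeff_one_eq {a : ℤ} {f : ℍ → ℂ} (hf : f ∈ LvlOne a) {h : ℕ} (hh : 0 < h)
    (n : ℕ) : (qExpansion 1 f).coeff n = (qExpansion (h : ℝ) f).coeff (h * n) := by
  have han : AnalyticAt ℂ (cuspFunction 1 f) 0 := by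
    have := LvlOne.analyticAt hf (h := 1) one_pos
    simpa using this
  symm
  refine qExpansion_coeff_unique' (c := fun n => (qExpansion (h : ℝ) f).coeff (h * n))
    one_pos han (fun τ => ?_) n
  have hh' : (0 : ℝ) < (h : ℝ) := by exact_mod_cast hh
  have h1 := hasSum_qExpansion hh' (LvlOne.periodic hf h) hf.1 hf.2.2 τ
  have hinj : Function.Injective (fun n : ℕ => h * n) := fun a b hab =>
    Nat.eq_of_mul_eq_mul_left hh hab
  have h2 := (hinj.hasSum_iff (f := fun m : ℕ => (qExpansion (h : ℝ) f).coeff m • 𝕢 (h : ℝ) τ ^ m)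
    (a := f τ) ?_).mpr h1
  · have h3 : ((fun m : ℕ => (qExpansion (h : ℝ) f).coeff m • 𝕢 (h : ℝ) (τ : ℂ) ^ m) ∘
        fun n : ℕ => h * n) =
        fun n : ℕ => (qExpansion (h : ℝ) f).coeff (h * n) • 𝕢 1 (τ : ℂ) ^ n := by
      funext n
      simp only [Function.comp_apply, qParam_one_eq_pow hh, pow_mul]
    rw [h3] at h2
    exact h2
  · intro m hm
    have : ¬ h ∣ m := fun ⟨c, hc⟩ => hm ⟨c, hc.symm⟩
    simp only [LvlOne.coeff_eq_zero hf hh this, zero_smul]

/-- the `q_h`-expansion of the pairing -/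
theorem qExpansion_pairing {k k' : ℤ} {F G : X → ℍ → ℂ} (hh : Tper X h) (hF : F ∈ VMod X k)
    (hG : G ∈ VCusp X k') (n : ℕ) :
    (qExpansion (h : ℝ) (fun z => ∑ x, F x z * G x z)).coeff n =
      ∑ x, ∑ p ∈ Finset.HasAntidiagonal.antidiagonal n,
        coeffVec h F p.1 x * coeffVec h G p.2 x := by
  have hG' := VCusp.mem_VMod hG
  have hP := (pairing_mem hF hG).1
  symm
  refine qExpansion_coeff_unique' (c := fun m => ∑ x, ∑ p ∈ Finset.HasAntidiagonal.antidiagonal m,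
    coeffVec h F p.1 x * coeffVec h G p.2 x) (Tper.pos hh) (LvlOne.analyticAt hP hh.1)
    (fun τ => ?_) n
  have h1 : ∀ x ∈ (Finset.univ : Finset X), HasSum (fun m : ℕ =>
      (∑ p ∈ Finset.HasAntidiagonal.antidiagonal m, coeffVec h F p.1 x * coeffVec h G p.2 x) •
        𝕢 (h : ℝ) τ ^ m) (F x τ * G x τ) := by
    intro x _
    have hper : Function.Periodic ((F x * G x) ∘ ofComplex) (h : ℝ) := by
      intro w
      have h1 := VMod.periodic hh hF x w
      have h2 := VMod.periodic hh hG' x w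
      simp only [Function.comp_apply, Pi.mul_apply] at h1 h2 ⊢
      rw [h1, h2]
    have h3 := hasSum_qExpansion (Tper.pos hh) hper ((hF.1 x).mul (hG.1 x))
      ((hF.2.2 x).mul (hG'.2.2 x)) τ
    rw [qExpansion_mul (VMod.analyticAt hh hF x) (VMod.analyticAt hh hG' x)] at h3
    simp only [PowerSeries.coeff_mul, Pi.mul_apply] at h3
    exact h3
  have h2 := hasSum_sum h1
  simp only [← Finset.sum_smul] at h2
  exact h2

/-- the pairing: first coefficient of the trace of a product -/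
theorem pairing_coeff_one {k k' : ℤ} {F G : X → ℍ → ℂ} (hh : Tper X h) (hF : F ∈ VMod X k)
    (hG : G ∈ VCusp X k') :
    (UpperHalfPlane.qExpansion 1 (fun z => ∑ x, F x z * G x z)).coeff 1 =
      ∑ x, Lmap h F x * Lmap' h G x := by
  have hG' := VCusp.mem_VMod hG
  have hP := (pairing_mem hF hG).1
  have hb0 : coeffVec h G 0 = 0 := (mem_VCusp_iff hh hG').mp hG
  have hpos := hh.1
  rw [LvlOne.coeff_one_eq hP hh.1 1, mul_one, qExpansion_pairing hh hF hG h, Finset.sum_comm,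
    Finset.Nat.sum_antidiagonal_eq_sum_range_succ_mk, Finset.sum_range_succ]
  have hlast : ∑ x, coeffVec h F h x * coeffVec h G (h - h) x = 0 := by
    simp only [Nat.sub_self, hb0, Pi.zero_apply, mul_zero, Finset.sum_const_zero]
  rw [hlast, add_zero]
  have hR : ∑ x, Lmap h F x * Lmap' h G x =
      ∑ i ∈ Finset.range h, ∑ j ∈ Finset.Icc 1 h, ∑ x, coeffVec h F i x * coeffVec h G j x := by
    simp only [Lmap, Lmap', Finset.sum_apply, Finset.sum_mul_sum]
    rw [Finset.sum_comm]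
    refine Finset.sum_congr rfl fun i _ => ?_
    rw [Finset.sum_comm]
  rw [hR]
  refine Finset.sum_congr rfl fun i hi => ?_
  have hi' := Finset.mem_range.mp hi
  rw [Finset.sum_eq_single (h - i)]
  · intro j hj hne
    have hj' := Finset.mem_Icc.mp hj
    refine sum_coeffVec_mul_eq_zero hh hF hG' i j ?_
    intro hdvd
    have h1 : h ≤ i + j := Nat.le_of_dvd (by omega) hdvd
    obtain ⟨c, hc⟩ := hdvd
    have hc1 : c = 1 := by
      have h2 : h * c < h * 2 := by omega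
      have h3 : c < 2 := Nat.lt_of_mul_lt_mul_left h2
      have h4 : 0 < c := by
        rcases Nat.eq_zero_or_pos c with rfl | h5
        · omega
        · exact h5
      omega
    subst hc1
    omega
  · intro hnot
    exact absurd (Finset.mem_Icc.mpr ⟨by omega, by omega⟩) hnot

end pairing

end Fermat.Agent.S20.H99
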