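import Mathlib
import Fermat.Agent.S20.SkelPS
import Fermat.Agent.S20.H99_Cusp

set_option autoImplicit false

/-!
# S20 : `Skel`-namespace statements of the CUSP package (expansions at the cusp)

All statements are proved by helper99 in `H99_Cusp.lean` (CUSP-b also by helper47, `H47_CuspB.lean`).
-/

open UpperHalfPlane ModularForm
open scoped MatrixGroups ModularForm Manifold

noncomputable section

namespace Fermat.Agent.S20.Skel

open Fermat.Agent.S20

variable {X : Type} [Fintype X] [MulAction SL(2, ℤ) X]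

/-! ## CUSP : expansions at the cusp.  `h` is a positive integer with `T ^ h` acting trivially. -/

theorem exists_Tper (X : Type) [Fintype X] [MulAction SL(2, ℤ) X] : ∃ h, Tper X h :=
  H99.exists_Tper X

variable {h : ℕ}

theorem Lmap_add {k : ℤ} {F G : X → ℍ → ℂ} (hh : Tper X h) (hF : F ∈ VMod X k)
    (hG : G ∈ VMod X k) : Lmap h (F + G) = Lmap h F + Lmap h G :=
  H99.Lmap_add hh hF hG
theorem Lmap_smul {k : ℤ} {F : X → ℍ → ℂ} (hh : Tper X h) (hF : F ∈ VMod X k) (c : ℂ) :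
    Lmap h (c • F) = c • Lmap h F :=
  H99.Lmap_smul hh hF c
theorem Lmap_smulV {a b : ℤ} {f : ℍ → ℂ} {F : X → ℍ → ℂ} (hh : Tper X h) (hf : f ∈ LvlOne a)
    (hF : F ∈ VMod X b) : Lmap h (smulV f F) = vInf f • Lmap h F :=
  H99.Lmap_smulV hh hf hF
/-- kernel of the leading term map is `Δ · M` -/
theorem Lmap_eq_zero {k : ℤ} {F : X → ℍ → ℂ} (hh : Tper X h) (hF : F ∈ VMod X k)
    (h0 : Lmap h F = 0) : ∃ G ∈ VMod X (k - 12), F = smulV Dl G :=
  H99.Lmap_eq_zero hh hF h0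
-- the same four statements for Lmap' on VCusp
theorem Lmap'_add {k : ℤ} {F G : X → ℍ → ℂ} (hh : Tper X h) (hF : F ∈ VCusp X k)
    (hG : G ∈ VCusp X k) : Lmap' h (F + G) = Lmap' h F + Lmap' h G :=
  H99.Lmap'_add hh hF hG
theorem Lmap'_smul {k : ℤ} {F : X → ℍ → ℂ} (hh : Tper X h) (hF : F ∈ VCusp X k) (c : ℂ) :
    Lmap' h (c • F) = c • Lmap' h F :=
  H99.Lmap'_smul hh hF c
theorem Lmap'_smulV {a b : ℤ} {f : ℍ → ℂ} {F : X → ℍ → ℂ} (hh : Tper X h) (hf : f ∈ LvlOne a)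
    (hF : F ∈ VCusp X b) : Lmap' h (smulV f F) = vInf f • Lmap' h F :=
  H99.Lmap'_smulV hh hf hF
theorem Lmap'_eq_zero {k : ℤ} {F : X → ℍ → ℂ} (hh : Tper X h) (hF : F ∈ VCusp X k)
    (h0 : Lmap' h F = 0) : ∃ G ∈ VCusp X (k - 12), F = smulV Dl G :=
  H99.Lmap'_eq_zero hh hF h0
/-- cusp forms are the forms whose zeroth coefficient vector vanishes -/
theorem mem_VCusp_iff {k : ℤ} {F : X → ℍ → ℂ} (hh : Tper X h) (hF : F ∈ VMod X k) :
    F ∈ VCusp X k ↔ coeffVec h F 0 = 0 :=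
  H99.mem_VCusp_iff hh hF
/-- equivariance of coefficient vectors under `T` -/
theorem coeffVec_T {k : ℤ} {F : X → ℍ → ℂ} (hh : Tper X h) (hF : F ∈ VMod X k) (n : ℕ) (x : X) :
    coeffVec h F n (ModularGroup.T⁻¹ • x) =
      Complex.exp (2 * Real.pi * Complex.I * n / h) * coeffVec h F n x :=
  H99.coeffVec_T hh hF n x
/-- the pairing: first coefficient of the trace of a product -/
theorem pairing_coeff_one {k k' : ℤ} {F G : X → ℍ → ℂ} (hh : Tper X h) (hF : F ∈ VMod X k)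
    (hG : G ∈ VCusp X k') :
    (UpperHalfPlane.qExpansion 1 (fun z => ∑ x, F x z * G x z)).coeff 1 =
      ∑ x, Lmap h F x * Lmap' h G x :=
  H99.pairing_coeff_one hh hF hG
theorem pairing_mem {k k' : ℤ} {F G : X → ℍ → ℂ} (hF : F ∈ VMod X k) (hG : G ∈ VCusp X k') :
    (fun z => ∑ x, F x z * G x z) ∈ LvlOne (k + k') ∧
      IsZeroAtImInfty (fun z => ∑ x, F x z * G x z) :=
  H99.pairing_mem hF hG

end Fermat.Agent.S20.Skel
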