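import Mathlib
import Fermat.Agent.S20.SkelCusp
import Fermat.Agent.S20.H33_FreeCusp

set_option autoImplicit false

/-!
# S20 : `Skel`-namespace statements of the FREE package (helper33)
-/

open UpperHalfPlane ModularForm
open scoped MatrixGroups ModularForm Manifold

noncomputable section

namespace Fermat.Agent.S20.Skel

open Fermat.Agent.S20

variable {X : Type} [Fintype X] [MulAction SL(2, ℤ) X]

theorem cuspFacts {h : ℕ} (hh : Tper X h) : H33.CuspFacts X h :=
  ⟨fun hF hG => Lmap_add hh hF hG, fun hF c => Lmap_smul hh hF c,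
    fun hf hF => Lmap_smulV hh hf hF, fun hF h0 => Lmap_eq_zero hh hF h0,
    fun hF hG => Lmap'_add hh hF hG, fun hF c => Lmap'_smul hh hF c,
    fun hf hF => Lmap'_smulV hh hf hF, fun hF h0 => Lmap'_eq_zero hh hF h0⟩

theorem VMod.finiteDimensional (hX : GoodX X) (k : ℤ) : FiniteDimensional ℂ (VMod X k) := by
  obtain ⟨h, hh⟩ := exists_Tper X
  exact H33.finiteDimensional_VMod_of hX (cuspFacts hh) k

theorem VCusp.finiteDimensional (hX : GoodX X) (k : ℤ) : FiniteDimensional ℂ (VCusp X k) := by
  obtain ⟨h, hh⟩ := exists_Tper X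
  exact H33.finiteDimensional_VCusp_of hX (cuspFacts hh) k

theorem exists_homBasis_VMod (hX : GoodX X) : Nonempty (HomBasis (VMod X)) := by
  obtain ⟨h, hh⟩ := exists_Tper X
  exact H33.exists_homBasis_VMod_of hX (cuspFacts hh)

theorem exists_homBasis_VCusp (hX : GoodX X) : Nonempty (HomBasis (VCusp X)) := by
  obtain ⟨h, hh⟩ := exists_Tper X
  exact H33.exists_homBasis_VCusp_of hX (cuspFacts hh)

end Fermat.Agent.S20.Skel
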