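import Mathlib
import Fermat.Agent.S20.SkelFree
import Fermat.Agent.S20.H48_RankA
import Fermat.Agent.S20.H49_RankB
import Fermat.Agent.S20.H43_PT
import Fermat.Agent.S20.H19_Dual
import Fermat.Agent.S20.H19_Count
import Fermat.Agent.S20.H35_PTCounts

/-!
# S20 : the RANK / PT / DUAL / COUNT-a statements, unconditionally (for `GoodX X`)

Assembled from the landed hypothesis-form lemmas of helper48 (RANK-a), helper49 (RANK-b),
helper43 (PT), helper19 (DUAL, COUNT-a), helper35 (PT-b) and helper99 (CUSP, via `SkelCusp`).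
-/

set_option autoImplicit false

open UpperHalfPlane ModularForm Filter Topology
open scoped MatrixGroups ModularForm Manifold

noncomputable section

namespace Fermat.Agent.S20.H48

open Fermat.Agent.S20 Fermat.Agent.S20.Skel

variable {X : Type} [Fintype X] [MulAction SL(2, ℤ) X]

/-! ## RANK -/

theorem Lmap_linearIndependent (hX : GoodX X) (B : HomBasis (VMod X)) {h : ℕ}
    (hh : Tper X h) : LinearIndependent ℂ (fun j => Lmap h (B.gen j)) :=
  leading_linearIndependent hX (fun _ => le_rfl)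
    (fun _ _ _ hf _ hF => VMod.smulV_mem hf hF) (Lmap h)
    (fun _ _ _ hF hG => Lmap_add hh hF hG) (fun _ _ hF c => Lmap_smul hh hF c)
    (fun _ _ _ _ hf hF => Lmap_smulV hh hf hF) (fun _ _ hF h0 => Lmap_eq_zero hh hF h0) B

theorem Lmap'_linearIndependent (hX : GoodX X) (B : HomBasis (VCusp X)) {h : ℕ}
    (hh : Tper X h) : LinearIndependent ℂ (fun j => Lmap' h (B.gen j)) :=
  leading_linearIndependent hX (fun k => VCusp.le_VMod k)
    (fun _ _ _ hf _ hF => VCusp.smulV_mem hf hF) (Lmap' h)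
    (fun _ _ _ hF hG => Lmap'_add hh hF hG) (fun _ _ hF c => Lmap'_smul hh hF c)
    (fun _ _ _ _ hf hF => Lmap'_smulV hh hf hF) (fun _ _ hF h0 => Lmap'_eq_zero hh hF h0) B

theorem n_eq_VMod (hX : GoodX X) (B : HomBasis (VMod X)) : B.n = Fintype.card X := by
  obtain ⟨h, hh⟩ := exists_Tper X
  exact H49.n_eq_VMod_of hX B (Lmap_linearIndependent hX B hh)

theorem n_eq_VCusp (hX : GoodX X) (B : HomBasis (VCusp X)) : B.n = Fintype.card X := by
  obtain ⟨h, hh⟩ := exists_Tper X
  exact H49.n_eq_VCusp_of hX B (Lmap'_linearIndependent hX B hh)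

/-! ## PT -/

theorem eval_linearIndependent_VMod (hX : GoodX X) (B : HomBasis (VMod X)) (z : ℍ) :
    LinearIndependent ℂ (fun j => (fun x => B.gen j x z : X → ℂ)) :=
  H43.eval_linearIndependent_of hX (Or.inl rfl) B (n_eq_VMod hX B) z

theorem eval_linearIndependent_VCusp (hX : GoodX X) (B : HomBasis (VCusp X)) (z : ℍ) :
    LinearIndependent ℂ (fun j => (fun x => B.gen j x z : X → ℂ)) :=
  H43.eval_linearIndependent_of hX (Or.inr rfl) B (n_eq_VCusp hX B) z

theorem eval_linearIndependent (hX : GoodX X) {M : ℤ → Submodule ℂ (X → ℍ → ℂ)}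
    (hM : M = VMod X ∨ M = VCusp X) (B : HomBasis M) (z : ℍ) :
    LinearIndependent ℂ (fun j => (fun x => B.gen j x z : X → ℂ)) := by
  rcases hM with rfl | rfl
  · exact eval_linearIndependent_VMod hX B z
  · exact eval_linearIndependent_VCusp hX B z

theorem wt_even_VMod (hX : GoodX X) (B : HomBasis (VMod X)) (j : Fin B.n) :
    Even (B.wt j) ∧ 0 ≤ B.wt j :=
  H43.wt_even hX B j

theorem card_wt_mod4 (hX : GoodX X) (B : HomBasis (VMod X)) :
    2 * (Finset.univ.filter (fun j => (4 : ℤ) ∣ B.wt j)).card =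
      Fintype.card X + Nat.card {x : X // ModularGroup.S • x = x} :=
  H35.card_wt_mod4_of hX B (n_eq_VMod hX B) (eval_linearIndependent_VMod hX B _)

theorem card_wt_mod6 (hX : GoodX X) (B : HomBasis (VMod X)) :
    3 * (Finset.univ.filter (fun j => (6 : ℤ) ∣ B.wt j)).card =
      Fintype.card X + 2 * Nat.card {x : X // (ModularGroup.S * ModularGroup.T) • x = x} :=
  H35.card_wt_mod6_of hX B (n_eq_VMod hX B) (eval_linearIndependent_VMod hX B _)

theorem card_wt_mod6' (hX : GoodX X) (B : HomBasis (VMod X)) :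
    (Finset.univ.filter (fun j => (6 : ℤ) ∣ B.wt j - 2)).card =
      (Finset.univ.filter (fun j => (6 : ℤ) ∣ B.wt j - 4)).card :=
  H35.card_wt_mod6'_of hX B (n_eq_VMod hX B) (eval_linearIndependent_VMod hX B _)

/-! ## DUAL -/

theorem pairingFacts {h : ℕ} (hh : Tper X h) : H19.PairingFacts X h :=
  ⟨fun hF hG => pairing_mem hF hG, fun hF hG => pairing_coeff_one hh hF hG⟩

theorem duality (hX : GoodX X) (B : HomBasis (VMod X)) (B' : HomBasis (VCusp X)) (w : ℤ) :
    (Finset.univ.filter (fun j => B.wt j = w)).card =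
      (Finset.univ.filter (fun l => B'.wt l = 12 - w)).card := by
  obtain ⟨h, hh⟩ := exists_Tper X
  exact H19.duality_of B B' (pairingFacts hh) (n_eq_VMod hX B) (n_eq_VCusp hX B')
    (Lmap_linearIndependent hX B hh) (Lmap'_linearIndependent hX B' hh)
    (eval_linearIndependent_VMod hX B) (eval_linearIndependent_VCusp hX B') w

/-! ## COUNT-a -/

theorem card_wt_zero (hX : GoodX X) (B : HomBasis (VMod X)) :
    (Finset.univ.filter (fun j => B.wt j = 0)).card = 1 :=
  H19.card_wt_zero_of hX B (fun j => (wt_even_VMod hX B j).2)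

end Fermat.Agent.S20.H48
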