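import Mathlib
import Fermat.Agent.S20.H48_Facts

/-!
# S20 : COUNT -- the cusp relation and the main abstract count (helper48)

`cusp_relation` : for a homogeneous basis of `VMod X`, `m₀ + m₂ - m₁₀ = #(T-orbits on X)`.
`main_abstract` : `12 * dim VCusp X 2 = 12 + |X| - 3 ν₂ - 4 ν₃ - 6 ν_∞`.
Both hold for every `GoodX X`, with no further hypothesis.
-/

set_option autoImplicit false

open UpperHalfPlane ModularForm Filter Topology
open scoped MatrixGroups ModularForm Manifold

noncomputable section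

namespace Fermat.Agent.S20.H48

open Fermat.Agent.S20 Fermat.Agent.S20.Skel

variable {X : Type} [Fintype X] [MulAction SL(2, ℤ) X]

/-! ## Hilbert function of a homogeneous basis -/

lemma smulV_add (f g : ℍ → ℂ) (F : X → ℍ → ℂ) : smulV (f + g) F = smulV f F + smulV g F := by
  funext x
  simp [smulV, add_mul]

lemma smulV_smul (c : ℂ) (f : ℍ → ℂ) (F : X → ℍ → ℂ) : smulV (c • f) F = c • smulV f F := by
  funext x
  simp [smulV, smul_mul_assoc]

/-- the coordinate map of a homogeneous basis in degree `K` -/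
def coordMap {M : ℤ → Submodule ℂ (X → ℍ → ℂ)}
    (hsm : ∀ (a b : ℤ) (f : ℍ → ℂ), f ∈ LvlOne a → ∀ F : X → ℍ → ℂ, F ∈ M b →
      smulV f F ∈ M (a + b))
    (B : HomBasis M) (K : ℤ) : (∀ j : Fin B.n, LvlOne (K - B.wt j)) →ₗ[ℂ] M K where
  toFun G := ⟨∑ j, smulV (G j : ℍ → ℂ) (B.gen j), Submodule.sum_mem _ fun j _ => by
    have := hsm _ _ _ (G j).2 _ (B.gen_mem j)
    rwa [sub_add_cancel] at this⟩
  map_add' G G' := by
    ext1
    simp [smulV_add, Finset.sum_add_distrib]
  map_smul' c G := by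
    ext1
    simp [smulV_smul, Finset.smul_sum]

theorem finrank_eq_sum {M : ℤ → Submodule ℂ (X → ℍ → ℂ)}
    (hsm : ∀ (a b : ℤ) (f : ℍ → ℂ), f ∈ LvlOne a → ∀ F : X → ℍ → ℂ, F ∈ M b →
      smulV f F ∈ M (a + b))
    (B : HomBasis M) (K : ℤ) :
    Module.finrank ℂ (M K) = ∑ j, Module.finrank ℂ (LvlOne (K - B.wt j)) := by
  have hinj : Function.Injective (coordMap hsm B K) := by
    rw [← LinearMap.ker_eq_bot, LinearMap.ker_eq_bot']
    intro G hG
    have h0 : (∑ j, smulV (G j : ℍ → ℂ) (B.gen j)) = 0 := congrArg Subtype.val hG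
    have := B.indep K (fun j => (G j : ℍ → ℂ)) (fun j => (G j).2) h0
    funext j
    exact Subtype.ext (this j)
  have hsurj : Function.Surjective (coordMap hsm B K) := by
    rintro ⟨H, hH⟩
    obtain ⟨G, hG, hHG⟩ := B.span K H hH
    exact ⟨fun j => ⟨G j, hG j⟩, Subtype.ext hHG.symm⟩
  have e := LinearEquiv.ofBijective (coordMap hsm B K) ⟨hinj, hsurj⟩
  rw [← e.finrank_eq, Module.finrank_pi_fintype]


/-! ## `T`-invariant vectors -/

/-- functions on `X` invariant under `T` -/
def TInv (X : Type) [MulAction SL(2, ℤ) X] : Submodule ℂ (X → ℂ) where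
  carrier := {v | ∀ x, v (ModularGroup.T⁻¹ • x) = v x}
  add_mem' := by
    intro v w hv hw x
    simp [hv x, hw x]
  zero_mem' := fun _ => rfl
  smul_mem' := by
    intro c v hv x
    simp [hv x]

omit [Fintype X] in
lemma TInv_zpow {v : X → ℂ} (hv : v ∈ TInv X) (k : ℤ) (x : X) :
    v ((ModularGroup.T ^ k) • x) = v x := by
  have h1 : ∀ x, v (ModularGroup.T • x) = v x := fun x => by
    have := hv (ModularGroup.T • x)
    rw [inv_smul_smul] at this
    exact this.symm
  induction k using Int.induction_on generalizing x with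
  | zero => simp
  | succ i ih => rw [zpow_add_one, mul_smul, ih, h1]
  | pred i ih => rw [zpow_sub_one, mul_smul, ih]; exact hv x

theorem finrank_TInv :
    Module.finrank ℂ (TInv X) =
      Nat.card (MulAction.orbitRel.Quotient (Subgroup.zpowers ModularGroup.T) X) := by
  classical
  set Ω := MulAction.orbitRel.Quotient (Subgroup.zpowers ModularGroup.T) X with hΩ
  haveI : Fintype Ω := Fintype.ofFinite Ω
  let mk : X → Ω := Quotient.mk''
  have hmk : Function.Surjective mk := Quotient.mk''_surjective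
  let φ : (Ω → ℂ) →ₗ[ℂ] (X → ℂ) := LinearMap.funLeft ℂ ℂ mk
  have hφinj : Function.Injective φ := LinearMap.funLeft_injective_of_surjective ℂ ℂ mk hmk
  have hrange : LinearMap.range φ = TInv X := by
    ext v
    constructor
    · rintro ⟨f, rfl⟩ x
      show f (mk (ModularGroup.T⁻¹ • x)) = f (mk x)
      congr 1
      apply Quotient.sound'
      refine ⟨⟨ModularGroup.T⁻¹, Subgroup.inv_mem _ (Subgroup.mem_zpowers _)⟩, rfl⟩
    · intro hv
      refine ⟨fun ω => Quotient.liftOn' ω v ?_, ?_⟩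
      · rintro x y ⟨⟨g, hg⟩, rfl⟩
        obtain ⟨k, rfl⟩ := Subgroup.mem_zpowers_iff.mp hg
        exact TInv_zpow hv k y
      · funext x
        rfl
  rw [← hrange, LinearMap.finrank_range_of_inj hφinj, Module.finrank_fintype_fun_eq_card,
    Nat.card_eq_fintype_card]


/-! ## The averaging operator over `T` -/

/-- average over the first `h` powers of `T⁻¹` -/
def Av (h : ℕ) : (X → ℂ) →ₗ[ℂ] (X → ℂ) where
  toFun v := fun x => (h : ℂ)⁻¹ * ∑ i ∈ Finset.range h, v ((ModularGroup.T⁻¹ ^ i) • x)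
  map_add' v w := by
    funext x
    simp [Finset.sum_add_distrib, mul_add]
  map_smul' c v := by
    funext x
    simp [Finset.mul_sum, mul_left_comm]

omit [Fintype X] in
lemma Av_apply (h : ℕ) (v : X → ℂ) (x : X) :
    Av h v x = (h : ℂ)⁻¹ * ∑ i ∈ Finset.range h, v ((ModularGroup.T⁻¹ ^ i) • x) := rfl

omit [Fintype X] in
lemma eigen_pow {v : X → ℂ} {lam : ℂ} (hv : ∀ x, v (ModularGroup.T⁻¹ • x) = lam * v x)
    (i : ℕ) (x : X) : v ((ModularGroup.T⁻¹ ^ i) • x) = lam ^ i * v x := by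
  induction i with
  | zero => simp
  | succ i ih => rw [pow_succ', mul_smul, hv, ih, pow_succ']; ring

omit [Fintype X] in
lemma Av_eigen {h : ℕ} {v : X → ℂ} {lam : ℂ}
    (hv : ∀ x, v (ModularGroup.T⁻¹ • x) = lam * v x) (x : X) :
    Av h v x = (h : ℂ)⁻¹ * (∑ i ∈ Finset.range h, lam ^ i) * v x := by
  rw [Av_apply, mul_assoc, Finset.sum_mul]
  congr 1
  exact Finset.sum_congr rfl fun i _ => eigen_pow hv i x

omit [Fintype X] in
lemma Av_of_TInv {h : ℕ} (hh : 0 < h) {v : X → ℂ} (hv : v ∈ TInv X) : Av h v = v := by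
  funext x
  have hv' : ∀ x, v (ModularGroup.T⁻¹ • x) = 1 * v x := fun x => by rw [one_mul]; exact hv x
  rw [Av_eigen hv']
  have : (h : ℂ) ≠ 0 := Nat.cast_ne_zero.mpr hh.ne'
  simp [this]

omit [Fintype X] in
lemma Av_eigen_ne_one {h : ℕ} {v : X → ℂ} {lam : ℂ}
    (hv : ∀ x, v (ModularGroup.T⁻¹ • x) = lam * v x) (h1 : lam ≠ 1) (hlam : lam ^ h = 1) :
    Av h v = 0 := by
  funext x
  rw [Av_eigen hv, geom_sum_eq h1, hlam]
  simp

omit [Fintype X] in
lemma Av_mem_TInv {h : ℕ} (hh : Tper X h) (v : X → ℂ) : Av h v ∈ TInv X := by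
  intro x
  rw [Av_apply, Av_apply]
  congr 1
  have hper : (ModularGroup.T⁻¹ ^ h) • x = x := by
    have := hh.2 x
    rw [inv_pow, inv_smul_eq_iff]
    exact this.symm
  have hshift : ∀ i : ℕ, (ModularGroup.T⁻¹ ^ i) • (ModularGroup.T⁻¹ • x)
      = (ModularGroup.T⁻¹ ^ (i + 1)) • x := fun i => by
    rw [← mul_smul, ← pow_succ]
  simp_rw [hshift]
  have e1 := Finset.sum_range_succ' (fun i => v ((ModularGroup.T⁻¹ ^ i) • x)) h
  have e2 := Finset.sum_range_succ (fun i => v ((ModularGroup.T⁻¹ ^ i) • x)) h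
  rw [e2] at e1
  simp only [pow_zero, one_smul, hper] at e1
  exact (add_right_cancel e1).symm


lemma exp_pow_eq_one {h : ℕ} (hh : 0 < h) (n : ℕ) :
    Complex.exp (2 * Real.pi * Complex.I * n / h) ^ h = 1 := by
  rw [← Complex.exp_nat_mul]
  have hne : (h : ℂ) ≠ 0 := Nat.cast_ne_zero.mpr hh.ne'
  have : (h : ℂ) * (2 * Real.pi * Complex.I * n / h) = (n : ℂ) * (2 * Real.pi * Complex.I) := by
    field_simp
  rw [this]
  exact Complex.exp_nat_mul_two_pi_mul_I n

lemma exp_ne_one {h n : ℕ} (hn0 : 0 < n) (hnh : n < h) :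
    Complex.exp (2 * Real.pi * Complex.I * n / h) ≠ 1 := by
  intro hexp
  rw [Complex.exp_eq_one_iff] at hexp
  obtain ⟨m, hm⟩ := hexp
  have hne : (h : ℂ) ≠ 0 := Nat.cast_ne_zero.mpr (by omega)
  have h2 : (2 * Real.pi * Complex.I : ℂ) ≠ 0 := Complex.two_pi_I_ne_zero
  have h3 : (n : ℂ) = (m : ℂ) * (h : ℂ) := by
    have hm' : (n : ℂ) * (2 * Real.pi * Complex.I) =
        ((m : ℂ) * (h : ℂ)) * (2 * Real.pi * Complex.I) := by
      have : 2 * (Real.pi : ℂ) * Complex.I * n / h * h = (m : ℂ) * (2 * Real.pi * Complex.I) * h := by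
        rw [hm]
      rw [div_mul_cancel₀ _ hne] at this
      linear_combination this
    exact mul_right_cancel₀ h2 hm'
  have h4 : (n : ℤ) = m * (h : ℤ) := by exact_mod_cast h3
  rcases le_or_gt m 0 with hm0 | hm0
  · have : m * (h : ℤ) ≤ 0 := mul_nonpos_of_nonpos_of_nonneg hm0 (by positivity)
    omega
  · have : (h : ℤ) ≤ m * (h : ℤ) := le_mul_of_one_le_left (by positivity) hm0
    omega

theorem coeffVec_zero_eq_Av {k : ℤ} {F : X → ℍ → ℂ} {h : ℕ} (hh : Tper X h)
    (hF : F ∈ VMod X k) : coeffVec h F 0 = Av h (Lmap h F) := by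
  rw [Lmap, map_sum]
  have hpos : 0 < h := hh.1
  rw [← Finset.sum_erase_add _ _ (Finset.mem_range.mpr hpos)]
  have h0 : Av h (coeffVec h F 0) = coeffVec h F 0 := by
    apply Av_of_TInv hpos
    intro x
    have := coeffVec_T hh hF 0 x
    simpa using this
  have hrest : ∑ n ∈ (Finset.range h).erase 0, Av h (coeffVec h F n) = 0 := by
    refine Finset.sum_eq_zero fun n hn => ?_
    rw [Finset.mem_erase, Finset.mem_range] at hn
    exact Av_eigen_ne_one (fun x => coeffVec_T hh hF n x)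
      (exp_ne_one (Nat.pos_of_ne_zero hn.1) hn.2) (exp_pow_eq_one hpos n)
  rw [hrest, h0, zero_add]


/-! ## `dim M_K - dim S_K = number of T-orbits` for large `K` -/

/-- the leading term map as a linear map on `VMod X K` -/
def LmapLin (X : Type) [Fintype X] [MulAction SL(2, ℤ) X] {h : ℕ} (hh : Tper X h) (K : ℤ) :
    VMod X K →ₗ[ℂ] (X → ℂ) where
  toFun F := Lmap h (F : X → ℍ → ℂ)
  map_add' F G := Lmap_add hh F.2 G.2
  map_smul' c F := Lmap_smul hh F.2 c

theorem LmapLin_surjective (hX : GoodX X) (B : HomBasis (VMod X)) {h : ℕ} (hh : Tper X h)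
    {K : ℤ} (hK : ∀ j, Even (K - B.wt j) ∧ 4 ≤ K - B.wt j) :
    Function.Surjective (LmapLin X hh K) := by
  classical
  have hn : B.n = Fintype.card X := n_eq_VMod hX B
  have hli := Lmap_linearIndependent hX B hh
  have hcard : Fintype.card (Fin B.n) = Module.finrank ℂ (X → ℂ) := by
    rw [Fintype.card_fin, Module.finrank_fintype_fun_eq_card, hn]
  let b := basisOfLinearIndependentOfCardEqFinrank' _ hli hcard
  have hb : ∀ j, b j = Lmap h (B.gen j) := fun j => by
    simp [b]
  choose u hu hu1 using fun j => exists_vInf_one' (hK j).1 (hK j).2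
  have hmem : ∀ j, smulV (u j) (B.gen j) ∈ VMod X K := fun j => by
    have := VMod.smulV_mem (hu j) (B.gen_mem j)
    rwa [sub_add_cancel] at this
  intro v
  refine ⟨∑ j, (b.repr v j) • (⟨smulV (u j) (B.gen j), hmem j⟩ : VMod X K), ?_⟩
  rw [map_sum]
  conv_rhs => rw [← b.sum_repr v]
  refine Finset.sum_congr rfl fun j _ => ?_
  rw [map_smul]
  congr 1
  show Lmap h (smulV (u j) (B.gen j)) = b j
  rw [Lmap_smulV hh (hu j) (B.gen_mem j), hu1 j, one_smul, hb j]

theorem finrank_VMod_eq_add (hX : GoodX X) (B : HomBasis (VMod X))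
    {K : ℤ} (hK : ∀ j, Even (K - B.wt j) ∧ 4 ≤ K - B.wt j) :
    Module.finrank ℂ (VMod X K) = Module.finrank ℂ (VCusp X K) +
      Nat.card (MulAction.orbitRel.Quotient (Subgroup.zpowers ModularGroup.T) X) := by
  classical
  obtain ⟨h, hh⟩ := exists_Tper X
  have := VMod.finiteDimensional hX K
  let κ : VMod X K →ₗ[ℂ] (X → ℂ) := (Av h) ∘ₗ (LmapLin X hh K)
  have hκ : ∀ F : VMod X K, κ F = coeffVec h (F : X → ℍ → ℂ) 0 := fun F =>
    (coeffVec_zero_eq_Av hh F.2).symm
  have hker : LinearMap.ker κ = Submodule.comap (VMod X K).subtype (VCusp X K) := by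
    ext F
    rw [LinearMap.mem_ker, hκ, Submodule.mem_comap, Submodule.subtype_apply,
      mem_VCusp_iff hh F.2]
  have hrange : LinearMap.range κ = TInv X := by
    ext v
    constructor
    · rintro ⟨F, rfl⟩
      exact Av_mem_TInv hh _
    · intro hv
      obtain ⟨F, hF⟩ := LmapLin_surjective hX B hh hK v
      refine ⟨F, ?_⟩
      show Av h (LmapLin X hh K F) = v
      rw [hF, Av_of_TInv hh.1 hv]
  have hrn := LinearMap.finrank_range_add_finrank_ker κ
  rw [hrange, hker, finrank_TInv] at hrn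
  have hle : VCusp X K ≤ VMod X K := VCusp.le_VMod K
  have hcomap : Module.finrank ℂ (Submodule.comap (VMod X K).subtype (VCusp X K)) =
      Module.finrank ℂ (VCusp X K) :=
    (Submodule.comapSubtypeEquivOfLe hle).finrank_eq
  rw [hcomap] at hrn
  omega


/-! ## COUNT : the cusp relation -/

lemma finrank_LvlOne_vals :
    Module.finrank ℂ (LvlOne 12) = 2 ∧ Module.finrank ℂ (LvlOne 14) = 1 ∧
    Module.finrank ℂ (LvlOne 16) = 2 ∧ Module.finrank ℂ (LvlOne 18) = 2 ∧
    Module.finrank ℂ (LvlOne 20) = 2 ∧ Module.finrank ℂ (LvlOne 22) = 2 ∧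
    Module.finrank ℂ (LvlOne 24) = 3 := by
  have h12 := LvlOne.finrank_eq 12 ⟨6, rfl⟩
  have h14 := LvlOne.finrank_eq 14 ⟨7, rfl⟩
  have h16 := LvlOne.finrank_eq 16 ⟨8, rfl⟩
  have h18 := LvlOne.finrank_eq 18 ⟨9, rfl⟩
  have h20 := LvlOne.finrank_eq 20 ⟨10, rfl⟩
  have h22 := LvlOne.finrank_eq 22 ⟨11, rfl⟩
  have h24 := LvlOne.finrank_eq 24 ⟨12, rfl⟩
  norm_num at h12 h14 h16 h18 h20 h22 h24
  exact ⟨h12, h14, h16, h18, h20, h22, h24⟩

omit [Fintype X] [MulAction SL(2, ℤ) X] in
lemma card_filter_eq_sum_ite {n : ℕ} (f : Fin n → ℤ) (w : ℤ) :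
    ((Finset.univ.filter (fun j => f j = w)).card : ℤ) = ∑ j, (if f j = w then (1 : ℤ) else 0) := by
  rw [Finset.sum_boole]

theorem cusp_relation (hX : GoodX X) (B : HomBasis (VMod X)) :
    ((Finset.univ.filter (fun j => B.wt j = 0)).card : ℤ)
      + (Finset.univ.filter (fun j => B.wt j = 2)).card
      - (Finset.univ.filter (fun j => B.wt j = 10)).card
      = Nat.card (MulAction.orbitRel.Quotient (Subgroup.zpowers ModularGroup.T) X) := by
  classical
  obtain ⟨B'⟩ := exists_homBasis_VCusp hX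
  have hn : B.n = Fintype.card X := n_eq_VMod hX B
  have hn' : B'.n = Fintype.card X := n_eq_VCusp hX B'
  have heven : ∀ j, Even (B.wt j) ∧ 0 ≤ B.wt j := fun j => wt_even_VMod hX B j
  have hpos' : ∀ l, 2 ≤ B'.wt l := fun l => H19.wt_pos_VCusp hX B' l
  have hdual : ∀ w, (Finset.univ.filter (fun j => B.wt j = w)).card =
      (Finset.univ.filter (fun l => B'.wt l = 12 - w)).card := fun w => duality hX B B' w
  -- weights of `B` are at most 10
  have hle : ∀ j, B.wt j ≤ 10 := fun j => by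
    have h1 : 0 < (Finset.univ.filter (fun j' => B.wt j' = B.wt j)).card :=
      Finset.card_pos.mpr ⟨j, by simp⟩
    rw [hdual] at h1
    obtain ⟨l, hl⟩ := Finset.card_pos.mp h1
    simp only [Finset.mem_filter, Finset.mem_univ, true_and] at hl
    have := hpos' l
    omega
  -- weights of `B'` are even and at most 12
  have heven' : ∀ l, Even (B'.wt l) ∧ B'.wt l ≤ 12 := fun l => by
    have h1 : 0 < (Finset.univ.filter (fun l' => B'.wt l' = 12 - (12 - B'.wt l))).card :=
      Finset.card_pos.mpr ⟨l, by simp⟩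
    rw [← hdual] at h1
    obtain ⟨j, hj⟩ := Finset.card_pos.mp h1
    simp only [Finset.mem_filter, Finset.mem_univ, true_and] at hj
    obtain ⟨⟨r, hr⟩, h0⟩ := heven j
    exact ⟨⟨6 - r, by omega⟩, by omega⟩
  obtain ⟨v12, v14, v16, v18, v20, v22, v24⟩ := finrank_LvlOne_vals
  -- the Hilbert function in weight 24
  have hM : Module.finrank ℂ (VMod X 24) = ∑ j, Module.finrank ℂ (LvlOne (24 - B.wt j)) :=
    finrank_eq_sum (fun a b f hf F hF => VMod.smulV_mem hf hF) B 24
  have hS : Module.finrank ℂ (VCusp X 24) = ∑ l, Module.finrank ℂ (LvlOne (24 - B'.wt l)) :=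
    finrank_eq_sum (fun a b f hf F hF => VCusp.smulV_mem hf hF) B' 24
  have hMj : ∀ j, (Module.finrank ℂ (LvlOne (24 - B.wt j)) : ℤ) =
      2 + (if B.wt j = 0 then (1 : ℤ) else 0) - (if B.wt j = 10 then (1 : ℤ) else 0) := fun j => by
    obtain ⟨⟨r, hr⟩, h0⟩ := heven j
    have h10 := hle j
    have hcases : B.wt j = 0 ∨ B.wt j = 2 ∨ B.wt j = 4 ∨ B.wt j = 6 ∨ B.wt j = 8 ∨ B.wt j = 10 := by
      omega
    rcases hcases with h | h | h | h | h | h <;> rw [h] <;> norm_num <;> simp [*]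
  have hSl : ∀ l, (Module.finrank ℂ (LvlOne (24 - B'.wt l)) : ℤ) =
      2 - (if B'.wt l = 10 then (1 : ℤ) else 0) := fun l => by
    obtain ⟨⟨r, hr⟩, h12⟩ := heven' l
    have h2 := hpos' l
    have hcases : B'.wt l = 2 ∨ B'.wt l = 4 ∨ B'.wt l = 6 ∨ B'.wt l = 8 ∨ B'.wt l = 10 ∨
        B'.wt l = 12 := by omega
    rcases hcases with h | h | h | h | h | h <;> rw [h] <;> norm_num <;> simp [*]
  have hMZ : (Module.finrank ℂ (VMod X 24) : ℤ) = 2 * B.n
      + (Finset.univ.filter (fun j => B.wt j = 0)).card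
      - (Finset.univ.filter (fun j => B.wt j = 10)).card := by
    rw [hM, Nat.cast_sum, Finset.sum_congr rfl fun j _ => hMj j, Finset.sum_sub_distrib,
      Finset.sum_add_distrib, card_filter_eq_sum_ite, card_filter_eq_sum_ite]
    simp [mul_comm]
  have hSZ : (Module.finrank ℂ (VCusp X 24) : ℤ) = 2 * B'.n
      - (Finset.univ.filter (fun l => B'.wt l = 10)).card := by
    rw [hS, Nat.cast_sum, Finset.sum_congr rfl fun l _ => hSl l, Finset.sum_sub_distrib,
      card_filter_eq_sum_ite]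
    simp [mul_comm]
  have hK : ∀ j, Even (24 - B.wt j) ∧ 4 ≤ 24 - B.wt j := fun j => by
    obtain ⟨⟨r, hr⟩, h0⟩ := heven j
    have h10 := hle j
    exact ⟨⟨12 - r, by omega⟩, by omega⟩
  have hmain := finrank_VMod_eq_add hX B hK
  have hd2 := hdual 2
  norm_num at hd2
  have hmainZ : (Module.finrank ℂ (VMod X 24) : ℤ) = Module.finrank ℂ (VCusp X 24) +
      Nat.card (MulAction.orbitRel.Quotient (Subgroup.zpowers ModularGroup.T) X) := by
    exact_mod_cast hmain
  rw [hMZ, hSZ] at hmainZ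
  have hnn : (B.n : ℤ) = B'.n := by rw [hn, hn']
  have hd2Z : ((Finset.univ.filter (fun j => B.wt j = 2)).card : ℤ) =
      (Finset.univ.filter (fun l => B'.wt l = 10)).card := by exact_mod_cast hd2
  linarith


/-! ## COUNT : the main abstract count -/

omit [Fintype X] [MulAction SL(2, ℤ) X] in
/-- counting a predicate along a weight function with values in `{0,2,4,6,8,10}` -/
lemma card_filter_pred {n : ℕ} (f : Fin n → ℤ)
    (hf : ∀ j, f j = 0 ∨ f j = 2 ∨ f j = 4 ∨ f j = 6 ∨ f j = 8 ∨ f j = 10)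
    (p : ℤ → Prop) [DecidablePred p] :
    ((Finset.univ.filter (fun j => p (f j))).card : ℤ) =
      ∑ w ∈ ({0, 2, 4, 6, 8, 10} : Finset ℤ),
        if p w then ((Finset.univ.filter (fun j => f j = w)).card : ℤ) else 0 := by
  classical
  have h1 : ((Finset.univ.filter (fun j => p (f j))).card : ℤ) =
      ∑ j, (if p (f j) then (1 : ℤ) else 0) := by rw [Finset.sum_boole]
  have h2 : ∀ j, (if p (f j) then (1 : ℤ) else 0) =
      ∑ w ∈ ({0, 2, 4, 6, 8, 10} : Finset ℤ), if p w then (if f j = w then (1 : ℤ) else 0) else 0 := by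
    intro j
    have hmem : f j ∈ ({0, 2, 4, 6, 8, 10} : Finset ℤ) := by
      simp only [Finset.mem_insert, Finset.mem_singleton]
      exact hf j
    have : ∀ w, (if p w then (if f j = w then (1 : ℤ) else 0) else 0) =
        if f j = w then (if p (f j) then (1 : ℤ) else 0) else 0 := by
      intro w
      by_cases hw : f j = w
      · subst hw; simp
      · simp [hw]
    simp_rw [this]
    rw [Finset.sum_ite_eq, if_pos hmem]
  rw [h1, Finset.sum_congr rfl fun j _ => h2 j, Finset.sum_comm]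
  refine Finset.sum_congr rfl fun w _ => ?_
  by_cases hw : p w
  · simp only [hw, if_true]
    rw [Finset.sum_boole]
  · simp [hw]

theorem main_abstract (hX : GoodX X) :
    12 * (Module.finrank ℂ (VCusp X 2) : ℤ) =
      12 + Fintype.card X - 3 * Nat.card {x : X // ModularGroup.S • x = x}
        - 4 * Nat.card {x : X // (ModularGroup.S * ModularGroup.T) • x = x}
        - 6 * Nat.card (MulAction.orbitRel.Quotient (Subgroup.zpowers ModularGroup.T) X) := by
  classical
  obtain ⟨B⟩ := exists_homBasis_VMod hX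
  obtain ⟨B'⟩ := exists_homBasis_VCusp hX
  have hn : B.n = Fintype.card X := n_eq_VMod hX B
  have heven : ∀ j, Even (B.wt j) ∧ 0 ≤ B.wt j := fun j => wt_even_VMod hX B j
  have hpos' : ∀ l, 2 ≤ B'.wt l := fun l => H19.wt_pos_VCusp hX B' l
  have hdual : ∀ w, (Finset.univ.filter (fun j => B.wt j = w)).card =
      (Finset.univ.filter (fun l => B'.wt l = 12 - w)).card := fun w => duality hX B B' w
  have hle : ∀ j, B.wt j ≤ 10 := fun j => by
    have h1 : 0 < (Finset.univ.filter (fun j' => B.wt j' = B.wt j)).card :=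
      Finset.card_pos.mpr ⟨j, by simp⟩
    rw [hdual] at h1
    obtain ⟨l, hl⟩ := Finset.card_pos.mp h1
    simp only [Finset.mem_filter, Finset.mem_univ, true_and] at hl
    have := hpos' l
    omega
  have hf : ∀ j, B.wt j = 0 ∨ B.wt j = 2 ∨ B.wt j = 4 ∨ B.wt j = 6 ∨ B.wt j = 8 ∨ B.wt j = 10 :=
    fun j => by
      obtain ⟨⟨r, hr⟩, h0⟩ := heven j
      have h10 := hle j
      omega
  -- the six multiplicities
  set m0 : ℤ := ((Finset.univ.filter (fun j => B.wt j = 0)).card : ℤ) with hm0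
  set m2 : ℤ := ((Finset.univ.filter (fun j => B.wt j = 2)).card : ℤ) with hm2
  set m4 : ℤ := ((Finset.univ.filter (fun j => B.wt j = 4)).card : ℤ) with hm4
  set m6 : ℤ := ((Finset.univ.filter (fun j => B.wt j = 6)).card : ℤ) with hm6
  set m8 : ℤ := ((Finset.univ.filter (fun j => B.wt j = 8)).card : ℤ) with hm8
  set m10 : ℤ := ((Finset.univ.filter (fun j => B.wt j = 10)).card : ℤ) with hm10
  have e4 := card_filter_pred B.wt hf (fun w => (4 : ℤ) ∣ w)
  have e6 := card_filter_pred B.wt hf (fun w => (6 : ℤ) ∣ w)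
  have e62 := card_filter_pred B.wt hf (fun w => (6 : ℤ) ∣ w - 2)
  have e64 := card_filter_pred B.wt hf (fun w => (6 : ℤ) ∣ w - 4)
  have eall := card_filter_pred B.wt hf (fun _ => True)
  norm_num [Finset.sum_insert, Finset.filter_true_of_mem] at e4 e6 e62 e64 eall
  -- the relations
  have r4 := card_wt_mod4 hX B
  have r6 := card_wt_mod6 hX B
  have r6' := card_wt_mod6' hX B
  have r0 := card_wt_zero hX B
  have rS := H19.finrank_VCusp_two hX B'
  have rc := cusp_relation hX B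
  have rd := hdual 10
  norm_num at rd
  have r4Z : 2 * ((Finset.univ.filter (fun j => (4 : ℤ) ∣ B.wt j)).card : ℤ) =
      Fintype.card X + Nat.card {x : X // ModularGroup.S • x = x} := by exact_mod_cast r4
  have r6Z : 3 * ((Finset.univ.filter (fun j => (6 : ℤ) ∣ B.wt j)).card : ℤ) =
      Fintype.card X + 2 * Nat.card {x : X // (ModularGroup.S * ModularGroup.T) • x = x} := by
    exact_mod_cast r6
  have r6'Z : ((Finset.univ.filter (fun j => (6 : ℤ) ∣ B.wt j - 2)).card : ℤ) =
      (Finset.univ.filter (fun j => (6 : ℤ) ∣ B.wt j - 4)).card := by exact_mod_cast r6'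
  have r0Z : m0 = 1 := by rw [hm0]; exact_mod_cast r0
  have rSZ : (Module.finrank ℂ (VCusp X 2) : ℤ) = m10 := by
    rw [rS, hm10, rd]
  have hnZ : (B.n : ℤ) = Fintype.card X := by exact_mod_cast hn
  rw [e4] at r4Z
  rw [e6] at r6Z
  rw [e62, e64] at r6'Z
  rw [rSZ]
  linarith

end Fermat.Agent.S20.H48
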