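import Mathlib
import Fermat.Agent.S20.SkelFree
import Fermat.Agent.S20.H48_RankA
import Fermat.Agent.S20.H49_RankB

set_option autoImplicit false

/-!
# S20 : `Skel`-namespace statements of the RANK package
RANK-a (leading vectors independent) : helper48, `H48_RankA.lean`.
RANK-b (number of generators = card X) : helper49, `H49_RankB.lean`.
-/

open UpperHalfPlane ModularForm
open scoped MatrixGroups ModularForm Manifold

noncomputable section

namespace Fermat.Agent.S20.Skel

open Fermat.Agent.S20

variable {X : Type} [Fintype X] [MulAction SL(2, ℤ) X]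

/-- leading vectors of a basis form a basis of `X → ℂ` -/
theorem HomBasis.Lmap_linearIndependent (hX : GoodX X) (B : HomBasis (VMod X)) {h : ℕ}
    (hh : Tper X h) : LinearIndependent ℂ (fun j => Lmap h (B.gen j)) :=
  H48.leading_linearIndependent hX (fun _ => le_rfl) (fun _ _ _ hf _ hF => VMod.smulV_mem hf hF)
    (Lmap h) (fun _ _ _ hF hG => Lmap_add hh hF hG) (fun _ _ hF c => Lmap_smul hh hF c)
    (fun _ _ _ _ hf hF => Lmap_smulV hh hf hF) (fun _ _ hF h0 => Lmap_eq_zero hh hF h0) B

theorem HomBasis.Lmap'_linearIndependent (hX : GoodX X) (B : HomBasis (VCusp X)) {h : ℕ}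
    (hh : Tper X h) : LinearIndependent ℂ (fun j => Lmap' h (B.gen j)) :=
  H48.leading_linearIndependent hX (fun k => VCusp.le_VMod k)
    (fun _ _ _ hf _ hF => VCusp.smulV_mem hf hF)
    (Lmap' h) (fun _ _ _ hF hG => Lmap'_add hh hF hG) (fun _ _ hF c => Lmap'_smul hh hF c)
    (fun _ _ _ _ hf hF => Lmap'_smulV hh hf hF) (fun _ _ hF h0 => Lmap'_eq_zero hh hF h0) B

theorem HomBasis.n_eq_VMod (hX : GoodX X) (B : HomBasis (VMod X)) : B.n = Fintype.card X := by
  obtain ⟨h, hh⟩ := exists_Tper X
  exact H49.n_eq_VMod_of hX B (HomBasis.Lmap_linearIndependent hX B hh)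

theorem HomBasis.n_eq_VCusp (hX : GoodX X) (B : HomBasis (VCusp X)) : B.n = Fintype.card X := by
  obtain ⟨h, hh⟩ := exists_Tper X
  exact H49.n_eq_VCusp_of hX B (HomBasis.Lmap'_linearIndependent hX B hh)

end Fermat.Agent.S20.Skel
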