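import Mathlib
import Fermat.Agent.S20.SkelRank
import Fermat.Agent.S20.H43_PT
import Fermat.Agent.S20.H35_PTCounts

set_option autoImplicit false

/-!
# S20 : `Skel`-namespace statements of the PT package
pointwise independence : helper43, `H43_PT.lean`;  weight counts : helper35, `H35_PTCounts.lean`
(also helper19, `H19_PTCounts.lean`).
-/

open UpperHalfPlane ModularForm
open scoped MatrixGroups ModularForm Manifold

noncomputable section

namespace Fermat.Agent.S20.Skel

open Fermat.Agent.S20

variable {X : Type} [Fintype X] [MulAction SL(2, ℤ) X]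

/-- values of a basis at any point are linearly independent -/
theorem HomBasis.eval_linearIndependent (hX : GoodX X) {M : ℤ → Submodule ℂ (X → ℍ → ℂ)}
    (hM : M = VMod X ∨ M = VCusp X) (B : HomBasis M) (z : ℍ) :
    LinearIndependent ℂ (fun j => (fun x => B.gen j x z : X → ℂ)) := by
  rcases hM with rfl | rfl
  · exact H43.eval_linearIndependent_of hX (Or.inl rfl) B (B.n_eq_VMod hX) z
  · exact H43.eval_linearIndependent_of hX (Or.inr rfl) B (B.n_eq_VCusp hX) z

/-- weights of a basis are even and nonnegative -/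
theorem HomBasis.wt_even (hX : GoodX X) (B : HomBasis (VMod X)) (j : Fin B.n) :
    Even (B.wt j) ∧ 0 ≤ B.wt j :=
  H35.HomBasis.wt_even hX B j

theorem HomBasis.card_wt_mod4 (hX : GoodX X) (B : HomBasis (VMod X)) :
    2 * (Finset.univ.filter (fun j => (4 : ℤ) ∣ B.wt j)).card =
      Fintype.card X + Nat.card {x : X // ModularGroup.S • x = x} :=
  H35.card_wt_mod4_of hX B (B.n_eq_VMod hX) (B.eval_linearIndependent hX (Or.inl rfl) _)
theorem HomBasis.card_wt_mod6 (hX : GoodX X) (B : HomBasis (VMod X)) :
    3 * (Finset.univ.filter (fun j => (6 : ℤ) ∣ B.wt j)).card =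
      Fintype.card X + 2 * Nat.card {x : X // (ModularGroup.S * ModularGroup.T) • x = x} :=
  H35.card_wt_mod6_of hX B (B.n_eq_VMod hX) (B.eval_linearIndependent hX (Or.inl rfl) _)
theorem HomBasis.card_wt_mod6' (hX : GoodX X) (B : HomBasis (VMod X)) :
    (Finset.univ.filter (fun j => (6 : ℤ) ∣ B.wt j - 2)).card =
      (Finset.univ.filter (fun j => (6 : ℤ) ∣ B.wt j - 4)).card :=
  H35.card_wt_mod6'_of hX B (B.n_eq_VMod hX) (B.eval_linearIndependent hX (Or.inl rfl) _)

end Fermat.Agent.S20.Skel
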