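import Mathlib
import Fermat.Agent.S20.SkelPT
import Fermat.Agent.S20.H19_Dual
import Fermat.Agent.S20.H19_Count

set_option autoImplicit false

/-!
# S20 : `Skel`-namespace statements of the DUAL package and of COUNT-a (helper19)
-/

open UpperHalfPlane ModularForm
open scoped MatrixGroups ModularForm Manifold

noncomputable section

namespace Fermat.Agent.S20.Skel

open Fermat.Agent.S20

variable {X : Type} [Fintype X] [MulAction SL(2, ℤ) X]

/-! ## DUAL : duality between `VMod` and `VCusp` -/

theorem HomBasis.duality (hX : GoodX X) (B : HomBasis (VMod X)) (B' : HomBasis (VCusp X))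
    (w : ℤ) : (Finset.univ.filter (fun j => B.wt j = w)).card =
      (Finset.univ.filter (fun l => B'.wt l = 12 - w)).card := by
  obtain ⟨h, hh⟩ := exists_Tper X
  exact H19.duality_of B B'
    ⟨fun hF hG => pairing_mem hF hG, fun hF hG => pairing_coeff_one hh hF hG⟩
    (B.n_eq_VMod hX) (B'.n_eq_VCusp hX) (B.Lmap_linearIndependent hX hh)
    (B'.Lmap'_linearIndependent hX hh)
    (fun z => B.eval_linearIndependent hX (Or.inl rfl) z)
    (fun z => B'.eval_linearIndependent hX (Or.inr rfl) z) w

/-! ## COUNT-a -/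

theorem HomBasis.card_wt_zero (hX : GoodX X) (B : HomBasis (VMod X)) :
    (Finset.univ.filter (fun j => B.wt j = 0)).card = 1 :=
  H19.card_wt_zero_of hX B (fun j => (B.wt_even hX j).2)
theorem HomBasis.wt_pos_VCusp (hX : GoodX X) (B' : HomBasis (VCusp X)) (l : Fin B'.n) :
    2 ≤ B'.wt l :=
  H19.wt_pos_VCusp hX B' l
theorem HomBasis.finrank_VCusp_two (hX : GoodX X) (B' : HomBasis (VCusp X)) :
    Module.finrank ℂ (VCusp X 2) = (Finset.univ.filter (fun l => B'.wt l = 2)).card :=
  H19.finrank_VCusp_two hX B'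

end Fermat.Agent.S20.Skel
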