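import Mathlib
import Fermat.Agent.S20.SkelDual
import Fermat.Agent.S20.H48_Count

set_option autoImplicit false

/-!
# S20 : `Skel`-namespace statements of the COUNT package (helper48, `H48_Count.lean`)
-/

open UpperHalfPlane ModularForm
open scoped MatrixGroups ModularForm Manifold

noncomputable section

namespace Fermat.Agent.S20.Skel

open Fermat.Agent.S20

variable {X : Type} [Fintype X] [MulAction SL(2, ℤ) X]

/-- the relation coming from `dim M_K - dim S_K = number of T-orbits` for large `K` -/
theorem HomBasis.cusp_relation (hX : GoodX X) (B : HomBasis (VMod X)) :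
    ((Finset.univ.filter (fun j => B.wt j = 0)).card : ℤ)
      + (Finset.univ.filter (fun j => B.wt j = 2)).card
      - (Finset.univ.filter (fun j => B.wt j = 10)).card
      = Nat.card (MulAction.orbitRel.Quotient (Subgroup.zpowers ModularGroup.T) X) :=
  H48.cusp_relation hX B

/-- the abstract dimension formula for vector valued cusp forms of weight two -/
theorem main_abstract (hX : GoodX X) :
    12 * (Module.finrank ℂ (VCusp X 2) : ℤ) =
      12 + Fintype.card X - 3 * Nat.card {x : X // ModularGroup.S • x = x}
        - 4 * Nat.card {x : X // (ModularGroup.S * ModularGroup.T) • x = x}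
        - 6 * Nat.card (MulAction.orbitRel.Quotient (Subgroup.zpowers ModularGroup.T) X) :=
  H48.main_abstract hX

end Fermat.Agent.S20.Skel
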