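import Mathlib
import Fermat.Agent.S20.SkelA

/-!
S20 package PT-counts (helper19): the trace counts `card_wt_mod4`, `card_wt_mod6`, `card_wt_mod6'`
from pointwise independence of a homogeneous basis at the elliptic points.
-/

set_option autoImplicit false

open UpperHalfPlane ModularForm Filter Topology
open scoped MatrixGroups ModularForm Manifold

noncomputable section

namespace Fermat.Agent.S20.H19

open Fermat.Agent.S20 Fermat.Agent.S20.Skel

/-! ### Linear algebra: traces of permutation operators -/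

/-- The permutation operator `(P v) x = v (g⁻¹ • x)`. -/
def permOp {G X : Type} [Group G] [MulAction G X] (g : G) : (X → ℂ) →ₗ[ℂ] (X → ℂ) :=
  LinearMap.funLeft ℂ ℂ (fun x => g⁻¹ • x)

theorem permOp_apply {G X : Type} [Group G] [MulAction G X] (g : G) (v : X → ℂ) (x : X) :
    permOp g v x = v (g⁻¹ • x) := rfl

theorem trace_permOp {G X : Type} [Group G] [MulAction G X] [Fintype X] [DecidableEq X] (g : G) :
    LinearMap.trace ℂ (X → ℂ) (permOp g) = (Nat.card {x : X // g • x = x} : ℂ) := by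
  rw [LinearMap.trace_eq_matrix_trace ℂ (Pi.basisFun ℂ X), LinearMap.toMatrix_eq_toMatrix',
    Matrix.trace]
  simp only [Matrix.diag_apply, LinearMap.toMatrix'_apply, permOp_apply, Pi.single_apply]
  rw [Finset.sum_boole, Nat.card_eq_fintype_card, Fintype.card_subtype]
  congr 2
  ext x
  simp only [Finset.mem_filter, Finset.mem_univ, true_and]
  constructor
  · intro h; rw [inv_smul_eq_iff] at h; exact h.symm
  · intro h; rw [inv_smul_eq_iff]; exact h.symm

/-- The trace of an operator in a basis of eigenvectors is the sum of the eigenvalues. -/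
theorem trace_eq_sum_of_eigen {ι V : Type} [Fintype ι] [DecidableEq ι] [AddCommGroup V]
    [Module ℂ V] [FiniteDimensional ℂ V] (v : ι → V) (hli : LinearIndependent ℂ v)
    (hcard : Fintype.card ι = Module.finrank ℂ V) (P : V →ₗ[ℂ] V) (c : ι → ℂ)
    (hP : ∀ j, P (v j) = c j • v j) : LinearMap.trace ℂ V P = ∑ j, c j := by
  rcases isEmpty_or_nonempty ι with hι | hι
  · have h0 : Module.finrank ℂ V = 0 := by rw [← hcard]; exact Fintype.card_eq_zero
    have hsub : Subsingleton V := Module.finrank_zero_iff.mp h0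
    have hP0 : P = 0 := LinearMap.ext fun x => Subsingleton.elim _ _
    rw [hP0, map_zero, Finset.univ_eq_empty, Finset.sum_empty]
  set b := basisOfLinearIndependentOfCardEqFinrank hli hcard with hb
  have hbv : ∀ j, b j = v j := fun j => by
    rw [hb, coe_basisOfLinearIndependentOfCardEqFinrank]
  rw [LinearMap.trace_eq_matrix_trace ℂ b, Matrix.trace]
  refine Finset.sum_congr rfl fun j _ => ?_
  rw [Matrix.diag_apply, LinearMap.toMatrix_apply, hbv, hP, ← hbv, map_smul,
    Module.Basis.repr_self]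
  simp

/-! ### Values of a tuple at a fixed point are eigenvectors of the permutation operator -/

variable {X : Type} [Fintype X] [MulAction SL(2, ℤ) X]

omit [Fintype X] in
theorem permOp_eval {k : ℤ} {F : X → ℍ → ℂ} (hF : F ∈ VMod X k) (g : SL(2, ℤ)) {z₀ : ℍ}
    (hz : g • z₀ = z₀) :
    permOp g (fun x => F x z₀) = (denom (g : GL (Fin 2) ℝ) z₀ ^ (-k)) • (fun x => F x z₀) := by
  funext x
  have h := congrFun (hF.2.1 g x) z₀
  rw [ModularForm.SL_slash_apply, hz] at h
  simp only [permOp_apply, Pi.smul_apply, smul_eq_mul]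
  rw [← h, mul_comm]

/-- The trace identity at a fixed point. -/
theorem sum_denom_zpow (B : HomBasis (VMod X)) (hn : B.n = Fintype.card X) (g : SL(2, ℤ))
    {z₀ : ℍ} (hev : LinearIndependent ℂ (fun j => (fun x => B.gen j x z₀ : X → ℂ)))
    (hz : g • z₀ = z₀) :
    ∑ j, denom (g : GL (Fin 2) ℝ) z₀ ^ (-B.wt j) = (Nat.card {x : X // g • x = x} : ℂ) := by
  classical
  rw [← trace_permOp g]
  refine (trace_eq_sum_of_eigen (fun j => (fun x => B.gen j x z₀ : X → ℂ))
    hev ?_ (permOp g) _ fun j => ?_).symm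
  · rw [Module.finrank_fintype_fun_eq_card, Fintype.card_fin, hn]
  · exact permOp_eval (B.gen_mem j) g hz

/-! ### Roots of unity bookkeeping -/

theorem I_zpow_neg_of_even {k : ℤ} (hk : Even k) :
    (Complex.I : ℂ) ^ (-k) = if (4 : ℤ) ∣ k then 1 else -1 := by
  obtain ⟨m, rfl⟩ := hk
  have h1 : (Complex.I : ℂ) ^ (-(m + m)) = ((-1 : ℂ) ^ m)⁻¹ := by
    rw [zpow_neg, ← two_mul, zpow_mul, zpow_ofNat, Complex.I_sq]
  rw [h1]
  by_cases h4 : (4 : ℤ) ∣ m + m
  · rw [if_pos h4]
    have : Even m := by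
      obtain ⟨t, ht⟩ := h4
      exact ⟨t, by omega⟩
    rw [this.neg_one_zpow, inv_one]
  · rw [if_neg h4]
    have : Odd m := by
      rw [← Int.not_even_iff_odd]
      rintro ⟨t, ht⟩
      exact h4 ⟨t, by omega⟩
    rw [this.neg_one_zpow]
    norm_num

theorem rho_add_one_zpow_neg_of_even {k : ℤ} (hk : Even k) :
    ((rho : ℂ) + 1) ^ (-k) =
      if (6 : ℤ) ∣ k then 1 else if (6 : ℤ) ∣ k - 2 then (rho : ℂ) ^ 2 else (rho : ℂ) := by
  obtain ⟨m, rfl⟩ := hk
  have hne : (rho : ℂ) ≠ 0 := by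
    intro h0
    have := rho_cube
    rw [h0] at this
    norm_num at this
  have h1 : ((rho : ℂ) + 1) ^ (-(m + m)) = ((rho : ℂ) ^ m)⁻¹ := by
    rw [zpow_neg, ← two_mul, zpow_mul, zpow_ofNat, rho_add_one_sq]
  rw [h1]
  have hinv1 : ((rho : ℂ))⁻¹ = (rho : ℂ) ^ 2 :=
    inv_eq_of_mul_eq_one_right (by linear_combination rho_cube)
  have hcube : ∀ t : ℤ, (rho : ℂ) ^ (3 * t) = 1 := fun t => by
    rw [zpow_mul, zpow_ofNat, rho_cube, one_zpow]
  obtain ⟨t, ht | ht | ht⟩ : ∃ t : ℤ, m = 3 * t ∨ m = 3 * t + 1 ∨ m = 3 * t + 2 :=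
    ⟨m / 3, by omega⟩
  · have h6 : (6 : ℤ) ∣ m + m := ⟨t, by omega⟩
    rw [if_pos h6, ht, hcube, inv_one]
  · have h6 : ¬ (6 : ℤ) ∣ m + m := by rintro ⟨s, hs⟩; omega
    have h62 : (6 : ℤ) ∣ m + m - 2 := ⟨t, by omega⟩
    rw [if_neg h6, if_pos h62, ht, zpow_add₀ hne, hcube, one_mul, zpow_one, hinv1]
  · have h6 : ¬ (6 : ℤ) ∣ m + m := by rintro ⟨s, hs⟩; omega
    have h62 : ¬ (6 : ℤ) ∣ m + m - 2 := by rintro ⟨s, hs⟩; omega
    rw [if_neg h6, if_neg h62, ht, zpow_add₀ hne, hcube, one_mul, zpow_ofNat]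
    exact inv_eq_of_mul_eq_one_right (by linear_combination rho_cube)

theorem real_add_real_mul_rho_eq_zero {r s : ℝ} (h : (r : ℂ) + (s : ℂ) * (rho : ℂ) = 0) :
    r = 0 ∧ s = 0 := by
  have him := congrArg Complex.im h
  have hre := congrArg Complex.re h
  rw [rho_coe] at him hre
  simp at him hre
  subst him
  simp at hre
  exact ⟨hre, rfl⟩

/-! ### The three counts -/

theorem card_wt_mod4_of (B : HomBasis (VMod X)) (hn : B.n = Fintype.card X)
    (hev : LinearIndependent ℂ (fun j => (fun x => B.gen j x UpperHalfPlane.I : X → ℂ)))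
    (hwt : ∀ j, Even (B.wt j)) :
    2 * (Finset.univ.filter (fun j => (4 : ℤ) ∣ B.wt j)).card =
      Fintype.card X + Nat.card {x : X // ModularGroup.S • x = x} := by
  classical
  have h := sum_denom_zpow B hn ModularGroup.S hev S_smul_I
  rw [ModularGroup.denom_S, UpperHalfPlane.coe_I] at h
  have hterm : ∀ j, (Complex.I : ℂ) ^ (-B.wt j) = if (4 : ℤ) ∣ B.wt j then 1 else -1 :=
    fun j => I_zpow_neg_of_even (hwt j)
  simp only [hterm] at h
  rw [Finset.sum_ite, Finset.sum_const, Finset.sum_const] at h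
  have hsplit := Finset.card_filter_add_card_filter_not (s := (Finset.univ : Finset (Fin B.n)))
    (fun j => (4 : ℤ) ∣ B.wt j)
  simp only [Finset.card_univ, Fintype.card_fin] at hsplit
  set a := (Finset.univ.filter (fun j => (4 : ℤ) ∣ B.wt j)).card with ha
  set b := (Finset.univ.filter (fun j => ¬ (4 : ℤ) ∣ B.wt j)).card with hb
  set f := Nat.card {x : X // ModularGroup.S • x = x} with hf
  have h2 : (((a : ℤ) - (b : ℤ) : ℤ) : ℂ) = ((f : ℤ) : ℂ) := by
    push_cast
    rw [← h]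
    simp only [nsmul_eq_mul, mul_one, mul_neg]
    ring
  have h3 : (a : ℤ) - (b : ℤ) = (f : ℤ) := by exact_mod_cast h2
  omega

theorem wt_mod6_aux (B : HomBasis (VMod X)) (hn : B.n = Fintype.card X)
    (hev : LinearIndependent ℂ (fun j => (fun x => B.gen j x rho : X → ℂ)))
    (hwt : ∀ j, Even (B.wt j)) :
    (Finset.univ.filter (fun j => (6 : ℤ) ∣ B.wt j - 4)).card =
        (Finset.univ.filter (fun j => (6 : ℤ) ∣ B.wt j - 2)).card ∧
      ((Finset.univ.filter (fun j => (6 : ℤ) ∣ B.wt j)).card : ℤ) -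
          (Finset.univ.filter (fun j => (6 : ℤ) ∣ B.wt j - 2)).card =
        Nat.card {x : X // (ModularGroup.S * ModularGroup.T) • x = x} ∧
      (Finset.univ.filter (fun j => (6 : ℤ) ∣ B.wt j)).card +
          (Finset.univ.filter (fun j => (6 : ℤ) ∣ B.wt j - 2)).card +
          (Finset.univ.filter (fun j => (6 : ℤ) ∣ B.wt j - 4)).card = B.n := by
  classical
  have h := sum_denom_zpow B hn (ModularGroup.S * ModularGroup.T) hev ST_smul_rho
  rw [denom_ST] at h
  have hterm : ∀ j, ((rho : ℂ) + 1) ^ (-B.wt j) =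
      if (6 : ℤ) ∣ B.wt j then 1 else if (6 : ℤ) ∣ B.wt j - 2 then (rho : ℂ) ^ 2 else (rho : ℂ) :=
    fun j => rho_add_one_zpow_neg_of_even (hwt j)
  simp only [hterm] at h
  rw [Finset.sum_ite, Finset.sum_ite, Finset.sum_const, Finset.sum_const, Finset.sum_const] at h
  -- identify the index sets
  have hA2 : (Finset.univ.filter (fun j => ¬ (6 : ℤ) ∣ B.wt j)).filter
      (fun j => (6 : ℤ) ∣ B.wt j - 2) = Finset.univ.filter (fun j => (6 : ℤ) ∣ B.wt j - 2) := by
    ext j
    simp only [Finset.mem_filter, Finset.mem_univ, true_and, and_iff_right_iff_imp]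
    rintro ⟨s, hs⟩ ⟨t, ht⟩
    omega
  have hA4 : (Finset.univ.filter (fun j => ¬ (6 : ℤ) ∣ B.wt j)).filter
      (fun j => ¬ (6 : ℤ) ∣ B.wt j - 2) = Finset.univ.filter (fun j => (6 : ℤ) ∣ B.wt j - 4) := by
    ext j
    simp only [Finset.mem_filter, Finset.mem_univ, true_and]
    obtain ⟨m, hm⟩ := hwt j
    constructor
    · rintro ⟨h1, h2⟩
      by_contra h3
      apply h1
      obtain ⟨t, ht | ht | ht⟩ : ∃ t : ℤ, m = 3 * t ∨ m = 3 * t + 1 ∨ m = 3 * t + 2 :=
        ⟨m / 3, by omega⟩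
      · exact ⟨t, by omega⟩
      · exact absurd ⟨t, by omega⟩ h2
      · exact absurd ⟨t, by omega⟩ h3
    · rintro ⟨s, hs⟩
      refine ⟨?_, ?_⟩ <;> rintro ⟨t, ht⟩ <;> omega
  rw [hA2, hA4] at h
  have hsplit1 := Finset.card_filter_add_card_filter_not
    (s := (Finset.univ : Finset (Fin B.n))) (fun j => (6 : ℤ) ∣ B.wt j)
  have hsplit2 := Finset.card_filter_add_card_filter_not
    (s := Finset.univ.filter (fun j : Fin B.n => ¬ (6 : ℤ) ∣ B.wt j))
    (fun j => (6 : ℤ) ∣ B.wt j - 2)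
  rw [hA2, hA4] at hsplit2
  simp only [Finset.card_univ, Fintype.card_fin] at hsplit1
  set a0 := (Finset.univ.filter (fun j => (6 : ℤ) ∣ B.wt j)).card with ha0
  set a2 := (Finset.univ.filter (fun j => (6 : ℤ) ∣ B.wt j - 2)).card with ha2
  set a4 := (Finset.univ.filter (fun j => (6 : ℤ) ∣ B.wt j - 4)).card with ha4
  set f := Nat.card {x : X // (ModularGroup.S * ModularGroup.T) • x = x} with hf
  have hlin : (((a0 : ℝ) - a2 - f : ℝ) : ℂ) + (((a4 : ℝ) - a2 : ℝ) : ℂ) * (rho : ℂ) = 0 := by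
    have hr2 : (rho : ℂ) ^ 2 = -1 - (rho : ℂ) := by linear_combination rho_sq
    push_cast
    simp only [nsmul_eq_mul, mul_one, hr2] at h
    linear_combination h
  obtain ⟨h1, h2⟩ := real_add_real_mul_rho_eq_zero hlin
  have h42 : a4 = a2 := by
    have : (a4 : ℝ) = a2 := by linarith
    exact_mod_cast this
  refine ⟨h42, ?_, by omega⟩
  have : (a0 : ℝ) - a2 = f := by linarith
  exact_mod_cast this

theorem card_wt_mod6_of (B : HomBasis (VMod X)) (hn : B.n = Fintype.card X)
    (hev : LinearIndependent ℂ (fun j => (fun x => B.gen j x rho : X → ℂ)))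
    (hwt : ∀ j, Even (B.wt j)) :
    3 * (Finset.univ.filter (fun j => (6 : ℤ) ∣ B.wt j)).card =
      Fintype.card X + 2 * Nat.card {x : X // (ModularGroup.S * ModularGroup.T) • x = x} := by
  obtain ⟨h1, h2, h3⟩ := wt_mod6_aux B hn hev hwt
  omega

theorem card_wt_mod6'_of (B : HomBasis (VMod X)) (hn : B.n = Fintype.card X)
    (hev : LinearIndependent ℂ (fun j => (fun x => B.gen j x rho : X → ℂ)))
    (hwt : ∀ j, Even (B.wt j)) :
    (Finset.univ.filter (fun j => (6 : ℤ) ∣ B.wt j - 2)).card =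
      (Finset.univ.filter (fun j => (6 : ℤ) ∣ B.wt j - 4)).card :=
  (wt_mod6_aux B hn hev hwt).1.symm

end Fermat.Agent.S20.H19
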