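import Mathlib
import Fermat.Agent.S20.H99_Cusp
import Fermat.Agent.S20.H33_FreeCusp

set_option autoImplicit false

/-!
# FREE : the three statements of Skeleton3 (`exists_homBasis_VMod`, `exists_homBasis_VCusp`,
`VMod.finiteDimensional`), now unconditional (CUSP from `H99_Cusp`, PSREG from `SkelPS`).
-/

open UpperHalfPlane ModularForm
open scoped MatrixGroups ModularForm Manifold

noncomputable section

namespace Fermat.Agent.S20.H33

open Fermat.Agent.S20 Fermat.Agent.S20.Skel

variable {X : Type} [Fintype X] [MulAction SL(2, ℤ) X]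

theorem cuspFacts {h : ℕ} (hh : Tper X h) : CuspFacts X h where
  Lmap_add := fun hF hG => H99.Lmap_add hh hF hG
  Lmap_smul := fun hF c => H99.Lmap_smul hh hF c
  Lmap_smulV := fun hf hF => H99.Lmap_smulV hh hf hF
  Lmap_eq_zero := fun hF h0 => H99.Lmap_eq_zero hh hF h0
  Lmap'_add := fun hF hG => H99.Lmap'_add hh hF hG
  Lmap'_smul := fun hF c => H99.Lmap'_smul hh hF c
  Lmap'_smulV := fun hf hF => H99.Lmap'_smulV hh hf hF
  Lmap'_eq_zero := fun hF h0 => H99.Lmap'_eq_zero hh hF h0

theorem VMod_finiteDimensional (hX : GoodX X) (k : ℤ) : FiniteDimensional ℂ (VMod X k) := by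
  obtain ⟨h, hh⟩ := H99.exists_Tper X
  exact finiteDimensional_VMod_of hX (cuspFacts hh) k

theorem VCusp_finiteDimensional (hX : GoodX X) (k : ℤ) : FiniteDimensional ℂ (VCusp X k) := by
  obtain ⟨h, hh⟩ := H99.exists_Tper X
  exact finiteDimensional_VCusp_of hX (cuspFacts hh) k

theorem exists_homBasis_VMod (hX : GoodX X) : Nonempty (HomBasis (VMod X)) := by
  obtain ⟨h, hh⟩ := H99.exists_Tper X
  exact exists_homBasis_VMod_of hX (cuspFacts hh)

theorem exists_homBasis_VCusp (hX : GoodX X) : Nonempty (HomBasis (VCusp X)) := by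
  obtain ⟨h, hh⟩ := H99.exists_Tper X
  exact exists_homBasis_VCusp_of hX (cuspFacts hh)

end Fermat.Agent.S20.H33
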