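import Mathlib
import Fermat.Agent.S20.LevelOne
import Fermat.Agent.S20.H38_Div
import Fermat.Agent.S20.H36_SimpleZeros

/-!
# S20 / SZ : the simple zero statements for the `LevelOne.lean` objects `E4`, `E6`, `piGen`,
and the resulting division lemmas for tuples (helper36)
-/

set_option autoImplicit false

open UpperHalfPlane ModularForm
open scoped MatrixGroups ModularForm Manifold

noncomputable section

namespace Fermat.Agent.S20.H36

open Fermat.Agent.S20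

theorem simpleZero_E4' {z : ℍ} (h : E4 z = 0) : deriv (E4 ∘ ofComplex) z ≠ 0 :=
  simpleZero_E4 h

theorem simpleZero_E6' {z : ℍ} (h : E6 z = 0) : deriv (E6 ∘ ofComplex) z ≠ 0 :=
  simpleZero_E6 h

theorem simpleZero_piGen' {z₀ z : ℍ} (h4 : E4 z₀ ≠ 0) (h6 : E6 z₀ ≠ 0) (h : piGen z₀ z = 0) :
    deriv (piGen z₀ ∘ ofComplex) z ≠ 0 :=
  simpleZero_piGen h4 h6 h

/-- the bracket identity for the `LevelOne.lean` objects -/
theorem bracket_eq' (z : ℍ) :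
    2 * E4 z * Derivative.normalizedDerivOfComplex E6 z -
      3 * E6 z * Derivative.normalizedDerivOfComplex E4 z = -1728 * Dl z :=
  bracket_eq z

variable {X : Type} [MulAction SL(2, ℤ) X]

theorem VMod_div_E4 {k : ℤ} {F : X → ℍ → ℂ} (hF : F ∈ VMod X k)
    (hvan : ∀ z : ℍ, E4 z = 0 → ∀ x, F x z = 0) :
    ∃ G ∈ VMod X (k - 4), F = fun x => E4 * G x :=
  H38.VMod_div E4_mem (by rw [show valueAtInfty E4 = 1 from vInf_E4]; exact one_ne_zero)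
    (fun _ h => simpleZero_E4' h) hF hvan

theorem VMod_div_E6 {k : ℤ} {F : X → ℍ → ℂ} (hF : F ∈ VMod X k)
    (hvan : ∀ z : ℍ, E6 z = 0 → ∀ x, F x z = 0) :
    ∃ G ∈ VMod X (k - 6), F = fun x => E6 * G x :=
  H38.VMod_div E6_mem (by rw [show valueAtInfty E6 = 1 from vInf_E6]; exact one_ne_zero)
    (fun _ h => simpleZero_E6' h) hF hvan

theorem VMod_div_piGen {z₀ : ℍ} (h4 : E4 z₀ ≠ 0) (h6 : E6 z₀ ≠ 0) {k : ℤ} {F : X → ℍ → ℂ}
    (hF : F ∈ VMod X k) (hvan : ∀ z : ℍ, piGen z₀ z = 0 → ∀ x, F x z = 0) :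
    ∃ G ∈ VMod X (k - 12), F = fun x => piGen z₀ * G x :=
  H38.VMod_div (piGen_mem z₀) (vInf_piGen_ne_zero z₀)
    (fun _ h => simpleZero_piGen' h4 h6 h) hF hvan

theorem VCusp_div_E4 {k : ℤ} {F : X → ℍ → ℂ} (hF : F ∈ VCusp X k)
    (hvan : ∀ z : ℍ, E4 z = 0 → ∀ x, F x z = 0) :
    ∃ G ∈ VCusp X (k - 4), F = fun x => E4 * G x :=
  H38.VCusp_div E4_mem (by rw [show valueAtInfty E4 = 1 from vInf_E4]; exact one_ne_zero)
    (fun _ h => simpleZero_E4' h) hF hvan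

theorem VCusp_div_E6 {k : ℤ} {F : X → ℍ → ℂ} (hF : F ∈ VCusp X k)
    (hvan : ∀ z : ℍ, E6 z = 0 → ∀ x, F x z = 0) :
    ∃ G ∈ VCusp X (k - 6), F = fun x => E6 * G x :=
  H38.VCusp_div E6_mem (by rw [show valueAtInfty E6 = 1 from vInf_E6]; exact one_ne_zero)
    (fun _ h => simpleZero_E6' h) hF hvan

theorem VCusp_div_piGen {z₀ : ℍ} (h4 : E4 z₀ ≠ 0) (h6 : E6 z₀ ≠ 0) {k : ℤ} {F : X → ℍ → ℂ}
    (hF : F ∈ VCusp X k) (hvan : ∀ z : ℍ, piGen z₀ z = 0 → ∀ x, F x z = 0) :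
    ∃ G ∈ VCusp X (k - 12), F = fun x => piGen z₀ * G x :=
  H38.VCusp_div (piGen_mem z₀) (vInf_piGen_ne_zero z₀)
    (fun _ h => simpleZero_piGen' h4 h6 h) hF hvan

end Fermat.Agent.S20.H36
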