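import Mathlib
import Fermat.Agent.S20.H47_CuspB

set_option autoImplicit false

/-!
# S20, package CUSP-a (helper47, hedge)

Statements of Skeleton2, section CUSP, first half, verbatim (in terms of the `Defs2` objects):
`exists_Tper`, `Lmap_add`, `Lmap_smul`, `Lmap_smulV`, `Lmap_eq_zero`, `Lmap'_add`, `Lmap'_smul`,
`Lmap'_smulV`, `Lmap'_eq_zero`, `mem_VCusp_iff`.
-/

open UpperHalfPlane ModularForm Function Filter
open scoped MatrixGroups ModularForm Manifold Topology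

noncomputable section

namespace Fermat.Agent.S20.H47

open Fermat.Agent.S20 Fermat.Agent.S20.Skel

local notation "𝕢" => Periodic.qParam

/-! ### analytic functions with vanishing first Taylor coefficients -/

/-- an analytic function whose first `m` Taylor coefficients vanish is `z ^ m * ψ z` with `ψ`
analytic at `0` -/
lemma exists_eq_pow_mul {φ : ℂ → ℂ} (hφ : AnalyticAt ℂ φ 0) (m : ℕ)
    (h0 : ∀ n < m, iteratedDeriv n φ 0 = 0) :
    ∃ ψ : ℂ → ℂ, AnalyticAt ℂ ψ 0 ∧ ∀ z, φ z = z ^ m * ψ z := by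
  have hp := hφ.hasFPowerSeriesAt
  refine ⟨(swap dslope 0)^[m] φ, ⟨_, hp.has_fpower_series_iterate_dslope_fslope m⟩, fun z => ?_⟩
  have := pow_sub_smul_iterate_dslope_of_zero (f := φ) (a := 0) m (fun k hk => ?_) z
  · simpa using this.symm
  · rw [← (hp.has_fpower_series_iterate_dslope_fslope k).coeff_zero 1,
      ← FormalMultilinearSeries.coeff, FormalMultilinearSeries.coeff_iterate_fslope, zero_add,
      FormalMultilinearSeries.coeff_ofScalars, h0 k hk, zero_div]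

/-! ### sums of eigenvectors -/

/-- a vanishing sum of eigenvectors for pairwise distinct eigenvalues has vanishing summands -/
lemma eq_zero_of_sum_eigen {V : Type*} [AddCommGroup V] [Module ℂ V] (f : Module.End ℂ V)
    (s : Finset ℕ) (μ : ℕ → ℂ) (hμ : Set.InjOn μ s) (a : ℕ → V)
    (ha : ∀ n ∈ s, f (a n) = μ n • a n) (hsum : ∑ n ∈ s, a n = 0) : ∀ n ∈ s, a n = 0 := by
  classical
  by_contra hcon
  push Not at hcon
  obtain ⟨m, hm, hm0⟩ := hcon
  set t := s.filter (fun n => a n ≠ 0) with ht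
  have hts : ∀ i : t, (i : ℕ) ∈ s ∧ a i ≠ 0 := fun i => Finset.mem_filter.mp i.2
  have hli : LinearIndependent ℂ (fun i : t => a i) :=
    f.eigenvectors_linearIndependent' (fun i : t => μ i)
      (fun i j hij => Subtype.ext (hμ (hts i).1 (hts j).1 hij)) _
      (fun i => ⟨Module.End.mem_eigenspace_iff.mpr (ha i (hts i).1), (hts i).2⟩)
  have h1 : ∑ i : t, (1 : ℂ) • a i = 0 := by
    simp only [one_smul]
    rw [Finset.sum_coe_sort t a, ht, Finset.sum_filter_ne_zero, hsum]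
  have := Fintype.linearIndependent_iff.mp hli (fun _ => 1) h1
    ⟨m, Finset.mem_filter.mpr ⟨hm, hm0⟩⟩
  exact one_ne_zero this

variable {X : Type} [Fintype X] [MulAction SL(2, ℤ) X] {h : ℕ}

/-- the shift operator `v ↦ v (T⁻¹ • ·)` -/
def shiftT (X : Type) [MulAction SL(2, ℤ) X] : Module.End ℂ (X → ℂ) :=
  LinearMap.funLeft ℂ ℂ (fun x : X => (ModularGroup.T⁻¹ : SL(2, ℤ)) • x)

lemma shiftT_coeffVec {k : ℤ} {F : X → ℍ → ℂ} (hh : Tper X h) (hF : F ∈ VMod X k) (n : ℕ) :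
    shiftT X (coeffVec h F n) =
      (Complex.exp (2 * Real.pi * Complex.I / h) ^ n) • coeffVec h F n := by
  funext x
  simp only [shiftT, LinearMap.funLeft_apply, Pi.smul_apply, smul_eq_mul]
  rw [coeffVec_T hh hF, exp_eq_pow]

omit [Fintype X] in
lemma zeta_pow_injOn (hh : Tper X h) (s : Finset ℕ) (hs : ∀ n ∈ s, ∀ m ∈ s, n < m → m - n < h) :
    Set.InjOn (fun n : ℕ => Complex.exp (2 * Real.pi * Complex.I / h) ^ n) s := by
  have hprim : IsPrimitiveRoot (Complex.exp (2 * Real.pi * Complex.I / h)) h :=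
    Complex.isPrimitiveRoot_exp h hh.1.ne'
  have key : ∀ n ∈ s, ∀ m ∈ s, n < m →
      Complex.exp (2 * Real.pi * Complex.I / h) ^ n ≠
        Complex.exp (2 * Real.pi * Complex.I / h) ^ m := by
    intro n hn m hm hnm heq
    have h1 : Complex.exp (2 * Real.pi * Complex.I / h) ^ (m - n) = 1 := by
      have hne : Complex.exp (2 * Real.pi * Complex.I / h) ^ n ≠ 0 :=
        pow_ne_zero _ (Complex.exp_ne_zero _)
      have : Complex.exp (2 * Real.pi * Complex.I / h) ^ n *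
          Complex.exp (2 * Real.pi * Complex.I / h) ^ (m - n) =
          Complex.exp (2 * Real.pi * Complex.I / h) ^ n * 1 := by
        rw [← pow_add, Nat.add_sub_cancel' hnm.le, mul_one, heq]
      exact mul_left_cancel₀ hne this
    have h2 := (hprim.pow_eq_one_iff_dvd _).mp h1
    have h3 := hs n hn m hm hnm
    have := Nat.le_of_dvd (by omega) h2
    omega
  intro n hn m hm heq
  rcases lt_trichotomy n m with hlt | heq' | hgt
  · exact absurd heq (key n hn m hm hlt)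
  · exact heq'
  · exact absurd heq.symm (key m hm n hn hgt)

/-- vanishing of coefficient vectors from vanishing of their sum -/
lemma coeffVec_eq_zero_of_sum {k : ℤ} {F : X → ℍ → ℂ} (hh : Tper X h) (hF : F ∈ VMod X k)
    (s : Finset ℕ) (hs : ∀ n ∈ s, ∀ m ∈ s, n < m → m - n < h)
    (hsum : ∑ n ∈ s, coeffVec h F n = 0) : ∀ n ∈ s, coeffVec h F n = 0 :=
  eq_zero_of_sum_eigen (shiftT X) s _ (zeta_pow_injOn hh s hs) _
    (fun n _ => shiftT_coeffVec hh hF n) hsum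

/-! ### division by the discriminant -/

/-- if the first `m` coefficients of the `q`-expansion vanish, then `f = q ^ m * ψ(q)` -/
lemma exists_factor {hr : ℝ} {f : ℍ → ℂ} (hh0 : 0 < hr) (hf : IsPHB hr f) (m : ℕ)
    (h0 : ∀ n < m, (qExpansion hr f).coeff n = 0) :
    ∃ ψ : ℂ → ℂ, AnalyticAt ℂ ψ 0 ∧ ∀ τ : ℍ, f τ = 𝕢 hr τ ^ m * ψ (𝕢 hr τ) := by
  obtain ⟨ψ, hψ, hφ⟩ := exists_eq_pow_mul (hf.analyticAt hh0) m (fun n hn => by
    have := h0 n hn
    rw [qExpansion_coeff] at this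
    have hfac : ((n.factorial : ℂ))⁻¹ ≠ 0 :=
      inv_ne_zero (Nat.cast_ne_zero.mpr n.factorial_ne_zero)
    exact (mul_eq_zero.mp this).resolve_left hfac)
  refine ⟨ψ, hψ, fun τ => ?_⟩
  rw [← hφ, eq_cuspFunction τ hh0.ne' hf.per]

/-- limit at `i∞` of `f / Δ` when the first `m ≥ h` coefficients of the `q_h`-expansion vanish -/
lemma tendsto_div_Dl {f : ℍ → ℂ} (h : ℕ) (hh : 0 < h) (hf : IsPHB (h : ℝ) f) (m : ℕ)
    (hm : h ≤ m) (h0 : ∀ n < m, (qExpansion (h : ℝ) f).coeff n = 0) :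
    ∃ c : ℂ, Tendsto (fun τ => f τ / Dl τ) atImInfty (𝓝 c) ∧ (h < m → c = 0) := by
  have hh0 : (0 : ℝ) < h := by exact_mod_cast hh
  obtain ⟨ψ, hψ, hfac⟩ := exists_factor hh0 hf m h0
  have hq : Tendsto (fun τ : ℍ => 𝕢 (h : ℝ) τ) atImInfty (𝓝 0) := qParam_tendsto_atImInfty hh0
  have h1 : Tendsto (fun τ : ℍ => 𝕢 (h : ℝ) τ ^ (m - h)) atImInfty (𝓝 (0 ^ (m - h))) :=
    hq.pow _
  have h2 : Tendsto (fun τ : ℍ => ψ (𝕢 (h : ℝ) τ)) atImInfty (𝓝 (ψ 0)) :=
    hψ.continuousAt.tendsto.comp hq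
  have h3 := ModularForm.tendsto_atImInfty_tprod_one_sub_eta_q_pow
  have h4 := (h1.mul h2).div h3 one_ne_zero
  refine ⟨0 ^ (m - h) * ψ 0 / 1, h4.congr' (Eventually.of_forall fun τ => ?_), fun hlt => ?_⟩
  · have hD : Dl τ = 𝕢 1 τ * ∏' n, (1 - ModularForm.eta_q n τ) ^ 24 :=
      ModularForm.discriminant_eq_q_prod τ
    have hDne : Dl τ ≠ 0 := Dl_ne_zero τ
    have hqne : 𝕢 (h : ℝ) (τ : ℂ) ≠ 0 := Complex.exp_ne_zero _
    have hPne : (∏' n, (1 - ModularForm.eta_q n τ) ^ 24) ≠ 0 := by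
      intro h5
      rw [hD, h5, mul_zero] at hDne
      exact hDne rfl
    simp only [Pi.div_apply]
    rw [hfac τ, hD, qParam_one_eq_pow h hh]
    have : m = h + (m - h) := by omega
    conv_rhs => rw [this, pow_add]
    field_simp
  · rw [zero_pow (by omega), zero_mul, zero_div]

omit [Fintype X] in
/-- the zeroth coefficient vector of a cusp tuple vanishes -/
lemma coeffVec_zero_of_mem_VCusp {k : ℤ} {F : X → ℍ → ℂ} (hh : Tper X h) (hF : F ∈ VCusp X k) :
    coeffVec h F 0 = 0 := by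
  funext x
  have hh0 := tper_pos hh
  have hx := isPHB_of_mem_VMod hh (mem_VMod_of_mem_VCusp hF) x
  have := qExpansion_coeff_zero hh0 (hx.analyticAt hh0) hx.per
  rw [(hF.2.2 x).valueAtInfty_eq_zero] at this
  exact this

omit [Fintype X] in
/-- the quotient tuple `F / Δ` satisfies the holomorphy and transformation conditions -/
lemma div_Dl_aux {k : ℤ} {F : X → ℍ → ℂ} (hF : F ∈ VMod X k) :
    (∀ x, MDiff (F x / Dl)) ∧
      (∀ (γ : SL(2, ℤ)) (x : X), (F x / Dl) ∣[k - 12] γ = F (γ⁻¹ • x) / Dl) ∧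
      F = smulV Dl (fun x => F x / Dl) := by
  refine ⟨fun x => (hF.1 x).div Dl_mem.1 Dl_ne_zero, fun γ x => ?_, ?_⟩
  · rw [div_slash_SL2, hF.2.1 γ x, Dl_mem.2.1 γ]
  · funext x
    ext τ
    simp only [smulV, Pi.mul_apply, Pi.div_apply]
    field_simp [Dl_ne_zero τ]

/-- kernel of the leading term map is `Δ · M` -/
theorem Lmap_eq_zero {k : ℤ} {F : X → ℍ → ℂ} (hh : Tper X h) (hF : F ∈ VMod X k)
    (h0 : Lmap h F = 0) : ∃ G ∈ VMod X (k - 12), F = smulV Dl G := by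
  have hcoef : ∀ n ∈ Finset.range h, coeffVec h F n = 0 :=
    coeffVec_eq_zero_of_sum hh hF (Finset.range h) (fun n _ m hm hnm => by
      have := Finset.mem_range.mp hm
      omega) h0
  obtain ⟨h1, h2, h3⟩ := div_Dl_aux hF
  refine ⟨fun x => F x / Dl, ⟨h1, h2, fun x => ?_⟩, h3⟩
  obtain ⟨c, hc, -⟩ := tendsto_div_Dl h hh.1 (isPHB_of_mem_VMod hh hF x) h le_rfl
    (fun n hn => congrFun (hcoef n (Finset.mem_range.mpr hn)) x)
  exact hc.isBigO_one ℝ

theorem Lmap'_eq_zero {k : ℤ} {F : X → ℍ → ℂ} (hh : Tper X h) (hF : F ∈ VCusp X k)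
    (h0 : Lmap' h F = 0) : ∃ G ∈ VCusp X (k - 12), F = smulV Dl G := by
  have hF' := mem_VMod_of_mem_VCusp hF
  have hcoef : ∀ n ∈ Finset.Icc 1 h, coeffVec h F n = 0 :=
    coeffVec_eq_zero_of_sum hh hF' (Finset.Icc 1 h) (fun n hn m hm hnm => by
      have := Finset.mem_Icc.mp hm
      have := Finset.mem_Icc.mp hn
      omega) h0
  have hcoef0 := coeffVec_zero_of_mem_VCusp hh hF
  obtain ⟨h1, h2, h3⟩ := div_Dl_aux hF'
  refine ⟨fun x => F x / Dl, ⟨h1, h2, fun x => ?_⟩, h3⟩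
  obtain ⟨c, hc, hc0⟩ := tendsto_div_Dl h hh.1 (isPHB_of_mem_VMod hh hF' x) (h + 1)
    (Nat.le_succ h) (fun n hn => by
      rcases Nat.eq_zero_or_pos n with rfl | hpos
      · exact congrFun hcoef0 x
      · exact congrFun (hcoef n (Finset.mem_Icc.mpr ⟨hpos, by omega⟩)) x)
  rw [hc0 (Nat.lt_succ_self h)] at hc
  exact hc

/-- cusp forms are the forms whose zeroth coefficient vector vanishes -/
theorem mem_VCusp_iff {k : ℤ} {F : X → ℍ → ℂ} (hh : Tper X h) (hF : F ∈ VMod X k) :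
    F ∈ VCusp X k ↔ coeffVec h F 0 = 0 := by
  refine ⟨fun hc => coeffVec_zero_of_mem_VCusp hh hc, fun h0 => ⟨hF.1, hF.2.1, fun x => ?_⟩⟩
  have hh0 := tper_pos hh
  have hx := isPHB_of_mem_VMod hh hF x
  have h1 := qExpansion_coeff_zero hh0 (hx.analyticAt hh0) hx.per
  have h2 : (qExpansion (h : ℝ) (F x)).coeff 0 = 0 := congrFun h0 x
  have h3 := tendsto_vInf_of_periodic hh0 hx.per hx.hol hx.bdd
  rw [vInf, ← h1, h2] at h3
  exact h3

end Fermat.Agent.S20.H47
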