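import Mathlib
import Fermat.Agent.S20.SkelDual

set_option autoImplicit false

open UpperHalfPlane ModularForm Filter Topology
open scoped MatrixGroups ModularForm Manifold

noncomputable section

namespace Fermat.Agent.S20.H48

open Fermat.Agent.S20 Fermat.Agent.S20.Skel

/-! ## Toolkit: level one forms as bundled Mathlib modular forms -/

/-- bundle an element of `LvlOne k` as a Mathlib modular form of level one -/
def toMF {k : ℤ} {f : ℍ → ℂ} (hf : f ∈ LvlOne k) : ModularForm 𝒮ℒ k where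
  toFun := f
  slash_action_eq' := by
    rintro _ ⟨γ, rfl⟩
    exact hf.2.1 γ
  holo' := hf.1
  bdd_at_cusps' {c} hc := by
    rw [Subgroup.IsArithmetic.isCusp_iff_isCusp_SL2Z] at hc
    rw [OnePoint.isBoundedAt_iff_forall_SL2Z hc]
    intro γ _
    rw [hf.2.1 γ]
    exact hf.2.2

@[simp] lemma coe_toMF {k : ℤ} {f : ℍ → ℂ} (hf : f ∈ LvlOne k) : ⇑(toMF hf) = f := rfl

lemma mem_LvlOne_of_MF {k : ℤ} (g : ModularForm 𝒮ℒ k) : ⇑g ∈ LvlOne k := by
  refine ⟨g.holo', fun γ => ?_, ?_⟩
  · exact g.slash_action_eq' _ ⟨γ, rfl⟩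
  · exact ModularFormClass.bdd_at_infty g


lemma tendsto_vInf {k : ℤ} {f : ℍ → ℂ} (hf : f ∈ LvlOne k) :
    Tendsto f atImInfty (𝓝 (vInf f)) := by
  have hper : Function.Periodic (f ∘ ofComplex) 1 := by
    simpa using SlashInvariantFormClass.periodic_comp_ofComplex (toMF hf)
      one_mem_strictPeriods_SL
  have han : AnalyticAt ℂ (cuspFunction 1 f) 0 := by
    simpa using ModularFormClass.analyticAt_cuspFunction_zero (toMF hf) one_pos
      one_mem_strictPeriods_SL
  have h0 : cuspFunction 1 f 0 = vInf f := cuspFunction_apply_zero one_pos han hper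
  have hcomp : (cuspFunction 1 f ∘ fun τ : ℍ ↦ Function.Periodic.qParam 1 τ) = f :=
    funext fun τ => eq_cuspFunction τ one_ne_zero hper
  rw [← h0]
  simpa [hcomp] using han.continuousAt.tendsto.comp (qParam_tendsto_atImInfty one_pos)

lemma vInf_eq_of_tendsto {f : ℍ → ℂ} {c : ℂ} (h : Tendsto f atImInfty (𝓝 c)) : vInf f = c :=
  h.limUnder_eq


lemma vInf_mul {a b : ℤ} {f g : ℍ → ℂ} (hf : f ∈ LvlOne a) (hg : g ∈ LvlOne b) :
    vInf (f * g) = vInf f * vInf g :=
  vInf_eq_of_tendsto ((tendsto_vInf hf).mul (tendsto_vInf hg))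

lemma one_mem_LvlOne : (1 : ℍ → ℂ) ∈ LvlOne 0 := by
  have := mem_LvlOne_of_MF (1 : ModularForm 𝒮ℒ 0)
  simpa using this

lemma prod_mem_LvlOne {ι : Type*} (s : Finset ι) (f : ι → ℍ → ℂ) (k : ι → ℤ)
    (h : ∀ i ∈ s, f i ∈ LvlOne (k i)) : ∏ i ∈ s, f i ∈ LvlOne (∑ i ∈ s, k i) := by
  classical
  induction s using Finset.induction_on with
  | empty => simpa using one_mem_LvlOne
  | insert i t hi IH =>
    rw [Finset.prod_insert hi, Finset.sum_insert hi]
    exact LvlOne.mul_mem (h i (Finset.mem_insert_self i t))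
      (IH fun j hj => h j (Finset.mem_insert_of_mem hj))

lemma tendsto_prod_vInf {ι : Type*} (s : Finset ι) (f : ι → ℍ → ℂ) (k : ι → ℤ)
    (h : ∀ i ∈ s, f i ∈ LvlOne (k i)) :
    Tendsto (fun z => ∏ i ∈ s, f i z) atImInfty (𝓝 (∏ i ∈ s, vInf (f i))) :=
  tendsto_finset_prod s fun i hi => tendsto_vInf (h i hi)

/-- a nowhere vanishing level one form with nonzero value at infinity is invertible -/
lemma inv_mem_LvlOne {k : ℤ} {f : ℍ → ℂ} (hf : f ∈ LvlOne k) (hne : ∀ z, f z ≠ 0)
    (hinf : vInf f ≠ 0) : f⁻¹ ∈ LvlOne (-k) := by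
  refine ⟨hf.1.inv hne, fun γ => ?_, ?_⟩
  · have h1 := div_slash_SL2 0 k γ (1 : ℍ → ℂ) f
    rw [hf.2.1 γ, one_mem_LvlOne.2.1 γ, zero_sub] at h1
    simpa [one_div] using h1
  · have : Tendsto f⁻¹ atImInfty (𝓝 (vInf f)⁻¹) := (tendsto_vInf hf).inv₀ hinf
    exact this.isBigO_one ℝ

/-- a nowhere vanishing level one form with nonzero value at infinity has weight zero -/
lemma weight_eq_zero_of_nowhere_zero {k : ℤ} {f : ℍ → ℂ} (hf : f ∈ LvlOne k)
    (hne : ∀ z, f z ≠ 0) (hinf : vInf f ≠ 0) : k = 0 := by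
  rcases lt_trichotomy k 0 with hk | hk | hk
  · exfalso
    have : f ∈ (⊥ : Submodule ℂ (ℍ → ℂ)) := LvlOne.eq_bot_of_neg hk ▸ hf
    rw [Submodule.mem_bot] at this
    exact hne UpperHalfPlane.I (by rw [this]; rfl)
  · exact hk
  · exfalso
    have h1 := inv_mem_LvlOne hf hne hinf
    have : f⁻¹ ∈ (⊥ : Submodule ℂ (ℍ → ℂ)) := LvlOne.eq_bot_of_neg (by omega : -k < 0) ▸ h1
    rw [Submodule.mem_bot] at this
    have h2 : (f⁻¹) UpperHalfPlane.I = 0 := by rw [this]; rfl
    rw [Pi.inv_apply, inv_eq_zero] at h2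
    exact hne _ h2


lemma coeff_one_Dl_mul {k : ℤ} {g : ℍ → ℂ} (hg : g ∈ LvlOne k) :
    (qExpansion 1 (Dl * g)).coeff 1 = vInf g := by
  have hanD : AnalyticAt ℂ (cuspFunction 1 Dl) 0 :=
    ModularFormClass.analyticAt_cuspFunction_zero CuspForm.discriminant one_pos
      one_mem_strictPeriods_SL
  have hang : AnalyticAt ℂ (cuspFunction 1 g) 0 := by
    simpa using ModularFormClass.analyticAt_cuspFunction_zero (toMF hg) one_pos
      one_mem_strictPeriods_SL
  have hper : Function.Periodic (g ∘ ofComplex) 1 := by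
    simpa using SlashInvariantFormClass.periodic_comp_ofComplex (toMF hg)
      one_mem_strictPeriods_SL
  have h0 : (qExpansion 1 Dl).coeff 0 = 0 :=
    CuspFormClass.qExpansion_coeff_zero CuspForm.discriminant one_pos one_mem_strictPeriods_SL
  have h1 : (qExpansion 1 Dl).coeff 1 = 1 := discriminant_qExpansion_coeff_one
  have h2 : (qExpansion 1 g).coeff 0 = vInf g := qExpansion_coeff_zero one_pos hang hper
  rw [qExpansion_mul hanD hang, PowerSeries.coeff_mul]
  simp [Finset.Nat.antidiagonal_succ, h0, h1, h2]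


/-! ## Linear algebra: a Gram-type matrix of two bases is invertible -/

lemma det_ne_zero_of_rows {n : ℕ} {X : Type} [Fintype X] (e : Fin n ≃ X)
    (a : Fin n → X → ℂ) (ha : LinearIndependent ℂ a) :
    (Matrix.of fun j l => a j (e l) : Matrix (Fin n) (Fin n) ℂ).det ≠ 0 := by
  have h1 : LinearIndependent ℂ (Matrix.of fun j l => a j (e l) : Matrix (Fin n) (Fin n) ℂ).row := by
    have := ha.map' (LinearEquiv.funCongrLeft ℂ ℂ e).toLinearMap
      (LinearEquiv.ker _)
    exact this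
  have h2 := Matrix.linearIndependent_rows_iff_isUnit.mp h1
  rw [Matrix.isUnit_iff_isUnit_det] at h2
  exact h2.ne_zero

lemma det_ne_zero_of_pairing {n : ℕ} {X : Type} [Fintype X] (hn : n = Fintype.card X)
    (a a' : Fin n → X → ℂ) (ha : LinearIndependent ℂ a) (ha' : LinearIndependent ℂ a')
    (M : Matrix (Fin n) (Fin n) ℂ) (c : ℂ) (hc : c ≠ 0)
    (hM : ∀ j l, c * M j l = ∑ x, a j x * a' l x) : M.det ≠ 0 := by
  obtain ⟨e⟩ : Nonempty (Fin n ≃ X) := by
    refine ⟨(Fintype.equivFinOfCardEq hn.symm).symm⟩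
  have hA := det_ne_zero_of_rows e a ha
  have hA' := det_ne_zero_of_rows e a' ha'
  have hprod : c • M = (Matrix.of fun j l => a j (e l)) * (Matrix.of fun j l => a' j (e l)).transpose := by
    ext j l
    simp only [Matrix.smul_apply, smul_eq_mul, Matrix.mul_apply, Matrix.of_apply,
      Matrix.transpose_apply]
    rw [hM j l]
    exact (Equiv.sum_comp e fun x => a j x * a' l x).symm
  have hdet := congrArg Matrix.det hprod
  rw [Matrix.det_smul, Matrix.det_mul, Matrix.det_transpose] at hdet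
  intro h0
  rw [h0, mul_zero] at hdet
  exact mul_ne_zero hA hA' hdet.symm


/-! ## DUAL : duality between `VMod` and `VCusp` -/

variable {X : Type} [Fintype X] [MulAction SL(2, ℤ) X]

theorem duality (hX : GoodX X) (B : HomBasis (VMod X)) (B' : HomBasis (VCusp X))
    (w : ℤ) : (Finset.univ.filter (fun j => B.wt j = w)).card =
      (Finset.univ.filter (fun l => B'.wt l = 12 - w)).card := by
  classical
  have hn : B.n = Fintype.card X := B.n_eq_VMod hX
  have hn' : B'.n = Fintype.card X := B'.n_eq_VCusp hX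
  have hnn : B.n = B'.n := hn.trans hn'.symm
  obtain ⟨h, hh⟩ := exists_Tper X
  set c : Fin B.n → Fin B'.n := Fin.cast hnn with hc
  have hcinj : Function.Injective c := Fin.cast_injective hnn
  -- the pairing functions and their quotients by the discriminant
  have hP : ∀ j l, (fun z => ∑ x, B.gen j x z * B'.gen (c l) x z) ∈
      LvlOne (B.wt j + B'.wt (c l)) ∧
      IsZeroAtImInfty (fun z => ∑ x, B.gen j x z * B'.gen (c l) x z) :=
    fun j l => pairing_mem (B.gen_mem j) (B'.gen_mem (c l))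
  have hT : ∀ j l, ∃ g ∈ LvlOne (B.wt j + B'.wt (c l) - 12),
      (fun z => ∑ x, B.gen j x z * B'.gen (c l) x z) = Dl * g :=
    fun j l => LvlOne.div_Dl (hP j l).1 (hP j l).2
  choose T hTmem hTeq using hT
  have hTz : ∀ j l z, Dl z * T j l z = ∑ x, B.gen j x z * B'.gen (c l) x z := fun j l z => by
    have := congrFun (hTeq j l) z
    simpa using this.symm
  -- total weight
  set W : ℤ := ∑ j, B.wt j + ∑ l, B'.wt (c l) - 12 * B.n with hW
  have hWσ : ∀ σ : Equiv.Perm (Fin B.n),
      ∑ i, (B.wt (σ i) + B'.wt (c i) - 12) = W := fun σ => by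
    rw [Finset.sum_sub_distrib, Finset.sum_add_distrib, Equiv.sum_comp σ B.wt]
    simp [hW, mul_comm]
  have hprodmem : ∀ σ : Equiv.Perm (Fin B.n), ∏ i, T (σ i) i ∈ LvlOne W := fun σ => by
    rw [← hWσ σ]
    exact prod_mem_LvlOne _ _ _ fun i _ => hTmem (σ i) i
  -- the determinant
  set D : ℍ → ℂ := fun z => (Matrix.of fun j l => T j l z : Matrix (Fin B.n) (Fin B.n) ℂ).det
    with hD
  have hDsum : D = ∑ σ : Equiv.Perm (Fin B.n), ((Equiv.Perm.sign σ : ℤˣ) : ℤ) • ∏ i, T (σ i) i := by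
    funext z
    simp only [hD, Matrix.det_apply, Matrix.of_apply, Finset.sum_apply, Pi.smul_apply,
      Finset.prod_apply, Units.smul_def]
  have hDmem : D ∈ LvlOne W := by
    rw [hDsum]
    exact Submodule.sum_mem _ fun σ _ => zsmul_mem (hprodmem σ) _
  have hDne : ∀ z, D z ≠ 0 := fun z => by
    refine det_ne_zero_of_pairing hn (fun j x => B.gen j x z) (fun l x => B'.gen (c l) x z)
      (B.eval_linearIndependent hX (Or.inl rfl) z)
      ((B'.eval_linearIndependent hX (Or.inr rfl) z).comp c hcinj) _ (Dl z) (Dl_ne_zero z) ?_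
    intro j l
    simpa using hTz j l z
  -- value at infinity
  have hvT : ∀ j l, vInf (T j l) = ∑ x, Lmap h (B.gen j) x * Lmap' h (B'.gen (c l)) x :=
    fun j l => by
      rw [← coeff_one_Dl_mul (hTmem j l), ← hTeq j l]
      exact pairing_coeff_one hh (B.gen_mem j) (B'.gen_mem (c l))
  have hDinf : vInf D =
      (Matrix.of fun j l => vInf (T j l) : Matrix (Fin B.n) (Fin B.n) ℂ).det := by
    apply vInf_eq_of_tendsto
    rw [Matrix.det_apply]
    have : D = fun z => ∑ σ : Equiv.Perm (Fin B.n),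
        ((Equiv.Perm.sign σ : ℤˣ) : ℤ) • ∏ i, T (σ i) i z := by
      funext z
      simp only [hD, Matrix.det_apply, Matrix.of_apply, Units.smul_def]
    rw [this]
    refine tendsto_finset_sum _ fun σ _ => ?_
    have h1 := tendsto_prod_vInf Finset.univ (fun i => T (σ i) i) _ fun i _ => hTmem (σ i) i
    have h2 := h1.const_smul ((Equiv.Perm.sign σ : ℤˣ) : ℤ)
    simpa [Units.smul_def] using h2
  have hDinfne : vInf D ≠ 0 := by
    rw [hDinf]
    refine det_ne_zero_of_pairing hn (fun j => Lmap h (B.gen j)) (fun l => Lmap' h (B'.gen (c l)))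
      (B.Lmap_linearIndependent hX hh)
      ((B'.Lmap'_linearIndependent hX hh).comp c hcinj) _ 1 one_ne_zero ?_
    intro j l
    simpa using hvT j l
  -- the total weight vanishes
  have hW0 : W = 0 := weight_eq_zero_of_nowhere_zero hDmem hDne hDinfne
  -- a permutation with all entries nonzero
  obtain ⟨σ, hσ⟩ : ∃ σ : Equiv.Perm (Fin B.n), ∏ i, T (σ i) i UpperHalfPlane.I ≠ 0 := by
    by_contra hcon
    push_neg at hcon
    apply hDne UpperHalfPlane.I
    simp only [hD, Matrix.det_apply, Matrix.of_apply]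
    exact Finset.sum_eq_zero fun σ _ => by rw [hcon σ, smul_zero]
  have hnonneg : ∀ i, 0 ≤ B.wt (σ i) + B'.wt (c i) - 12 := fun i => by
    by_contra hneg
    push_neg at hneg
    have h1 : T (σ i) i ∈ (⊥ : Submodule ℂ (ℍ → ℂ)) := LvlOne.eq_bot_of_neg hneg ▸ hTmem (σ i) i
    rw [Submodule.mem_bot] at h1
    apply hσ
    exact Finset.prod_eq_zero (Finset.mem_univ i) (by rw [h1]; rfl)
  have hzero : ∀ i, B.wt (σ i) + B'.wt (c i) - 12 = 0 := fun i => by
    have hsum := hWσ σ
    rw [hW0] at hsum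
    exact (Finset.sum_eq_zero_iff_of_nonneg fun i _ => hnonneg i).mp hsum i (Finset.mem_univ i)
  -- conclude by the bijection `j ↦ c (σ⁻¹ j)`
  refine Finset.card_equiv (σ.symm.trans (finCongr hnn)) fun j => ?_
  simp only [Finset.mem_filter, Finset.mem_univ, true_and, Equiv.trans_apply, finCongr_apply]
  have h1 := hzero (σ.symm j)
  rw [Equiv.apply_symm_apply] at h1
  constructor
  · intro hj
    show B'.wt (c (σ.symm j)) = 12 - w
    omega
  · intro hj
    have hj' : B'.wt (c (σ.symm j)) = 12 - w := hj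
    omega

end Fermat.Agent.S20.H48
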