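import Mathlib
import Fermat.Agent.S20.SkelPS

set_option autoImplicit false

open UpperHalfPlane ModularForm
open scoped MatrixGroups ModularForm Manifold

noncomputable section

namespace Fermat.Agent.S20.H84

open Fermat.Agent.S20 Fermat.Agent.S20.Skel

section Basic

variable {X Y : Type} [MulAction SL(2, ℤ) X] [MulAction SL(2, ℤ) Y]

/-- pullback of a tuple along an equivariant map -/
theorem VMod_comap (π : Y → X) (hπ : ∀ (γ : SL(2, ℤ)) (y : Y), π (γ • y) = γ • π y) {k : ℤ}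
    {F : X → ℍ → ℂ} (hF : F ∈ VMod X k) : (fun y => F (π y)) ∈ VMod Y k := by
  obtain ⟨h1, h2, h3⟩ := hF
  refine ⟨fun y => h1 (π y), fun γ y => ?_, fun y => h3 (π y)⟩
  show F (π y) ∣[k] γ = F (π (γ⁻¹ • y))
  rw [h2 γ (π y), hπ]

/-- pointwise product of tuples -/
theorem VMod_mul {a b : ℤ} {F G : Y → ℍ → ℂ} (hF : F ∈ VMod Y a) (hG : G ∈ VMod Y b) :
    (fun y => F y * G y) ∈ VMod Y (a + b) := by
  obtain ⟨f1, f2, f3⟩ := hF
  obtain ⟨g1, g2, g3⟩ := hG
  refine ⟨fun y => (f1 y).mul (g1 y), fun γ y => ?_, fun y => (f3 y).mul (g3 y)⟩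
  show (F y * G y) ∣[a + b] γ = F (γ⁻¹ • y) * G (γ⁻¹ • y)
  rw [mul_slash_SL2, f2, g2]

theorem VMod_one : (fun _ => (1 : ℍ → ℂ)) ∈ VMod Y 0 := by
  refine ⟨fun _ => mdifferentiable_const, fun γ _ => is_invariant_one γ, fun _ => ?_⟩
  exact Filter.const_boundedAtFilter _ (1 : ℂ)

theorem VMod_prod {ι : Type} (s : Finset ι) (T : ι → Y → ℍ → ℂ) (k : ι → ℤ)
    (hT : ∀ i ∈ s, T i ∈ VMod Y (k i)) :
    (fun y => ∏ i ∈ s, T i y) ∈ VMod Y (∑ i ∈ s, k i) := by
  classical
  induction s using Finset.induction_on with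
  | empty => simpa using (VMod_one (Y := Y))
  | insert i s hi ih =>
    have h1 := hT i (Finset.mem_insert_self i s)
    have h2 := ih (fun j hj => hT j (Finset.mem_insert_of_mem hj))
    have := VMod_mul h1 h2
    simpa [Finset.prod_insert hi, Finset.sum_insert hi] using this

end Basic

section Det

variable {X : Type} [Fintype X] [MulAction SL(2, ℤ) X] {m : ℕ}

/-- the tuple of `m × m` minors of a family of `m` tuples, indexed by `Fin m → X` -/
def minorTuple (F : Fin m → X → ℍ → ℂ) : (Fin m → X) → ℍ → ℂ :=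
  fun x z => Matrix.det (Matrix.of fun r s => F r (x s) z)

omit [Fintype X] [MulAction SL(2, ℤ) X] in
theorem minorTuple_eq (F : Fin m → X → ℍ → ℂ) :
    minorTuple F = ∑ σ : Equiv.Perm (Fin m),
      (((Equiv.Perm.sign σ : ℤ) : ℂ)) • (fun x : Fin m → X => ∏ i, F (σ i) (x i)) := by
  funext x z
  simp only [minorTuple, Matrix.det_apply', Matrix.of_apply, Finset.sum_apply, Pi.smul_apply,
    Finset.prod_apply, smul_eq_mul]

omit [Fintype X] in
theorem minorTuple_mem (F : Fin m → X → ℍ → ℂ) (k : Fin m → ℤ)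
    (hF : ∀ r, F r ∈ VMod X (k r)) : minorTuple F ∈ VMod (Fin m → X) (∑ r, k r) := by
  rw [minorTuple_eq]
  refine Submodule.sum_mem _ (fun σ _ => Submodule.smul_mem _ _ ?_)
  have h := VMod_prod (Y := Fin m → X) Finset.univ
    (fun i => fun x : Fin m → X => F (σ i) (x i)) (fun i => k (σ i))
    (fun i _ => VMod_comap (fun x : Fin m → X => x i) (fun _ _ => rfl) (hF (σ i)))
  rw [Equiv.sum_comp σ k] at h
  exact h

omit [Fintype X] [MulAction SL(2, ℤ) X] in
theorem minor_eq_zero_of_dependent (F : Fin m → X → ℍ → ℂ) {z : ℍ}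
    (hdep : ¬ LinearIndependent ℂ (fun r => (fun x => F r x z : X → ℂ))) (x : Fin m → X) :
    minorTuple F x z = 0 := by
  by_contra hne
  apply hdep
  have hrows : LinearIndependent ℂ (Matrix.of fun r s => F r (x s) z).row :=
    Matrix.linearIndependent_rows_iff_isUnit.2
      ((Matrix.isUnit_iff_isUnit_det _).2 (IsUnit.mk0 _ hne))
  refine LinearIndependent.of_comp (LinearMap.funLeft ℂ ℂ x) ?_
  exact hrows

/-- transfer of pointwise linear independence between two points with the same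
level one vanishing behaviour -/
theorem linearIndependent_transfer (F : Fin m → X → ℍ → ℂ) (k : Fin m → ℤ)
    (hF : ∀ r, F r ∈ VMod X (k r)) (e : Fin m ≃ X) {z₀ z₁ : ℍ}
    (h01 : ∀ (w : ℤ) (f : ℍ → ℂ), f ∈ LvlOne w → f z₀ = 0 → f z₁ = 0)
    (h1 : LinearIndependent ℂ (fun r => (fun x => F r x z₁ : X → ℂ))) :
    LinearIndependent ℂ (fun r => (fun x => F r x z₀ : X → ℂ)) := by
  by_contra hdep
  have hz0 : ∀ x, minorTuple F x z₀ = 0 := minor_eq_zero_of_dependent F hdep
  have hz1 := VMod.vanish_transfer (minorTuple_mem F k hF) h01 hz0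
  have hdet : Matrix.det (Matrix.of fun r s => F r (e s) z₁) = 0 := hz1 e
  have hrows : LinearIndependent ℂ (Matrix.of fun r s => F r (e s) z₁).row := by
    have hinj : LinearMap.ker (LinearMap.funLeft ℂ ℂ e) = ⊥ :=
      LinearMap.ker_eq_bot.2 (LinearMap.funLeft_injective_of_surjective ℂ ℂ e e.surjective)
    exact h1.map' (LinearMap.funLeft ℂ ℂ e) hinj
  have hunit := Matrix.linearIndependent_rows_iff_isUnit.1 hrows
  rw [Matrix.isUnit_iff_isUnit_det, hdet] at hunit
  exact not_isUnit_zero hunit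

end Det

section Basis

variable {X : Type} [Fintype X] [MulAction SL(2, ℤ) X]

theorem HomBasis.gen_mem_VMod {M : ℤ → Submodule ℂ (X → ℍ → ℂ)}
    (hM : M = VMod X ∨ M = VCusp X) (B : HomBasis M) (j : Fin B.n) :
    B.gen j ∈ VMod X (B.wt j) := by
  rcases hM with rfl | rfl
  · exact B.gen_mem j
  · exact VCusp.le_VMod _ (B.gen_mem j)

/-- independence at one zero of `E6` gives independence at every zero of `E6` -/
theorem eval_linearIndependent_of_E6 {M : ℤ → Submodule ℂ (X → ℍ → ℂ)}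
    (hM : M = VMod X ∨ M = VCusp X) (B : HomBasis M) (hn : B.n = Fintype.card X)
    {z₁ z₀ : ℍ} (h1 : E6 z₁ = 0)
    (hI : LinearIndependent ℂ (fun j => (fun x => B.gen j x z₁ : X → ℂ))) (h6 : E6 z₀ = 0) :
    LinearIndependent ℂ (fun j => (fun x => B.gen j x z₀ : X → ℂ)) := by
  refine linearIndependent_transfer B.gen B.wt (HomBasis.gen_mem_VMod hM B)
    (Fintype.equivFinOfCardEq hn.symm).symm ?_ hI
  intro w f hf h0
  obtain ⟨g, -, rfl⟩ := LvlOne.div_E6 h6 hf h0
  simp [h1]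

/-- independence at one zero of `E4` gives independence at every zero of `E4` -/
theorem eval_linearIndependent_of_E4 {M : ℤ → Submodule ℂ (X → ℍ → ℂ)}
    (hM : M = VMod X ∨ M = VCusp X) (B : HomBasis M) (hn : B.n = Fintype.card X)
    {z₁ z₀ : ℍ} (h1 : E4 z₁ = 0)
    (hI : LinearIndependent ℂ (fun j => (fun x => B.gen j x z₁ : X → ℂ))) (h4 : E4 z₀ = 0) :
    LinearIndependent ℂ (fun j => (fun x => B.gen j x z₀ : X → ℂ)) := by
  refine linearIndependent_transfer B.gen B.wt (HomBasis.gen_mem_VMod hM B)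
    (Fintype.equivFinOfCardEq hn.symm).symm ?_ hI
  intro w f hf h0
  obtain ⟨g, -, rfl⟩ := LvlOne.div_E4 h4 hf h0
  simp [h1]

end Basis

end Fermat.Agent.S20.H84
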