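import Fermat.Agent.S24.H8_LocalOrders

/-!
Simple zeros of `E₄`, `E₆` and of `E₆(z₀)² E₄³ - E₄(z₀)³ E₆²` on the upper half plane, from
Ramanujan's identities (`Fermat.Agent.S24.H8_Ramanujan`).  Shapes as in package SZ of project S20
(`Skel.E4 = ⇑E₄`, `Skel.E6 = ⇑E₆`, `Skel.piGen z₀` unfold to the expressions used here).
-/

set_option autoImplicit false

open UpperHalfPlane hiding I
open Real Complex
open scoped Manifold MatrixGroups ModularForm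
open Derivative ModularForm EisensteinSeries

namespace Fermat.Agent.S20.H8

open Fermat.Agent.S24.H8

local notation "Δ" => ModularForm.discriminant

theorem deriv_comp_ofComplex (f : ℍ → ℂ) (z : ℍ) :
    deriv (f ∘ ofComplex) (z : ℂ) = 2 * π * I * D f z :=
  deriv_comp_ofComplex_eq f z

theorem simpleZero_E4 {z : ℍ} (h : (E₄ : ℍ → ℂ) z = 0) :
    deriv ((E₄ : ℍ → ℂ) ∘ ofComplex) z ≠ 0 := by
  rw [deriv_comp_ofComplex, D_E₄, h]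
  have h6 : E₆ z ≠ 0 := fun h6 => E₄_E₆_not_both_zero z h h6
  simp [h6, Real.pi_ne_zero]

theorem simpleZero_E6 {z : ℍ} (h : (E₆ : ℍ → ℂ) z = 0) :
    deriv ((E₆ : ℍ → ℂ) ∘ ofComplex) z ≠ 0 := by
  rw [deriv_comp_ofComplex, D_E₆, h]
  have h4 : E₄ z ≠ 0 := fun h4 => E₄_E₆_not_both_zero z h4 h
  simp [h4, Real.pi_ne_zero]

/-- `D (a E₄³ - b E₆²) = E₂ (a E₄³ - b E₆²) - (a - b) E₄² E₆`. -/
theorem D_pencil (a b : ℂ) (z : ℍ) :
    D (fun w : ℍ => a * E₄ w ^ 3 - b * E₆ w ^ 2) z =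
      E2 z * (a * E₄ z ^ 3 - b * E₆ z ^ 2) - (a - b) * (E₄ z ^ 2 * E₆ z) := by
  have h4 : MDiff (E₄ : ℍ → ℂ) := ModularFormClass.holo E₄
  have h6 : MDiff (E₆ : ℍ → ℂ) := ModularFormClass.holo E₆
  have hf : (fun w : ℍ => a * E₄ w ^ 3 - b * E₆ w ^ 2) =
      a • (E₄ : ℍ → ℂ) ^ 3 - b • (E₆ : ℍ → ℂ) ^ 2 := by
    ext w; simp
  have hD : D (a • (E₄ : ℍ → ℂ) ^ 3 - b • (E₆ : ℍ → ℂ) ^ 2) =
      a • (((3 : ℕ) : ℍ → ℂ) * (E₄ : ℍ → ℂ) ^ (3 - 1) * D E₄) -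
        b • (((2 : ℕ) : ℍ → ℂ) * (E₆ : ℍ → ℂ) ^ (2 - 1) * D E₆) := by
    rw [normalizedDerivOfComplex_sub _ _ ((h4.pow 3).const_smul a) ((h6.pow 2).const_smul b),
      normalizedDerivOfComplex_smul _ _ (h4.pow 3), normalizedDerivOfComplex_smul _ _ (h6.pow 2),
      normalizedDerivOfComplex_pow _ _ h4, normalizedDerivOfComplex_pow _ _ h6]
  rw [hf]
  have := congrFun hD z
  simp only [Pi.smul_apply, Pi.sub_apply, Pi.mul_apply, Pi.pow_apply, smul_eq_mul,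
    Pi.natCast_apply] at this
  rw [this, D_E₄, D_E₆]
  push_cast
  ring

theorem simpleZero_piGen {z₀ z : ℍ} (h4 : (E₄ : ℍ → ℂ) z₀ ≠ 0) (h6 : (E₆ : ℍ → ℂ) z₀ ≠ 0)
    (h : E₆ z₀ ^ 2 * E₄ z ^ 3 - E₄ z₀ ^ 3 * E₆ z ^ 2 = 0) :
    deriv ((fun w : ℍ => E₆ z₀ ^ 2 * E₄ w ^ 3 - E₄ z₀ ^ 3 * E₆ w ^ 2) ∘ ofComplex) z ≠ 0 := by
  rw [deriv_comp_ofComplex, D_pencil, h, mul_zero, zero_sub]
  have hab : E₆ z₀ ^ 2 - E₄ z₀ ^ 3 ≠ 0 := by
    have := discriminant_eq_E₄_cube_sub_E₆_sq z₀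
    intro h0
    apply discriminant_ne_zero z₀
    rw [this]
    have : E₄ z₀ ^ 3 - E₆ z₀ ^ 2 = 0 := by linear_combination -h0
    rw [this, zero_div]
  have hz4 : E₄ z ≠ 0 := by
    intro h0
    rw [h0] at h
    have : E₄ z₀ ^ 3 * E₆ z ^ 2 = 0 := by linear_combination -h
    rcases mul_eq_zero.mp this with h1 | h1
    · exact h4 (pow_eq_zero_iff (by norm_num) |>.mp h1)
    · exact E₄_E₆_not_both_zero z h0 (pow_eq_zero_iff (by norm_num) |>.mp h1)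
  have hz6 : E₆ z ≠ 0 := by
    intro h0
    rw [h0] at h
    have : E₆ z₀ ^ 2 * E₄ z ^ 3 = 0 := by linear_combination h
    rcases mul_eq_zero.mp this with h1 | h1
    · exact h6 (pow_eq_zero_iff (by norm_num) |>.mp h1)
    · exact hz4 (pow_eq_zero_iff (by norm_num) |>.mp h1)
  have h2pi : (2 * π * I : ℂ) ≠ 0 := two_pi_I_ne_zero
  exact mul_ne_zero h2pi (neg_ne_zero.mpr (mul_ne_zero hab (mul_ne_zero (pow_ne_zero 2 hz4) hz6)))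

/-- The bracket `2 E₄ D E₆ - 3 E₆ D E₄ = -1728 Δ`. -/
theorem bracket_eq (z : ℍ) : 2 * E₄ z * D E₆ z - 3 * E₆ z * D E₄ z = -1728 * Δ z := by
  rw [D_E₄, D_E₆, discriminant_eq_E₄_cube_sub_E₆_sq z]
  ring

end Fermat.Agent.S20.H8
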